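/-
Program I (S37), chapter RED, leaf RED-T parts 2–3 (helper12), for `π^* = levelPullback h`
(`ES/HECKE/LevelPullback12`):

* `pullbackAlong_smul`, `pic0PullbackAlong_smul` (generic): pull-back along `φ : F →ₐ[K] F'` commutes
  with semilinear automorphisms `g` of `F`, `g'` of `F'` with `φ (g • f) = g' • φ f`;
* `levelPullback_smul`: `π^* (σ • x) = σ • π^* x` for `σ ∈ Gal(ℚ̄/ℚ)`;
* `levelPullbackDiv_injective`: `π^*` is injective on divisors;
* `levelPullback_eq_zero_of_rootDescent`: `π^*` is injective on `m`-torsion (`m > 0`), from the root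
  descent of chapter LVL; `levelPullback_auxLevel_injective_torsion`: the case `M = auxLevel ℓ N`.
-/
import Mathlib
import Fermat.Agent.ES.HECKE.LevelPullback12
import Fermat.Agent.RED.LVL.LevelStepMain19

set_option autoImplicit false
set_option synthInstance.maxHeartbeats 400000

noncomputable section

open AlgebraicCurve ModularCurve IntermediateField
open scoped Pointwise

namespace Fermat.Agent.ES.RED.PullbackInj12

open Fermat.Agent.ES.HECKE.LevelPullback12 Fermat.Agent.ES.HECKE

/-! ### Generic: pull-back commutes with compatible semilinear automorphisms -/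

section Equivariance

variable {K F F' : Type*} [Field K] [Field F] [Field F'] [Algebra K F] [Algebra K F']
variable (φ : F →ₐ[K] F') (hφ : φ.toRingHom.IsIntegral)
  (g : SemilinearAut K F) (g' : SemilinearAut K F')

theorem comm_inv (hcomm : ∀ f : F, φ (g • f) = g' • φ f) (f : F) :
    φ (g⁻¹ • f) = g'⁻¹ • φ f := by
  have h := hcomm (g⁻¹ • f)
  rw [smul_inv_smul] at h
  rw [h, inv_smul_smul]

theorem restrictAlong_smul (hcomm : ∀ f : F, φ (g • f) = g' • φ f) (w : Place K F') :
    (g' • w).restrictAlong φ hφ = g • w.restrictAlong φ hφ := by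
  letI := algebraAlong φ
  haveI := isScalarTower_along φ
  haveI := isIntegral_along φ hφ
  ext1
  ext x
  show φ x ∈ g' • w.toValuationSubring ↔ x ∈ g • (w.restrict F).toValuationSubring
  rw [ValuationSubring.mem_pointwise_smul_iff_inv_smul_mem,
    ValuationSubring.mem_pointwise_smul_iff_inv_smul_mem, ← comm_inv φ g g' hcomm x]
  rfl

theorem ord_smul_along (hcomm : ∀ f : F, φ (g • f) = g' • φ f) (w : Place K F') (f : F) :
    (g' • w).ord (φ (g • f)) = w.ord (φ f) := by
  rw [hcomm, SemilinearAut.ord_smul]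

theorem ramificationIndexAlong_smul (hcomm : ∀ f : F, φ (g • f) = g' • φ f) (w : Place K F') :
    (g' • w).ramificationIndexAlong φ = w.ramificationIndexAlong φ := by
  letI := algebraAlong φ
  show sInf {n : ℕ | 0 < n ∧ ∃ f : F, f ≠ 0 ∧ (g' • w).ord (φ f) = n}
    = sInf {n : ℕ | 0 < n ∧ ∃ f : F, f ≠ 0 ∧ w.ord (φ f) = n}
  congr 1
  ext n
  simp only [Set.mem_setOf_eq]
  constructor
  · rintro ⟨hn, f, hf, hord⟩
    refine ⟨hn, g⁻¹ • f, (smul_ne_zero_iff_ne _).mpr hf, ?_⟩
    rw [← ord_smul_along φ g g' hcomm w (g⁻¹ • f), smul_inv_smul]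
    exact hord
  · rintro ⟨hn, f, hf, hord⟩
    refine ⟨hn, g • f, (smul_ne_zero_iff_ne _).mpr hf, ?_⟩
    rw [ord_smul_along φ g g' hcomm w f]
    exact hord

variable [HasPrincipalDivisors K F']

theorem pullbackAlong_smul (hcomm : ∀ f : F, φ (g • f) = g' • φ f) (D : Divisor K F) :
    Divisor.pullbackAlong φ hφ (g • D) = g' • Divisor.pullbackAlong φ hφ D := by
  ext w
  have hinv := comm_inv φ g g' hcomm
  rw [Divisor.pullbackAlong_apply, SemilinearAut.divisor_smul_apply,
    SemilinearAut.divisor_smul_apply, Divisor.pullbackAlong_apply,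
    restrictAlong_smul φ hφ g⁻¹ g'⁻¹ hinv w, ramificationIndexAlong_smul φ g⁻¹ g'⁻¹ hinv w]

theorem pic0PullbackAlong_smul (hFI : FundamentalIdentityAlong K φ hφ)
    (hcomm : ∀ f : F, φ (g • f) = g' • φ f) (x : Pic0 K F) :
    pic0PullbackAlong φ hφ hFI (g • x) = g' • pic0PullbackAlong φ hφ hFI x := by
  obtain ⟨D, rfl⟩ := Pic0.mk_surjective x
  rw [SemilinearAut.pic0_smul_mk, pic0PullbackAlong_mk, pic0PullbackAlong_mk,
    SemilinearAut.pic0_smul_mk]
  refine congrArg Pic0.mk (Subtype.ext ?_)
  show Divisor.pullbackAlong φ hφ (g • (D : Divisor K F))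
    = g' • Divisor.pullbackAlong φ hφ (D : Divisor K F)
  exact pullbackAlong_smul φ hφ g g' hcomm D

end Equivariance

/-! ### `π^*` is Galois-equivariant -/

section Level

open Fermat.Agent.RED.Interface4 Fermat.Agent.RED.BASE.Interface12 Fermat.Agent.RED.LVL
  Fermat.Agent.RED.TOP Fermat.Agent.X0.FF

variable {N M : ℕ} [NeZero N] [NeZero M]

local notation "Qb" => AlgebraicClosure ℚ

theorem levelIncl_arithmeticGalois_smul (h : N ∣ M) (σ : Qb ≃ₐ[ℚ] Qb)
    (f : modularFunctionFieldBar N) :
    levelIncl h (arithmeticGalois (modularFunctionFieldFull N) σ • f)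
      = arithmeticGalois (modularFunctionFieldFull M) σ • levelIncl h f := by
  apply Subtype.ext
  rw [coe_levelIncl, coe_arithmeticGalois_smul, coe_arithmeticGalois_smul, coe_levelIncl]

/-- `π^*` commutes with the arithmetic Galois action on divisors. -/
theorem levelPullbackDiv_smul (h : N ∣ M) (σ : Qb ≃ₐ[ℚ] Qb)
    (D : Divisor Qb (modularFunctionFieldBar N)) :
    levelPullbackDiv h (arithmeticGalois (modularFunctionFieldFull N) σ • D)
      = arithmeticGalois (modularFunctionFieldFull M) σ • levelPullbackDiv h D :=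
  haveI := FbarFacts20.hasPrincipalDivisors_bar M
  pullbackAlong_smul (levelIncl h) (levelIncl_isIntegral h) _ _
    (levelIncl_arithmeticGalois_smul h σ) D

/-- **`π^*` is `Gal(ℚ̄/ℚ)`-equivariant.** -/
theorem levelPullback_smul (h : N ∣ M) (σ : Qb ≃ₐ[ℚ] Qb) (x : JZero N) :
    levelPullback h (σ • x) = σ • levelPullback h x := by
  haveI := FbarFacts20.hasPrincipalDivisors_bar M
  rw [galois_smul_pic0_def, galois_smul_pic0_def]
  exact pic0PullbackAlong_smul (levelIncl h) (levelIncl_isIntegral h) _ _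
    (levelIncl_fundamentalIdentityAlong h) (levelIncl_arithmeticGalois_smul h σ) x

/-! ### `π^*` is injective on divisors -/

theorem exists_restrictAlong_eq (h : N ∣ M) (v : Place Qb (modularFunctionFieldBar N)) :
    ∃ w : Place Qb (modularFunctionFieldBar M),
      w.restrictAlong (levelIncl h) (levelIncl_isIntegral h) = v := by
  haveI := FbarFacts20.hasPrincipalDivisors_bar M
  have hsum := FundId12.sum_ramificationIndexAlong (levelIncl h) (levelIncl_isIntegral h)
    (levelIncl_finiteAlong h) (FbarFacts20.isGen_j N) v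
  have hpos : 0 < finrankAlong Qb (levelIncl h) := by
    rw [finrankAlong_levelIncl]
    exact LevelDegree17.relfinrank_pos h
  by_contra hne
  push Not at hne
  have hempty : Place.fiberAlong (levelIncl h) (levelIncl_isIntegral h) v = ∅ := by
    rw [Finset.eq_empty_iff_forall_notMem]
    intro w hw
    exact hne w (Place.mem_fiberAlong.mp hw)
  rw [hempty, Finset.sum_empty] at hsum
  have : (finrankAlong Qb (levelIncl h) : ℤ) = 0 := hsum.symm
  omega

theorem ramificationIndexAlong_levelIncl_pos (h : N ∣ M)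
    (w : Place Qb (modularFunctionFieldBar M)) :
    0 < w.ramificationIndexAlong (levelIncl h) := by
  letI := algebraAlong (levelIncl h)
  haveI := isScalarTower_along (levelIncl h)
  haveI := isIntegral_along (levelIncl h) (levelIncl_isIntegral h)
  exact w.ramificationIndex_pos (F := modularFunctionFieldBar N)

theorem levelPullbackDiv_injective (h : N ∣ M) : Function.Injective (levelPullbackDiv h) := by
  rw [injective_iff_map_eq_zero]
  intro D hD
  ext v
  obtain ⟨w, hw⟩ := exists_restrictAlong_eq h v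
  have h1 := DFunLike.congr_fun hD w
  rw [levelPullbackDiv_apply, hw, Finsupp.zero_apply] at h1
  have hpos := ramificationIndexAlong_levelIncl_pos h w
  rw [Finsupp.zero_apply]
  rcases mul_eq_zero.mp h1 with h0 | h0
  · omega
  · exact h0

/-! ### `π^*` is injective on torsion -/

/-- **`π^*` is injective on `m`-torsion**, given the root descent from level `M` to level `N`. -/
theorem levelPullback_eq_zero_of_rootDescent (h : N ∣ M)
    (hrd : LevelStepAbs2.RootDescent N M (fbar_mono h)) (m : ℕ) (hm : 0 < m) (x : JZero N)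
    (hmx : m • x = 0) (hx : levelPullback h x = 0) : x = 0 := by
  classical
  obtain ⟨⟨D, hD⟩, rfl⟩ := Pic0.mk_surjective x
  -- `m • D` is principal
  have hmD : m • D ∈ Divisor.principal (K := Qb) (F := modularFunctionFieldBar N) := by
    have h1 : Pic0.mk (m • (⟨D, hD⟩ : Divisor.degZero (K := Qb)
        (F := modularFunctionFieldBar N))) = 0 := by
      rw [← hmx]; rfl
    have h2 := (QuotientAddGroup.eq_zero_iff _).mp h1
    rw [AddSubgroup.mem_addSubgroupOf] at h2
    simpa using h2
  -- `π^* D` is principal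
  have hπD : levelPullbackDiv h D ∈
      Divisor.principal (K := Qb) (F := modularFunctionFieldBar M) := by
    rw [levelPullback_mk] at hx
    have h2 := (QuotientAddGroup.eq_zero_iff _).mp hx
    rw [AddSubgroup.mem_addSubgroupOf] at h2
    exact h2
  obtain ⟨u, hu0, hu⟩ := hmD
  obtain ⟨s, hs0, hs⟩ := hπD
  have hφu0 : levelIncl h u ≠ 0 := (map_ne_zero_iff _ (levelIncl_injective h)).mpr hu0
  -- `s ^ m / π u` has no zeros and no poles
  have hord : ∀ w : Place Qb (modularFunctionFieldBar M),
      w.ord (s ^ m / levelIncl h u) = 0 := by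
    intro w
    have h1 : w.ord (s ^ m) = (m : ℤ) * w.ord s := by
      rw [← zpow_natCast, w.ord_zpow]
    have h2 := hu (w.restrictAlong (levelIncl h) (levelIncl_isIntegral h))
    rw [Finsupp.smul_apply, nsmul_eq_mul] at h2
    rw [div_eq_mul_inv, w.ord_mul (pow_ne_zero m hs0) (inv_ne_zero hφu0), w.ord_inv, h1, ← hs w,
      levelPullbackDiv_apply, Place.ord_restrictAlong (levelIncl h) (levelIncl_isIntegral h) w u,
      ← h2]
    ring
  -- hence it is a constant
  obtain ⟨c, hc⟩ := Fermat.Agent.RR.LSpace.eq_algebraMap_of_forall_ord_nonneg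
    (Fermat.Agent.RR.LHypGen.lHyp_of_isGen (FbarFacts20.isGen_j M))
    (f := s ^ m / levelIncl h u) (fun w => (hord w).ge)
  have hsm : s ^ m = levelIncl h (algebraMap Qb (modularFunctionFieldBar N) c * u) := by
    rw [map_mul, AlgHom.commutes, ← hc, div_mul_cancel₀ _ hφu0]
  have hc0 : c ≠ 0 := by
    rintro rfl
    rw [map_zero, zero_mul, map_zero] at hsm
    exact pow_ne_zero m hs0 hsm
  have hcF : algebraMap Qb (modularFunctionFieldBar N) c ≠ 0 := by
    rw [Ne, map_eq_zero_iff _ (algebraMap Qb (modularFunctionFieldBar N)).injective]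
    exact hc0
  -- root descent
  obtain ⟨f, hf⟩ := hrd m hm (algebraMap Qb (modularFunctionFieldBar N) c * u) s hsm (by
    intro v
    rw [v.ord_mul hcF hu0, ffp_ord_algebraMap, zero_add, ← hu v, Finsupp.smul_apply, nsmul_eq_mul]
    exact dvd_mul_right _ _)
  have hf' : levelIncl h f = s := hf
  have hf0 : f ≠ 0 := by
    rintro rfl
    rw [map_zero] at hf'
    exact hs0 hf'.symm
  -- `D = div f`
  obtain ⟨E, hE, -⟩ := (FbarFacts20.hasPrincipalDivisors_bar N).exists_divisor f hf0
  have hDE : D = E := by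
    apply levelPullbackDiv_injective h
    ext w
    rw [hs w, levelPullbackDiv_apply_eq_ord h hE w, hf']
  show Pic0.mk (⟨D, hD⟩ : Divisor.degZero (K := Qb) (F := modularFunctionFieldBar N)) = 0
  rw [Pic0.mk, QuotientAddGroup.eq_zero_iff, AddSubgroup.mem_addSubgroupOf]
  exact ⟨f, hf0, fun v => (DFunLike.congr_fun hDE v).trans (hE v)⟩

/-- `π^*` is injective on `m`-torsion when `M = N e` and `[Fbar M : Fbar N] < 2 e`. -/
theorem levelPullback_eq_zero_of_degree (e : ℕ) [NeZero e] (hM : M = N * e)
    (hdeg : relfinrank (Fbar N) (Fbar M) < 2 * e) (m : ℕ) (hm : 0 < m) (x : JZero N)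
    (hmx : m • x = 0) (hx : levelPullback (⟨e, hM⟩ : N ∣ M) x = 0) : x = 0 :=
  levelPullback_eq_zero_of_rootDescent ⟨e, hM⟩ (LevelStepMain19.rootDescent N M e hM hdeg)
    m hm x hmx hx

end Level

/-- **(Φ3), level half**: `π^* : JZero N →+ JZero (auxLevel ℓ N)` is injective on torsion. -/
theorem levelPullback_auxLevel_eq_zero (ℓ N : ℕ) [NeZero N] (m : ℕ) (hm : 0 < m) (x : JZero N)
    (hmx : m • x = 0)
    (hx : haveI := Fermat.Agent.RED.LVL.LevelDegree17.neZero_auxLevel ℓ N
      levelPullback (Fermat.Agent.RED.Interface4.dvd_auxLevel ℓ N) x = 0) : x = 0 := by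
  haveI := Fermat.Agent.RED.LVL.LevelDegree17.neZero_auxLevel ℓ N
  obtain ⟨e, he⟩ := Fermat.Agent.RED.Interface4.dvd_auxLevel ℓ N
  haveI : NeZero e := ⟨fun h0 => NeZero.ne (Fermat.Agent.RED.Interface4.auxLevel ℓ N)
    (by rw [he, h0, mul_zero])⟩
  have hdiv : Fermat.Agent.RED.Interface4.auxLevel ℓ N / N = e := by
    rw [he]
    exact Nat.mul_div_cancel_left e (Nat.pos_of_ne_zero (NeZero.ne N))
  have hdeg := Fermat.Agent.RED.LVL.LevelDegree17.relfinrank_auxLevel_lt ℓ N
  rw [hdiv] at hdeg
  exact levelPullback_eq_zero_of_degree e he hdeg m hm x hmx hx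

end Fermat.Agent.ES.RED.PullbackInj12
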