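/-
Program I (S37), chapter ES/RED, helper25: (GB2) + (Rgen).

* (GB2) `resField_fullC_eq` : for a DVR `O ⊂ K` (char `K = 0`) of residue characteristic `ℓ ∤ M`, the
  residue field of the Gauss valuation on `K(j(q^d) : d ∣ M)` is `κ(j̃(q^d) : d ∣ M)`:
  `resField O (modularFunctionFieldFullC K M) = modularFunctionFieldFullC (Res O) M`.
  (`≥` is `GaussBridge10.fullC_le_resField`; `≤` is a degree count over `K(j)` / `κ(j̃)`:
  `GaussDeg25.linearIndependent_of_gaussRed` + `DegBaseChange25` (both degrees are `ψ(M)`).)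
* `exists_integral_fraction` : every nonzero `f ∈ K(j(q^d) : d ∣ M)` is `c · a / b` with `c ∈ Kˣ`,
  `a, b ∈ O((q))` of NONZERO reduction, `a, b ∈ K(j(q^d) : d ∣ M)`.
-/
import Mathlib
import Fermat.Prelude.Def_ModularCurve_ReductionModL
import Fermat.Agent.RED.PUR.GaussInstN25
import Fermat.Agent.RED.DESC.NumberFieldDVR27
import Fermat.Agent.RED.DESC.CoeffDescent1
import Fermat.Agent.RED.TOP.FbarFacts20

set_option autoImplicit false
set_option linter.style.haveILetI false

noncomputable section

open HahnSeries ModularCurve IntermediateField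

namespace Fermat.Agent.ES.RED.GaussUnit25

open Fermat.Agent.RED.PUR.GaussGen8 Fermat.Agent.RED.PUR.KtGauss8
open Fermat.Agent.RED.PUR.GaussBridge10 Fermat.Agent.RED.PUR.GaussInst25
open Fermat.Agent.RED.PUR Fermat.Agent.IG.PR

section GB2

variable {K : Type} [Field K] [CharZero K] (O : ValuationSubring K) [IsDiscreteValuationRing ↥O]
  {π : ↥O}

/-- **(GB2)** The residue field of the Gauss valuation on `K(j(q^d) : d ∣ M)`. -/
theorem resField_fullC_eq (hπ : Irreducible π) (ℓ : ℕ) [Fact ℓ.Prime] [CharP (Res O) ℓ]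
    (M : ℕ) [NeZero M] (hℓM : ¬ ℓ ∣ M) :
    resField O (modularFunctionFieldFullC K M) = modularFunctionFieldFullC (Res O) M := by
  classical
  refine le_antisymm ?_ (fullC_le_resField O M)
  intro y hy
  by_contra hny
  have hjtr : Transcendental (Res O) (gaussRed O (jG O)) := by
    rw [gaussRed_jG]
    exact Fermat.Agent.IG.VAL.OvBasics22.transcendental_jqModC (Res O)
  have hψ0 : dedekindPsi M ≠ 0 :=
    (Fermat.Agent.X0.GNPsi.gnp_dedekindPsi_pos (NeZero.ne M)).ne'
  have hψ : relfinrank (Kt O (jG O)) (modularFunctionFieldFullC K M) = dedekindPsi M :=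
    DegBaseChange25.relfinrank_fullC_eq_psi_of_charZero K M
  have hkt : kt O (jG O) = (Res O)⟮jqModC (Res O)⟯ := by
    show (Res O)⟮gaussRed O (jG O)⟯ = _
    rw [gaussRed_jG]
  have hψ' : relfinrank (kt O (jG O)) (modularFunctionFieldFullC (Res O) M) = dedekindPsi M := by
    rw [hkt]
    exact DegBaseChange25.relfinrank_fullC_eq_psi_of_charP ℓ (Res O) M hℓM
  have hle : kt O (jG O) ≤ modularFunctionFieldFullC (Res O) M := by
    rw [hkt, adjoin_simple_le_iff]
    exact jqModC_mem_full (Res O) M
  have hTF : Kt O (jG O) ≤ modularFunctionFieldFullC K M := by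
    rw [adjoin_simple_le_iff]
    exact jqModC_mem_full K M
  -- `ψ(M)` residually independent elements of `F̃`
  obtain ⟨c, hc, hli⟩ := FamilyForm20.exists_family_of_le_relfinrank hle (dedekindPsi M) hψ'.ge
  -- `y` is not in their span
  have hspan : ∀ z ∈ Submodule.span ↥(kt O (jG O)) (Set.range c),
      z ∈ modularFunctionFieldFullC (Res O) M := by
    intro z hz
    induction hz using Submodule.span_induction with
    | mem z hz =>
      obtain ⟨i, rfl⟩ := hz
      exact hc i
    | zero => exact zero_mem _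
    | add z w _ _ hz hw => exact add_mem hz hw
    | smul a z _ hz =>
      rw [Algebra.smul_def]
      exact mul_mem (hle a.2) hz
  have hli' : LinearIndependent ↥(kt O (jG O)) (Fin.cons y c : Fin (dedekindPsi M + 1) → _) := by
    rw [linearIndependent_finCons]
    exact ⟨hli, fun h => hny (hspan y h)⟩
  -- lift to the Gauss ring inside `F`
  have hres : ∀ i, ∃ b : ↥(gaussRing O), (b : LaurentSeries K) ∈ modularFunctionFieldFullC K M ∧
      gaussRed O b = (Fin.cons y c : Fin (dedekindPsi M + 1) → _) i := by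
    intro i
    have hi : (Fin.cons y c : Fin (dedekindPsi M + 1) → _) i ∈
        resField O (modularFunctionFieldFullC K M) := by
      refine Fin.cases ?_ (fun j => ?_) i
      · simpa using hy
      · simpa using fullC_le_resField O M (hc j)
    obtain ⟨f, hf, hfE, hfy⟩ := hi
    exact ⟨⟨f, hf⟩, hfE, hfy⟩
  choose b hbE hb using hres
  have hliK := GaussDeg25.linearIndependent_of_gaussRed hπ hjtr b
    (by
      have : (fun i => gaussRed O (b i)) = (Fin.cons y c : Fin (dedekindPsi M + 1) → _) :=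
        funext hb
      rw [this]
      exact hli')
  have := FamilyForm20.le_relfinrank_of_family hTF (dedekindPsi M + 1) (by rw [hψ]; exact hψ0)
    _ hbE hliK
  rw [hψ] at this
  omega

end GB2

section Fraction

variable {K : Type*} [Field K] (O : ValuationSubring K)

/-- `f = a / b` with `a, b ∈ O((q)) ∩ E`. -/
def IsIntFrac (E : IntermediateField K (LaurentSeries K)) (f : LaurentSeries K) : Prop :=
  ∃ a b : LaurentSeries ↥O, b ≠ 0 ∧ embK O a ∈ E ∧ embK O b ∈ E ∧ f * embK O b = embK O a

theorem embK_C_mem (E : IntermediateField K (LaurentSeries K)) (r : ↥O) :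
    embK O (HahnSeries.C r) ∈ E := by
  rw [embK_C, ← algebraMap_eq_C (K := K)]
  exact E.algebraMap_mem _

theorem isIntFrac_of_embK (E : IntermediateField K (LaurentSeries K)) (a : LaurentSeries ↥O)
    (ha : embK O a ∈ E) : IsIntFrac O E (embK O a) :=
  ⟨a, 1, one_ne_zero, ha, by rw [map_one]; exact one_mem _, by rw [map_one, mul_one]⟩

theorem isIntFrac_algebraMap (E : IntermediateField K (LaurentSeries K)) (c : K) :
    IsIntFrac O E (algebraMap K (LaurentSeries K) c) := by
  rcases O.mem_or_inv_mem c with hc | hc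
  · have := isIntFrac_of_embK O E (HahnSeries.C (⟨c, hc⟩ : ↥O)) (embK_C_mem O E _)
    rwa [embK_C, ← algebraMap_eq_C (K := K)] at this
  · by_cases hc0 : c = 0
    · rw [hc0, map_zero]
      have := isIntFrac_of_embK O E 0 (by rw [map_zero]; exact zero_mem _)
      rwa [map_zero] at this
    refine ⟨1, HahnSeries.C (⟨c⁻¹, hc⟩ : ↥O), ?_, by rw [map_one]; exact one_mem _,
      embK_C_mem O E _, ?_⟩
    · intro h0
      have h1 := congrArg (embK O) h0
      rw [embK_C, map_zero] at h1
      have h2 : (HahnSeries.C (c⁻¹) : LaurentSeries K).coeff 0 = 0 := by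
        change (HahnSeries.C ((⟨c⁻¹, hc⟩ : ↥O) : K) : LaurentSeries K).coeff 0 = 0
        rw [h1]; rfl
      rw [HahnSeries.C_apply, HahnSeries.coeff_single_same] at h2
      exact inv_ne_zero hc0 h2
    · rw [embK_C, map_one, algebraMap_eq_C (K := K), ← map_mul]
      show HahnSeries.C (c * c⁻¹) = 1
      rw [mul_inv_cancel₀ hc0, map_one]

variable {O}

theorem IsIntFrac.add {E : IntermediateField K (LaurentSeries K)} {f g : LaurentSeries K}
    (hf : IsIntFrac O E f) (hg : IsIntFrac O E g) : IsIntFrac O E (f + g) := by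
  obtain ⟨a, b, hb, haE, hbE, h⟩ := hf
  obtain ⟨a', b', hb', haE', hbE', h'⟩ := hg
  refine ⟨a * b' + a' * b, b * b', mul_ne_zero hb hb', ?_, ?_, ?_⟩
  · rw [map_add, map_mul, map_mul]
    exact add_mem (mul_mem haE hbE') (mul_mem haE' hbE)
  · rw [map_mul]; exact mul_mem hbE hbE'
  · rw [map_add, map_mul, map_mul, map_mul, ← h, ← h']; ring

theorem IsIntFrac.mul {E : IntermediateField K (LaurentSeries K)} {f g : LaurentSeries K}
    (hf : IsIntFrac O E f) (hg : IsIntFrac O E g) : IsIntFrac O E (f * g) := by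
  obtain ⟨a, b, hb, haE, hbE, h⟩ := hf
  obtain ⟨a', b', hb', haE', hbE', h'⟩ := hg
  refine ⟨a * a', b * b', mul_ne_zero hb hb', ?_, ?_, ?_⟩
  · rw [map_mul]; exact mul_mem haE haE'
  · rw [map_mul]; exact mul_mem hbE hbE'
  · rw [map_mul, map_mul, ← h, ← h']; ring

theorem IsIntFrac.inv {E : IntermediateField K (LaurentSeries K)} {f : LaurentSeries K}
    (hf : IsIntFrac O E f) : IsIntFrac O E f⁻¹ := by
  obtain ⟨a, b, hb, haE, hbE, h⟩ := hf
  by_cases ha : a = 0
  · have hb' : embK O b ≠ 0 := fun hh => hb ((embK_eq_zero_iff O b).mp hh)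
    rw [ha, map_zero] at h
    have hf0 : f = 0 := (mul_eq_zero.mp h).resolve_right hb'
    rw [hf0, inv_zero]
    have := isIntFrac_of_embK O E 0 (by rw [map_zero]; exact zero_mem _)
    rwa [map_zero] at this
  · have ha' : embK O a ≠ 0 := fun hh => ha ((embK_eq_zero_iff O a).mp hh)
    have hb' : embK O b ≠ 0 := fun hh => hb ((embK_eq_zero_iff O b).mp hh)
    have hf0 : f ≠ 0 := by
      rintro rfl
      rw [zero_mul] at h
      exact ha' h.symm
    refine ⟨b, a, ha, hbE, haE, ?_⟩
    rw [← h]
    field_simp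

/-- every element of `K(j(q^d) : d ∣ M)` is a quotient of elements of `O((q)) ∩ K(j(q^d) : d ∣ M)`. -/
theorem isIntFrac_of_mem_fullC (M : ℕ) [NeZero M] {f : LaurentSeries K}
    (hf : f ∈ modularFunctionFieldFullC K M) : IsIntFrac O (modularFunctionFieldFullC K M) f := by
  unfold modularFunctionFieldFullC at hf
  induction hf using IntermediateField.adjoin_induction with
  | mem x hx =>
    obtain ⟨d, hne, hd, rfl⟩ := hx
    rw [← embK_jdO O d]
    refine isIntFrac_of_embK O _ _ ?_
    rw [embK_jdO O d]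
    exact jqModCd_mem_full K M hd
  | algebraMap c => exact isIntFrac_algebraMap O _ c
  | add x y _ _ hx hy => exact hx.add hy
  | inv x _ hx => exact hx.inv
  | mul x y _ _ hx hy => exact hx.mul hy

/-- **Integral fraction with Gauss units**: every nonzero `f ∈ E = K(j(q^d) : d ∣ M)` is
`c · a / b` with `c ∈ Kˣ` and `a, b ∈ O((q)) ∩ E` of nonzero reduction. -/
theorem exists_integral_fraction {π : ↥O} (hπ : IsUnif O π) (M : ℕ) [NeZero M]
    {f : LaurentSeries K} (hf : f ∈ modularFunctionFieldFullC K M) (hf0 : f ≠ 0) :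
    ∃ (c : K) (a b : LaurentSeries ↥O), c ≠ 0 ∧
      embK O a ∈ modularFunctionFieldFullC K M ∧ embK O b ∈ modularFunctionFieldFullC K M ∧
      redL O a ≠ 0 ∧ redL O b ≠ 0 ∧ f * embK O b = HahnSeries.C c * embK O a := by
  obtain ⟨a, b, hb, haE, hbE, h⟩ := isIntFrac_of_mem_fullC (O := O) M hf
  have hb' : embK O b ≠ 0 := fun hh => hb ((embK_eq_zero_iff O b).mp hh)
  have ha : a ≠ 0 := by
    rintro rfl
    rw [map_zero] at h
    exact hf0 ((mul_eq_zero.mp h).resolve_right hb')
  obtain ⟨i, a₀, rfl, ha₀⟩ := exists_eq_pow_mul hπ a ha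
  obtain ⟨j, b₀, rfl, hb₀⟩ := exists_eq_pow_mul hπ b hb
  have hπK : ((π : ↥O) : K) ≠ 0 := fun h0 => hπ.ne_zero (Subtype.ext h0)
  have hCπ : (HahnSeries.C ((π : ↥O) : K) : LaurentSeries K) ≠ 0 := by
    intro h0
    have := congrArg (fun z : LaurentSeries K => z.coeff 0) h0
    simp only [HahnSeries.C_apply, HahnSeries.coeff_single_same, HahnSeries.coeff_zero] at this
    exact hπK this
  have hCmem : (HahnSeries.C ((π : ↥O) : K) : LaurentSeries K) ∈ modularFunctionFieldFullC K M := by
    rw [← algebraMap_eq_C (K := K)]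
    exact (modularFunctionFieldFullC K M).algebraMap_mem _
  simp only [map_mul, map_pow, embK_C] at haE hbE h
  have ha₀E : embK O a₀ ∈ modularFunctionFieldFullC K M := by
    have := mul_mem (inv_mem (pow_mem hCmem i)) haE
    rwa [← mul_assoc, inv_mul_cancel₀ (pow_ne_zero i hCπ), one_mul] at this
  have hb₀E : embK O b₀ ∈ modularFunctionFieldFullC K M := by
    have := mul_mem (inv_mem (pow_mem hCmem j)) hbE
    rwa [← mul_assoc, inv_mul_cancel₀ (pow_ne_zero j hCπ), one_mul] at this
  refine ⟨((π : ↥O) : K) ^ i * (((π : ↥O) : K) ^ j)⁻¹, a₀, b₀,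
    mul_ne_zero (pow_ne_zero i hπK) (inv_ne_zero (pow_ne_zero j hπK)), ha₀E, hb₀E, ha₀, hb₀, ?_⟩
  rw [map_mul, map_pow, map_inv₀, map_pow]
  have hj := pow_ne_zero j hCπ
  field_simp
  rw [← h]
  ring

end Fraction

section BaseChangeFullC

variable {k κ : Type*} [Field k] [Field κ] (φ : k →+* κ)

/-- `coeffMap φ` maps `k(j(q^d) : d ∣ M)` into `κ(j(q^d) : d ∣ M)`. -/
theorem coeffMap_mem_fullC (M : ℕ) {x : LaurentSeries k} (hx : x ∈ modularFunctionFieldFullC k M) :
    coeffMap φ x ∈ modularFunctionFieldFullC κ M := by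
  have := DegBaseChange25.map_mem_adjoin φ (coeffMap φ) (DegBaseChange25.coeffMap_algebraMap' φ)
    (divisorExpansionsC k M) hx
  rwa [DegBaseChange25.image_divisorExpansionsC] at this

end BaseChangeFullC

section Concrete

open Fermat.Agent.RED.Interface4 Fermat.Agent.RED.DESC Fermat.Agent.RED.DESC.NumberFieldDVR27
open AlgebraicCurve

variable (A : ValuationSubring Qbar) (K : IntermediateField ℚ Qbar)

theorem subtype_comp_incl :
    (A.subtype : ↥A →+* Qbar).comp (incl A K) = (algebraMap K Qbar).comp (AK A K).subtype :=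
  RingHom.ext fun _ => rfl

theorem residue_comp_incl :
    (IsLocalRing.residue ↥A).comp (incl A K) = (resMap A K).comp (IsLocalRing.residue ↥(AK A K)) :=
  RingHom.ext fun x => (resMap_residue A K x).symm

/-- the `Qbar`-series of an integral series over `A ∩ K`. -/
theorem coeffMap_subtype_incl (a : LaurentSeries ↥(AK A K)) :
    coeffMap A.subtype (coeffMap (incl A K) a) =
      coeffMap (algebraMap K Qbar) (embK (AK A K) a) := by
  unfold embK
  rw [coeffMap_coeffMap, coeffMap_coeffMap]
  exact coeffMap_congr (subtype_comp_incl A K) a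

theorem coeffMap_residue_incl (a : LaurentSeries ↥(AK A K)) :
    coeffMap (IsLocalRing.residue ↥A) (coeffMap (incl A K) a) =
      coeffMap (resMap A K) (redL (AK A K) a) := by
  unfold redL
  rw [coeffMap_coeffMap, coeffMap_coeffMap]
  exact coeffMap_congr (residue_comp_incl A K) a

/-- **(GB2)** for the contract objects: the residue field of the Gauss valuation on `K·F_M`. -/
theorem resField_FK_eq [FiniteDimensional ℚ K] (ℓ : ℕ) [Fact ℓ.Prime]
    (hA : A.LiesOverPrime ℓ) (M : ℕ) [NeZero M] (hℓM : ¬ ℓ ∣ M) :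
    resField (AK A K) (FK M K) = modularFunctionFieldFullC (Res (AK A K)) M := by
  haveI : IsDiscreteValuationRing ↥(AK A K) :=
    isDiscreteValuationRing_AK A K (Fact.out : ℓ.Prime).ne_zero hA
  haveI : CharP (Res (AK A K)) ℓ := charP_residueField_AK A K Fact.out hA
  obtain ⟨π, hπ⟩ := IsDiscreteValuationRing.exists_irreducible ↥(AK A K)
  show resField (AK A K) (laurentBaseChange ↥K (modularFunctionFieldFull M)) = _
  rw [DegBaseChange25.laurentBaseChange_full_eq]
  exact resField_fullC_eq (AK A K) hπ ℓ M hℓM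

/-- An integral series over `A ∩ K` lying in `K·F_M` with nonzero reduction gives an element of the
Prelude's `integralPrincipalDivisors`. -/
theorem mem_integralPrincipalDivisors [FiniteDimensional ℚ K] (ℓ : ℕ) [Fact ℓ.Prime]
    (hA : A.LiesOverPrime ℓ) (M : ℕ) [NeZero M] (hℓM : ¬ ℓ ∣ M)
    (a : LaurentSeries ↥(AK A K)) (haE : embK (AK A K) a ∈ modularFunctionFieldFullC ↥K M)
    (hared : redL (AK A K) a ≠ 0)
    (hy : coeffMap A.subtype (coeffMap (incl A K) a) ∈
      laurentBaseChange Qbar (modularFunctionFieldFull M))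
    (D : Divisor Qbar ↥(laurentBaseChange Qbar (modularFunctionFieldFull M)))
    (hD : ∀ P, D P = P.ord (⟨coeffMap A.subtype (coeffMap (incl A K) a), hy⟩ :
      ↥(laurentBaseChange Qbar (modularFunctionFieldFull M)))) :
    D ∈ integralPrincipalDivisors A (IsLocalRing.residue ↥A) M := by
  haveI : IsDiscreteValuationRing ↥(AK A K) :=
    isDiscreteValuationRing_AK A K (Fact.out : ℓ.Prime).ne_zero hA
  haveI : CharP (Res (AK A K)) ℓ := charP_residueField_AK A K Fact.out hA
  obtain ⟨π, hπ⟩ := IsDiscreteValuationRing.exists_irreducible ↥(AK A K)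
  refine ⟨coeffMap (incl A K) a, hy, ?_, ?_, hD⟩
  · rw [coeffMap_residue_incl]
    refine coeffMap_mem_fullC (resMap A K) M ?_
    rw [← resField_fullC_eq (AK A K) hπ ℓ M hℓM]
    exact ⟨embK (AK A K) a, embK_mem _ a, haE, gaussRed_embK _ a⟩
  · rw [coeffMap_residue_incl]
    intro h
    apply hared
    exact CoeffDescent1.coeffMap_injective_of_injective (resMap A K) (resMap_injective A K)
      (h.trans (map_zero _).symm)

/-- **(Rgen)** Principal divisors of `Fbar M` are generated by the divisors of integral functions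
with nonzero reduction in `F̃_M`: the Prelude's `PrincipalGeneratedByIntegral`, for `A` over a prime
`ℓ ∤ M`. -/
theorem principalGeneratedByIntegral (ℓ : ℕ) [Fact ℓ.Prime] (hA : A.LiesOverPrime ℓ)
    (M : ℕ) [NeZero M] (hℓM : ¬ ℓ ∣ M) :
    PrincipalGeneratedByIntegral A (IsLocalRing.residue ↥A) M := by
  intro D hD
  obtain ⟨f, hf0, hDf⟩ := hD
  haveI := isAlgebraic_Qbar
  obtain ⟨K, -, hfin, x', hx', hx'f⟩ :=
    CoeffDescent1.exists_finite_descent (L := Qbar) (F₀ := modularFunctionFieldFull M) ⊥ f.2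
  haveI := hfin
  haveI : IsDiscreteValuationRing ↥(AK A K) :=
    isDiscreteValuationRing_AK A K (Fact.out : ℓ.Prime).ne_zero hA
  obtain ⟨π, hπ⟩ := IsDiscreteValuationRing.exists_irreducible ↥(AK A K)
  have hu := isUnif_of_irreducible (AK A K) hπ
  have hx'C : x' ∈ modularFunctionFieldFullC ↥K M := by
    rw [← DegBaseChange25.laurentBaseChange_full_eq]; exact hx'
  have hx'0 : x' ≠ 0 := by
    rintro rfl
    rw [map_zero] at hx'f
    exact hf0 (Subtype.ext hx'f.symm)
  obtain ⟨c, a, b, hc0, haE, hbE, hared, hbred, hrel⟩ := exists_integral_fraction hu M hx'C hx'0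
  -- the two integral functions over `Qbar`
  have hmemQ : ∀ z : LaurentSeries ↥(AK A K), embK (AK A K) z ∈ modularFunctionFieldFullC ↥K M →
      coeffMap A.subtype (coeffMap (incl A K) z) ∈
        laurentBaseChange Qbar (modularFunctionFieldFull M) := by
    intro z hz
    rw [coeffMap_subtype_incl]
    refine CoeffDescent1.coeffMap_mem_laurentBaseChange_of_algHom (algebraMap K Qbar)
      (modularFunctionFieldFull M) ?_
    rw [DegBaseChange25.laurentBaseChange_full_eq]; exact hz
  have hya := hmemQ a haE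
  have hyb := hmemQ b hbE
  set ya : ↥(laurentBaseChange Qbar (modularFunctionFieldFull M)) :=
    ⟨coeffMap A.subtype (coeffMap (incl A K) a), hya⟩ with hyadef
  set yb : ↥(laurentBaseChange Qbar (modularFunctionFieldFull M)) :=
    ⟨coeffMap A.subtype (coeffMap (incl A K) b), hyb⟩ with hybdef
  have hne : ∀ z : LaurentSeries ↥(AK A K), redL (AK A K) z ≠ 0 →
      coeffMap A.subtype (coeffMap (incl A K) z) ≠ 0 := by
    intro z hz h0
    apply hz
    rw [coeffMap_subtype_incl] at h0
    have h1 : embK (AK A K) z = 0 :=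
      CoeffDescent1.coeffMap_injective_of_injective (algebraMap K Qbar)
        (algebraMap K Qbar).injective (h0.trans (map_zero _).symm)
    rw [(embK_eq_zero_iff (AK A K) z).mp h1, map_zero]
  have hya0 : ya ≠ 0 := fun h => hne a hared (congrArg Subtype.val h)
  have hyb0 : yb ≠ 0 := fun h => hne b hbred (congrArg Subtype.val h)
  -- the relation `f * yb = c * ya`
  have hrelQ : f * yb = algebraMap Qbar _ (algebraMap K Qbar c) * ya := by
    apply Subtype.ext
    show (f : LaurentSeries Qbar) * coeffMap A.subtype (coeffMap (incl A K) b) =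
      algebraMap Qbar (LaurentSeries Qbar) (algebraMap K Qbar c) *
        coeffMap A.subtype (coeffMap (incl A K) a)
    rw [coeffMap_subtype_incl, coeffMap_subtype_incl, ← hx'f, ← map_mul, hrel, map_mul,
      GaussGen8.coeffMap_C, algebraMap_eq_C (K := Qbar)]
  have hcQ : algebraMap K Qbar c ≠ 0 := by
    rw [Ne, map_eq_zero]; exact hc0
  -- divisors
  obtain ⟨Da, hDa, -⟩ := (Fermat.Agent.RED.TOP.FbarFacts20.hasPrincipalDivisors_bar M).exists_divisor
    ya hya0
  obtain ⟨Db, hDb, -⟩ := (Fermat.Agent.RED.TOP.FbarFacts20.hasPrincipalDivisors_bar M).exists_divisor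
    yb hyb0
  have hDeq : D = Da - Db := by
    ext P
    rw [Finsupp.sub_apply, hDf P, hDa P, hDb P]
    have h1 := congrArg P.ord hrelQ
    rw [P.ord_mul hf0 hyb0,
      P.ord_mul (by rw [Ne, map_eq_zero]; exact hcQ) hya0,
      Fermat.Agent.X0.FF.ord_algebraMap] at h1
    omega
  rw [hDeq]
  refine AddSubgroup.sub_mem _ (AddSubgroup.subset_closure ?_) (AddSubgroup.subset_closure ?_)
  · exact mem_integralPrincipalDivisors A K ℓ hA M hℓM a haE hared hya Da hDa
  · exact mem_integralPrincipalDivisors A K ℓ hA M hℓM b hbE hbred hyb Db hDb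

end Concrete

end Fermat.Agent.ES.RED.GaussUnit25
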