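/-
Program I (S37), chapter ES/RED, leaf B1 RED-U (helper1): **elements of a chart ring have integral
`q`-expansions** (level-`K` form of (MA1)).

* Abstract part (`A` a PID with fraction field `K`): `lsRange A K ⊂ K((q))` is the subring of Laurent
  series with coefficients in `A`; an element of `psFrac A K = Frac(A⟦q⟧)` which is a root of a monic
  polynomial with coefficients in `lsRange` lies in `lsRange` (Laurent version of
  `IntClosedPS16.mem_psRange_of_isIntegral`: scale the roots by `q^N`).
* Gauss setting (`O ≤ K` a discrete valuation subring, `E ≤ fracField O`, `t ∈ E` with integral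
  `q`-expansion): every `x ∈ chart O t` (integral closure of `O[t]` in `E`) is `embK O Y`.
-/
import Mathlib
import Fermat.Agent.RED.CUSP.IntClosedPS16
import Fermat.Agent.RED.NumInst4
import Fermat.Agent.RED.PUR.ChartGeneric22
import Fermat.Agent.RED.DESC.UnifDescent14

set_option autoImplicit false
set_option linter.unusedSectionVars false

open HahnSeries ModularCurve Polynomial

noncomputable section

namespace Fermat.Agent.ES.RED.IntegralQExp1

open Fermat.Agent.RED.CUSP.IntClosedPS16

section Abstract

variable (A K : Type*) [CommRing A] [IsDomain A] [Field K] [Algebra A K] [IsFractionRing A K]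

/-- Laurent series over `K` with all coefficients in (the image of) `A`. -/
def lsRange : Subring (LaurentSeries K) := (coeffMap (algebraMap A K)).range

theorem mem_lsRange_iff {x : LaurentSeries K} :
    x ∈ lsRange A K ↔ ∀ n : ℤ, x.coeff n ∈ Set.range (algebraMap A K) := by
  constructor
  · rintro ⟨y, rfl⟩ n
    exact ⟨y.coeff n, rfl⟩
  · intro h
    exact Fermat.Agent.RED.DESC.UnifDescent14.exists_coeffMap_eq (algebraMap A K)
      (IsFractionRing.injective A K) x h

theorem psRange_le_lsRange {x : LaurentSeries K} (hx : x ∈ psRange A K) : x ∈ lsRange A K :=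
  (mem_lsRange_iff A K).mpr ((mem_psRange_iff_coeff A K).mp hx).2

theorem coeff_single_one_mul (N n : ℤ) (x : LaurentSeries K) :
    (HahnSeries.single N (1 : K) * x).coeff n = x.coeff (n - N) := by
  have h := HahnSeries.coeff_single_mul_add (r := (1 : K)) (x := x) (a := n - N) (b := N)
  rw [sub_add_cancel, one_mul] at h
  exact h

theorem single_mul_mem_lsRange (N : ℤ) {x : LaurentSeries K} (hx : x ∈ lsRange A K) :
    HahnSeries.single N (1 : K) * x ∈ lsRange A K := by
  rw [mem_lsRange_iff] at hx ⊢
  intro n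
  rw [coeff_single_one_mul]
  exact hx _

/-- Every Laurent series has a pole of finite order. -/
theorem exists_bound (x : LaurentSeries K) : ∃ N : ℕ, ∀ n : ℤ, n < -(N : ℤ) → x.coeff n = 0 := by
  by_cases hx : x = 0
  · exact ⟨0, fun n _ => by rw [hx]; rfl⟩
  · refine ⟨(-x.order).toNat, fun n hn => HahnSeries.coeff_eq_zero_of_lt_order ?_⟩
    have := Int.self_le_toNat (-x.order)
    omega

theorem single_mul_mem_psRange {N : ℕ} {x : LaurentSeries K} (hx : x ∈ lsRange A K)
    (hN : ∀ n : ℤ, n < -(N : ℤ) → x.coeff n = 0) :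
    HahnSeries.single (N : ℤ) (1 : K) * x ∈ psRange A K := by
  rw [mem_psRange_iff_coeff]
  rw [mem_lsRange_iff] at hx
  refine ⟨fun n hn => ?_, fun n => ?_⟩
  · rw [coeff_single_one_mul]
    exact hN _ (by omega)
  · rw [coeff_single_one_mul]
    exact hx _

theorem single_natCast_mem_psRange (N : ℕ) :
    HahnSeries.single (N : ℤ) (1 : K) ∈ psRange A K := by
  rw [mem_psRange_iff_coeff]
  refine ⟨fun n hn => ?_, fun n => ?_⟩
  · rw [HahnSeries.coeff_single_of_ne (by omega)]
  · by_cases h : n = (N : ℤ)
    · rw [h, HahnSeries.coeff_single_same]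
      exact ⟨1, map_one _⟩
    · rw [HahnSeries.coeff_single_of_ne h]
      exact ⟨0, map_zero _⟩

variable [IsPrincipalIdealRing A]

theorem lsRange_le_psFrac {x : LaurentSeries K} (hx : x ∈ lsRange A K) : x ∈ psFrac A K := by
  obtain ⟨N, hN⟩ := exists_bound K x
  have h1 := psRange_le_psFrac A K (single_mul_mem_psRange A K hx hN)
  have h2 := single_one_mem_psFrac A K (-(N : ℤ))
  have h3 : x = HahnSeries.single (-(N : ℤ)) (1 : K) * (HahnSeries.single (N : ℤ) (1 : K) * x) := by
    rw [← mul_assoc, HahnSeries.single_mul_single, neg_add_cancel, one_mul]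
    exact (one_mul x).symm
  rw [h3]
  exact mul_mem h2 h1

/-- **Laurent series over a PID are integrally closed in `Frac(A⟦q⟧)`** (polynomial form). -/
theorem mem_lsRange_of_monic_root {x : LaurentSeries K} (hx : x ∈ psFrac A K)
    (P : (LaurentSeries K)[X]) (hP : P.Monic) (hc : ∀ i, P.coeff i ∈ lsRange A K)
    (h0 : P.eval x = 0) : x ∈ lsRange A K := by
  classical
  -- a common pole bound for the coefficients
  have hb : ∀ i, ∃ N : ℕ, ∀ n : ℤ, n < -(N : ℤ) → (P.coeff i).coeff n = 0 :=
    fun i => exists_bound K (P.coeff i)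
  choose Nf hNf using hb
  set N : ℕ := (Finset.range (P.natDegree + 1)).sup Nf with hN
  have hNi : ∀ i, i ≤ P.natDegree → ∀ n : ℤ, n < -(N : ℤ) → (P.coeff i).coeff n = 0 := by
    intro i hi n hn
    apply hNf i n
    have h1 : Nf i ≤ N := Finset.le_sup (f := Nf) (Finset.mem_range.mpr (by omega))
    have h2 : (Nf i : ℤ) ≤ (N : ℤ) := by exact_mod_cast h1
    omega
  set u : LaurentSeries K := HahnSeries.single (N : ℤ) (1 : K) with hu
  have hups : u ∈ psRange A K := single_natCast_mem_psRange A K N
  -- the scaled polynomial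
  set Q : (LaurentSeries K)[X] := scaleRoots P u with hQ
  have hQm : Q.Monic := (monic_scaleRoots_iff u).mpr hP
  have hQc : ∀ i, Q.coeff i ∈ psRange A K := by
    intro i
    rw [hQ, coeff_scaleRoots]
    rcases lt_trichotomy i P.natDegree with hi | hi | hi
    · obtain ⟨j, hj⟩ : ∃ j, P.natDegree - i = j + 1 := ⟨P.natDegree - i - 1, by omega⟩
      rw [hj, pow_succ, mul_comm (u ^ j) u, ← mul_assoc, mul_comm (P.coeff i) u]
      exact mul_mem (single_mul_mem_psRange A K (hc i) (hNi i hi.le)) (pow_mem hups j)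
    · rw [hi, Nat.sub_self, pow_zero, mul_one, hP.coeff_natDegree]
      exact one_mem _
    · rw [coeff_eq_zero_of_natDegree_lt hi, zero_mul]
      exact zero_mem _
  have hQ0 : Q.eval (u * x) = 0 := by
    have h := scaleRoots_eval₂_mul (p := P) (RingHom.id (LaurentSeries K)) x u
    rw [RingHom.id_apply, eval₂_id, eval₂_id, h0, mul_zero] at h
    exact h
  -- `u * x` is integral over `psRange`
  have hint : IsIntegral (psRange A K) (u * x) := by
    have hl : Q ∈ lifts (algebraMap (psRange A K) (LaurentSeries K)) := by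
      rw [lifts_iff_coeff_lifts]
      intro n
      exact ⟨⟨Q.coeff n, hQc n⟩, rfl⟩
    obtain ⟨q, hqmap, -, hqmonic⟩ := lifts_and_natDegree_eq_and_monic hl hQm
    refine ⟨q, hqmonic, ?_⟩
    rw [← eval_map, hqmap]
    exact hQ0
  have hux : u * x ∈ psFrac A K := mul_mem (psRange_le_psFrac A K hups) hx
  have hmem := mem_psRange_of_isIntegral A K (psRange A K) le_rfl hux hint
  have h3 : x = HahnSeries.single (-(N : ℤ)) (1 : K) * (u * x) := by
    rw [hu, ← mul_assoc, HahnSeries.single_mul_single, neg_add_cancel, one_mul]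
    exact (one_mul x).symm
  rw [h3]
  exact single_mul_mem_lsRange A K _ (psRange_le_lsRange A K hmem)

end Abstract

section Gauss

open Fermat.Agent.RED.PUR.GaussGen8 Fermat.Agent.RED.PUR.ChartGeneric22 Fermat.Agent.RED.NumInst4

variable {K : Type*} [Field K] (O : ValuationSubring K)

theorem mem_lsRange_iff_embK {x : LaurentSeries K} :
    x ∈ lsRange ↥O K ↔ ∃ Y : LaurentSeries ↥O, embK O Y = x := Iff.rfl

variable [IsDiscreteValuationRing ↥O]

/-- `Frac(O((q)))` (Gauss form) lies in `Frac(O⟦q⟧)` (power series form). -/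
theorem fracField_le_psFrac {x : LaurentSeries K} (hx : x ∈ fracField O) :
    x ∈ psFrac ↥O K := by
  obtain ⟨a, b, hb, h⟩ := (mem_fracField_iff O x).mp hx
  have hb' : embK O b ≠ 0 := fun h0 => hb ((embK_eq_zero_iff O b).mp h0)
  have h1 : x = embK O a * (embK O b)⁻¹ := by
    rw [← h, mul_assoc, mul_inv_cancel₀ hb', mul_one]
  rw [h1]
  exact mul_mem (lsRange_le_psFrac ↥O K ⟨a, rfl⟩) (inv_mem (lsRange_le_psFrac ↥O K ⟨b, rfl⟩))

variable (E : IntermediateField K (LaurentSeries K))

/-- `O[t] ⊂ O((q))` when `t ∈ O((q))`. -/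
theorem coe_mem_lsRange_of_mem_adjoin {t : E}
    (ht : ((t : E) : LaurentSeries K) ∈ lsRange ↥O K) {c : E}
    (hc : c ∈ Algebra.adjoin ↥O {t}) : ((c : E) : LaurentSeries K) ∈ lsRange ↥O K := by
  induction hc using Algebra.adjoin_induction with
  | mem x hx =>
      rw [Set.mem_singleton_iff.mp hx]
      exact ht
  | algebraMap a =>
      rw [coe_algebraMap_OE]
      exact ⟨HahnSeries.C a, embK_C O a⟩
  | add x y _ _ hx hy => exact add_mem hx hy
  | mul x y _ _ hx hy => exact mul_mem hx hy

/-- **Elements of the chart ring have integral `q`-expansions** (level form of (MA1)): if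
`E ≤ Frac(O((q)))` and `t ∈ E` has an `O`-integral `q`-expansion, so has every element of the
integral closure of `O[t]` in `E`. -/
theorem coe_mem_lsRange_of_mem_chart (hE : E ≤ fracField O) {t : E}
    (ht : ((t : E) : LaurentSeries K) ∈ lsRange ↥O K) {x : E} (hx : x ∈ chart ↥O t) :
    ((x : E) : LaurentSeries K) ∈ lsRange ↥O K := by
  rw [mem_chart_iff, isIntegral_subalgebra_iff] at hx
  obtain ⟨P, hP, hcoeff, hPx⟩ := hx
  refine mem_lsRange_of_monic_root ↥O K (fracField_le_psFrac O (hE x.2))
    (P.map (algebraMap ↥E (LaurentSeries K))) (hP.map _) (fun i => ?_) ?_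
  · rw [coeff_map]
    exact coe_mem_lsRange_of_mem_adjoin O E ht (hcoeff i)
  · rw [eval_map]
    have h := congrArg (algebraMap ↥E (LaurentSeries K)) hPx
    rw [← eval₂_at_apply, map_zero] at h
    exact h

theorem exists_embK_of_mem_chart (hE : E ≤ fracField O) {t : E}
    (ht : ∃ T : LaurentSeries ↥O, embK O T = ((t : E) : LaurentSeries K)) {x : E}
    (hx : x ∈ chart ↥O t) : ∃ Y : LaurentSeries ↥O, embK O Y = ((x : E) : LaurentSeries K) :=
  coe_mem_lsRange_of_mem_chart O E hE ht hx

end Gauss

end Fermat.Agent.ES.RED.IntegralQExp1
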