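/-
Program I (S37), chapter ES/RED, leaf RED-U (helper1): **the residue field of `A ≤ ℚ̄` and the
special-fibre function field are unions over the number fields.**

`k := ResidueField A`, `κ_K := ResidueField (A ∩ K)`, `ρ_K := resMap A K : κ_K →+* k`.
* `exists_residue_descent` : every `c : k` lies in the image of `ρ_K` for all large number fields `K`;
* `exists_fullC_descent`   : every `y ∈ k·F̃_M = modularFunctionFieldFullC k M` is
  `coeffMap ρ_K y₀` with `y₀ ∈ modularFunctionFieldFullC κ_K M`, for all large number fields `K`;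
* `coeffMap_resMap_mem_fullC` : conversely `coeffMap ρ_K` maps `κ_K·F̃_M` into `k·F̃_M`.
-/
import Mathlib
import Fermat.Prelude.Def_ModularCurve_X0ModL
import Fermat.Agent.RED.DESC.NumberFieldDVR27

set_option autoImplicit false

open HahnSeries ModularCurve IntermediateField

noncomputable section

namespace Fermat.Agent.ES.RED.ResidueUnion1

open Fermat.Agent.RED.Interface4 Fermat.Agent.RED.DESC

/-- `coeffMap` commutes with `q ↦ q^n`. -/
theorem coeffMap_qExpand' {R S : Type*} [CommRing R] [CommRing S] (f : R →+* S) (n : ℕ)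
    [NeZero n] (x : LaurentSeries R) :
    coeffMap f (qExpand R n x) = qExpand S n (coeffMap f x) := by
  ext k
  by_cases hk : (n : ℤ) ∣ k
  · obtain ⟨m, rfl⟩ := hk
    rw [coeffMap_coeff, qExpand_coeff_mul, qExpand_coeff_mul, coeffMap_coeff]
  · rw [coeffMap_coeff, qExpand_coeff_of_not_dvd n _ hk, qExpand_coeff_of_not_dvd n _ hk, map_zero]

section Functoriality

variable {κ k : Type*} [Field κ] [Field k] (ρ : κ →+* k) (M : ℕ)

theorem coeffMap_algebraMap' (c : κ) :
    coeffMap ρ (algebraMap κ (LaurentSeries κ) c) = algebraMap k (LaurentSeries k) (ρ c) := by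
  rw [algebraMap_laurentSeries_eq_single, algebraMap_laurentSeries_eq_single, coeffMap_single]

/-- `coeffMap ρ` maps `κ·F̃_M` into `k·F̃_M`. -/
theorem coeffMap_mem_fullC {x : LaurentSeries κ} (hx : x ∈ modularFunctionFieldFullC κ M) :
    coeffMap ρ x ∈ modularFunctionFieldFullC k M := by
  unfold modularFunctionFieldFullC at hx
  induction hx using IntermediateField.adjoin_induction with
  | mem y hy =>
      obtain ⟨d, hne, hd, rfl⟩ := hy
      have := hne
      rw [coeffMap_qExpand', coeffMap_jqModC]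
      exact jqModCd_mem_full k M hd
  | algebraMap c =>
      rw [coeffMap_algebraMap']
      exact IntermediateField.algebraMap_mem _ _
  | add x y _ _ hx hy => rw [map_add]; exact add_mem hx hy
  | inv x _ hx => rw [map_inv₀]; exact inv_mem hx
  | mul x y _ _ hx hy => rw [map_mul]; exact mul_mem hx hy

end Functoriality

variable (A : ValuationSubring Qbar)

/-- Every element of the residue field of `A` comes from `A ∩ K` for all large number fields. -/
theorem exists_residue_descent (K₀ : IntermediateField ℚ Qbar) [FiniteDimensional ℚ K₀]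
    (c : IsLocalRing.ResidueField A) :
    ∃ K₁ : IntermediateField ℚ Qbar, FiniteDimensional ℚ K₁ ∧ K₀ ≤ K₁ ∧
      ∀ K : IntermediateField ℚ Qbar, K₁ ≤ K → c ∈ Set.range (NumberFieldDVR27.resMap A K) := by
  obtain ⟨a, rfl⟩ := IsLocalRing.residue_surjective c
  obtain ⟨K₁, hfin, hK₀, hS⟩ := NumberFieldDVR27.exists_numberField K₀ {(a : Qbar)}
  refine ⟨K₁, hfin, hK₀, fun K hK => ?_⟩
  have h1 : (a : Qbar) ∈ K := hK (hS _ (Finset.mem_singleton_self _))
  have h2 : (⟨(a : Qbar), h1⟩ : K) ∈ AK A K := by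
    rw [NumberFieldDVR27.mem_AK_iff]
    exact a.2
  refine ⟨IsLocalRing.residue _ ⟨⟨(a : Qbar), h1⟩, h2⟩, ?_⟩
  rw [NumberFieldDVR27.resMap_residue]
  congr 1

/-- **The special-fibre function field over `k` is the union of those over the `κ_K`.** -/
theorem exists_fullC_descent (M : ℕ) (K₀ : IntermediateField ℚ Qbar) [FiniteDimensional ℚ K₀]
    {y : LaurentSeries (IsLocalRing.ResidueField A)}
    (hy : y ∈ modularFunctionFieldFullC (IsLocalRing.ResidueField A) M) :
    ∃ K₁ : IntermediateField ℚ Qbar, FiniteDimensional ℚ K₁ ∧ K₀ ≤ K₁ ∧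
      ∀ K : IntermediateField ℚ Qbar, K₁ ≤ K →
        ∃ y₀ ∈ modularFunctionFieldFullC (IsLocalRing.ResidueField (AK A K)) M,
          coeffMap (NumberFieldDVR27.resMap A K) y₀ = y := by
  unfold modularFunctionFieldFullC at hy
  induction hy using IntermediateField.adjoin_induction with
  | mem y hy =>
      obtain ⟨d, hne, hd, rfl⟩ := hy
      have := hne
      refine ⟨K₀, inferInstance, le_rfl, fun K _ => ?_⟩
      refine ⟨qExpand _ d (jqModC _), jqModCd_mem_full _ M hd, ?_⟩
      rw [coeffMap_qExpand', coeffMap_jqModC]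
  | algebraMap c =>
      obtain ⟨K₁, hfin, hK₀, H⟩ := exists_residue_descent A K₀ c
      refine ⟨K₁, hfin, hK₀, fun K hK => ?_⟩
      obtain ⟨c₀, hc₀⟩ := H K hK
      refine ⟨algebraMap _ _ c₀, IntermediateField.algebraMap_mem _ _, ?_⟩
      rw [coeffMap_algebraMap', hc₀]
  | add x y _ _ hx hy =>
      obtain ⟨K₁, hfin₁, hK₁, H₁⟩ := hx
      obtain ⟨K₂, hfin₂, hK₂, H₂⟩ := hy
      have := hfin₁
      have := hfin₂
      refine ⟨K₁ ⊔ K₂, inferInstance, hK₁.trans le_sup_left, fun K hK => ?_⟩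
      obtain ⟨x₀, hx₀, hx₀'⟩ := H₁ K (le_sup_left.trans hK)
      obtain ⟨y₀, hy₀, hy₀'⟩ := H₂ K (le_sup_right.trans hK)
      exact ⟨x₀ + y₀, add_mem hx₀ hy₀, by rw [map_add, hx₀', hy₀']⟩
  | inv x _ hx =>
      obtain ⟨K₁, hfin₁, hK₁, H₁⟩ := hx
      refine ⟨K₁, hfin₁, hK₁, fun K hK => ?_⟩
      obtain ⟨x₀, hx₀, hx₀'⟩ := H₁ K hK
      exact ⟨x₀⁻¹, inv_mem hx₀, by rw [map_inv₀, hx₀']⟩
  | mul x y _ _ hx hy =>
      obtain ⟨K₁, hfin₁, hK₁, H₁⟩ := hx
      obtain ⟨K₂, hfin₂, hK₂, H₂⟩ := hy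
      have := hfin₁
      have := hfin₂
      refine ⟨K₁ ⊔ K₂, inferInstance, hK₁.trans le_sup_left, fun K hK => ?_⟩
      obtain ⟨x₀, hx₀, hx₀'⟩ := H₁ K (le_sup_left.trans hK)
      obtain ⟨y₀, hy₀, hy₀'⟩ := H₂ K (le_sup_right.trans hK)
      exact ⟨x₀ * y₀, mul_mem hx₀ hy₀, by rw [map_mul, hx₀', hy₀']⟩

/-- `coeffMap ρ_K` maps `κ_K·F̃_M` into `k·F̃_M`. -/
theorem coeffMap_resMap_mem_fullC (M : ℕ) (K : IntermediateField ℚ Qbar)
    {x : LaurentSeries (IsLocalRing.ResidueField (AK A K))}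
    (hx : x ∈ modularFunctionFieldFullC (IsLocalRing.ResidueField (AK A K)) M) :
    coeffMap (NumberFieldDVR27.resMap A K) x ∈
      modularFunctionFieldFullC (IsLocalRing.ResidueField A) M :=
  coeffMap_mem_fullC _ M hx

end Fermat.Agent.ES.RED.ResidueUnion1
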