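/-
Program I (S37), chapter RED, helper8: SETUP over a valuation ring `A` of a field `L`
(no noetherian hypothesis): Gauss-integral elements `gaussA A F` of a field `F ≤ L((q))` and their
coefficientwise reduction `redA A F : gaussA A F →+* k((q))`.

Everything is generic in `(L, A, F)`; the instance is `L = ℚ̄`, `F = Fbar M`.
(Values of functions at places: `ES/RED/PlaceValue13`; the abstract contract: `ES/RED/Contract8`.)
-/
import Mathlib
import Fermat.Prelude.Def_ModularCurve_ReductionModL

set_option autoImplicit false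

noncomputable section

open HahnSeries ModularCurve AlgebraicCurve

namespace Fermat.Agent.ES.RED.Setup8

variable {L : Type*} [Field L] (A : ValuationSubring L)

/-- the residue field of `A`. -/
abbrev kA : Type _ := IsLocalRing.ResidueField A

/-- the residue map of `A`. -/
abbrev resA : ↥A →+* kA A := IsLocalRing.residue ↥A

theorem coeffMap_subtype_injective : Function.Injective (coeffMap A.subtype) := by
  intro x y h
  ext n
  have := congrArg (fun z : LaurentSeries L => z.coeff n) h
  simp only [coeffMap_coeff] at this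
  exact this

variable (F : IntermediateField L (LaurentSeries L))

/-! ### Gauss-integral elements and their reduction -/

/-- `f : L((q))` has coefficients in `A`. -/
def IsAInt (f : LaurentSeries L) : Prop := ∃ Y : LaurentSeries ↥A, coeffMap A.subtype Y = f

/-- The subring of `F` of series with coefficients in `A`. -/
def gaussA : Subring ↥F where
  carrier := {f | IsAInt A (f : LaurentSeries L)}
  mul_mem' := by
    rintro f g ⟨Y, hY⟩ ⟨Z, hZ⟩
    exact ⟨Y * Z, by rw [map_mul, hY, hZ]; rfl⟩
  one_mem' := ⟨1, by rw [map_one]; rfl⟩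
  add_mem' := by
    rintro f g ⟨Y, hY⟩ ⟨Z, hZ⟩
    exact ⟨Y + Z, by rw [map_add, hY, hZ]; rfl⟩
  zero_mem' := ⟨0, by rw [map_zero]; rfl⟩
  neg_mem' := by
    rintro f ⟨Y, hY⟩
    exact ⟨-Y, by rw [map_neg, hY]; rfl⟩

theorem mem_gaussA_iff (f : ↥F) :
    f ∈ gaussA A F ↔ ∃ Y : LaurentSeries ↥A, coeffMap A.subtype Y = (f : LaurentSeries L) :=
  Iff.rfl

/-- the `A`-series of a Gauss-integral element. -/
def liftA (f : ↥(gaussA A F)) : LaurentSeries ↥A := f.2.choose

theorem coeffMap_liftA (f : ↥(gaussA A F)) :
    coeffMap A.subtype (liftA A F f) = ((f : ↥F) : LaurentSeries L) := f.2.choose_spec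

theorem liftA_eq (f : ↥(gaussA A F)) {Y : LaurentSeries ↥A}
    (hY : coeffMap A.subtype Y = ((f : ↥F) : LaurentSeries L)) : liftA A F f = Y :=
  coeffMap_subtype_injective A ((coeffMap_liftA A F f).trans hY.symm)

/-- `F ∩ A((q)) → A((q))` as a ring hom. -/
def liftAHom : ↥(gaussA A F) →+* LaurentSeries ↥A where
  toFun := liftA A F
  map_one' := liftA_eq A F _ (by rw [map_one]; rfl)
  map_mul' f g := liftA_eq A F _ (by
    rw [map_mul, coeffMap_liftA, coeffMap_liftA]; rfl)
  map_zero' := liftA_eq A F _ (by rw [map_zero]; rfl)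
  map_add' f g := liftA_eq A F _ (by
    rw [map_add, coeffMap_liftA, coeffMap_liftA]; rfl)

/-- **Reduction of Gauss-integral elements** (coefficientwise). -/
def redA : ↥(gaussA A F) →+* LaurentSeries (kA A) :=
  (coeffMap (resA A)).comp (liftAHom A F)

theorem redA_eq (f : ↥(gaussA A F)) {Y : LaurentSeries ↥A}
    (hY : coeffMap A.subtype Y = ((f : ↥F) : LaurentSeries L)) :
    redA A F f = coeffMap (resA A) Y := by
  show coeffMap (resA A) (liftA A F f) = _
  rw [liftA_eq A F f hY]

/-- constants of `A` are Gauss-integral. -/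
theorem algebraMap_mem_gaussA (a : ↥A) : algebraMap L ↥F (a : L) ∈ gaussA A F := by
  refine ⟨HahnSeries.C a, ?_⟩
  show coeffMap A.subtype (HahnSeries.single 0 a) = algebraMap L (LaurentSeries L) (a : L)
  rw [coeffMap_single, algebraMap_laurentSeries_eq_single]
  rfl

theorem redA_algebraMap (a : ↥A) :
    redA A F ⟨algebraMap L ↥F (a : L), algebraMap_mem_gaussA A F a⟩
      = algebraMap (kA A) (LaurentSeries (kA A)) (resA A a) := by
  rw [redA_eq A F _ (Y := HahnSeries.single 0 a)]
  · rw [coeffMap_single, algebraMap_laurentSeries_eq_single]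
  · show coeffMap A.subtype (HahnSeries.single 0 a) = algebraMap L (LaurentSeries L) (a : L)
    rw [coeffMap_single, algebraMap_laurentSeries_eq_single]
    rfl

/-- an `A`-series whose image lies in `F`, as a Gauss-integral element. -/
def ofSeries (Y : LaurentSeries ↥A) (hY : coeffMap A.subtype Y ∈ F) : ↥(gaussA A F) :=
  ⟨⟨coeffMap A.subtype Y, hY⟩, ⟨Y, rfl⟩⟩

@[simp] theorem coe_ofSeries (Y : LaurentSeries ↥A) (hY : coeffMap A.subtype Y ∈ F) :
    (((ofSeries A F Y hY : ↥(gaussA A F)) : ↥F) : LaurentSeries L) = coeffMap A.subtype Y := rfl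

theorem redA_ofSeries (Y : LaurentSeries ↥A) (hY : coeffMap A.subtype Y ∈ F) :
    redA A F (ofSeries A F Y hY) = coeffMap (resA A) Y :=
  redA_eq A F _ rfl

/-- `redA f = 0` iff all coefficients of `f` lie in `𝔪_A`. -/
theorem redA_eq_zero_iff (f : ↥(gaussA A F)) :
    redA A F f = 0 ↔ ∀ n, (liftA A F f).coeff n ∈ IsLocalRing.maximalIdeal ↥A := by
  show coeffMap (resA A) (liftA A F f) = 0 ↔ _
  constructor
  · intro h n
    have := congrArg (fun z : LaurentSeries (kA A) => z.coeff n) h
    simp only [coeffMap_coeff, HahnSeries.coeff_zero] at this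
    exact (IsLocalRing.residue_eq_zero_iff _).mp this
  · intro h
    ext n
    rw [coeffMap_coeff, HahnSeries.coeff_zero]
    exact (IsLocalRing.residue_eq_zero_iff _).mpr (h n)

end Fermat.Agent.ES.RED.Setup8
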