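/-
Program I (ES/RED, leaf B1 (3) = (L4); helper16): the reductions of the chart rings over `A` fill
the special-fibre function field, as FRACTIONS.

`A ≤ ℚ̄` over `ℓ ∤ M`, `k = ResidueField A`, `F̃ = modularFunctionFieldFullC k M`, `t = tF M h` the
Hauptmodul in `Fbar M`.  For every `y ∈ F̃` there are Laurent series `Ya, Yb ∈ A((q))` whose images in
`ℚ̄((q))` lie in the chart ring `chart A t` (integral closure of `A[t]` in `Fbar M`), with
`red Yb ≠ 0` and `y · red Yb = red Ya` (`red` = coefficientwise reduction):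
`exists_frac_red` (chart `t`), `exists_frac_red_inv` (chart `t⁻¹`).  Since the reduction of an element
`b` of the chart is `coeffMap (residue A) Y` for THE `Y` with `coeffMap A.subtype Y = b`, this is (L4) of
`LevelPeel22.LevelSystem` for any such `red`.

Level `K` (`section LevelK`, the `G1Package8` setting): `exists_frac_chartRed` — every element of the
residue field `resField O E` of the Gauss valuation is `chartRed a / chartRed b`, `a, b ∈ chart O t`.
-/
import Fermat.Agent.ES.RED.FibreSurj17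
import Fermat.Agent.ES.RED.IntegralQExp1
import Fermat.Agent.ES.RED.ChartUnion1
import Fermat.Agent.ES.RED.ResidueUnion1
import Fermat.Agent.ES.RED.GaussUnit25
import Fermat.Agent.RED.PUR.GaussInst25
import Fermat.Agent.RED.BASE.TBridge15
import Fermat.Agent.RED.BASE.JInKt25
import Fermat.Agent.RED.ModelTargets4
import Fermat.Agent.RED.CUSP.RankConcrete16
import Fermat.Agent.ES.RED.Setup8

set_option autoImplicit false
set_option linter.unusedSectionVars false
set_option linter.style.haveILetI false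

noncomputable section

namespace Fermat.Agent.ES.RED.FracRed16

open Polynomial HahnSeries ModularCurve

section LevelK

open Fermat.Agent.RED.PUR.GaussGen8 Fermat.Agent.RED.PUR.KtGauss8 Fermat.Agent.RED.PUR.G1Package8
  Fermat.Agent.RED.PUR.GaussBridge10 Fermat.Agent.RED.PUR.ChartGeneric22
  Fermat.Agent.ES.RED.FibreSurj17

variable {K : Type*} [Field K] [CharZero K] {O : ValuationSubring K} [IsDiscreteValuationRing ↥O]
  {π : ↥O} (hπ : Irreducible π)
  {E : IntermediateField K (LaurentSeries K)} (hE : E ≤ fracField O)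
  (t : ↥E) (ht : (t : LaurentSeries K) ∈ gaussRing O)
  (htr : Transcendental (Res O) (gaussRed O ⟨(t : LaurentSeries K), ht⟩))
  {n : ℕ} (hdeg : DegLe O E ⟨(t : LaurentSeries K), ht⟩ n)
  (hirr : Irr O E ⟨(t : LaurentSeries K), ht⟩ n)

include hπ hE ht htr hdeg hirr in
/-- **Level `K`.**  Every element of the residue field of the Gauss valuation of `E` is a quotient of
reductions of elements of the chart `chart O t`. -/
theorem exists_frac_chartRed {y : LaurentSeries (Res O)} (hy : y ∈ resField O E) :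
    ∃ a b : ↥(chart ↥O t), chartRed hπ hE t ht b ≠ 0 ∧
      y * chartRed hπ hE t ht b = chartRed hπ hE t ht a := by
  obtain ⟨f, hf, hfE, rfl⟩ := hy
  set x : ↥E := ⟨f, hfE⟩ with hxdef
  have hx : x ∈ OvE O hπ E hE := (mem_OvE_iff O hπ E hE x).mpr hf
  obtain ⟨h, hh, hb⟩ := exists_aeval_mul_mem_chart hπ hE t ht htr hdeg hirr hx
  let bd : ↥(chart ↥O t) :=
    ⟨aeval t h, adjoin_le_chart t (Polynomial.aeval_mem_adjoin_singleton _ _)⟩
  let bn : ↥(chart ↥O t) := ⟨aeval t h * x, hb⟩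
  have hred_bd : chartRed hπ hE t ht bd = gaussRed O (polyG O ⟨(t : LaurentSeries K), ht⟩ h) := by
    rw [chartRed_apply]
    congr 1
    apply Subtype.ext
    rw [coe_polyG]
    exact coe_aeval t h
  have hred_bn : chartRed hπ hE t ht bn = chartRed hπ hE t ht bd * gaussRed O ⟨f, hf⟩ := by
    rw [chartRed_apply, chartRed_apply, ← map_mul]
    rfl
  have hbd0 : chartRed hπ hE t ht bd ≠ 0 := by
    rw [hred_bd]
    exact gaussRed_polyG_ne_zero htr hh
  exact ⟨bn, bd, hbd0, by rw [hred_bn, mul_comm]⟩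

end LevelK

section Concrete

open Fermat.Agent.RED.Interface4 Fermat.Agent.RED.DESC Fermat.Agent.RED.DESC.NumberFieldDVR27
open Fermat.Agent.RED.DESC.PlaceExtend27
open Fermat.Agent.RED.PUR.GaussGen8 Fermat.Agent.RED.PUR.KtGauss8 Fermat.Agent.RED.PUR.G1Package8
  Fermat.Agent.RED.PUR.GaussBridge10 Fermat.Agent.RED.PUR.ChartGeneric22
  Fermat.Agent.ES.RED.FibreSurj17
open Fermat.Agent.RED.BASE.EtaQuot12 Fermat.Agent.RED.BASE.Interface12
open Fermat.Agent.X0

/-- The formal Hauptmodul is a unit of `R((q))`, over any coefficient ring. -/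
theorem exists_tq_mul_eq_one (R : Type*) [CommRing R] (n e : ℕ) [NeZero n] :
    ∃ T : LaurentSeries R, tq R n e * T = 1 := by
  refine ⟨HahnSeries.single (1 : ℤ) (1 : R) *
    HahnSeries.ofPowerSeries ℤ R (PowerSeries.invOfUnit (tNum R n e) 1), ?_⟩
  rw [tq_eq_laurentOf, laurentOf]
  have h1 : tNum R n e * PowerSeries.invOfUnit (tNum R n e) 1 = 1 :=
    PowerSeries.mul_invOfUnit _ _ (by rw [constantCoeff_tNum]; rfl)
  have h2 : (HahnSeries.single (-(1 : ℕ) : ℤ) (1 : R)) * HahnSeries.single (1 : ℤ) (1 : R) = 1 := by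
    rw [HahnSeries.single_mul_single]
    simp
  calc HahnSeries.single (-(1 : ℕ) : ℤ) (1 : R) * HahnSeries.ofPowerSeries ℤ R (tNum R n e) *
        (HahnSeries.single (1 : ℤ) (1 : R) *
          HahnSeries.ofPowerSeries ℤ R (PowerSeries.invOfUnit (tNum R n e) 1))
      = (HahnSeries.single (-(1 : ℕ) : ℤ) (1 : R) * HahnSeries.single (1 : ℤ) (1 : R)) *
        (HahnSeries.ofPowerSeries ℤ R (tNum R n e) *
          HahnSeries.ofPowerSeries ℤ R (PowerSeries.invOfUnit (tNum R n e) 1)) := by ring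
    _ = 1 := by rw [h2, ← map_mul, h1, map_one, one_mul]

variable (A : ValuationSubring Qbar) {M : ℕ} [NeZero M] (K : IntermediateField ℚ Qbar)

/-- **From level `K` to `A`.**  For a coordinate `s ∈ K·F_M` with integral `q`-expansion and the Gauss
package at level `K`: every `y₀ ∈ κ_K·F̃_M` is, after base change to `k`, a quotient of reductions of
`A`-integral series lying in the chart `chart A (emb s)`. -/
theorem exists_frac_of_level [FiniteDimensional ℚ K] (ℓ : ℕ) [Fact ℓ.Prime]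
    (hA : A.LiesOverPrime ℓ) (hℓM : ¬ ℓ ∣ M)
    [IsDiscreteValuationRing ↥(AK A K)] {π : ↥(AK A K)} (hπ : Irreducible π)
    (s : ↥(FK M K)) (hs : (s : LaurentSeries K) ∈ gaussRing (AK A K))
    (htr : Transcendental (Res (AK A K)) (gaussRed (AK A K) ⟨(s : LaurentSeries K), hs⟩))
    {n : ℕ} (hdeg : DegLe (AK A K) (FK M K) ⟨(s : LaurentSeries K), hs⟩ n)
    (hirr : Irr (AK A K) (FK M K) ⟨(s : LaurentSeries K), hs⟩ n)
    (hsT : ∃ T : LaurentSeries ↥(AK A K), embK (AK A K) T = (s : LaurentSeries K))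
    {y₀ : LaurentSeries (Res (AK A K))}
    (hy₀ : y₀ ∈ modularFunctionFieldFullC (Res (AK A K)) M) :
    ∃ (Ya Yb : LaurentSeries ↥A) (ha : coeffMap A.subtype Ya ∈ Fbar M)
      (hb : coeffMap A.subtype Yb ∈ Fbar M),
      (⟨_, ha⟩ : ↥(Fbar M)) ∈ chart ↥A (baseChangeHom M K s) ∧
      (⟨_, hb⟩ : ↥(Fbar M)) ∈ chart ↥A (baseChangeHom M K s) ∧
      coeffMap (IsLocalRing.residue ↥A) Yb ≠ 0 ∧
      coeffMap (resMap A K) y₀ * coeffMap (IsLocalRing.residue ↥A) Yb =
        coeffMap (IsLocalRing.residue ↥A) Ya := by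
  have hE : FK M K ≤ fracField (AK A K) := FK_le_fracField A K M
  have hres : y₀ ∈ resField (AK A K) (FK M K) := by
    rw [GaussUnit25.resField_FK_eq A K ℓ hA M hℓM]
    exact hy₀
  obtain ⟨a, b, hb0, hab⟩ := exists_frac_chartRed hπ hE s hs htr hdeg hirr hres
  -- integral series of the elements of the chart
  have key : ∀ x : ↥(chart ↥(AK A K) s), ∃ (Y : LaurentSeries ↥A)
      (hY : coeffMap A.subtype Y ∈ Fbar M),
      (⟨_, hY⟩ : ↥(Fbar M)) ∈ chart ↥A (baseChangeHom M K s) ∧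
      coeffMap (IsLocalRing.residue ↥A) Y = coeffMap (resMap A K) (chartRed hπ hE s hs x) := by
    intro x
    obtain ⟨Y₀, hY₀⟩ := IntegralQExp1.exists_embK_of_mem_chart (AK A K) (FK M K) hE hsT x.2
    have h1 : coeffMap A.subtype (coeffMap (incl A K) Y₀) =
        ((baseChangeHom M K (x : ↥(FK M K)) : ↥(Fbar M)) : LaurentSeries Qbar) := by
      rw [GaussUnit25.coeffMap_subtype_incl, hY₀, coe_baseChangeHom]
    refine ⟨coeffMap (incl A K) Y₀, by rw [h1]; exact (baseChangeHom M K (x : ↥(FK M K))).2, ?_, ?_⟩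
    · have h2 : (⟨coeffMap A.subtype (coeffMap (incl A K) Y₀),
          by rw [h1]; exact (baseChangeHom M K (x : ↥(FK M K))).2⟩ : ↥(Fbar M)) =
          baseChangeHom M K (x : ↥(FK M K)) := Subtype.ext h1
      rw [h2]
      exact ChartUnion1.baseChangeHom_mem_chart A M K s x x.2
    · rw [GaussUnit25.coeffMap_residue_incl]
      congr 1
      have h3 : chartRed hπ hE s hs x =
          gaussRed (AK A K) ⟨embK (AK A K) Y₀, embK_mem (AK A K) Y₀⟩ := by
        rw [chartRed_apply]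
        congr 1
        exact Subtype.ext hY₀.symm
      rw [h3, gaussRed_embK]
  obtain ⟨Ya, ha, hac, hared⟩ := key a
  obtain ⟨Yb, hb, hbc, hbred⟩ := key b
  refine ⟨Ya, Yb, ha, hb, hac, hbc, ?_, ?_⟩
  · rw [hbred]
    intro h0
    apply hb0
    exact CoeffDescent1.coeffMap_injective_of_injective (resMap A K) (resMap_injective A K)
      (h0.trans (map_zero _).symm)
  · rw [hbred, hared, ← map_mul, hab]

/-- The Gauss package at a large number field `K`, for the Hauptmodul and its inverse, plus a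
prescribed descent of `y`. -/
theorem exists_level (n e : ℕ) [NeZero n] (ℓ : ℕ) [Fact ℓ.Prime] (hℓM : ¬ ℓ ∣ M)
    (hmem : TMem n e M) (hgen : TGenBase n e) (hA : A.LiesOverPrime ℓ)
    {y : LaurentSeries (IsLocalRing.ResidueField ↥A)}
    (hy : y ∈ modularFunctionFieldFullC (IsLocalRing.ResidueField ↥A) M) :
    ∃ (K : IntermediateField ℚ Qbar) (_ : FiniteDimensional ℚ K)
      (_ : IsDiscreteValuationRing ↥(AK A K)) (π : ↥(AK A K)) (_ : Irreducible π)
      (t : ↥(FK M K)) (_ : (t : LaurentSeries K) = tq K n e)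
      (ht : (t : LaurentSeries K) ∈ gaussRing (AK A K))
      (_ : Transcendental (Res (AK A K)) (gaussRed (AK A K) ⟨(t : LaurentSeries K), ht⟩))
      (m : ℕ) (_ : DegLe (AK A K) (FK M K) ⟨(t : LaurentSeries K), ht⟩ m)
      (_ : Irr (AK A K) (FK M K) ⟨(t : LaurentSeries K), ht⟩ m),
      ∃ y₀ ∈ modularFunctionFieldFullC (Res (AK A K)) M, coeffMap (resMap A K) y₀ = y := by
  have hℓ : ℓ.Prime := Fact.out
  obtain ⟨K₁, hK₁, hT⟩ := Fermat.Agent.RED.BASE.TBridge15.exists_tq_mem n e M hmem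
  obtain ⟨K₂, hK₂, hJ⟩ := Fermat.Agent.RED.BASE.JInKt25.exists_j_mem_adjoin n e hgen
  haveI := hK₁
  haveI := hK₂
  obtain ⟨K, hKfd, hle, hdesc⟩ := ResidueUnion1.exists_fullC_descent A M (K₁ ⊔ K₂) hy
  haveI := hKfd
  have hle1 : K₁ ≤ K := le_trans le_sup_left hle
  have hle2 : K₂ ≤ K := le_trans le_sup_right hle
  have hdvr : IsDiscreteValuationRing ↥(AK A K) := isDiscreteValuationRing_AK A K hℓ.ne_zero hA
  obtain ⟨ϖ, hϖ⟩ := IsDiscreteValuationRing.exists_irreducible ↥(AK A K)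
  haveI : CharP (Res (AK A K)) ℓ := charP_residueField_AK A K hℓ hA
  have htE : tq K n e ∈ FK M K := hT K hle1
  have ht : tq K n e ∈ gaussRing (AK A K) :=
    Fermat.Agent.RED.ModelTargets4.tq_mem_gaussRing (AK A K) n e
  have htr : Transcendental (Res (AK A K)) (gaussRed (AK A K) ⟨tq K n e, ht⟩) :=
    Fermat.Agent.RED.ModelTargets4.transcendental_gaussRed_tq (AK A K) n e
  have hjt : jqModC K ∈ Kt (AK A K) ⟨tq K n e, ht⟩ := hJ K hle2
  obtain ⟨m, -, hdeg, hirr⟩ := Fermat.Agent.RED.PUR.GaussInst25.exists_degLe_irr_FK A K hϖ ℓ M hℓM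
    ⟨tq K n e, ht⟩ htE hjt
  exact ⟨K, hKfd, hdvr, ϖ, hϖ, ⟨tq K n e, htE⟩, rfl, ht, htr, m, hdeg, hirr, hdesc K le_rfl⟩

/-- **(L4), chart `t`.**  Every element of `F̃ = k·F̃_M` is a quotient of reductions of `A`-integral
series lying in the chart `chart A t` (`t` the Hauptmodul). -/
theorem exists_frac_red (n e : ℕ) [NeZero n] (ℓ : ℕ) [Fact ℓ.Prime] (hℓM : ¬ ℓ ∣ M)
    (hmem : TMem n e M) (hgen : TGenBase n e) (hA : A.LiesOverPrime ℓ)
    {y : LaurentSeries (IsLocalRing.ResidueField ↥A)}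
    (hy : y ∈ modularFunctionFieldFullC (IsLocalRing.ResidueField ↥A) M) :
    ∃ (Ya Yb : LaurentSeries ↥A) (ha : coeffMap A.subtype Ya ∈ Fbar M)
      (hb : coeffMap A.subtype Yb ∈ Fbar M),
      (⟨_, ha⟩ : ↥(Fbar M)) ∈ chart ↥A (tF M hmem) ∧
      (⟨_, hb⟩ : ↥(Fbar M)) ∈ chart ↥A (tF M hmem) ∧
      coeffMap (IsLocalRing.residue ↥A) Yb ≠ 0 ∧
      y * coeffMap (IsLocalRing.residue ↥A) Yb = coeffMap (IsLocalRing.residue ↥A) Ya := by
  obtain ⟨K, hKfd, hdvr, ϖ, hϖ, t, htq, ht, htr, m, hdeg, hirr, y₀, hy₀, rfl⟩ :=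
    exists_level A n e ℓ hℓM hmem hgen hA hy
  haveI := hKfd
  haveI := hdvr
  have hsT : ∃ T : LaurentSeries ↥(AK A K), embK (AK A K) T = (t : LaurentSeries K) :=
    ⟨tq ↥(AK A K) n e, by rw [htq]; exact coeffMap_tq ↥(AK A K) (AK A K).subtype n e⟩
  have hbc : baseChangeHom M K t = tF M hmem :=
    Fermat.Agent.RED.CUSP.RankConcrete16.baseChangeHom_eq_tF M K hmem t htq
  have := exists_frac_of_level A K ℓ hA hℓM hϖ t ht htr hdeg hirr hsT hy₀
  rwa [hbc] at this

/-- **(L4), chart `t⁻¹`.** -/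
theorem exists_frac_red_inv (n e : ℕ) [NeZero n] (ℓ : ℕ) [Fact ℓ.Prime] (hℓM : ¬ ℓ ∣ M)
    (hmem : TMem n e M) (hgen : TGenBase n e) (hA : A.LiesOverPrime ℓ)
    {y : LaurentSeries (IsLocalRing.ResidueField ↥A)}
    (hy : y ∈ modularFunctionFieldFullC (IsLocalRing.ResidueField ↥A) M) :
    ∃ (Ya Yb : LaurentSeries ↥A) (ha : coeffMap A.subtype Ya ∈ Fbar M)
      (hb : coeffMap A.subtype Yb ∈ Fbar M),
      (⟨_, ha⟩ : ↥(Fbar M)) ∈ chart ↥A (tF M hmem)⁻¹ ∧
      (⟨_, hb⟩ : ↥(Fbar M)) ∈ chart ↥A (tF M hmem)⁻¹ ∧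
      coeffMap (IsLocalRing.residue ↥A) Yb ≠ 0 ∧
      y * coeffMap (IsLocalRing.residue ↥A) Yb = coeffMap (IsLocalRing.residue ↥A) Ya := by
  obtain ⟨K, hKfd, hdvr, ϖ, hϖ, t, htq, ht, htr, m, hdeg, hirr, y₀, hy₀, rfl⟩ :=
    exists_level A n e ℓ hℓM hmem hgen hA hy
  haveI := hKfd
  haveI := hdvr
  have hsT : ∃ T : LaurentSeries ↥(AK A K),
      embK (AK A K) T = ((t⁻¹ : ↥(FK M K)) : LaurentSeries K) := by
    obtain ⟨T, hT⟩ := exists_tq_mul_eq_one ↥(AK A K) n e
    refine ⟨T, ?_⟩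
    have h1 : tq K n e * embK (AK A K) T = 1 := by
      have := congrArg (embK (AK A K)) hT
      rw [map_mul, map_one] at this
      rw [← this]
      congr 1
      exact (coeffMap_tq ↥(AK A K) (AK A K).subtype n e).symm
    show embK (AK A K) T = ((t : LaurentSeries K))⁻¹
    rw [htq]
    exact eq_inv_of_mul_eq_one_right h1
  have hbc : baseChangeHom M K t⁻¹ = (tF M hmem)⁻¹ := by
    rw [map_inv₀, Fermat.Agent.RED.CUSP.RankConcrete16.baseChangeHom_eq_tF M K hmem t htq]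
  have := exists_frac_of_level A K ℓ hA hℓM hϖ t⁻¹ (tinv_mem_gaussRing t ht htr)
    (transcendental_inv t ht htr) (degLe_inv t ht htr hdeg) (irr_inv t ht htr hirr) hsT hy₀
  rwa [hbc] at this

/-- (L4) for both charts in terms of `Setup8.gaussA` / `Setup8.redA`. -/
theorem exists_frac_redA (n e : ℕ) [NeZero n] (ℓ : ℕ) [Fact ℓ.Prime] (hℓM : ¬ ℓ ∣ M)
    (hmem : TMem n e M) (hgen : TGenBase n e) (hA : A.LiesOverPrime ℓ)
    {y : LaurentSeries (IsLocalRing.ResidueField ↥A)}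
    (hy : y ∈ modularFunctionFieldFullC (IsLocalRing.ResidueField ↥A) M) :
    (∃ a b : ↥(Setup8.gaussA A (Fbar M)),
      (a : ↥(Fbar M)) ∈ chart ↥A (tF M hmem) ∧ (b : ↥(Fbar M)) ∈ chart ↥A (tF M hmem) ∧
      Setup8.redA A (Fbar M) b ≠ 0 ∧
      y * Setup8.redA A (Fbar M) b = Setup8.redA A (Fbar M) a) ∧
    (∃ a b : ↥(Setup8.gaussA A (Fbar M)),
      (a : ↥(Fbar M)) ∈ chart ↥A (tF M hmem)⁻¹ ∧ (b : ↥(Fbar M)) ∈ chart ↥A (tF M hmem)⁻¹ ∧
      Setup8.redA A (Fbar M) b ≠ 0 ∧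
      y * Setup8.redA A (Fbar M) b = Setup8.redA A (Fbar M) a) := by
  constructor
  · obtain ⟨Ya, Yb, ha, hb, hac, hbc, hb0, hab⟩ := exists_frac_red A n e ℓ hℓM hmem hgen hA hy
    refine ⟨Setup8.ofSeries A (Fbar M) Ya ha, Setup8.ofSeries A (Fbar M) Yb hb, hac, hbc, ?_, ?_⟩
    · rw [Setup8.redA_ofSeries]; exact hb0
    · rw [Setup8.redA_ofSeries, Setup8.redA_ofSeries]; exact hab
  · obtain ⟨Ya, Yb, ha, hb, hac, hbc, hb0, hab⟩ := exists_frac_red_inv A n e ℓ hℓM hmem hgen hA hy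
    refine ⟨Setup8.ofSeries A (Fbar M) Ya ha, Setup8.ofSeries A (Fbar M) Yb hb, hac, hbc, ?_, ?_⟩
    · rw [Setup8.redA_ofSeries]; exact hb0
    · rw [Setup8.redA_ofSeries, Setup8.redA_ofSeries]; exact hab

end Concrete

end Fermat.Agent.ES.RED.FracRed16
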