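/-
Program I (S37), chapter ES/RED — helper21.  (R3), generic Galois side.

For a valuation subring `A` of `L` (over a base field `K₀`) and `g` in the decomposition group
`D_A`:
* `sigmaA g : A →+* A`, `psiRes g : κ_A ≃+* κ_A` (the induced automorphism of the residue field)
  and their compatibility with `A ⊂ L` and `A → κ_A`, on coefficients of Laurent series;
* inertia elements induce the identity on `κ_A`, Frobenius elements the `q`-power map;
* semilinear ring automorphisms preserve the charts `ChartGeneric22.chart R t` when they fix `t`.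
-/
import Mathlib
import Fermat.Prelude.Def_ModularCurve_ArithmeticGalois
import Fermat.Prelude.Def_ModularCurve_ReductionModL
import Fermat.Prelude.Def_EllipticCurve_FrobeniusTrace
import Fermat.Agent.RED.PUR.ChartGeneric22
import Fermat.Agent.ES.KRON.FrobPlace13

set_option autoImplicit false
set_option linter.unusedSectionVars false

noncomputable section

open HahnSeries IntermediateField AlgebraicCurve ModularCurve Polynomial

namespace Fermat.Agent.ES.RED.GaloisRed21

open Fermat.Agent.RED.PUR.ChartGeneric22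

/-! ### The decomposition group acting on `A`, on `κ_A` and on Laurent series over them -/

section Decomposition

variable {K₀ L : Type*} [Field K₀] [Field L] [Algebra K₀ L] (A : ValuationSubring L)

/-- the ring endomorphism of `A` induced by `g ∈ D_A`. -/
def sigmaA (g : A.decompositionSubgroup K₀) : ↥A →+* ↥A :=
  MulSemiringAction.toRingHom (A.decompositionSubgroup K₀) ↥A g

/-- the ring automorphism of the residue field of `A` induced by `g ∈ D_A`. -/
def psiRes (g : A.decompositionSubgroup K₀) :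
    IsLocalRing.ResidueField ↥A ≃+* IsLocalRing.ResidueField ↥A :=
  MulSemiringAction.toRingAut (A.decompositionSubgroup K₀) (IsLocalRing.ResidueField ↥A) g

@[simp] theorem coe_sigmaA (g : A.decompositionSubgroup K₀) (a : ↥A) :
    ((sigmaA A g a : ↥A) : L) = (g : L ≃ₐ[K₀] L) (a : L) := rfl

theorem psiRes_apply (g : A.decompositionSubgroup K₀) (x : IsLocalRing.ResidueField ↥A) :
    psiRes A g x = g • x := rfl

theorem psiRes_residue (g : A.decompositionSubgroup K₀) (a : ↥A) :
    psiRes A g (IsLocalRing.residue ↥A a) = IsLocalRing.residue ↥A (sigmaA A g a) := rfl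

theorem subtype_comp_sigmaA (g : A.decompositionSubgroup K₀) :
    A.subtype.comp (sigmaA A g) = (((g : L ≃ₐ[K₀] L) : L ≃+* L) : L →+* L).comp A.subtype :=
  RingHom.ext fun _ => rfl

theorem residue_comp_sigmaA (g : A.decompositionSubgroup K₀) :
    (IsLocalRing.residue ↥A).comp (sigmaA A g) =
      ((psiRes A g : _ ≃+* _) : _ →+* _).comp (IsLocalRing.residue ↥A) :=
  RingHom.ext fun _ => rfl

theorem coeffMap_subtype_sigmaA (g : A.decompositionSubgroup K₀) (Y : LaurentSeries ↥A) :
    coeffMap A.subtype (coeffMap (sigmaA A g) Y) =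
      coeffMap (((g : L ≃ₐ[K₀] L) : L ≃+* L) : L →+* L) (coeffMap A.subtype Y) := by
  rw [coeffMap_coeffMap, coeffMap_coeffMap, subtype_comp_sigmaA]

theorem coeffMap_residue_sigmaA (g : A.decompositionSubgroup K₀) (Y : LaurentSeries ↥A) :
    coeffMap (IsLocalRing.residue ↥A) (coeffMap (sigmaA A g) Y) =
      coeffMap ((psiRes A g : _ ≃+* _) : _ →+* _) (coeffMap (IsLocalRing.residue ↥A) Y) := by
  rw [coeffMap_coeffMap, coeffMap_coeffMap, residue_comp_sigmaA]

theorem sigmaA_mul (g h : A.decompositionSubgroup K₀) (a : ↥A) :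
    sigmaA A (g * h) a = sigmaA A g (sigmaA A h a) := mul_smul g h a

theorem sigmaA_inv_sigmaA (g : A.decompositionSubgroup K₀) (a : ↥A) :
    sigmaA A g⁻¹ (sigmaA A g a) = a := inv_smul_smul g a

theorem sigmaA_sigmaA_inv (g : A.decompositionSubgroup K₀) (a : ↥A) :
    sigmaA A g (sigmaA A g⁻¹ a) = a := smul_inv_smul g a

theorem coeffMap_sigmaA_inv_sigmaA (g : A.decompositionSubgroup K₀) (Y : LaurentSeries ↥A) :
    coeffMap (sigmaA A g⁻¹) (coeffMap (sigmaA A g) Y) = Y := by
  rw [coeffMap_coeffMap]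
  ext n
  rw [coeffMap_coeff]
  exact congrArg Subtype.val (sigmaA_inv_sigmaA A g _)

theorem coeffMap_sigmaA_sigmaA_inv (g : A.decompositionSubgroup K₀) (Y : LaurentSeries ↥A) :
    coeffMap (sigmaA A g) (coeffMap (sigmaA A g⁻¹) Y) = Y := by
  rw [coeffMap_coeffMap]
  ext n
  rw [coeffMap_coeff]
  exact congrArg Subtype.val (sigmaA_sigmaA_inv A g _)

/-- inertia elements act trivially on the residue field. -/
theorem psiRes_eq_one_of_mem_inertia {τ : L ≃ₐ[K₀] L} (hτ : τ ∈ A.inertiaSubgroupIn K₀) :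
    ∃ h : τ ∈ A.decompositionSubgroup K₀, psiRes A ⟨τ, h⟩ = RingEquiv.refl _ := by
  obtain ⟨g, hg, rfl⟩ := hτ
  refine ⟨g.2, ?_⟩
  have : MulSemiringAction.toRingAut (A.decompositionSubgroup K₀)
      (IsLocalRing.ResidueField ↥A) g = 1 := hg
  exact this

/-- Frobenius elements act as the `q`-power map on the residue field. -/
theorem psiRes_of_isFrobeniusAt {σ : L ≃ₐ[K₀] L} {q : ℕ} (h : A.IsFrobeniusAt σ q)
    (x : IsLocalRing.ResidueField ↥A) :
    psiRes A ⟨σ, h.mem_decompositionSubgroup⟩ x = x ^ q :=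
  h.smul_residue_eq x

end Decomposition

/-! ### Semilinear automorphisms preserve charts -/

section Chart

variable {R F : Type*} [CommRing R] [Field F] [Algebra R F]

/-- a ring automorphism `s` of `F`, semilinear over `sR : R →+* R` and fixing `t`, maps
`R[t]` into itself. -/
theorem map_mem_adjoin_of_semilinear (s : F →+* F) (sR : R →+* R)
    (hs : ∀ a : R, s (algebraMap R F a) = algebraMap R F (sR a)) {t : F} (ht : s t = t)
    {y : F} (hy : y ∈ Algebra.adjoin R {t}) : s y ∈ Algebra.adjoin R {t} := by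
  induction hy using Algebra.adjoin_induction with
  | mem x hx =>
    rw [Set.mem_singleton_iff] at hx
    subst hx
    rw [ht]
    exact Algebra.self_mem_adjoin_singleton R _
  | algebraMap r =>
    rw [hs]
    exact Subalgebra.algebraMap_mem _ _
  | add x y _ _ hx hy =>
    rw [map_add]
    exact add_mem hx hy
  | mul x y _ _ hx hy =>
    rw [map_mul]
    exact mul_mem hx hy

/-- a ring endomorphism `s` of `F`, semilinear over `sR : R →+* R` and fixing `t`, maps the chart
`chart R t` (integral closure of `R[t]` in `F`) into itself. -/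
theorem map_mem_chart_of_semilinear (s : F →+* F) (sR : R →+* R)
    (hs : ∀ a : R, s (algebraMap R F a) = algebraMap R F (sR a)) {t : F} (ht : s t = t)
    {x : F} (hx : x ∈ chart R t) : s x ∈ chart R t := by
  rw [mem_chart_iff, isIntegral_subalgebra_iff] at hx ⊢
  obtain ⟨P, hP, hcoeff, hPx⟩ := hx
  refine ⟨P.map s, hP.map s, fun i => ?_, ?_⟩
  · rw [coeff_map]
    exact map_mem_adjoin_of_semilinear s sR hs ht (hcoeff i)
  · rw [eval_map, eval₂_at_apply, hPx, map_zero]

end Chart

/-! ### Equivariance of the reduction of divisors and divisor classes -/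

section Equivariance

variable {L : Type*} [Field L] [Algebra ℚ L] {A : ValuationSubring L}
variable {k : Type*} [Field k] {π : ↥A →+* k} {N : ℕ}
variable (r : Place L (laurentBaseChange L (modularFunctionFieldFull N)) →
  Place k (modularFunctionFieldFullC k N))

/-- if `r (g • P) = h • r P` for all places `P`, then `r_* (g • D) = h • r_* D` on divisors. -/
theorem mapDomain_smul
    (g : SemilinearAut L (laurentBaseChange L (modularFunctionFieldFull N)))
    (h : SemilinearAut k (modularFunctionFieldFullC k N))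
    (hgh : ∀ P, r (g • P) = h • r P)
    (D : Divisor L (laurentBaseChange L (modularFunctionFieldFull N))) :
    Finsupp.mapDomain r (g • D) = h • Finsupp.mapDomain r D := by
  rw [SemilinearAut.divisor_smul_def, SemilinearAut.divisor_smul_def, ← Finsupp.mapDomain_comp,
    ← Finsupp.mapDomain_comp]
  congr 1
  funext P
  exact hgh P

/-- if `r (g • P) = h • r P` for all places `P`, then the reduction map on `Pic⁰` intertwines
`g` and `h`. -/
theorem reductionPic0Along_smul (hr : IsPlaceReductionAlong A π N r)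
    (hgen : PrincipalGeneratedByIntegral A π N)
    (g : SemilinearAut L (laurentBaseChange L (modularFunctionFieldFull N)))
    (h : SemilinearAut k (modularFunctionFieldFullC k N))
    (hgh : ∀ P, r (g • P) = h • r P)
    (x : Pic0 L (laurentBaseChange L (modularFunctionFieldFull N))) :
    reductionPic0Along r hr hgen (g • x) = h • reductionPic0Along r hr hgen x := by
  obtain ⟨D, rfl⟩ := Pic0.mk_surjective x
  rw [SemilinearAut.pic0_smul_mk, reductionPic0Along_mk, reductionPic0Along_mk,
    SemilinearAut.pic0_smul_mk]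
  congr 1
  apply Subtype.ext
  rw [coe_reductionDegZeroAlong, SemilinearAut.coe_degZeroSMulHom, SemilinearAut.coe_degZeroSMulHom,
    coe_reductionDegZeroAlong]
  exact mapDomain_smul r g h hgh _

/-- the case `h = 1`: `r (g • P) = r P` for all `P` implies `red (g • x) = red x`. -/
theorem reductionPic0Along_smul_of_fixed (hr : IsPlaceReductionAlong A π N r)
    (hgen : PrincipalGeneratedByIntegral A π N)
    (g : SemilinearAut L (laurentBaseChange L (modularFunctionFieldFull N)))
    (hg : ∀ P, r (g • P) = r P)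
    (x : Pic0 L (laurentBaseChange L (modularFunctionFieldFull N))) :
    reductionPic0Along r hr hgen (g • x) = reductionPic0Along r hr hgen x := by
  have := reductionPic0Along_smul r hr hgen g 1 (fun P => by rw [hg P, one_smul]) x
  rwa [one_smul] at this

end Equivariance

/-! ### (R3), formal part: from the characterisation of `r P` through a chart ring -/

section R3

variable {L : Type*} [Field L] [Algebra ℚ L] (A : ValuationSubring L) (M : ℕ) [NeZero M]

set_option quotPrecheck false in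
local notation "κ" => IsLocalRing.ResidueField (Subtype (Membership.mem A))
set_option quotPrecheck false in
local notation "FL" => laurentBaseChange L (modularFunctionFieldFull M)
set_option quotPrecheck false in
local notation "Fκ" =>
  modularFunctionFieldFullC (IsLocalRing.ResidueField (Subtype (Membership.mem A))) M

/-- The characterisation of the reduction `Q` of `P` through a chart ring, in order form:
`C` is the set of `A`-integral `q`-expansions `Y` of the elements of the chart ring `B^A`; every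
`Ỹ` is regular at `Q`, and `Y(P) = 0` implies `Ỹ(Q) = 0`. -/
def RedAt (C : Set (LaurentSeries ↥A)) (hF : ∀ Y ∈ C, coeffMap A.subtype Y ∈ FL)
    (hFκ : ∀ Y ∈ C, coeffMap (IsLocalRing.residue ↥A) Y ∈ Fκ)
    (P : Place L FL) (Q : Place κ Fκ) : Prop :=
  ∀ (Y : LaurentSeries ↥A) (hY : Y ∈ C),
    0 ≤ Q.ord (⟨_, hFκ Y hY⟩ : Fκ) ∧
      (0 < P.ord (⟨_, hF Y hY⟩ : FL) →
        coeffMap (IsLocalRing.residue ↥A) Y = 0 ∨ 0 < Q.ord (⟨_, hFκ Y hY⟩ : Fκ))

variable {A M}

/-- **(R3), formal part.**  If the chart ring `C` is stable under `g⁻¹ ∈ D_A` and `Q` is a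
reduction of `P` through `C`, then `g_ψ • Q` (`ψ` the automorphism of the residue field induced
by `g`) is a reduction of `g • P` through `C`. -/
theorem redAt_smul (C : Set (LaurentSeries ↥A)) (hF : ∀ Y ∈ C, coeffMap A.subtype Y ∈ FL)
    (hFκ : ∀ Y ∈ C, coeffMap (IsLocalRing.residue ↥A) Y ∈ Fκ)
    (g : A.decompositionSubgroup ℚ) (hC : ∀ Y ∈ C, coeffMap (sigmaA A g⁻¹) Y ∈ C)
    (P : Place L FL) (Q : Place κ Fκ) (h : RedAt A M C hF hFκ P Q) :
    RedAt A M C hF hFκ
      (arithmeticGalois (modularFunctionFieldFull M) (g : L ≃ₐ[ℚ] L) • P)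
      (Fermat.Agent.ES.KRON.FrobPlace13.coeffSemi κ M (psiRes A g) • Q) := by
  intro Y hY
  set Y' := coeffMap (sigmaA A g⁻¹) Y with hY'
  have hY'C : Y' ∈ C := hC Y hY
  obtain ⟨h1, h2⟩ := h Y' hY'C
  -- the two transport identities
  have eL : (arithmeticGalois (modularFunctionFieldFull M) (g : L ≃ₐ[ℚ] L)) •
      (⟨_, hF Y' hY'C⟩ : FL) = (⟨_, hF Y hY⟩ : FL) := by
    apply Subtype.ext
    rw [coe_arithmeticGalois_smul]
    show coeffMap _ (coeffMap A.subtype (coeffMap (sigmaA A g⁻¹) Y)) = _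
    have := coeffMap_subtype_sigmaA A g (coeffMap (sigmaA A g⁻¹) Y)
    rw [coeffMap_sigmaA_sigmaA_inv] at this
    exact this.symm
  have eκ : (Fermat.Agent.ES.KRON.FrobPlace13.coeffSemi κ M (psiRes A g)) •
      (⟨_, hFκ Y' hY'C⟩ : Fκ) = (⟨_, hFκ Y hY⟩ : Fκ) := by
    apply Subtype.ext
    rw [Fermat.Agent.ES.KRON.FrobPlace13.coe_coeffSemi_smul]
    show coeffMap _ (coeffMap (IsLocalRing.residue ↥A) (coeffMap (sigmaA A g⁻¹) Y)) = _
    have := coeffMap_residue_sigmaA A g (coeffMap (sigmaA A g⁻¹) Y)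
    rw [coeffMap_sigmaA_sigmaA_inv] at this
    exact this.symm
  have oL : (arithmeticGalois (modularFunctionFieldFull M) (g : L ≃ₐ[ℚ] L) • P).ord
      (⟨_, hF Y hY⟩ : FL) = P.ord (⟨_, hF Y' hY'C⟩ : FL) := by
    rw [← eL, SemilinearAut.ord_smul]
  have oκ : (Fermat.Agent.ES.KRON.FrobPlace13.coeffSemi κ M (psiRes A g) • Q).ord
      (⟨_, hFκ Y hY⟩ : Fκ) = Q.ord (⟨_, hFκ Y' hY'C⟩ : Fκ) := by
    rw [← eκ, SemilinearAut.ord_smul]
  rw [oκ, oL]
  refine ⟨h1, fun hpos => ?_⟩
  rcases h2 hpos with h0 | h0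
  · left
    have := congrArg (fun z : Fκ => (z : LaurentSeries κ)) eκ
    simp only at this
    rw [← this, Fermat.Agent.ES.KRON.FrobPlace13.coe_coeffSemi_smul]
    show coeffMap _ (coeffMap (IsLocalRing.residue ↥A) Y') = 0
    rw [h0, map_zero]
  · right
    exact h0

/-- **(R3) from uniqueness.**  If `r P` is a reduction of `P` through `C` and the reduction of
`g • P` through `C` is unique, then `r (g • P) = g_ψ • r P`. -/
theorem r_smul_eq (r : Place L FL → Place κ Fκ)
    (C : Set (LaurentSeries ↥A)) (hF : ∀ Y ∈ C, coeffMap A.subtype Y ∈ FL)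
    (hFκ : ∀ Y ∈ C, coeffMap (IsLocalRing.residue ↥A) Y ∈ Fκ)
    (g : A.decompositionSubgroup ℚ) (hC : ∀ Y ∈ C, coeffMap (sigmaA A g⁻¹) Y ∈ C)
    (P : Place L FL) (hR1 : RedAt A M C hF hFκ P (r P))
    (hR1u : ∀ Q : Place κ Fκ, RedAt A M C hF hFκ
      (arithmeticGalois (modularFunctionFieldFull M) (g : L ≃ₐ[ℚ] L) • P) Q →
      Q = r (arithmeticGalois (modularFunctionFieldFull M) (g : L ≃ₐ[ℚ] L) • P)) :
    r (arithmeticGalois (modularFunctionFieldFull M) (g : L ≃ₐ[ℚ] L) • P) =
      Fermat.Agent.ES.KRON.FrobPlace13.coeffSemi κ M (psiRes A g) • r P :=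
  (hR1u _ (redAt_smul C hF hFκ g hC P (r P) hR1)).symm

/-- inertia elements induce the trivial semilinear automorphism of the special fibre. -/
theorem coeffSemi_psiRes_of_mem_inertia {τ : L ≃ₐ[ℚ] L} (hτ : τ ∈ A.inertiaSubgroupIn ℚ) :
    ∃ h : τ ∈ A.decompositionSubgroup ℚ,
      Fermat.Agent.ES.KRON.FrobPlace13.coeffSemi κ M (psiRes A ⟨τ, h⟩) = 1 := by
  obtain ⟨h, hψ⟩ := psiRes_eq_one_of_mem_inertia A hτ
  refine ⟨h, ?_⟩
  rw [hψ]
  exact (Fermat.Agent.ES.KRON.FrobPlace13.coeffSemiHom κ M).map_one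

/-- Frobenius elements induce the coefficientwise Frobenius of the special fibre. -/
theorem coeffSemi_psiRes_of_isFrobeniusAt {σ : L ≃ₐ[ℚ] L} {ℓ : ℕ} [ExpChar κ ℓ] [PerfectField κ]
    (h : A.IsFrobeniusAt σ ℓ) :
    Fermat.Agent.ES.KRON.FrobPlace13.coeffSemi κ M (psiRes A ⟨σ, h.mem_decompositionSubgroup⟩) =
      Fermat.Agent.ES.KRON.FrobPlace13.frobSemi κ ℓ M := by
  have : psiRes A ⟨σ, h.mem_decompositionSubgroup⟩ = frobeniusEquiv κ ℓ := by
    ext x
    rw [psiRes_of_isFrobeniusAt A h x, frobeniusEquiv_apply, frobenius_def]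
  rw [this]
  rfl

/-- **(R3) for inertia.** -/
theorem r_smul_eq_of_mem_inertia (r : Place L FL → Place κ Fκ)
    (C : Set (LaurentSeries ↥A)) (hF : ∀ Y ∈ C, coeffMap A.subtype Y ∈ FL)
    (hFκ : ∀ Y ∈ C, coeffMap (IsLocalRing.residue ↥A) Y ∈ Fκ)
    (hC : ∀ g : A.decompositionSubgroup ℚ, ∀ Y ∈ C, coeffMap (sigmaA A g) Y ∈ C)
    {τ : L ≃ₐ[ℚ] L} (hτ : τ ∈ A.inertiaSubgroupIn ℚ)
    (P : Place L FL) (hR1 : RedAt A M C hF hFκ P (r P))
    (hR1u : ∀ Q : Place κ Fκ, RedAt A M C hF hFκ
      (arithmeticGalois (modularFunctionFieldFull M) τ • P) Q →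
      Q = r (arithmeticGalois (modularFunctionFieldFull M) τ • P)) :
    r (arithmeticGalois (modularFunctionFieldFull M) τ • P) = r P := by
  obtain ⟨h, h1⟩ := coeffSemi_psiRes_of_mem_inertia (M := M) hτ
  have := r_smul_eq r C hF hFκ ⟨τ, h⟩ (hC _) P hR1 hR1u
  rw [h1, one_smul] at this
  exact this

/-- **(R3) for Frobenius elements.** -/
theorem r_smul_eq_of_isFrobeniusAt (r : Place L FL → Place κ Fκ)
    (C : Set (LaurentSeries ↥A)) (hF : ∀ Y ∈ C, coeffMap A.subtype Y ∈ FL)
    (hFκ : ∀ Y ∈ C, coeffMap (IsLocalRing.residue ↥A) Y ∈ Fκ)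
    (hC : ∀ g : A.decompositionSubgroup ℚ, ∀ Y ∈ C, coeffMap (sigmaA A g) Y ∈ C)
    {σ : L ≃ₐ[ℚ] L} {ℓ : ℕ} [ExpChar κ ℓ] [PerfectField κ] (hσ : A.IsFrobeniusAt σ ℓ)
    (P : Place L FL) (hR1 : RedAt A M C hF hFκ P (r P))
    (hR1u : ∀ Q : Place κ Fκ, RedAt A M C hF hFκ
      (arithmeticGalois (modularFunctionFieldFull M) σ • P) Q →
      Q = r (arithmeticGalois (modularFunctionFieldFull M) σ • P)) :
    r (arithmeticGalois (modularFunctionFieldFull M) σ • P) =
      Fermat.Agent.ES.KRON.FrobPlace13.frobSemi κ ℓ M • r P := by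
  have := r_smul_eq r C hF hFκ ⟨σ, hσ.mem_decompositionSubgroup⟩ (hC _) P hR1 hR1u
  rw [coeffSemi_psiRes_of_isFrobeniusAt (M := M) hσ] at this
  exact this

end R3

end Fermat.Agent.ES.RED.GaloisRed21
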