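/-
Program I (S37), chapter ES/RED — helper21.  (R3): the decomposition group acting on the chart
rings over `A`.

* `chartEquivOfSemilinear`: a ring automorphism `s` of `F`, semilinear over `sR : R ≃+* R` and
  fixing `t`, restricts to a ring automorphism of `ChartGeneric22.chart R t`.
* `chartAut`: for `g ∈ D_A` and `t ∈ F_L := laurentBaseChange L F₀` fixed by the coefficientwise
  action of `g`, the induced automorphism of `chart ↥A t`.
-/
import Mathlib
import Fermat.Agent.ES.RED.GaloisRed21

set_option autoImplicit false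
set_option linter.unusedSectionVars false

noncomputable section

open HahnSeries IntermediateField AlgebraicCurve ModularCurve Polynomial

namespace Fermat.Agent.ES.RED.GaloisChart21

open Fermat.Agent.RED.PUR.ChartGeneric22 Fermat.Agent.ES.RED.GaloisRed21

section Generic

variable {R F : Type*} [CommRing R] [Field F] [Algebra R F]

theorem symm_semilinear (s : F ≃+* F) (sR : R ≃+* R)
    (hs : ∀ a : R, s (algebraMap R F a) = algebraMap R F (sR a)) (a : R) :
    s.symm (algebraMap R F a) = algebraMap R F (sR.symm a) := by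
  apply s.injective
  rw [RingEquiv.apply_symm_apply, hs, RingEquiv.apply_symm_apply]

/-- the automorphism of the chart induced by a semilinear automorphism of `F` fixing `t`. -/
def chartEquivOfSemilinear (s : F ≃+* F) (sR : R ≃+* R)
    (hs : ∀ a : R, s (algebraMap R F a) = algebraMap R F (sR a)) {t : F} (ht : s t = t) :
    ↥(chart R t) ≃+* ↥(chart R t) where
  toFun x := ⟨s x, map_mem_chart_of_semilinear (s : F →+* F) (sR : R →+* R) hs ht x.2⟩
  invFun x := ⟨s.symm x, map_mem_chart_of_semilinear (s.symm : F →+* F) (sR.symm : R →+* R)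
    (symm_semilinear s sR hs) (by
      show s.symm t = t
      apply s.injective
      rw [RingEquiv.apply_symm_apply, ht]) x.2⟩
  left_inv x := Subtype.ext (s.symm_apply_apply _)
  right_inv x := Subtype.ext (s.apply_symm_apply _)
  map_mul' x y := Subtype.ext (map_mul s _ _)
  map_add' x y := Subtype.ext (map_add s _ _)

@[simp] theorem coe_chartEquivOfSemilinear (s : F ≃+* F) (sR : R ≃+* R)
    (hs : ∀ a : R, s (algebraMap R F a) = algebraMap R F (sR a)) {t : F} (ht : s t = t)
    (x : ↥(chart R t)) : ((chartEquivOfSemilinear s sR hs ht x : ↥(chart R t)) : F) = s x := rfl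

@[simp] theorem coe_chartEquivOfSemilinear_symm (s : F ≃+* F) (sR : R ≃+* R)
    (hs : ∀ a : R, s (algebraMap R F a) = algebraMap R F (sR a)) {t : F} (ht : s t = t)
    (x : ↥(chart R t)) :
    (((chartEquivOfSemilinear s sR hs ht).symm x : ↥(chart R t)) : F) = s.symm x := rfl

end Generic

section Decomposition

variable {L : Type*} [Field L] [Algebra ℚ L] (A : ValuationSubring L)
  (F₀ : IntermediateField ℚ (LaurentSeries ℚ))
  [Algebra ↥A ↥(laurentBaseChange L F₀)]

/-- the ring automorphism of `A` induced by `g ∈ D_A`. -/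
def sigmaAEquiv (g : A.decompositionSubgroup ℚ) : ↥A ≃+* ↥A :=
  MulSemiringAction.toRingEquiv (A.decompositionSubgroup ℚ) ↥A g

@[simp] theorem sigmaAEquiv_apply (g : A.decompositionSubgroup ℚ) (a : ↥A) :
    sigmaAEquiv A g a = sigmaA A g a := rfl

theorem arithmeticRingAut_algebraMap_A
    (halg : ∀ a : ↥A, algebraMap ↥A ↥(laurentBaseChange L F₀) a =
      algebraMap L ↥(laurentBaseChange L F₀) (a : L))
    (g : A.decompositionSubgroup ℚ) (a : ↥A) :
    arithmeticRingAut F₀ (g : L ≃ₐ[ℚ] L) (algebraMap ↥A ↥(laurentBaseChange L F₀) a) =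
      algebraMap ↥A ↥(laurentBaseChange L F₀) (sigmaAEquiv A g a) := by
  rw [halg, halg, arithmeticRingAut_algebraMap]
  rfl

/-- **the automorphism of the chart ring `chart ↥A t` induced by `g ∈ D_A`** (`t` has
`g`-invariant coefficients). -/
def chartAut
    (halg : ∀ a : ↥A, algebraMap ↥A ↥(laurentBaseChange L F₀) a =
      algebraMap L ↥(laurentBaseChange L F₀) (a : L))
    (g : A.decompositionSubgroup ℚ) {t : ↥(laurentBaseChange L F₀)}
    (ht : arithmeticRingAut F₀ (g : L ≃ₐ[ℚ] L) t = t) :
    ↥(chart ↥A t) ≃+* ↥(chart ↥A t) :=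
  chartEquivOfSemilinear (arithmeticRingAut F₀ (g : L ≃ₐ[ℚ] L)) (sigmaAEquiv A g)
    (arithmeticRingAut_algebraMap_A A F₀ halg g) ht

theorem coe_chartAut
    (halg : ∀ a : ↥A, algebraMap ↥A ↥(laurentBaseChange L F₀) a =
      algebraMap L ↥(laurentBaseChange L F₀) (a : L))
    (g : A.decompositionSubgroup ℚ) {t : ↥(laurentBaseChange L F₀)}
    (ht : arithmeticRingAut F₀ (g : L ≃ₐ[ℚ] L) t = t) (x : ↥(chart ↥A t)) :
    (((chartAut A F₀ halg g ht x : ↥(chart ↥A t)) : ↥(laurentBaseChange L F₀)) :
      LaurentSeries L) = coeffMap (((g : L ≃ₐ[ℚ] L) : L ≃+* L) : L →+* L)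
        ((x : ↥(laurentBaseChange L F₀)) : LaurentSeries L) := rfl

/-- `arithmeticGalois g • x` for `x` in the chart, as an element of the chart. -/
theorem chartAut_eq_smul
    (halg : ∀ a : ↥A, algebraMap ↥A ↥(laurentBaseChange L F₀) a =
      algebraMap L ↥(laurentBaseChange L F₀) (a : L))
    (g : A.decompositionSubgroup ℚ) {t : ↥(laurentBaseChange L F₀)}
    (ht : arithmeticRingAut F₀ (g : L ≃ₐ[ℚ] L) t = t) (x : ↥(chart ↥A t)) :
    ((chartAut A F₀ halg g ht x : ↥(chart ↥A t)) : ↥(laurentBaseChange L F₀)) =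
      arithmeticGalois F₀ (g : L ≃ₐ[ℚ] L) • (x : ↥(laurentBaseChange L F₀)) := rfl

end Decomposition

end Fermat.Agent.ES.RED.GaloisChart21
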