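/-
Program I (S37), chapter RED — helper13.  **(RP), generic part**: the value map of a place of a
function field in one variable over an algebraically closed constant field, and the dictionary
"places containing a Dedekind ring `B` ↔ `K`-algebra homomorphisms `B → K`".  Characteristic free.

Setting: `K` algebraically closed, `F / K` with a generator `x` (`X0.FF.IsGen K x`: `x`
transcendental, `F` finite over `K(x)`), `v : Place K F`.

* `valueHom hx v : O_v →ₐ[K] K` — "`f ↦ f(v)`"; `valueHom_eq_iff`: `f(v) = c ↔ f = c ∨ 0 < ord_v (f - c)`;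
  kernel = maximal ideal, independence of the generator (`valueHom_congr`);
* Dedekind dictionary (`B` a Dedekind domain, not a field, `K ⊆ B`, `Frac B = F`):
  `homOfPlace hx v hB : B →ₐ[K] K` for `B ⊆ O_v`; `placeOfHom F hBK χ : Place K F` for `χ : B →ₐ[K] K`;
  round trips `placeOfHom_homOfPlace`, `homOfPlace_placeOfHom`; uniqueness `eq_of_homOfPlace_eq`;
* semilinear automorphisms (Prelude `SemilinearAut K F`): `valueHom_smul`:
  `(g • f)(g • v) = σ_g (f(v))`.
-/
import Mathlib
import Fermat.Prelude.Def_AlgebraicCurve_BaseChangeGalois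
import Fermat.Agent.X0.FFConst
import Fermat.Agent.X0.FFDedekind

set_option autoImplicit false
set_option linter.unusedSectionVars false
set_option linter.style.haveILetI false

noncomputable section

namespace Fermat.Agent.ES.RED.PlaceValue13

open AlgebraicCurve IsLocalRing IsDedekindDomain
open Fermat.Agent.X0.FF Fermat.Agent.X0.FFDedekind

variable {K F : Type*} [Field K] [IsAlgClosed K] [Field F] [Algebra K F]

/-! ### the value map -/

section Value

variable {x : F} (hx : IsGen K x) (v : Place K F)

/-- `K ≃ κ(v)`. -/
def residueEquiv : K ≃+* v.ResidueField :=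
  RingEquiv.ofBijective (algebraMap K v.ResidueField) (algebraMap_residueField_bijective hx v)

@[simp] theorem residueEquiv_apply (c : K) :
    residueEquiv hx v c = algebraMap K v.ResidueField c := rfl

/-- the value map as a ring homomorphism. -/
def valueRingHom : v.toValuationSubring →+* K :=
  ((residueEquiv hx v).symm : v.ResidueField →+* K).comp (residue v.toValuationSubring)

theorem algebraMap_valueRingHom (f : v.toValuationSubring) :
    algebraMap K v.ResidueField (valueRingHom hx v f) = residue v.toValuationSubring f :=
  (residueEquiv hx v).apply_symm_apply _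

theorem residue_algebraMap (c : K) :
    residue v.toValuationSubring (algebraMap K v.toValuationSubring c) =
      algebraMap K v.ResidueField c := rfl

theorem valueRingHom_algebraMap (c : K) :
    valueRingHom hx v (algebraMap K v.toValuationSubring c) = c := by
  show (residueEquiv hx v).symm (residueEquiv hx v c) = c
  exact RingEquiv.symm_apply_apply _ _

/-- **the value map** `f ↦ f(v)`, a `K`-algebra homomorphism `O_v → K`. -/
def valueHom : v.toValuationSubring →ₐ[K] K :=
  { valueRingHom hx v with
    commutes' := fun c => valueRingHom_algebraMap hx v c }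

@[simp] theorem valueHom_apply (f : v.toValuationSubring) :
    valueHom hx v f = valueRingHom hx v f := rfl

theorem algebraMap_valueHom (f : v.toValuationSubring) :
    algebraMap K v.ResidueField (valueHom hx v f) = residue v.toValuationSubring f :=
  algebraMap_valueRingHom hx v f

theorem valueHom_eq_iff_residue (f : v.toValuationSubring) (c : K) :
    valueHom hx v f = c ↔ residue v.toValuationSubring f = algebraMap K v.ResidueField c := by
  rw [← algebraMap_valueHom hx v f]
  exact ⟨fun h => by rw [h], fun h => (algebraMap K v.ResidueField).injective h⟩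

theorem valueHom_eq_iff_sub_mem (f : v.toValuationSubring) (c : K) :
    valueHom hx v f = c ↔
      f - algebraMap K v.toValuationSubring c ∈ maximalIdeal v.toValuationSubring := by
  rw [valueHom_eq_iff_residue, ← residue_algebraMap, ← sub_eq_zero, ← map_sub,
    residue_eq_zero_iff]

/-- **characterisation of the value**: `f(v) = c ↔ f = c ∨ 0 < ord_v (f - c)`. -/
theorem valueHom_eq_iff (f : v.toValuationSubring) (c : K) :
    valueHom hx v f = c ↔
      ((f : F) = algebraMap K F c ∨ 0 < v.ord ((f : F) - algebraMap K F c)) := by
  rw [valueHom_eq_iff_sub_mem, mem_maximalIdeal_iff]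
  constructor
  · rintro (h | h)
    · left
      have := congrArg (Subtype.val) h
      simpa [sub_eq_zero] using this
    · right; simpa using h
  · rintro (h | h)
    · left
      apply Subtype.ext
      simp [h]
    · right; simpa using h

theorem valueHom_eq_zero_iff (f : v.toValuationSubring) :
    valueHom hx v f = 0 ↔ f ∈ maximalIdeal v.toValuationSubring := by
  rw [valueHom_eq_iff_sub_mem, map_zero, sub_zero]

theorem valueHom_eq_zero_iff_ord (f : v.toValuationSubring) :
    valueHom hx v f = 0 ↔ ((f : F) = 0 ∨ 0 < v.ord (f : F)) := by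
  rw [valueHom_eq_iff, map_zero, sub_zero]

theorem ker_valueHom :
    RingHom.ker (valueHom hx v : v.toValuationSubring →+* K) =
      maximalIdeal v.toValuationSubring := by
  ext f
  rw [RingHom.mem_ker]
  exact valueHom_eq_zero_iff hx v f

theorem valueHom_surjective : Function.Surjective (valueHom hx v) := fun c =>
  ⟨algebraMap K v.toValuationSubring c, (valueHom hx v).commutes c⟩

/-- the value does not depend on the chosen generator. -/
theorem valueHom_congr {x' : F} (hx' : IsGen K x') : valueHom hx v = valueHom hx' v := by
  ext f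
  rw [valueHom_eq_iff_residue, algebraMap_valueHom]

/-- `ord_v (f - f(v)) > 0` unless `f` is constant. -/
theorem sub_valueHom_mem (f : v.toValuationSubring) :
    f - algebraMap K v.toValuationSubring (valueHom hx v f) ∈ maximalIdeal v.toValuationSubring :=
  (valueHom_eq_iff_sub_mem hx v f _).mp rfl

/-- a unit of `O_v` has nonzero value. -/
theorem valueHom_ne_zero_iff (f : v.toValuationSubring) :
    valueHom hx v f ≠ 0 ↔ IsUnit f := by
  rw [Ne, valueHom_eq_zero_iff, mem_maximalIdeal, mem_nonunits_iff, not_not]

end Value

/-! ### semilinear automorphisms -/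

section Semilinear

variable {x : F} (hx : IsGen K x) (g : SemilinearAut K F) (v : Place K F)

/-- **value rule**: `(g • f)(g • v) = σ_g (f(v))`. -/
theorem valueHom_smul (f : v.toValuationSubring) :
    valueHom hx (g • v) (SemilinearAut.smulValuationSubringEquiv g v.toValuationSubring f) =
      SemilinearAut.baseAut g (valueHom hx v f) := by
  rw [valueHom_eq_iff_residue]
  have h1 : residue (g • v).toValuationSubring
      (SemilinearAut.smulValuationSubringEquiv g v.toValuationSubring f) =
      SemilinearAut.smulResidueRingEquiv g v (residue v.toValuationSubring f) := rfl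
  rw [h1, ← algebraMap_valueHom hx v f, SemilinearAut.smulResidueRingEquiv_algebraMap]

/-- value rule, elementwise form: if `f ∈ O_v` then `g • f ∈ O_{g • v}`. -/
theorem smul_mem_smul {f : F} (hf : f ∈ v.toValuationSubring) :
    g • f ∈ (g • v).toValuationSubring :=
  (SemilinearAut.smulValuationSubringEquiv g v.toValuationSubring ⟨f, hf⟩).2

theorem valueHom_smul' {f : F} (hf : f ∈ v.toValuationSubring) :
    valueHom hx (g • v) ⟨g • f, smul_mem_smul g v hf⟩ =
      SemilinearAut.baseAut g (valueHom hx v ⟨f, hf⟩) :=
  valueHom_smul hx g v ⟨f, hf⟩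

end Semilinear

/-! ### the Dedekind dictionary -/

section Dedekind

variable {B : Type*} [CommRing B] [IsDedekindDomain B] [Algebra B F] [IsFractionRing B F]
  [Algebra K B] [IsScalarTower K B F]

variable {x : F} (hx : IsGen K x)

/-- the `K`-algebra hom `B → O_v` for `B ⊆ O_v`. -/
def toValuationSubringAlgHom (v : Place K F)
    (hB : ∀ b : B, algebraMap B F b ∈ v.toValuationSubring) : B →ₐ[K] v.toValuationSubring :=
  { toValuationSubringHom v hB with
    commutes' := fun c => Subtype.ext (by
      show algebraMap B F (algebraMap K B c) = algebraMap K F c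
      rw [← IsScalarTower.algebraMap_apply]) }

@[simp] theorem coe_toValuationSubringAlgHom (v : Place K F)
    (hB : ∀ b : B, algebraMap B F b ∈ v.toValuationSubring) (b : B) :
    ((toValuationSubringAlgHom v hB b : v.toValuationSubring) : F) = algebraMap B F b := rfl

/-- **the point of `Spec B` under a place**: `b ↦ b(v)`. -/
def homOfPlace (v : Place K F) (hB : ∀ b : B, algebraMap B F b ∈ v.toValuationSubring) :
    B →ₐ[K] K :=
  (valueHom hx v).comp (toValuationSubringAlgHom v hB)

theorem homOfPlace_apply (v : Place K F) (hB : ∀ b : B, algebraMap B F b ∈ v.toValuationSubring)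
    (b : B) : homOfPlace hx v hB b = valueHom hx v ⟨algebraMap B F b, hB b⟩ := rfl

/-- `b(v) = c ↔ b = c ∨ 0 < ord_v (b - c)`. -/
theorem homOfPlace_eq_iff (v : Place K F)
    (hB : ∀ b : B, algebraMap B F b ∈ v.toValuationSubring) (b : B) (c : K) :
    homOfPlace hx v hB b = c ↔
      (algebraMap B F b = algebraMap K F c ∨ 0 < v.ord (algebraMap B F b - algebraMap K F c)) := by
  rw [homOfPlace_apply, valueHom_eq_iff]

theorem ker_homOfPlace (v : Place K F)
    (hB : ∀ b : B, algebraMap B F b ∈ v.toValuationSubring) :
    RingHom.ker (homOfPlace hx v hB : B →+* K) = centre v hB := by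
  ext b
  rw [RingHom.mem_ker, mem_centre_iff]
  show valueHom hx v (toValuationSubringHom v hB b) = 0 ↔ _
  rw [valueHom_eq_zero_iff, mem_maximalIdeal, mem_nonunits_iff]

variable (hBK : ¬ IsField B)

/-- the kernel of a `K`-point of `B` as a height-one prime. -/
def specOfHom (χ : B →ₐ[K] K) : HeightOneSpectrum B where
  asIdeal := RingHom.ker (χ : B →+* K)
  isPrime := RingHom.ker_isPrime _
  ne_bot := by
    intro hbot
    apply hBK
    have hinj : Function.Injective χ := (RingHom.injective_iff_ker_eq_bot _).mpr hbot
    have hbij : Function.Bijective χ :=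
      ⟨hinj, fun c => ⟨algebraMap K B c, χ.commutes c⟩⟩
    exact (MulEquiv.isField (Field.toIsField K) (RingEquiv.ofBijective χ hbij).toMulEquiv)

@[simp] theorem specOfHom_asIdeal (χ : B →ₐ[K] K) :
    (specOfHom hBK χ).asIdeal = RingHom.ker (χ : B →+* K) := rfl

variable (F) in
/-- **the place of a `K`-point of `Spec B`.** -/
def placeOfHom (χ : B →ₐ[K] K) : Place K F :=
  Place.ofHeightOneSpectrum (K := K) (F := F) (specOfHom hBK χ)

theorem algebraMap_mem_placeOfHom (χ : B →ₐ[K] K) (b : B) :
    algebraMap B F b ∈ (placeOfHom F hBK χ).toValuationSubring :=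
  algebraMap_mem_ofHeightOneSpectrum (K := K) (F := F) (specOfHom hBK χ) b

theorem centreSpec_placeOfHom (χ : B →ₐ[K] K) :
    centreSpec (placeOfHom F hBK χ) (algebraMap_mem_placeOfHom hBK χ) = specOfHom hBK χ :=
  centreSpec_ofHeightOneSpectrum (K := K) (F := F) (specOfHom hBK χ)

/-- two `K`-points with the same kernel are equal. -/
theorem algHom_ext_of_ker_eq {χ χ' : B →ₐ[K] K}
    (h : RingHom.ker (χ : B →+* K) = RingHom.ker (χ' : B →+* K)) : χ = χ' := by
  ext b
  have h1 : b - algebraMap K B (χ b) ∈ RingHom.ker (χ : B →+* K) := by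
    rw [RingHom.mem_ker]
    show χ (b - algebraMap K B (χ b)) = 0
    rw [map_sub, χ.commutes]
    simp
  rw [h, RingHom.mem_ker] at h1
  have h2 : χ' (b - algebraMap K B (χ b)) = 0 := h1
  rw [map_sub, χ'.commutes, sub_eq_zero] at h2
  simpa using h2.symm

/-- round trip 1: the `K`-point of the place of `χ` is `χ`. -/
theorem homOfPlace_placeOfHom (χ : B →ₐ[K] K) :
    homOfPlace hx (placeOfHom F hBK χ) (algebraMap_mem_placeOfHom hBK χ) = χ := by
  apply algHom_ext_of_ker_eq
  rw [ker_homOfPlace]
  have := congrArg HeightOneSpectrum.asIdeal (centreSpec_placeOfHom (F := F) hBK χ)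
  exact this

/-- round trip 2: a place containing `B` is the place of its `K`-point. -/
theorem placeOfHom_homOfPlace (v : Place K F)
    (hB : ∀ b : B, algebraMap B F b ∈ v.toValuationSubring) :
    placeOfHom F hBK (homOfPlace hx v hB) = v := by
  have h1 : specOfHom hBK (homOfPlace hx v hB) = centreSpec v hB := by
    apply HeightOneSpectrum.ext
    exact ker_homOfPlace hx v hB
  rw [placeOfHom, h1]
  exact ofHeightOneSpectrum_centreSpec v hB

include hBK in
/-- **uniqueness** (R1u-shape): two places containing `B` with the same values on `B` coincide. -/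
theorem eq_of_homOfPlace_eq (v w : Place K F)
    (hv : ∀ b : B, algebraMap B F b ∈ v.toValuationSubring)
    (hw : ∀ b : B, algebraMap B F b ∈ w.toValuationSubring)
    (h : homOfPlace hx v hv = homOfPlace hx w hw) : v = w := by
  rw [← placeOfHom_homOfPlace hx hBK v hv, ← placeOfHom_homOfPlace hx hBK w hw, h]

include hBK in
/-- uniqueness, value form: `∀ b, b(v) = b(w)` suffices. -/
theorem eq_of_forall_value_eq (v w : Place K F)
    (hv : ∀ b : B, algebraMap B F b ∈ v.toValuationSubring)
    (hw : ∀ b : B, algebraMap B F b ∈ w.toValuationSubring)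
    (h : ∀ b : B, valueHom hx v ⟨algebraMap B F b, hv b⟩ = valueHom hx w ⟨algebraMap B F b, hw b⟩) :
    v = w :=
  eq_of_homOfPlace_eq hx hBK v w hv hw (AlgHom.ext h)

include hx in
/-- the places containing `B` are exactly the `placeOfHom χ`. -/
theorem exists_placeOfHom_eq (v : Place K F)
    (hB : ∀ b : B, algebraMap B F b ∈ v.toValuationSubring) :
    ∃ χ : B →ₐ[K] K, placeOfHom F hBK χ = v :=
  ⟨homOfPlace hx v hB, placeOfHom_homOfPlace hx hBK v hB⟩

include hx in
theorem placeOfHom_injective :
    Function.Injective (fun χ : B →ₐ[K] K => placeOfHom F hBK χ) := by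
  intro χ χ' h
  simp only at h
  have h1 := homOfPlace_placeOfHom (F := F) hx hBK χ
  have h2 := homOfPlace_placeOfHom (F := F) hx hBK χ'
  rw [← h1, ← h2]
  congr 1

end Dedekind

end Fermat.Agent.ES.RED.PlaceValue13
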