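/-
Program I (S37), chapter RED, helper8: the ABSTRACT CONTRACT of the reduction map on places
(plan v2, rulings R-2 … R-5).

Setting: `L` algebraically closed, `A : ValuationSubring L`, `k := A / 𝔪_A`; `F / L` a function
field with generator `x` (`X0.FF.IsGen L x`), `Ft / k` a field (the function field of the special
fibre).  A *chart* `S : ChartSpec A hx Ft` is a subring `B ⊆ F` ("the integral closure of `A[s]`
in `F`") with a reduction homomorphism `red : B →+* Ft`, a coordinate `s ∈ B`, such that every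
place `P` of `F` with `s(P) ∈ A` contains `B` with values in `A`, plus strong saturation (R-4)
and `Frac B = F`.

For `P` in the chart:
* `S.ev P hP : B →+* A` (value at `P`), `S.chi P hP : B →+* k` (its residue);
* `S.rSubring P hP := {y | ∃ a d ∈ B, χ_P d ≠ 0 ∧ y * red d = red a}`: the reduced local ring of the
  model at the centre of `P`;  `S.Val P hP` says that it is a valuation ring (VAL);
* `S.rPlace …` the place `r(P)` of `Ft`, `(R1)`: `red f ∈ O_{rP}` with value `χ_P f`,
  `(R1u)`: uniqueness;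
* `S.PeelA P hP` : the peeling property (PEEL-a).
-/
import Mathlib
import Fermat.Agent.ES.RED.PlaceValue13
import Fermat.Agent.ES.HECKE.FundIdentity19

set_option autoImplicit false

noncomputable section

open AlgebraicCurve

namespace Fermat.Agent.ES.RED.Contract8

open Fermat.Agent.X0.FF Fermat.Agent.ES.RED.PlaceValue13

variable {L : Type*} [Field L] [IsAlgClosed L] (A : ValuationSubring L)

/-- the residue field of `A`. -/
abbrev kA : Type _ := IsLocalRing.ResidueField ↥A

/-- the residue map of `A`. -/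
abbrev resA : ↥A →+* kA A := IsLocalRing.residue ↥A

variable {F : Type*} [Field F] [Algebra L F] {x : F} (hx : IsGen L x)

/-- **One chart of the model over `A`**, as elementary data (see the file header). -/
structure ChartSpec (Ft : Type*) [Field Ft] [Algebra (kA A) Ft] where
  /-- the chart ring (integral closure of `A[s]` in `F`) -/
  B : Subring F
  /-- reduction of the chart ring into the function field of the special fibre -/
  red : ↥B →+* Ft
  /-- the coordinate -/
  s : F
  s_mem : s ∈ B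
  const_mem : ∀ a : ↥A, algebraMap L F (a : L) ∈ B
  red_const : ∀ a : ↥A,
    red ⟨algebraMap L F (a : L), const_mem a⟩ = algebraMap (kA A) Ft (resA A a)
  /-- integrality, in the only form used: a place with `s(P) ∈ A` contains `B` … -/
  mem_place : ∀ P : Place L F,
    (∃ hs : s ∈ P.toValuationSubring, valueHom hx P ⟨s, hs⟩ ∈ A) →
      ∀ b ∈ B, b ∈ P.toValuationSubring
  /-- … and the values of `B` at `P` lie in `A`. -/
  val_mem : ∀ (P : Place L F)
    (h : ∃ hs : s ∈ P.toValuationSubring, valueHom hx P ⟨s, hs⟩ ∈ A) (b : F) (hb : b ∈ B),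
      valueHom hx P ⟨b, mem_place P h b hb⟩ ∈ A
  /-- strong saturation (R-4): content exists. -/
  sat : ∀ b : ↥B, b ≠ 0 →
    ∃ (c : ↥A) (b' : ↥B), (b : F) = algebraMap L F (c : L) * (b' : F) ∧ red b' ≠ 0
  /-- `F = Frac B`. -/
  frac : ∀ y : F, ∃ a b : ↥B, b ≠ 0 ∧ y * (b : F) = (a : F)

namespace ChartSpec

variable {A hx}
variable {Ft : Type*} [Field Ft] [Algebra (kA A) Ft] (S : ChartSpec A hx Ft)

/-- `P` lies in the chart: `s` is regular at `P` with value in `A`. -/
def InChart (P : Place L F) : Prop :=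
  ∃ hs : S.s ∈ P.toValuationSubring, valueHom hx P ⟨S.s, hs⟩ ∈ A

/-- the constant `a ∈ A` as an element of the chart ring. -/
def const (a : ↥A) : ↥S.B := ⟨algebraMap L F (a : L), S.const_mem a⟩

@[simp] theorem coe_const (a : ↥A) : ((S.const a : ↥S.B) : F) = algebraMap L F (a : L) := rfl

/-- constants as a ring homomorphism `A →+* B`. -/
def constHom : ↥A →+* ↥S.B where
  toFun := S.const
  map_one' := Subtype.ext (by simp)
  map_mul' a b := Subtype.ext (by simp)
  map_zero' := Subtype.ext (by simp)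
  map_add' a b := Subtype.ext (by simp)

@[simp] theorem constHom_apply (a : ↥A) : S.constHom a = S.const a := rfl

theorem red_const' (a : ↥A) : S.red (S.const a) = algebraMap (kA A) Ft (resA A a) :=
  S.red_const a

/-- the coordinate as an element of the chart ring. -/
def sB : ↥S.B := ⟨S.s, S.s_mem⟩

section AtPlace

variable (P : Place L F) (hP : S.InChart P)

/-- the inclusion `B ⊆ O_P` for `P` in the chart. -/
def toPlace : ↥S.B →+* ↥P.toValuationSubring :=
  Subring.inclusion (S := S.B) (T := P.toValuationSubring.toSubring)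
    (fun b hb => S.mem_place P hP b hb)

@[simp] theorem coe_toPlace (b : ↥S.B) : ((S.toPlace P hP b : ↥P.toValuationSubring) : F) = b :=
  rfl

/-- **the value map** `b ↦ b(P) ∈ A` on the chart ring. -/
def ev : ↥S.B →+* ↥A :=
  ((valueHom hx P : ↥P.toValuationSubring →+* L).comp (S.toPlace P hP)).codRestrict A.toSubring
    (fun b => S.val_mem P hP b b.2)

theorem coe_ev (b : ↥S.B) :
    ((S.ev P hP b : ↥A) : L) = valueHom hx P ⟨(b : F), S.mem_place P hP b b.2⟩ := rfl

/-- **the centre of `P`**: `χ_P := res ∘ ev_P`. -/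
def chi : ↥S.B →+* kA A := (resA A).comp (S.ev P hP)

theorem chi_apply (b : ↥S.B) : S.chi P hP b = resA A (S.ev P hP b) := rfl

theorem ev_const (a : ↥A) : S.ev P hP (S.const a) = a := by
  apply Subtype.ext
  rw [coe_ev]
  exact (valueHom hx P).commutes (a : L)

theorem chi_const (a : ↥A) : S.chi P hP (S.const a) = resA A a := by
  rw [chi_apply, S.ev_const P hP]

/-- `b(P) = 0 ↔ b = 0 ∨ ord_P b > 0`. -/
theorem ev_eq_zero_iff (b : ↥S.B) :
    S.ev P hP b = 0 ↔ ((b : F) = 0 ∨ 0 < P.ord (b : F)) := by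
  rw [← valueHom_eq_zero_iff_ord hx P ⟨(b : F), S.mem_place P hP b b.2⟩, ← S.coe_ev P hP]
  exact ⟨fun h => by rw [h]; rfl, fun h => Subtype.ext h⟩

/-- `b - b(P)` vanishes at `P`. -/
theorem ev_sub_const (b : ↥S.B) : S.ev P hP (b - S.const (S.ev P hP b)) = 0 := by
  rw [map_sub, ev_const, sub_self]

/-- reduction is `A`-semilinear over `res`. -/
theorem red_const_mul (a : ↥A) (b : ↥S.B) :
    S.red (S.const a * b) = algebraMap (kA A) Ft (resA A a) * S.red b := by
  rw [map_mul, red_const']

/-- **`χ_P` factors through `red`** (by saturation). -/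
theorem chi_eq_zero_of_red_eq_zero {b : ↥S.B} (hb : S.red b = 0) : S.chi P hP b = 0 := by
  rcases eq_or_ne b 0 with rfl | hb0
  · exact map_zero _
  obtain ⟨c, b', hbc, hb'⟩ := S.sat b hb0
  have h1 : b = S.const c * b' := Subtype.ext (by rw [hbc]; rfl)
  rw [h1, red_const_mul] at hb
  have h2 : algebraMap (kA A) Ft (resA A c) = 0 := by
    rcases mul_eq_zero.mp hb with h | h
    · exact h
    · exact absurd h hb'
  have h3 : resA A c = 0 := by
    have := (algebraMap (kA A) Ft).injective (a₁ := resA A c) (a₂ := 0) (by rw [h2, map_zero])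
    exact this
  rw [h1, map_mul, chi_const, h3, zero_mul]

theorem chi_eq_of_red_eq {a b : ↥S.B} (h : S.red a = S.red b) : S.chi P hP a = S.chi P hP b := by
  have := S.chi_eq_zero_of_red_eq_zero P hP (b := a - b) (by rw [map_sub, h, sub_self])
  rwa [map_sub, sub_eq_zero] at this

/-! ### the reduced local ring at the centre of `P` -/

/-- **`O_{rP}`**: fractions `red a / red d` with `χ_P d ≠ 0`. -/
def rSubring : Subring Ft where
  carrier := {y | ∃ a d : ↥S.B, S.chi P hP d ≠ 0 ∧ y * S.red d = S.red a}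
  mul_mem' := by
    rintro y y' ⟨a, d, hd, h⟩ ⟨a', d', hd', h'⟩
    refine ⟨a * a', d * d', ?_, ?_⟩
    · rw [map_mul]; exact mul_ne_zero hd hd'
    · rw [map_mul, map_mul, ← h, ← h']; ring
  one_mem' := ⟨1, 1, by rw [map_one]; exact one_ne_zero, by rw [one_mul]⟩
  add_mem' := by
    rintro y y' ⟨a, d, hd, h⟩ ⟨a', d', hd', h'⟩
    refine ⟨a * d' + a' * d, d * d', ?_, ?_⟩
    · rw [map_mul]; exact mul_ne_zero hd hd'
    · rw [map_mul, map_add, map_mul, map_mul, ← h, ← h']; ring
  zero_mem' := ⟨0, 1, by rw [map_one]; exact one_ne_zero, by rw [map_zero, zero_mul]⟩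
  neg_mem' := by
    rintro y ⟨a, d, hd, h⟩
    exact ⟨-a, d, hd, by rw [map_neg, ← h]; ring⟩

theorem mem_rSubring_iff (y : Ft) :
    y ∈ S.rSubring P hP ↔ ∃ a d : ↥S.B, S.chi P hP d ≠ 0 ∧ y * S.red d = S.red a := Iff.rfl

theorem red_mem_rSubring (b : ↥S.B) : S.red b ∈ S.rSubring P hP :=
  ⟨b, 1, by rw [map_one]; exact one_ne_zero, by rw [map_one, mul_one]⟩

theorem algebraMap_mem_rSubring (c : kA A) : algebraMap (kA A) Ft c ∈ S.rSubring P hP := by
  obtain ⟨a, rfl⟩ := IsLocalRing.residue_surjective c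
  rw [← S.red_const' a]
  exact S.red_mem_rSubring P hP _

/-- `red d` is a unit of `O_{rP}` when `χ_P d ≠ 0`. -/
theorem inv_red_mem_rSubring {d : ↥S.B} (hd : S.chi P hP d ≠ 0) :
    (S.red d)⁻¹ ∈ S.rSubring P hP := by
  refine ⟨1, d, hd, ?_⟩
  have h0 : S.red d ≠ 0 := fun h => hd (S.chi_eq_zero_of_red_eq_zero P hP h)
  rw [map_one, inv_mul_cancel₀ h0]

/-- an element `red b ≠ 0` with `χ_P b = 0` is a non-unit of `O_{rP}`. -/
theorem inv_red_notMem_rSubring {b : ↥S.B} (hb : S.chi P hP b = 0) :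
    (S.red b)⁻¹ ∉ S.rSubring P hP ∨ S.red b = 0 := by
  rcases eq_or_ne (S.red b) 0 with h0 | h0
  · exact Or.inr h0
  left
  rintro ⟨a, d, hd, h⟩
  apply hd
  have h1 : S.red d = S.red (a * b) := by
    rw [map_mul, ← h]
    field_simp
  rw [S.chi_eq_of_red_eq P hP h1, map_mul, hb, mul_zero]

/-- **(VAL)**: the reduced local ring at the centre of `P` is a valuation ring. -/
def Val : Prop := ∀ y : Ft, y ∈ S.rSubring P hP ∨ y⁻¹ ∈ S.rSubring P hP

/-- `O_{rP}` as a valuation subring. -/
def rVS (hval : S.Val P hP) : ValuationSubring Ft :=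
  { S.rSubring P hP with mem_or_inv_mem' := hval }

theorem mem_rVS_iff (hval : S.Val P hP) (y : Ft) :
    y ∈ S.rVS P hP hval ↔ ∃ a d : ↥S.B, S.chi P hP d ≠ 0 ∧ y * S.red d = S.red a := Iff.rfl

/-- `O_{rP} ≠ Ft` as soon as some `b` with `b(P) ∈ 𝔪_A` has nonzero reduction. -/
theorem rVS_ne_top (hval : S.Val P hP) {b : ↥S.B} (hb : S.chi P hP b = 0) (hb0 : S.red b ≠ 0) :
    S.rVS P hP hval ≠ ⊤ := by
  intro htop
  rcases S.inv_red_notMem_rSubring P hP hb with h | h
  · apply h
    have : (S.red b)⁻¹ ∈ S.rVS P hP hval := by rw [htop]; exact ValuationSubring.mem_top _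
    exact this
  · exact hb0 h

/-- **the place `r(P)`** (the principal-ideal property is an input: leaf RED-V). -/
def rPlace (hval : S.Val P hP) (hne : S.rVS P hP hval ≠ ⊤)
    (hpir : IsPrincipalIdealRing ↥(S.rVS P hP hval)) : Place (kA A) Ft where
  toValuationSubring := S.rVS P hP hval
  algebraMap_mem' c := S.algebraMap_mem_rSubring P hP c
  ne_top' := hne
  isPrincipalIdealRing' := hpir

@[simp] theorem rPlace_toValuationSubring (hval : S.Val P hP) (hne : S.rVS P hP hval ≠ ⊤)
    (hpir : IsPrincipalIdealRing ↥(S.rVS P hP hval)) :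
    (S.rPlace P hP hval hne hpir).toValuationSubring = S.rVS P hP hval := rfl

/-- **(PEEL-a)**: a generator of the kernel of `ev_P` up to denominators that are units at the
centre of `P`. -/
def PeelA : Prop :=
  ∃ u : ↥S.B, S.ev P hP u = 0 ∧
    ∀ z : ↥S.B, S.ev P hP z = 0 → ∃ d z' : ↥S.B, S.chi P hP d ≠ 0 ∧ z * d = u * z'

end AtPlace

/-! ### (R1) and (R1u) -/

section R1

variable [IsAlgClosed (kA A)] {xt : Ft} (hxt : IsGen (kA A) xt)
variable (P : Place L F) (hP : S.InChart P)

/-- **(R1)**: for a place `Q` of `Ft` whose valuation ring is `O_{rP}`, the value of `red f` at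
`Q` is `χ_P f`. -/
theorem valueHom_red_of_eq (Q : Place (kA A) Ft)
    (hQ : ∀ y : Ft, y ∈ Q.toValuationSubring ↔ y ∈ S.rSubring P hP) (f : ↥S.B) :
    valueHom hxt Q ⟨S.red f, (hQ _).mpr (S.red_mem_rSubring P hP f)⟩ = S.chi P hP f := by
  rw [valueHom_eq_iff_sub_mem, IsLocalRing.mem_maximalIdeal, mem_nonunits_iff]
  intro hu
  -- `g := f - f(P)` has `χ_P g = 0`; `red g` is a unit of `O_Q`
  set g : ↥S.B := f - S.const (S.ev P hP f) with hg
  have hχ : S.chi P hP g = 0 := by
    rw [chi_apply, S.ev_sub_const P hP f, map_zero]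
  have hred : S.red g = S.red f - algebraMap (kA A) Ft (S.chi P hP f) := by
    rw [hg, map_sub, red_const', chi_apply]
  obtain ⟨w, hw⟩ := hu.exists_right_inv
  have hw' : (S.red f - algebraMap (kA A) Ft (S.chi P hP f)) * (w : Ft) = 1 := by
    have := congrArg (Subtype.val) hw
    simpa using this
  have hne : S.red g ≠ 0 := by
    rw [hred]; intro h; rw [h, zero_mul] at hw'; exact zero_ne_one hw'
  have hinv : (S.red g)⁻¹ = (w : Ft) := by
    rw [hred]
    exact inv_eq_of_mul_eq_one_right hw'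
  rcases S.inv_red_notMem_rSubring P hP hχ with h | h
  · apply h
    rw [hinv]
    exact (hQ _).mp w.2
  · exact hne h

/-- (R1) for `rPlace`. -/
theorem valueHom_red (hval : S.Val P hP) (hne : S.rVS P hP hval ≠ ⊤)
    (hpir : IsPrincipalIdealRing ↥(S.rVS P hP hval)) (f : ↥S.B) :
    valueHom hxt (S.rPlace P hP hval hne hpir) ⟨S.red f, S.red_mem_rSubring P hP f⟩
      = S.chi P hP f :=
  S.valueHom_red_of_eq hxt P hP (S.rPlace P hP hval hne hpir) (fun _ => Iff.rfl) f

/-- **(R1u)**: a place `Q` of `Ft` containing `red B` with `red f (Q) = χ_P f` is `r(P)`. -/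
theorem eq_rPlace (hval : S.Val P hP) (hne : S.rVS P hP hval ≠ ⊤)
    (hpir : IsPrincipalIdealRing ↥(S.rVS P hP hval)) (Q : Place (kA A) Ft)
    (hQ : ∀ b : ↥S.B, S.red b ∈ Q.toValuationSubring)
    (hQv : ∀ b : ↥S.B, valueHom hxt Q ⟨S.red b, hQ b⟩ = S.chi P hP b) :
    Q = S.rPlace P hP hval hne hpir := by
  apply Place.ext
  rw [rPlace_toValuationSubring]
  refine Fermat.Agent.ES.HECKE.FundIdentity19.valuationSubring_eq_of_le
    (S.rPlace P hP hval hne hpir) Q.toValuationSubring ?_ Q.ne_top'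
  rintro y ⟨a, d, hd, h⟩
  -- `red d` is a unit of `O_Q`
  have hd0 : S.red d ≠ 0 := fun h0 => hd (S.chi_eq_zero_of_red_eq_zero P hP h0)
  have hunit : IsUnit (⟨S.red d, hQ d⟩ : ↥Q.toValuationSubring) := by
    rw [← valueHom_ne_zero_iff hxt Q, hQv]
    exact hd
  obtain ⟨w, hw⟩ := hunit.exists_right_inv
  have hw' : S.red d * (w : Ft) = 1 := by
    have := congrArg (Subtype.val) hw
    simpa using this
  have hy : y = S.red a * (w : Ft) := by
    rw [← h, mul_assoc, hw', mul_one]
  rw [hy]
  exact Q.toValuationSubring.mul_mem _ _ (hQ a) w.2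

end R1

end ChartSpec

end Fermat.Agent.ES.RED.Contract8
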