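/-
Program I (S37), chapter ES/RED — helper21.  (R3), abstract form for the CANONICAL reduction
(ruling R-2 of helper8's plan v2): for a chart ring `B` with reduction `red : B → F~` and point
character `χ : B → k`, the reduced local ring at the centre of `P` is
`oRed red χ := {y ∈ F~ | ∃ a d ∈ B, χ d ≠ 0 ∧ y * red d = red a}`.

If `τB : B ≃ B`, `g` a semilinear automorphism of `F~ / k` and characters `χ, χ'` satisfy
`red ∘ τB = g ∘ red` and `χ' ∘ τB = σ_g ∘ χ`, then `oRed red χ' = g (oRed red χ)`; hence places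
`Q, Q'` of `F~` with these valuation rings satisfy `Q' = g • Q`.  Packaging-free (no `F`).
-/
import Mathlib
import Fermat.Prelude.Def_AlgebraicCurve_BaseChangeGalois

set_option autoImplicit false

noncomputable section

open AlgebraicCurve

namespace Fermat.Agent.ES.RED.GaloisLocal21

section Sets

variable {B Ft k : Type*} [CommRing Ft] [Field k]

/-- the reduced local ring at the centre: `{y | ∃ a d, χ d ≠ 0 ∧ y * red d = red a}`. -/
def oRed (red : B → Ft) (χ : B → k) : Set Ft :=
  {y | ∃ a d : B, χ d ≠ 0 ∧ y * red d = red a}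

theorem mem_oRed_iff {red : B → Ft} {χ : B → k} {y : Ft} :
    y ∈ oRed red χ ↔ ∃ a d : B, χ d ≠ 0 ∧ y * red d = red a := Iff.rfl

/-- **(R3), set form.** -/
theorem mem_oRed_iff_symm_mem (red : B → Ft) (χ χ' : B → k) (τB : B ≃ B) (τt : Ft ≃+* Ft)
    (ψ : k ≃+* k) (h1 : ∀ b, red (τB b) = τt (red b)) (h2 : ∀ b, χ' (τB b) = ψ (χ b)) (y : Ft) :
    y ∈ oRed red χ' ↔ τt.symm y ∈ oRed red χ := by
  constructor
  · rintro ⟨a, d, hd, h⟩
    refine ⟨τB.symm a, τB.symm d, ?_, ?_⟩
    · intro h0
      apply hd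
      have := h2 (τB.symm d)
      rw [Equiv.apply_symm_apply, h0, map_zero] at this
      exact this
    · apply τt.injective
      rw [map_mul, RingEquiv.apply_symm_apply, ← h1, ← h1, Equiv.apply_symm_apply,
        Equiv.apply_symm_apply]
      exact h
  · rintro ⟨a, d, hd, h⟩
    refine ⟨τB a, τB d, ?_, ?_⟩
    · rw [h2]
      intro h0
      exact hd ((map_eq_zero_iff ψ ψ.injective).mp h0)
    · rw [h1, h1, ← h, map_mul, RingEquiv.apply_symm_apply]

end Sets

section Places

variable {k Ft : Type*} [Field k] [Field Ft] [Algebra k Ft] {B : Type*}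

open scoped Pointwise

/-- **(R3), place form.**  If the valuation rings of `Q`, `Q'` are the reduced local rings
`oRed red χ`, `oRed red χ'` and `(τB, g)` intertwine `(red, χ)` with `(red, χ')`, then
`Q' = g • Q`. -/
theorem place_eq_smul (g : SemilinearAut k Ft) (red : B → Ft) (χ χ' : B → k) (τB : B ≃ B)
    (h1 : ∀ b, red (τB b) = g • red b)
    (h2 : ∀ b, χ' (τB b) = SemilinearAut.baseAut g (χ b))
    (Q Q' : Place k Ft)
    (hQ : ∀ y, y ∈ Q.toValuationSubring ↔ y ∈ oRed red χ)
    (hQ' : ∀ y, y ∈ Q'.toValuationSubring ↔ y ∈ oRed red χ') :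
    Q' = g • Q := by
  ext y
  rw [SemilinearAut.smul_toValuationSubring, ValuationSubring.mem_pointwise_smul_iff_inv_smul_mem,
    hQ', hQ, SemilinearAut.inv_smul_def]
  exact mem_oRed_iff_symm_mem red χ χ' τB (SemilinearAut.toRingAut g) (SemilinearAut.baseAut g)
    h1 h2 y

/-- the case of a trivial action on the special fibre. -/
theorem place_eq_of_fixed (red : B → Ft) (χ χ' : B → k) (τB : B ≃ B)
    (h1 : ∀ b, red (τB b) = red b) (h2 : ∀ b, χ' (τB b) = χ b)
    (Q Q' : Place k Ft)
    (hQ : ∀ y, y ∈ Q.toValuationSubring ↔ y ∈ oRed red χ)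
    (hQ' : ∀ y, y ∈ Q'.toValuationSubring ↔ y ∈ oRed red χ') :
    Q' = Q := by
  have := place_eq_smul (1 : SemilinearAut k Ft) red χ χ' τB (fun b => by rw [h1, one_smul])
    (fun b => by rw [h2]; rfl) Q Q' hQ hQ'
  rwa [one_smul] at this

end Places

end Fermat.Agent.ES.RED.GaloisLocal21
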