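/-
Program I (S37), chapter ES/RED — helper21.  **(R3) against the RED contract** (`Contract8`).

`S : ChartSpec A hx Ft` a chart, `g : SemilinearAut L F` (Galois action on the generic fibre),
`h : SemilinearAut (kA A) Ft` (the induced action on the special fibre).  A `ChartSym S g h`
packages the compatibility: `g` preserves the chart ring `B`, fixes the coordinate `s`, its base
automorphism preserves `A` and induces the base automorphism of `h` on the residue field, and
`red ∘ g = h ∘ red`.  Then, for `P` in the chart: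
* `g • P` is in the chart (`inChart_smul`), `ev`/`chi` are equivariant (`ev_smul`, `chi_smul`);
* `rSubring (g • P) = h (rSubring P)` (`mem_rSubring_smul_iff`), `Val` transfers (`val_smul`);
* **`rPlace (g • P) = h • rPlace P`** (`rPlace_smul`).
-/
import Mathlib
import Fermat.Agent.ES.RED.Contract8
import Fermat.Agent.ES.RED.GaloisLocal21
import Fermat.Agent.ES.RED.GaloisRed21

set_option autoImplicit false
set_option linter.unusedSectionVars false

noncomputable section

open AlgebraicCurve

namespace Fermat.Agent.ES.RED.GaloisContract21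

open Fermat.Agent.X0.FF Fermat.Agent.ES.RED.PlaceValue13 Fermat.Agent.ES.RED.Contract8
  Fermat.Agent.ES.RED.GaloisLocal21

variable {L : Type*} [Field L] [IsAlgClosed L] {A : ValuationSubring L}
variable {F : Type*} [Field F] [Algebra L F] {x : F} {hx : IsGen L x}
variable {Ft : Type*} [Field Ft] [Algebra (kA A) Ft]

/-- a symmetry of a chart: `(g, h)` acting compatibly on `(F, Ft)`, preserving the chart. -/
structure ChartSym (S : ChartSpec A hx Ft) (g : SemilinearAut L F)
    (h : SemilinearAut (kA A) Ft) where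
  /-- the action of `g` on the chart ring -/
  τB : ↥S.B ≃ ↥S.B
  coe_τB : ∀ b : ↥S.B, ((τB b : ↥S.B) : F) = g • (b : F)
  red_τB : ∀ b : ↥S.B, S.red (τB b) = h • S.red b
  smul_s : g • S.s = S.s
  base_mem : ∀ a : ↥A, SemilinearAut.baseAut g (a : L) ∈ A
  res_base : ∀ a : ↥A, resA A ⟨SemilinearAut.baseAut g (a : L), base_mem a⟩ =
    SemilinearAut.baseAut h (resA A a)

namespace ChartSym

variable {S : ChartSpec A hx Ft} {g : SemilinearAut L F} {h : SemilinearAut (kA A) Ft}

/-- `g • P` is in the chart when `P` is. -/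
theorem inChart_smul (T : ChartSym S g h) (P : Place L F) (hP : S.InChart P) : S.InChart (g • P) := by
  obtain ⟨hs, hv⟩ := hP
  have hs' : S.s ∈ (g • P).toValuationSubring := by
    have := smul_mem_smul g P hs
    rwa [T.smul_s] at this
  refine ⟨hs', ?_⟩
  have h1 : valueHom hx (g • P) ⟨S.s, hs'⟩ =
      SemilinearAut.baseAut g (valueHom hx P ⟨S.s, hs⟩) := by
    rw [← valueHom_smul' hx g P hs]
    congr 1
    exact Subtype.ext T.smul_s.symm
  rw [h1]
  exact T.base_mem ⟨_, hv⟩

/-- the value map is equivariant. -/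
theorem coe_ev_smul (T : ChartSym S g h) (P : Place L F) (hP : S.InChart P) (b : ↥S.B) :
    ((S.ev (g • P) (T.inChart_smul P hP) (T.τB b) : ↥A) : L) =
      SemilinearAut.baseAut g ((S.ev P hP b : ↥A) : L) := by
  rw [S.coe_ev, S.coe_ev, ← valueHom_smul' hx g P (S.mem_place P hP b b.2)]
  congr 1
  exact Subtype.ext (T.coe_τB b)

/-- the centre character is equivariant. -/
theorem chi_smul (T : ChartSym S g h) (P : Place L F) (hP : S.InChart P) (b : ↥S.B) :
    S.chi (g • P) (T.inChart_smul P hP) (T.τB b) = SemilinearAut.baseAut h (S.chi P hP b) := by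
  rw [S.chi_apply, S.chi_apply, ← T.res_base]
  congr 1
  exact Subtype.ext (T.coe_ev_smul P hP b)

/-- **`O_{r(g • P)} = h (O_{rP})`**. -/
theorem mem_rSubring_smul_iff (T : ChartSym S g h) (P : Place L F) (hP : S.InChart P) (y : Ft) :
    y ∈ S.rSubring (g • P) (T.inChart_smul P hP) ↔ h⁻¹ • y ∈ S.rSubring P hP := by
  rw [S.mem_rSubring_iff, S.mem_rSubring_iff, SemilinearAut.inv_smul_def]
  exact mem_oRed_iff_symm_mem (fun b => S.red b) (fun b => S.chi P hP b)
    (fun b => S.chi (g • P) (T.inChart_smul P hP) b) T.τB (SemilinearAut.toRingAut h)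
    (SemilinearAut.baseAut h) T.red_τB (T.chi_smul P hP) y

/-- (VAL) transfers along the symmetry. -/
theorem val_smul (T : ChartSym S g h) (P : Place L F) (hP : S.InChart P) (hval : S.Val P hP) :
    S.Val (g • P) (T.inChart_smul P hP) := by
  intro y
  rw [T.mem_rSubring_smul_iff P hP, T.mem_rSubring_smul_iff P hP, smul_inv'']
  exact hval (h⁻¹ • y)

open scoped Pointwise in
/-- `rVS (g • P) = h • rVS P`. -/
theorem rVS_smul (T : ChartSym S g h) (P : Place L F) (hP : S.InChart P) (hval : S.Val P hP)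
    (hval' : S.Val (g • P) (T.inChart_smul P hP)) :
    S.rVS (g • P) (T.inChart_smul P hP) hval' = h • S.rVS P hP hval := by
  ext y
  rw [ValuationSubring.mem_pointwise_smul_iff_inv_smul_mem]
  exact T.mem_rSubring_smul_iff P hP y

/-- **(R3) for one chart**: `r(g • P) = h • r(P)`. -/
theorem rPlace_smul (T : ChartSym S g h) (P : Place L F) (hP : S.InChart P) (hval : S.Val P hP)
    (hne : S.rVS P hP hval ≠ ⊤) (hpir : IsPrincipalIdealRing ↥(S.rVS P hP hval))
    (hP' : S.InChart (g • P)) (hval' : S.Val (g • P) hP')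
    (hne' : S.rVS (g • P) hP' hval' ≠ ⊤)
    (hpir' : IsPrincipalIdealRing ↥(S.rVS (g • P) hP' hval')) :
    S.rPlace (g • P) hP' hval' hne' hpir' = h • S.rPlace P hP hval hne hpir := by
  apply Place.ext
  rw [ChartSpec.rPlace_toValuationSubring, SemilinearAut.smul_toValuationSubring,
    ChartSpec.rPlace_toValuationSubring]
  exact T.rVS_smul P hP hval hval'

/-- chart membership is invariant (given symmetries for `g` and `g⁻¹`). -/
theorem inChart_smul_iff {h' : SemilinearAut (kA A) Ft} (T : ChartSym S g h)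
    (T' : ChartSym S g⁻¹ h') (P : Place L F) : S.InChart (g • P) ↔ S.InChart P := by
  constructor
  · intro hP
    have := T'.inChart_smul _ hP
    rwa [inv_smul_smul] at this
  · exact T.inChart_smul P

end ChartSym

/-! ### The modular case: the decomposition group of `A` -/

section Modular

open ModularCurve HahnSeries Fermat.Agent.ES.RED.GaloisRed21 Fermat.Agent.ES.KRON.FrobPlace13

variable {L : Type*} [Field L] [Algebra ℚ L] [IsAlgClosed L] {A : ValuationSubring L}
  {F₀ : IntermediateField ℚ (LaurentSeries ℚ)} {x : ↥(laurentBaseChange L F₀)} {hx : IsGen L x}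
  {M : ℕ} [NeZero M]

/-- **the chart symmetry induced by `g ∈ D_A`**, from elementary hypotheses: `B` is stable under
the coefficientwise action of `g^{±1}`, the coordinate has `g`-invariant coefficients, and the
reduction commutes with the coefficientwise actions. -/
def ChartSym.ofDecomposition
    (S : ChartSpec A hx ↥(modularFunctionFieldFullC (kA A) M)) (g : A.decompositionSubgroup ℚ)
    (hB : ∀ b : ↥(laurentBaseChange L F₀), b ∈ S.B →
      arithmeticGalois F₀ (g : L ≃ₐ[ℚ] L) • b ∈ S.B)
    (hB' : ∀ b : ↥(laurentBaseChange L F₀), b ∈ S.B →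
      (arithmeticGalois F₀ (g : L ≃ₐ[ℚ] L))⁻¹ • b ∈ S.B)
    (hs : arithmeticGalois F₀ (g : L ≃ₐ[ℚ] L) • S.s = S.s)
    (hred : ∀ b : ↥S.B,
      ((S.red ⟨arithmeticGalois F₀ (g : L ≃ₐ[ℚ] L) • (b : ↥(laurentBaseChange L F₀)),
          hB b b.2⟩ : ↥(modularFunctionFieldFullC (kA A) M)) : LaurentSeries (kA A)) =
        coeffMap ((psiRes A g : kA A ≃+* kA A) : kA A →+* kA A)
          ((S.red b : ↥(modularFunctionFieldFullC (kA A) M)) : LaurentSeries (kA A))) :
    ChartSym S (arithmeticGalois F₀ (g : L ≃ₐ[ℚ] L)) (coeffSemi (kA A) M (psiRes A g)) where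
  τB :=
    { toFun := fun b => ⟨arithmeticGalois F₀ (g : L ≃ₐ[ℚ] L) • (b : ↥(laurentBaseChange L F₀)),
        hB b b.2⟩
      invFun := fun b => ⟨(arithmeticGalois F₀ (g : L ≃ₐ[ℚ] L))⁻¹ •
        (b : ↥(laurentBaseChange L F₀)), hB' b b.2⟩
      left_inv := fun b => Subtype.ext (inv_smul_smul _ _)
      right_inv := fun b => Subtype.ext (smul_inv_smul _ _) }
  coe_τB _ := rfl
  red_τB b := Subtype.ext (hred b)
  smul_s := hs
  base_mem a := (sigmaA A g a).2
  res_base _ := rfl

variable (S : ChartSpec A hx ↥(modularFunctionFieldFullC (kA A) M))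

/-- **(R3) for inertia, one chart.** -/
theorem rPlace_smul_of_mem_inertia {τ : L ≃ₐ[ℚ] L} (hτ : τ ∈ A.inertiaSubgroupIn ℚ)
    (T : ∀ h : τ ∈ A.decompositionSubgroup ℚ,
      ChartSym S (arithmeticGalois F₀ τ) (coeffSemi (kA A) M (psiRes A ⟨τ, h⟩)))
    (P : Place L ↥(laurentBaseChange L F₀)) (hP : S.InChart P) (hval : S.Val P hP)
    (hne : S.rVS P hP hval ≠ ⊤) (hpir : IsPrincipalIdealRing ↥(S.rVS P hP hval))
    (hP' : S.InChart (arithmeticGalois F₀ τ • P)) (hval' : S.Val (arithmeticGalois F₀ τ • P) hP')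
    (hne' : S.rVS (arithmeticGalois F₀ τ • P) hP' hval' ≠ ⊤)
    (hpir' : IsPrincipalIdealRing ↥(S.rVS (arithmeticGalois F₀ τ • P) hP' hval')) :
    S.rPlace (arithmeticGalois F₀ τ • P) hP' hval' hne' hpir' = S.rPlace P hP hval hne hpir := by
  obtain ⟨h, h1⟩ := coeffSemi_psiRes_of_mem_inertia (M := M) hτ
  have := (T h).rPlace_smul P hP hval hne hpir hP' hval' hne' hpir'
  rw [h1, one_smul] at this
  exact this

/-- **(R3) for Frobenius elements, one chart.** -/
theorem rPlace_smul_of_isFrobeniusAt {σ : L ≃ₐ[ℚ] L} {ℓ : ℕ} [ExpChar (kA A) ℓ]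
    [PerfectField (kA A)] (hσ : A.IsFrobeniusAt σ ℓ)
    (T : ChartSym S (arithmeticGalois F₀ σ)
      (coeffSemi (kA A) M (psiRes A ⟨σ, hσ.mem_decompositionSubgroup⟩)))
    (P : Place L ↥(laurentBaseChange L F₀)) (hP : S.InChart P) (hval : S.Val P hP)
    (hne : S.rVS P hP hval ≠ ⊤) (hpir : IsPrincipalIdealRing ↥(S.rVS P hP hval))
    (hP' : S.InChart (arithmeticGalois F₀ σ • P)) (hval' : S.Val (arithmeticGalois F₀ σ • P) hP')
    (hne' : S.rVS (arithmeticGalois F₀ σ • P) hP' hval' ≠ ⊤)
    (hpir' : IsPrincipalIdealRing ↥(S.rVS (arithmeticGalois F₀ σ • P) hP' hval')) :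
    S.rPlace (arithmeticGalois F₀ σ • P) hP' hval' hne' hpir' =
      frobSemi (kA A) ℓ M • S.rPlace P hP hval hne hpir := by
  have := T.rPlace_smul P hP hval hne hpir hP' hval' hne' hpir'
  rw [coeffSemi_psiRes_of_isFrobeniusAt (M := M) hσ] at this
  exact this

end Modular

end Fermat.Agent.ES.RED.GaloisContract21
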