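/-
Program I (S37), chapter RED, helper8: the GLOBAL reduction map `r : Place L F → Place k Ft` from two
charts `S0` (coordinate `s`) and `S1` (coordinate `s⁻¹`) of `Contract8`.

* `ChartSpec.HasPlaces S` : (VAL) + principal ideal property at every place of the chart;
* `ChartSpec.rAt` : the place `r(P)` computed in the chart `S`;
* `TwoCharts` : two charts with overlap condition `ov0` (`B1 ⊆ B0[1/s]`, compatibly with `red`);
* `TwoCharts.inChart_or` : every place lies in chart 0 or in chart 1;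
* `TwoCharts.rAt_eq` : on the overlap both charts give the same place;
* `TwoCharts.r` : the global map; `r_eq0`, `r_eq1` : it is computed by either chart;
* `TwoCharts.inChart0_of_red_mem` : tube closure (if `red s` is regular at `r P` then `P` is in chart 0),
  `inChart1_of_inv_red_mem`.
-/
import Mathlib
import Fermat.Agent.ES.RED.Contract8

set_option autoImplicit false

noncomputable section

open AlgebraicCurve

namespace Fermat.Agent.ES.RED.TwoCharts8

open Fermat.Agent.X0.FF Fermat.Agent.ES.RED.PlaceValue13 Fermat.Agent.ES.RED.Contract8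

variable {L : Type*} [Field L] [IsAlgClosed L] {A : ValuationSubring L}
variable {F : Type*} [Field F] [Algebra L F] {x : F} {hx : IsGen L x}
variable {Ft : Type*} [Field Ft] [Algebra (kA A) Ft]

/-! ### one chart: the map `P ↦ r(P)` -/

section OneChart

variable (S : ChartSpec A hx Ft)

/-- (VAL) and the principal ideal property at every place of the chart. -/
def HasPlaces : Prop :=
  ∀ (P : Place L F) (hP : S.InChart P),
    ∃ hval : S.Val P hP, IsPrincipalIdealRing ↥(S.rVS P hP hval)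

variable {S}

theorem HasPlaces.val (hS : HasPlaces S) (P : Place L F) (hP : S.InChart P) : S.Val P hP :=
  (hS P hP).choose

theorem HasPlaces.pir (hS : HasPlaces S) (P : Place L F) (hP : S.InChart P) :
    IsPrincipalIdealRing ↥(S.rVS P hP (hS.val P hP)) :=
  (hS P hP).choose_spec

/-- the element `s - s(P)` of the chart ring. -/
def sSub (S : ChartSpec A hx Ft) (P : Place L F) (hP : S.InChart P) : ↥S.B :=
  S.sB - S.const (S.ev P hP S.sB)

theorem chi_sSub (P : Place L F) (hP : S.InChart P) : S.chi P hP (sSub S P hP) = 0 := by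
  rw [ChartSpec.chi_apply, sSub, S.ev_sub_const P hP, map_zero]

theorem red_sSub_ne_zero (htr : Transcendental (kA A) (S.red S.sB)) (P : Place L F)
    (hP : S.InChart P) : S.red (sSub S P hP) ≠ 0 := by
  intro h
  apply htr
  rw [sSub, map_sub, ChartSpec.red_const', sub_eq_zero] at h
  rw [h]
  exact isAlgebraic_algebraMap _

theorem rVS_ne_top (hS : HasPlaces S) (htr : Transcendental (kA A) (S.red S.sB))
    (P : Place L F) (hP : S.InChart P) : S.rVS P hP (hS.val P hP) ≠ ⊤ :=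
  S.rVS_ne_top P hP (hS.val P hP) (chi_sSub P hP) (red_sSub_ne_zero htr P hP)

/-- **`r(P)` computed in the chart `S`.** -/
def rAt (hS : HasPlaces S) (htr : Transcendental (kA A) (S.red S.sB))
    (P : Place L F) (hP : S.InChart P) : Place (kA A) Ft :=
  S.rPlace P hP (hS.val P hP) (rVS_ne_top hS htr P hP) (hS.pir P hP)

theorem mem_rAt_iff (hS : HasPlaces S) (htr : Transcendental (kA A) (S.red S.sB))
    (P : Place L F) (hP : S.InChart P) (y : Ft) :
    y ∈ (rAt hS htr P hP).toValuationSubring ↔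
      ∃ a d : ↥S.B, S.chi P hP d ≠ 0 ∧ y * S.red d = S.red a := Iff.rfl

theorem red_mem_rAt (hS : HasPlaces S) (htr : Transcendental (kA A) (S.red S.sB))
    (P : Place L F) (hP : S.InChart P) (b : ↥S.B) :
    S.red b ∈ (rAt hS htr P hP).toValuationSubring :=
  S.red_mem_rSubring P hP b

section Values

variable [IsAlgClosed (kA A)] {xt : Ft} (hxt : IsGen (kA A) xt)

/-- (R1) in the chart. -/
theorem valueHom_rAt (hS : HasPlaces S) (htr : Transcendental (kA A) (S.red S.sB))
    (P : Place L F) (hP : S.InChart P) (b : ↥S.B) :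
    valueHom hxt (rAt hS htr P hP) ⟨S.red b, red_mem_rAt hS htr P hP b⟩ = S.chi P hP b :=
  S.valueHom_red hxt P hP _ _ _ b

/-- (R1u) in the chart. -/
theorem eq_rAt (hS : HasPlaces S) (htr : Transcendental (kA A) (S.red S.sB))
    (P : Place L F) (hP : S.InChart P) (Q : Place (kA A) Ft)
    (hQ : ∀ b : ↥S.B, S.red b ∈ Q.toValuationSubring)
    (hQv : ∀ b : ↥S.B, valueHom hxt Q ⟨S.red b, hQ b⟩ = S.chi P hP b) :
    Q = rAt hS htr P hP :=
  S.eq_rPlace hxt P hP _ _ _ Q hQ hQv

end Values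

end OneChart

/-! ### two charts -/

/-- **Two charts** `S0` (coordinate `s`), `S1` (coordinate `s⁻¹`) with the overlap condition. -/
structure TwoCharts (A : ValuationSubring L) (hx : IsGen L x) (Ft : Type*) [Field Ft]
    [Algebra (kA A) Ft] where
  S0 : ChartSpec A hx Ft
  S1 : ChartSpec A hx Ft
  s_ne : S0.s ≠ 0
  s_inv : S1.s = S0.s⁻¹
  red_s_mul : S0.red S0.sB * S1.red S1.sB = 1
  /-- `B1 ⊆ B0[1/s]`, compatibly with the reductions. -/
  ov0 : ∀ b : ↥S1.B, ∃ (n : ℕ) (b0 : ↥S0.B),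
    (b0 : F) = S0.s ^ n * (b : F) ∧ S0.red b0 = S0.red S0.sB ^ n * S1.red b
  places0 : HasPlaces S0
  places1 : HasPlaces S1
  tr0 : Transcendental (kA A) (S0.red S0.sB)

namespace TwoCharts

variable (T : TwoCharts A hx Ft)

theorem red_s0_ne_zero : T.S0.red T.S0.sB ≠ 0 := by
  intro h
  have := T.red_s_mul
  rw [h, zero_mul] at this
  exact zero_ne_one this

theorem red_s1_eq : T.S1.red T.S1.sB = (T.S0.red T.S0.sB)⁻¹ :=
  eq_inv_of_mul_eq_one_right T.red_s_mul

theorem tr1 : Transcendental (kA A) (T.S1.red T.S1.sB) := by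
  rw [T.red_s1_eq]
  intro h
  exact T.tr0 (by simpa using h.inv)

/-- a function with nonzero value at `P` has its inverse in `O_P`, with the inverse value. -/
theorem inv_mem_and_value {P : Place L F} {f : F} (hf : f ∈ P.toValuationSubring)
    (h0 : valueHom hx P ⟨f, hf⟩ ≠ 0) :
    ∃ hinv : f⁻¹ ∈ P.toValuationSubring,
      valueHom hx P ⟨f⁻¹, hinv⟩ = (valueHom hx P ⟨f, hf⟩)⁻¹ := by
  have hu : IsUnit (⟨f, hf⟩ : ↥P.toValuationSubring) := (valueHom_ne_zero_iff hx P _).mp h0
  obtain ⟨w, hw⟩ := hu.exists_right_inv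
  have hw' : f * (w : F) = 1 := by
    have := congrArg Subtype.val hw
    simpa using this
  have hwinv : f⁻¹ = (w : F) := inv_eq_of_mul_eq_one_right hw'
  have hmem : f⁻¹ ∈ P.toValuationSubring := by rw [hwinv]; exact w.2
  refine ⟨hmem, ?_⟩
  have h1 : (⟨f⁻¹, hmem⟩ : ↥P.toValuationSubring) = w := Subtype.ext hwinv
  rw [h1]
  have h2 := congrArg (valueHom hx P) hw
  rw [map_mul, map_one] at h2
  exact eq_inv_of_mul_eq_one_right h2

/-- **every place lies in one of the two charts.** -/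
theorem inChart_or (P : Place L F) : T.S0.InChart P ∨ T.S1.InChart P := by
  by_cases hs : T.S0.s ∈ P.toValuationSubring
  · by_cases hc : valueHom hx P ⟨T.S0.s, hs⟩ ∈ A
    · exact Or.inl ⟨hs, hc⟩
    · right
      have h0 : valueHom hx P ⟨T.S0.s, hs⟩ ≠ 0 := by
        intro h; apply hc; rw [h]; exact A.zero_mem
      obtain ⟨hinv, hval⟩ := inv_mem_and_value hs h0
      have hmem : T.S1.s ∈ P.toValuationSubring := by rw [T.s_inv]; exact hinv
      refine ⟨hmem, ?_⟩
      have h1 : (⟨T.S1.s, hmem⟩ : ↥P.toValuationSubring) = ⟨T.S0.s⁻¹, hinv⟩ :=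
        Subtype.ext T.s_inv
      rw [h1, hval]
      exact (A.mem_or_inv_mem _).resolve_left hc
  · right
    have hinv : T.S0.s⁻¹ ∈ P.toValuationSubring :=
      (P.toValuationSubring.mem_or_inv_mem T.S0.s).resolve_left hs
    have hmem : T.S1.s ∈ P.toValuationSubring := by rw [T.s_inv]; exact hinv
    refine ⟨hmem, ?_⟩
    have h0 : valueHom hx P ⟨T.S1.s, hmem⟩ = 0 := by
      by_contra h0
      obtain ⟨hinv', -⟩ := inv_mem_and_value hmem h0
      apply hs
      have : T.S1.s⁻¹ = T.S0.s := by rw [T.s_inv, inv_inv]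
      rwa [this] at hinv'
    rw [h0]
    exact A.zero_mem

/-! ### the overlap -/

section Overlap

variable (P : Place L F) (h0 : T.S0.InChart P) (h1 : T.S1.InChart P)

theorem ev0_s_mul_ev1_s : T.S0.ev P h0 T.S0.sB * T.S1.ev P h1 T.S1.sB = 1 := by
  apply Subtype.ext
  show ((T.S0.ev P h0 T.S0.sB : ↥A) : L) * ((T.S1.ev P h1 T.S1.sB : ↥A) : L) = 1
  rw [ChartSpec.coe_ev, ChartSpec.coe_ev, ← map_mul]
  have : (⟨(T.S0.sB : F), T.S0.mem_place P h0 _ T.S0.sB.2⟩ *
      ⟨(T.S1.sB : F), T.S1.mem_place P h1 _ T.S1.sB.2⟩ : ↥P.toValuationSubring) = 1 :=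
    Subtype.ext (by
      show T.S0.s * T.S1.s = 1
      rw [T.s_inv, mul_inv_cancel₀ T.s_ne])
  rw [this, map_one]

include h1 in
theorem chi0_s_ne_zero : T.S0.chi P h0 T.S0.sB ≠ 0 := by
  intro h
  have := congrArg (resA A) (T.ev0_s_mul_ev1_s P h0 h1)
  rw [map_mul, map_one, ← ChartSpec.chi_apply, h, zero_mul] at this
  exact zero_ne_one this

/-- values are compatible on the overlap. -/
theorem ev0_eq_of_ov {b : ↥T.S1.B} {n : ℕ} {b0 : ↥T.S0.B}
    (hb : (b0 : F) = T.S0.s ^ n * (b : F)) :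
    T.S0.ev P h0 b0 = T.S0.ev P h0 T.S0.sB ^ n * T.S1.ev P h1 b := by
  apply Subtype.ext
  show ((T.S0.ev P h0 b0 : ↥A) : L) =
    ((T.S0.ev P h0 T.S0.sB : ↥A) : L) ^ n * ((T.S1.ev P h1 b : ↥A) : L)
  rw [ChartSpec.coe_ev, ChartSpec.coe_ev, ChartSpec.coe_ev, ← map_pow, ← map_mul]
  congr 1
  exact Subtype.ext hb

variable [IsAlgClosed (kA A)] {xt : Ft} (hxt : IsGen (kA A) xt)

include hxt in
/-- **on the overlap both charts give the same place.** -/
theorem rAt_eq : rAt T.places0 T.tr0 P h0 = rAt T.places1 T.tr1 P h1 := by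
  set Q := rAt T.places0 T.tr0 P h0 with hQ
  have hχs := T.chi0_s_ne_zero P h0 h1
  have hs0 := T.red_s0_ne_zero
  -- `red₁ b ∈ O_Q`
  have hmem : ∀ b : ↥T.S1.B, T.S1.red b ∈ Q.toValuationSubring := by
    intro b
    obtain ⟨n, b0, hb, hred⟩ := T.ov0 b
    have h2 : T.S1.red b = T.S0.red b0 * (T.S0.red (T.S0.sB ^ n))⁻¹ := by
      rw [hred, map_pow]
      field_simp
    rw [h2]
    refine Q.toValuationSubring.mul_mem _ _ (red_mem_rAt T.places0 T.tr0 P h0 b0) ?_
    exact T.S0.inv_red_mem_rSubring P h0 (by rw [map_pow]; exact pow_ne_zero _ hχs)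
  refine eq_rAt hxt T.places1 T.tr1 P h1 Q hmem ?_
  intro b
  obtain ⟨n, b0, hb, hred⟩ := T.ov0 b
  have h3 : (⟨T.S0.red b0, red_mem_rAt T.places0 T.tr0 P h0 b0⟩ : ↥Q.toValuationSubring) =
      ⟨T.S0.red T.S0.sB, red_mem_rAt T.places0 T.tr0 P h0 T.S0.sB⟩ ^ n * ⟨T.S1.red b, hmem b⟩ :=
    Subtype.ext hred
  have h4 := congrArg (valueHom hxt Q) h3
  rw [map_mul, map_pow, valueHom_rAt hxt T.places0 T.tr0 P h0,
    valueHom_rAt hxt T.places0 T.tr0 P h0] at h4
  have h5 : T.S0.chi P h0 b0 = T.S0.chi P h0 T.S0.sB ^ n * T.S1.chi P h1 b := by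
    rw [ChartSpec.chi_apply, T.ev0_eq_of_ov P h0 h1 hb, map_mul, map_pow]
    rfl
  rw [h5] at h4
  exact (mul_left_cancel₀ (pow_ne_zero n hχs) h4).symm

end Overlap

/-! ### the global map -/

open Classical in
/-- **the reduction map on places.** -/
def r (P : Place L F) : Place (kA A) Ft :=
  if h0 : T.S0.InChart P then rAt T.places0 T.tr0 P h0
  else rAt T.places1 T.tr1 P ((T.inChart_or P).resolve_left h0)

theorem r_eq0 (P : Place L F) (h0 : T.S0.InChart P) : T.r P = rAt T.places0 T.tr0 P h0 :=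
  dif_pos h0

section Global

variable [IsAlgClosed (kA A)] {xt : Ft} (hxt : IsGen (kA A) xt)

include hxt in
theorem r_eq1 (P : Place L F) (h1 : T.S1.InChart P) : T.r P = rAt T.places1 T.tr1 P h1 := by
  by_cases h0 : T.S0.InChart P
  · rw [T.r_eq0 P h0, T.rAt_eq P h0 h1 hxt]
  · rw [r, dif_neg h0]

/-- if `P` is not in chart 0 then `s⁻¹(P) ∈ 𝔪_A`. -/
theorem chi1_s_eq_zero (P : Place L F) (h0 : ¬ T.S0.InChart P) (h1 : T.S1.InChart P) :
    T.S1.chi P h1 T.S1.sB = 0 := by
  by_contra hne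
  apply h0
  -- `s⁻¹(P)` is a unit of `A`
  have hunit : IsUnit (T.S1.ev P h1 T.S1.sB) := by
    rw [← IsLocalRing.residue_ne_zero_iff_isUnit]
    exact hne
  have hval0 : valueHom hx P ⟨T.S1.s, T.S1.mem_place P h1 _ T.S1.s_mem⟩ ≠ 0 := by
    intro h
    have : T.S1.ev P h1 T.S1.sB = 0 := Subtype.ext (by rw [ChartSpec.coe_ev]; exact h)
    rw [this] at hunit
    exact not_isUnit_zero hunit
  obtain ⟨hinv, hval⟩ := inv_mem_and_value (T.S1.mem_place P h1 _ T.S1.s_mem) hval0
  have hs : T.S1.s⁻¹ = T.S0.s := by rw [T.s_inv, inv_inv]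
  have hmem : T.S0.s ∈ P.toValuationSubring := by rw [← hs]; exact hinv
  refine ⟨hmem, ?_⟩
  have h2 : (⟨T.S0.s, hmem⟩ : ↥P.toValuationSubring) = ⟨T.S1.s⁻¹, hinv⟩ := Subtype.ext hs.symm
  rw [h2, hval]
  obtain ⟨w, hw⟩ := hunit.exists_right_inv
  have hw' : ((T.S1.ev P h1 T.S1.sB : ↥A) : L) * (w : L) = 1 := by
    have := congrArg Subtype.val hw
    simpa using this
  rw [ChartSpec.coe_ev] at hw'
  have h3 : (valueHom hx P ⟨T.S1.s, T.S1.mem_place P h1 _ T.S1.s_mem⟩)⁻¹ = (w : L) :=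
    inv_eq_of_mul_eq_one_right hw'
  rw [h3]
  exact w.2

/-- if `P` is not in chart 1 then `s(P) ∈ 𝔪_A`. -/
theorem chi0_s_eq_zero (P : Place L F) (h0 : T.S0.InChart P) (h1 : ¬ T.S1.InChart P) :
    T.S0.chi P h0 T.S0.sB = 0 := by
  by_contra hne
  apply h1
  have hunit : IsUnit (T.S0.ev P h0 T.S0.sB) := by
    rw [← IsLocalRing.residue_ne_zero_iff_isUnit]
    exact hne
  have hval0 : valueHom hx P ⟨T.S0.s, T.S0.mem_place P h0 _ T.S0.s_mem⟩ ≠ 0 := by
    intro h
    have : T.S0.ev P h0 T.S0.sB = 0 := Subtype.ext (by rw [ChartSpec.coe_ev]; exact h)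
    rw [this] at hunit
    exact not_isUnit_zero hunit
  obtain ⟨hinv, hval⟩ := inv_mem_and_value (T.S0.mem_place P h0 _ T.S0.s_mem) hval0
  have hmem : T.S1.s ∈ P.toValuationSubring := by rw [T.s_inv]; exact hinv
  refine ⟨hmem, ?_⟩
  have h2 : (⟨T.S1.s, hmem⟩ : ↥P.toValuationSubring) = ⟨T.S0.s⁻¹, hinv⟩ := Subtype.ext T.s_inv
  rw [h2, hval]
  obtain ⟨w, hw⟩ := hunit.exists_right_inv
  have hw' : ((T.S0.ev P h0 T.S0.sB : ↥A) : L) * (w : L) = 1 := by
    have := congrArg Subtype.val hw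
    simpa using this
  rw [ChartSpec.coe_ev] at hw'
  have h3 : (valueHom hx P ⟨T.S0.s, T.S0.mem_place P h0 _ T.S0.s_mem⟩)⁻¹ = (w : L) :=
    inv_eq_of_mul_eq_one_right hw'
  rw [h3]
  exact w.2

include hxt in
/-- **tube closure, chart 0**: if `red s` is regular at `r P` then `P` lies in chart 0. -/
theorem inChart0_of_red_mem (P : Place L F)
    (h : T.S0.red T.S0.sB ∈ (T.r P).toValuationSubring) : T.S0.InChart P := by
  by_contra h0
  have h1 : T.S1.InChart P := (T.inChart_or P).resolve_left h0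
  rw [T.r_eq1 hxt P h1] at h
  have hχ := T.chi1_s_eq_zero P h0 h1
  rcases T.S1.inv_red_notMem_rSubring P h1 hχ with hn | hn
  · apply hn
    rw [T.red_s1_eq, inv_inv]
    exact h
  · rw [T.red_s1_eq, inv_eq_zero] at hn
    exact T.red_s0_ne_zero hn

include hxt in
/-- **tube closure, chart 1**. -/
theorem inChart1_of_red_mem (P : Place L F)
    (h : T.S1.red T.S1.sB ∈ (T.r P).toValuationSubring) : T.S1.InChart P := by
  by_contra h1
  have h0 : T.S0.InChart P := (T.inChart_or P).resolve_right h1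
  rw [T.r_eq0 P h0] at h
  have hχ := T.chi0_s_eq_zero P h0 h1
  rcases T.S0.inv_red_notMem_rSubring P h0 hχ with hn | hn
  · apply hn
    rw [← T.red_s1_eq]
    exact h
  · exact T.red_s0_ne_zero hn

end Global

/-! ### the shape of (R2) -/

end TwoCharts

/-- **(R2) on one chart** (leaf RED-2): for `a, b ∈ B` with nonzero reductions, the divisor of
`a / b` is mapped by `r` to the divisor of `red a / red b`, at every place `Q` of `Ft` in the
chart (`red s` regular at `Q`).  Shape of Prelude `IsPlaceReductionAlong`. -/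
def R2 (S : ChartSpec A hx Ft) (r : Place L F → Place (kA A) Ft) : Prop :=
  ∀ a b : ↥S.B, S.red a ≠ 0 → S.red b ≠ 0 →
    ∀ D : Place L F →₀ ℤ, (∀ P, D P = P.ord ((a : F) / (b : F))) →
      ∀ Q : Place (kA A) Ft, S.red S.sB ∈ Q.toValuationSubring →
        Finsupp.mapDomain r D Q = Q.ord (S.red a / S.red b)

namespace TwoCharts

variable (T : TwoCharts A hx Ft)

/-- (R2) on both charts for the global map. -/
def R2 : Prop := TwoCharts8.R2 T.S0 T.r ∧ TwoCharts8.R2 T.S1 T.r

end TwoCharts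

end Fermat.Agent.ES.RED.TwoCharts8
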