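/-
Program I (S37), chapter ES/RED — helper21.  **(R3) for the global reduction map**
`TwoCharts8.TwoCharts.r`, and its consequences on `Pic⁰`.

* `r_smul`: if `(g, h)` is a symmetry of both charts (`GaloisContract21.ChartSym`), then
  `T.r (g • P) = h • T.r P`.
* modular case (`F = L · F₀(M)`, `Ft = modularFunctionFieldFullC κ_A M`), `g ∈ D_A`:
  `r_smul_decomposition`, `r_smul_of_mem_inertia` (`r (τ P) = r P`),
  `r_smul_of_isFrobeniusAt` (`r (σ P) = Fr (r P)`);
* on `Pic⁰`: `red_smul_of_mem_inertia` (`red (τ • y) = red y`, the shape of (Φ1)),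
  `red_smul_of_isFrobeniusAt` (`red (σ • y) = Fr_* (red y)`).
-/
import Mathlib
import Fermat.Agent.ES.RED.TwoCharts8
import Fermat.Agent.ES.RED.GaloisContract21

set_option autoImplicit false
set_option linter.unusedSectionVars false

noncomputable section

open AlgebraicCurve

namespace Fermat.Agent.ES.RED.GaloisGlobal21

open Fermat.Agent.X0.FF Fermat.Agent.ES.RED.PlaceValue13 Fermat.Agent.ES.RED.Contract8
  Fermat.Agent.ES.RED.TwoCharts8 Fermat.Agent.ES.RED.GaloisContract21

section Abstract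

variable {L : Type*} [Field L] [IsAlgClosed L] {A : ValuationSubring L}
variable {F : Type*} [Field F] [Algebra L F] {x : F} {hx : IsGen L x}
variable {Ft : Type*} [Field Ft] [Algebra (kA A) Ft]

/-- (R3) in one chart, for `rAt`. -/
theorem rAt_smul {S : ChartSpec A hx Ft} (hS : HasPlaces S)
    (htr : Transcendental (kA A) (S.red S.sB)) {g : SemilinearAut L F}
    {h : SemilinearAut (kA A) Ft} (T : ChartSym S g h) (P : Place L F) (hP : S.InChart P)
    (hP' : S.InChart (g • P)) :
    rAt hS htr (g • P) hP' = h • rAt hS htr P hP :=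
  T.rPlace_smul P hP _ _ _ hP' _ _ _

/-- **(R3), global form.** -/
theorem r_smul (T : TwoCharts A hx Ft) [IsAlgClosed (kA A)] {xt : Ft} (hxt : IsGen (kA A) xt)
    {g : SemilinearAut L F} {h : SemilinearAut (kA A) Ft}
    (T0 : ChartSym T.S0 g h) (T1 : ChartSym T.S1 g h) (P : Place L F) :
    T.r (g • P) = h • T.r P := by
  by_cases h0 : T.S0.InChart P
  · rw [T.r_eq0 P h0, T.r_eq0 (g • P) (T0.inChart_smul P h0)]
    exact rAt_smul T.places0 T.tr0 T0 P h0 _
  · have h1 : T.S1.InChart P := (T.inChart_or P).resolve_left h0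
    rw [T.r_eq1 hxt P h1, T.r_eq1 hxt (g • P) (T1.inChart_smul P h1)]
    exact rAt_smul T.places1 T.tr1 T1 P h1 _

end Abstract

section Modular

open ModularCurve HahnSeries Fermat.Agent.ES.RED.GaloisRed21 Fermat.Agent.ES.KRON.FrobPlace13

variable {L : Type*} [Field L] [Algebra ℚ L] [IsAlgClosed L] {A : ValuationSubring L}
  {M : ℕ} [NeZero M]
  {x : ↥(laurentBaseChange L (modularFunctionFieldFull M))} {hx : IsGen L x}
  (T : TwoCharts A hx ↥(modularFunctionFieldFullC (kA A) M))
  [IsAlgClosed (kA A)] {xt : ↥(modularFunctionFieldFullC (kA A) M)} (hxt : IsGen (kA A) xt)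

include hxt in
/-- (R3) for `g ∈ D_A`. -/
theorem r_smul_decomposition (g : A.decompositionSubgroup ℚ)
    (T0 : ChartSym T.S0 (arithmeticGalois (modularFunctionFieldFull M) (g : L ≃ₐ[ℚ] L))
      (coeffSemi (kA A) M (psiRes A g)))
    (T1 : ChartSym T.S1 (arithmeticGalois (modularFunctionFieldFull M) (g : L ≃ₐ[ℚ] L))
      (coeffSemi (kA A) M (psiRes A g)))
    (P : Place L ↥(laurentBaseChange L (modularFunctionFieldFull M))) :
    T.r (arithmeticGalois (modularFunctionFieldFull M) (g : L ≃ₐ[ℚ] L) • P) =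
      coeffSemi (kA A) M (psiRes A g) • T.r P :=
  r_smul T hxt T0 T1 P

include hxt in
/-- **(R3) for inertia**: `r (τ P) = r P`. -/
theorem r_smul_of_mem_inertia {τ : L ≃ₐ[ℚ] L} (hτ : τ ∈ A.inertiaSubgroupIn ℚ)
    (T0 : ∀ h : τ ∈ A.decompositionSubgroup ℚ,
      ChartSym T.S0 (arithmeticGalois (modularFunctionFieldFull M) τ)
        (coeffSemi (kA A) M (psiRes A ⟨τ, h⟩)))
    (T1 : ∀ h : τ ∈ A.decompositionSubgroup ℚ,
      ChartSym T.S1 (arithmeticGalois (modularFunctionFieldFull M) τ)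
        (coeffSemi (kA A) M (psiRes A ⟨τ, h⟩)))
    (P : Place L ↥(laurentBaseChange L (modularFunctionFieldFull M))) :
    T.r (arithmeticGalois (modularFunctionFieldFull M) τ • P) = T.r P := by
  obtain ⟨h, h1⟩ := coeffSemi_psiRes_of_mem_inertia (M := M) hτ
  have := r_smul T hxt (T0 h) (T1 h) P
  rw [h1, one_smul] at this
  exact this

include hxt in
/-- **(R3) for Frobenius elements**: `r (σ P) = Fr (r P)`. -/
theorem r_smul_of_isFrobeniusAt {σ : L ≃ₐ[ℚ] L} {ℓ : ℕ} [ExpChar (kA A) ℓ] [PerfectField (kA A)]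
    (hσ : A.IsFrobeniusAt σ ℓ)
    (T0 : ChartSym T.S0 (arithmeticGalois (modularFunctionFieldFull M) σ)
      (coeffSemi (kA A) M (psiRes A ⟨σ, hσ.mem_decompositionSubgroup⟩)))
    (T1 : ChartSym T.S1 (arithmeticGalois (modularFunctionFieldFull M) σ)
      (coeffSemi (kA A) M (psiRes A ⟨σ, hσ.mem_decompositionSubgroup⟩)))
    (P : Place L ↥(laurentBaseChange L (modularFunctionFieldFull M))) :
    T.r (arithmeticGalois (modularFunctionFieldFull M) σ • P) =
      frobSemi (kA A) ℓ M • T.r P := by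
  have := r_smul T hxt T0 T1 P
  rw [coeffSemi_psiRes_of_isFrobeniusAt (M := M) hσ] at this
  exact this

/-! ### consequences on `Pic⁰` -/

include hxt in
/-- **(Φ1)-shape**: the reduction of divisor classes is inertia-invariant. -/
theorem red_smul_of_mem_inertia
    (hr : IsPlaceReductionAlong A (IsLocalRing.residue ↥A) M T.r)
    (hgen : PrincipalGeneratedByIntegral A (IsLocalRing.residue ↥A) M)
    {τ : L ≃ₐ[ℚ] L} (hτ : τ ∈ A.inertiaSubgroupIn ℚ)
    (T0 : ∀ h : τ ∈ A.decompositionSubgroup ℚ,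
      ChartSym T.S0 (arithmeticGalois (modularFunctionFieldFull M) τ)
        (coeffSemi (kA A) M (psiRes A ⟨τ, h⟩)))
    (T1 : ∀ h : τ ∈ A.decompositionSubgroup ℚ,
      ChartSym T.S1 (arithmeticGalois (modularFunctionFieldFull M) τ)
        (coeffSemi (kA A) M (psiRes A ⟨τ, h⟩)))
    (y : Pic0 L ↥(laurentBaseChange L (modularFunctionFieldFull M))) :
    reductionPic0Along T.r hr hgen (τ • y) = reductionPic0Along T.r hr hgen y := by
  rw [galois_smul_pic0_def]
  exact reductionPic0Along_smul_of_fixed T.r hr hgen _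
    (fun P => r_smul_of_mem_inertia T hxt hτ T0 T1 P) y

include hxt in
/-- the reduction of divisor classes intertwines a Frobenius element with the coefficientwise
Frobenius of the special fibre. -/
theorem red_smul_of_isFrobeniusAt
    (hr : IsPlaceReductionAlong A (IsLocalRing.residue ↥A) M T.r)
    (hgen : PrincipalGeneratedByIntegral A (IsLocalRing.residue ↥A) M)
    {σ : L ≃ₐ[ℚ] L} {ℓ : ℕ} [ExpChar (kA A) ℓ] [PerfectField (kA A)]
    (hσ : A.IsFrobeniusAt σ ℓ)
    (T0 : ChartSym T.S0 (arithmeticGalois (modularFunctionFieldFull M) σ)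
      (coeffSemi (kA A) M (psiRes A ⟨σ, hσ.mem_decompositionSubgroup⟩)))
    (T1 : ChartSym T.S1 (arithmeticGalois (modularFunctionFieldFull M) σ)
      (coeffSemi (kA A) M (psiRes A ⟨σ, hσ.mem_decompositionSubgroup⟩)))
    (y : Pic0 L ↥(laurentBaseChange L (modularFunctionFieldFull M))) :
    reductionPic0Along T.r hr hgen (σ • y) =
      frobSemi (kA A) ℓ M • reductionPic0Along T.r hr hgen y := by
  rw [galois_smul_pic0_def]
  exact reductionPic0Along_smul T.r hr hgen _ _
    (fun P => r_smul_of_isFrobeniusAt T hxt hσ T0 T1 P) y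

end Modular

end Fermat.Agent.ES.RED.GaloisGlobal21
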