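/-
Program I (S37), chapter ES/RED — helper21.  **(R3): the chart symmetries of the decomposition
group for coefficientwise charts.**

`S : ChartSpec A hx Ft` at `F = L · F₀`, `Ft = modularFunctionFieldFullC κ_A M`, such that
* the chart ring is the integral closure of `A[s]` (`hB : b ∈ S.B ↔ b ∈ chart ↥A S.s`),
* the coordinate `s` has rational (`g`-invariant) coefficients,
* every element of the chart ring has an `A`-integral `q`-expansion `Y`, and `red b` is the
  coefficientwise reduction of `Y`.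
Then every `g ∈ D_A` gives a `ChartSym S (arithmeticGalois F₀ g) (coeffSemi κ_A M (psiRes A g))`
(`chartSymOfCoeff`); consequently (R3) holds for the global reduction map of two such charts
(`r_smul_of_mem_inertia'`, `r_smul_of_isFrobeniusAt'`).
-/
import Mathlib
import Fermat.Agent.ES.RED.GaloisGlobal21
import Fermat.Agent.ES.RED.GaloisChart21

set_option autoImplicit false
set_option linter.unusedSectionVars false

noncomputable section

open AlgebraicCurve ModularCurve HahnSeries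

namespace Fermat.Agent.ES.RED.GaloisInst21

open Fermat.Agent.X0.FF Fermat.Agent.ES.RED.PlaceValue13 Fermat.Agent.ES.RED.Contract8
  Fermat.Agent.ES.RED.TwoCharts8 Fermat.Agent.ES.RED.GaloisContract21
  Fermat.Agent.ES.RED.GaloisRed21 Fermat.Agent.ES.KRON.FrobPlace13
  Fermat.Agent.RED.PUR.ChartGeneric22

variable {L : Type*} [Field L] [Algebra ℚ L] [IsAlgClosed L] {A : ValuationSubring L}
  {F₀ : IntermediateField ℚ (LaurentSeries ℚ)} {x : ↥(laurentBaseChange L F₀)} {hx : IsGen L x}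
  {M : ℕ} [NeZero M]

/-- the coefficientwise action of `g ∈ D_A` preserves the chart `chart ↥A s` when `s` has
`g`-invariant coefficients. -/
theorem smul_mem_chart (g : A.decompositionSubgroup ℚ) {s : ↥(laurentBaseChange L F₀)}
    (hs : arithmeticGalois F₀ (g : L ≃ₐ[ℚ] L) • s = s) {b : ↥(laurentBaseChange L F₀)}
    (hb : b ∈ chart ↥A s) : arithmeticGalois F₀ (g : L ≃ₐ[ℚ] L) • b ∈ chart ↥A s :=
  map_mem_chart_of_semilinear
    ((arithmeticRingAut F₀ (g : L ≃ₐ[ℚ] L) : _ ≃+* _) : _ →+* _) (sigmaA A g)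
    (fun a => arithmeticRingAut_algebraMap F₀ (g : L ≃ₐ[ℚ] L) (a : L)) hs hb

theorem arithmeticGalois_inv_coe (g : A.decompositionSubgroup ℚ) :
    (arithmeticGalois F₀ (g : L ≃ₐ[ℚ] L))⁻¹ =
      arithmeticGalois F₀ ((g⁻¹ : A.decompositionSubgroup ℚ) : L ≃ₐ[ℚ] L) := by
  rw [← map_inv]
  rfl

/-- **the chart symmetry of `g ∈ D_A` for a coefficientwise chart.** -/
def chartSymOfCoeff (S : ChartSpec A hx ↥(modularFunctionFieldFullC (kA A) M))
    (hB : ∀ b : ↥(laurentBaseChange L F₀), b ∈ S.B ↔ b ∈ chart ↥A S.s)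
    (hs : ∀ σ : L ≃ₐ[ℚ] L, arithmeticGalois F₀ σ • S.s = S.s)
    (hint : ∀ b : ↥S.B, ∃ Y : LaurentSeries ↥A,
      coeffMap A.subtype Y = ((b : ↥(laurentBaseChange L F₀)) : LaurentSeries L))
    (hredY : ∀ (b : ↥S.B) (Y : LaurentSeries ↥A),
      coeffMap A.subtype Y = ((b : ↥(laurentBaseChange L F₀)) : LaurentSeries L) →
      ((S.red b : ↥(modularFunctionFieldFullC (kA A) M)) : LaurentSeries (kA A)) =
        coeffMap (resA A) Y)
    (g : A.decompositionSubgroup ℚ) :
    ChartSym S (arithmeticGalois F₀ (g : L ≃ₐ[ℚ] L)) (coeffSemi (kA A) M (psiRes A g)) :=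
  ChartSym.ofDecomposition S g
    (fun b hb => (hB _).mpr (smul_mem_chart g (hs _) ((hB b).mp hb)))
    (fun b hb => by
      rw [arithmeticGalois_inv_coe]
      exact (hB _).mpr (smul_mem_chart g⁻¹ (hs _) ((hB b).mp hb)))
    (hs _)
    (fun b => by
      obtain ⟨Y, hY⟩ := hint b
      rw [hredY b Y hY, ← coeffMap_residue_sigmaA A g Y]
      refine hredY _ (coeffMap (sigmaA A g) Y) ?_
      rw [coeffMap_subtype_sigmaA, hY]
      rfl)

section Global

variable (T : TwoCharts A hx ↥(modularFunctionFieldFullC (kA A) M))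
  [IsAlgClosed (kA A)] {xt : ↥(modularFunctionFieldFullC (kA A) M)} (hxt : IsGen (kA A) xt)

/-- the four elementary facts about a chart needed for (R3). -/
structure CoeffChart (S : ChartSpec A hx ↥(modularFunctionFieldFullC (kA A) M)) : Prop where
  mem_iff : ∀ b : ↥(laurentBaseChange L F₀), b ∈ S.B ↔ b ∈ chart ↥A S.s
  smul_s : ∀ σ : L ≃ₐ[ℚ] L, arithmeticGalois F₀ σ • S.s = S.s
  exists_series : ∀ b : ↥S.B, ∃ Y : LaurentSeries ↥A,
    coeffMap A.subtype Y = ((b : ↥(laurentBaseChange L F₀)) : LaurentSeries L)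
  red_eq : ∀ (b : ↥S.B) (Y : LaurentSeries ↥A),
    coeffMap A.subtype Y = ((b : ↥(laurentBaseChange L F₀)) : LaurentSeries L) →
    ((S.red b : ↥(modularFunctionFieldFullC (kA A) M)) : LaurentSeries (kA A)) =
      coeffMap (resA A) Y

/-- the chart symmetry from a `CoeffChart`. -/
def CoeffChart.sym {S : ChartSpec A hx ↥(modularFunctionFieldFullC (kA A) M)}
    (hS : CoeffChart (F₀ := F₀) S) (g : A.decompositionSubgroup ℚ) :
    ChartSym S (arithmeticGalois F₀ (g : L ≃ₐ[ℚ] L)) (coeffSemi (kA A) M (psiRes A g)) :=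
  chartSymOfCoeff S hS.mem_iff hS.smul_s hS.exists_series hS.red_eq g

end Global

section Final

open Fermat.Agent.ES.RED.GaloisGlobal21

variable {L : Type*} [Field L] [Algebra ℚ L] [IsAlgClosed L] {A : ValuationSubring L}
  {M : ℕ} [NeZero M]
  {x : ↥(laurentBaseChange L (modularFunctionFieldFull M))} {hx : IsGen L x}
  (T : TwoCharts A hx ↥(modularFunctionFieldFullC (kA A) M))
  [IsAlgClosed (kA A)] {xt : ↥(modularFunctionFieldFullC (kA A) M)} (hxt : IsGen (kA A) xt)
  (h0 : CoeffChart (F₀ := modularFunctionFieldFull M) T.S0)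
  (h1 : CoeffChart (F₀ := modularFunctionFieldFull M) T.S1)

include hxt h0 h1 in
/-- **(R3), inertia**: `r (τ P) = r P` for the global reduction map of two coefficientwise
charts. -/
theorem r_smul_of_mem_inertia' {τ : L ≃ₐ[ℚ] L} (hτ : τ ∈ A.inertiaSubgroupIn ℚ)
    (P : Place L ↥(laurentBaseChange L (modularFunctionFieldFull M))) :
    T.r (arithmeticGalois (modularFunctionFieldFull M) τ • P) = T.r P :=
  r_smul_of_mem_inertia T hxt hτ (fun h => h0.sym ⟨τ, h⟩) (fun h => h1.sym ⟨τ, h⟩) P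

include hxt h0 h1 in
/-- **(R3), Frobenius**: `r (σ P) = Fr (r P)`. -/
theorem r_smul_of_isFrobeniusAt' {σ : L ≃ₐ[ℚ] L} {ℓ : ℕ} [ExpChar (kA A) ℓ]
    [PerfectField (kA A)] (hσ : A.IsFrobeniusAt σ ℓ)
    (P : Place L ↥(laurentBaseChange L (modularFunctionFieldFull M))) :
    T.r (arithmeticGalois (modularFunctionFieldFull M) σ • P) =
      frobSemi (kA A) ℓ M • T.r P :=
  r_smul_of_isFrobeniusAt T hxt hσ (h0.sym ⟨σ, hσ.mem_decompositionSubgroup⟩)
    (h1.sym ⟨σ, hσ.mem_decompositionSubgroup⟩) P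

include hxt h0 h1 in
/-- **(R3), decomposition group**: `r (g P) = g̃ (r P)`. -/
theorem r_smul_decomposition' (g : A.decompositionSubgroup ℚ)
    (P : Place L ↥(laurentBaseChange L (modularFunctionFieldFull M))) :
    T.r (arithmeticGalois (modularFunctionFieldFull M) (g : L ≃ₐ[ℚ] L) • P) =
      coeffSemi (kA A) M (psiRes A g) • T.r P :=
  r_smul_decomposition T hxt g (h0.sym g) (h1.sym g) P

include hxt h0 h1 in
/-- **(Φ1)-shape**: inertia-invariance of the reduction of divisor classes. -/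
theorem red_smul_of_mem_inertia'
    (hr : IsPlaceReductionAlong A (IsLocalRing.residue ↥A) M T.r)
    (hgen : PrincipalGeneratedByIntegral A (IsLocalRing.residue ↥A) M)
    {τ : L ≃ₐ[ℚ] L} (hτ : τ ∈ A.inertiaSubgroupIn ℚ)
    (y : Pic0 L ↥(laurentBaseChange L (modularFunctionFieldFull M))) :
    reductionPic0Along T.r hr hgen (τ • y) = reductionPic0Along T.r hr hgen y :=
  red_smul_of_mem_inertia T hxt hr hgen hτ (fun h => h0.sym ⟨τ, h⟩) (fun h => h1.sym ⟨τ, h⟩) y

include hxt h0 h1 in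
/-- Frobenius-equivariance of the reduction of divisor classes. -/
theorem red_smul_of_isFrobeniusAt'
    (hr : IsPlaceReductionAlong A (IsLocalRing.residue ↥A) M T.r)
    (hgen : PrincipalGeneratedByIntegral A (IsLocalRing.residue ↥A) M)
    {σ : L ≃ₐ[ℚ] L} {ℓ : ℕ} [ExpChar (kA A) ℓ] [PerfectField (kA A)]
    (hσ : A.IsFrobeniusAt σ ℓ)
    (y : Pic0 L ↥(laurentBaseChange L (modularFunctionFieldFull M))) :
    reductionPic0Along T.r hr hgen (σ • y) =
      frobSemi (kA A) ℓ M • reductionPic0Along T.r hr hgen y :=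
  red_smul_of_isFrobeniusAt T hxt hr hgen hσ (h0.sym ⟨σ, hσ.mem_decompositionSubgroup⟩)
    (h1.sym ⟨σ, hσ.mem_decompositionSubgroup⟩) y

end Final

end Fermat.Agent.ES.RED.GaloisInst21
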