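/-
Program I (ES/RED, B1.3; helper16): the field `L4` of `LevelContract22.ChartLevels`, literally, for
any chart `S : Contract8.ChartSpec A hx Ft` at `F = ↥(Fbar M)`, `Ft = ↥(modularFunctionFieldFullC k M)`
whose ring contains the integral closure of `A[s]` (`s = t` or `t⁻¹`, `t` the Hauptmodul) and whose
`red` is the coefficientwise reduction of `A`-integral `q`-expansions (`GaloisInst21.CoeffChart`).
-/
import Fermat.Agent.ES.RED.FracRed16
import Fermat.Agent.ES.RED.Contract8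
import Fermat.Agent.ES.RED.GaloisInst21

set_option autoImplicit false
set_option linter.unusedSectionVars false
set_option linter.style.haveILetI false

noncomputable section

namespace Fermat.Agent.ES.RED.L4Inst16

open HahnSeries ModularCurve
open Fermat.Agent.X0.FF Fermat.Agent.ES.RED.Contract8
open Fermat.Agent.RED.Interface4 Fermat.Agent.RED.PUR.ChartGeneric22
open Fermat.Agent.RED.BASE.Interface12

variable {A : ValuationSubring Qbar} {M : ℕ} [NeZero M]
  {x : ↥(Fbar M)} {hx : IsGen Qbar x}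

/-- **`L4`**: every element of `F̃` is a quotient of reductions of elements of the chart ring. -/
theorem chartLevels_L4 (S : ChartSpec A hx ↥(modularFunctionFieldFullC (kA A) M))
    (hmemB : ∀ b : ↥(Fbar M), b ∈ chart ↥A S.s → b ∈ S.B)
    (hred : ∀ (b : ↥S.B) (Y : LaurentSeries ↥A),
      coeffMap A.subtype Y = ((b : ↥(Fbar M)) : LaurentSeries Qbar) →
      ((S.red b : ↥(modularFunctionFieldFullC (kA A) M)) : LaurentSeries (kA A)) =
        coeffMap (resA A) Y)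
    (n e : ℕ) [NeZero n] (ℓ : ℕ) [Fact ℓ.Prime] (hℓM : ¬ ℓ ∣ M)
    (hmem : TMem n e M) (hgen : TGenBase n e) (hA : A.LiesOverPrime ℓ)
    (hs : S.s = tF M hmem ∨ S.s = (tF M hmem)⁻¹) :
    ∀ y : ↥(modularFunctionFieldFullC (kA A) M),
      ∃ a b : ↥S.B, S.red b ≠ 0 ∧ y * S.red b = S.red a := by
  intro y
  have key : ∃ (Ya Yb : LaurentSeries ↥A) (ha : coeffMap A.subtype Ya ∈ Fbar M)
      (hb : coeffMap A.subtype Yb ∈ Fbar M),
      (⟨_, ha⟩ : ↥(Fbar M)) ∈ chart ↥A S.s ∧ (⟨_, hb⟩ : ↥(Fbar M)) ∈ chart ↥A S.s ∧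
      coeffMap (IsLocalRing.residue ↥A) Yb ≠ 0 ∧
      (y : LaurentSeries (kA A)) * coeffMap (IsLocalRing.residue ↥A) Yb =
        coeffMap (IsLocalRing.residue ↥A) Ya := by
    rcases hs with hs | hs
    · rw [hs]
      exact FracRed16.exists_frac_red A n e ℓ hℓM hmem hgen hA y.2
    · rw [hs]
      exact FracRed16.exists_frac_red_inv A n e ℓ hℓM hmem hgen hA y.2
  obtain ⟨Ya, Yb, ha, hb, hac, hbc, hb0, hab⟩ := key
  refine ⟨⟨⟨_, ha⟩, hmemB _ hac⟩, ⟨⟨_, hb⟩, hmemB _ hbc⟩, ?_, ?_⟩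
  · intro h0
    apply hb0
    have := hred ⟨⟨_, hb⟩, hmemB _ hbc⟩ Yb rfl
    rw [h0] at this
    exact this.symm
  · apply Subtype.ext
    rw [MulMemClass.coe_mul, hred ⟨⟨_, hb⟩, hmemB _ hbc⟩ Yb rfl,
      hred ⟨⟨_, ha⟩, hmemB _ hac⟩ Ya rfl]
    exact hab

/-- `L4` from `GaloisInst21.CoeffChart`. -/
theorem chartLevels_L4_of_coeffChart (S : ChartSpec A hx ↥(modularFunctionFieldFullC (kA A) M))
    (hS : GaloisInst21.CoeffChart (F₀ := modularFunctionFieldFull M) S)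
    (n e : ℕ) [NeZero n] (ℓ : ℕ) [Fact ℓ.Prime] (hℓM : ¬ ℓ ∣ M)
    (hmem : TMem n e M) (hgen : TGenBase n e) (hA : A.LiesOverPrime ℓ)
    (hs : S.s = tF M hmem ∨ S.s = (tF M hmem)⁻¹) :
    ∀ y : ↥(modularFunctionFieldFullC (kA A) M),
      ∃ a b : ↥S.B, S.red b ≠ 0 ∧ y * S.red b = S.red a :=
  chartLevels_L4 S (fun b hb => (hS.mem_iff b).mpr hb) hS.red_eq n e ℓ hℓM hmem hgen hA hs

end Fermat.Agent.ES.RED.L4Inst16
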