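/-
Program I (S37), chapter ES/RED — helper22: **(R2-local)** specialisation of divisors at a closed
point of the special fibre, abstract local algebra.

Setting: `C` a noetherian local domain (`C = B_x`, the local ring of the smooth model at a closed
point `x` of the special fibre), `π ∈ C` with `C ⧸ (π)` a discrete valuation ring `D` (the local ring
of the special fibre at `x`), `R → C` a discrete valuation ring with uniformiser `ϖ ↦ π`
(`R = A_K`), `K = Frac R`, `F = Frac C`.

* `RatSec R p` : the prime element `p` is a *rational section*: `R → C ⧸ (p)` is onto;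
* `maximalIdeal_eq_span_pair`, `irreducible_mk_of_ratSec` : a rational section is transversal to
  the special fibre: `𝔪_C = (π, p)` and the class of `p` is a uniformiser of `D`;
* `addVal_mk_of_factors` : if all prime factors of `a` are rational sections then
  `ord_D (a mod π)` is the number of prime factors of `a` (with multiplicity);
* `vsAt p` : the valuation subring `C_(p)` of `F`, `placeAt` the corresponding `Place K F`;
  `eq_vsAt_of_le` : every valuation subring of `F` containing `C` in which `π` is a unit is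
  `C_(p)` for a prime element `p`;
* `ratSec_of_rational` : if the residue field of `C_(p)` is `K` then `p` is a rational section;
* `sum_ord_eq_addVal` : **(R2-local)** `ord_D (a mod π) = ∑_w ord_w a`, the sum over the places `w`
  of `F / K` whose valuation ring contains `C`, provided those `w` with `ord_w a > 0` are rational.
-/
import Mathlib
import Fermat.Prelude.Def_AlgebraicCurve_DivisorClassGroup
import Fermat.Agent.RED.CORE.LocalUFD15
import Fermat.Agent.RED.PUR.Hartogs22
import Fermat.Agent.RED.PUR.ReducedFibre22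

set_option autoImplicit false
set_option linter.unusedSectionVars false
set_option linter.style.haveILetI false

open IsLocalRing AlgebraicCurve

noncomputable section

namespace Fermat.Agent.ES.RED.SpecLocal22

/-! ### Rational sections -/

section RatSec

variable (R : Type*) {C : Type*} [CommRing R] [CommRing C] [Algebra R C]

/-- `p` is a rational section: every element of `C` is congruent mod `p` to an element of `R`. -/
def RatSec (p : C) : Prop := ∀ c : C, ∃ r : R, p ∣ c - algebraMap R C r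

theorem ratSec_iff_surjective (p : C) :
    RatSec R p ↔ Function.Surjective (algebraMap R (C ⧸ Ideal.span {p})) := by
  constructor
  · intro h z
    obtain ⟨c, rfl⟩ := Ideal.Quotient.mk_surjective z
    obtain ⟨r, hr⟩ := h c
    refine ⟨r, ?_⟩
    rw [IsScalarTower.algebraMap_apply R C (C ⧸ Ideal.span {p}), Ideal.Quotient.algebraMap_eq,
      eq_comm, Ideal.Quotient.eq, Ideal.mem_span_singleton]
    exact hr
  · intro h c
    obtain ⟨r, hr⟩ := h (Ideal.Quotient.mk _ c)
    refine ⟨r, ?_⟩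
    rw [IsScalarTower.algebraMap_apply R C (C ⧸ Ideal.span {p}), Ideal.Quotient.algebraMap_eq,
      eq_comm, Ideal.Quotient.eq, Ideal.mem_span_singleton] at hr
    exact hr

variable {R}

theorem RatSec.of_associated {p q : C} (h : RatSec R p) (hpq : Associated p q) : RatSec R q :=
  fun c => by
    obtain ⟨r, hr⟩ := h c
    exact ⟨r, hpq.symm.dvd.trans hr⟩

end RatSec

/-! ### Transversality of rational sections -/

section Transversal

variable {R C : Type*} [CommRing R] [CommRing C] [Algebra R C] [IsLocalRing C]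
  {π : C} {ϖ : R}

/-- For a rational section `p` in the maximal ideal, `𝔪_C = (π, p)`. -/
theorem maximalIdeal_eq_span_pair (hπ : ¬ IsUnit π) (hϖ : algebraMap R C ϖ = π)
    (hdvr : ∀ r : R, r ≠ 0 → ∃ (k : ℕ) (v : Rˣ), r = ϖ ^ k * v)
    {p : C} (hp : ¬ IsUnit p) (h : RatSec R p) :
    maximalIdeal C = Ideal.span {π, p} := by
  apply le_antisymm
  · intro z hz
    obtain ⟨r, d, hd⟩ := h z
    -- `r` is a non-unit of `C`
    have hr : algebraMap R C r ∈ maximalIdeal C := by
      have : algebraMap R C r = z - p * d := by rw [← hd]; ring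
      rw [this]
      exact (maximalIdeal C).sub_mem hz
        ((maximalIdeal C).mul_mem_right _ ((mem_maximalIdeal _).2 hp))
    have hrπ : algebraMap R C r ∈ Ideal.span {π, p} := by
      by_cases hr0 : r = 0
      · rw [hr0, map_zero]; exact Ideal.zero_mem _
      obtain ⟨k, v, hkv⟩ := hdvr r hr0
      rcases Nat.eq_zero_or_pos k with hk | hk
      · exfalso
        rw [hk, pow_zero, one_mul] at hkv
        have : IsUnit (algebraMap R C r) := by rw [hkv]; exact v.isUnit.map _
        exact (mem_maximalIdeal _).1 hr this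
      · obtain ⟨k', rfl⟩ : ∃ k', k = k' + 1 := ⟨k - 1, by omega⟩
        rw [hkv, map_mul, map_pow, hϖ, pow_succ, mul_assoc, mul_comm (π ^ k'), mul_assoc]
        exact Ideal.mul_mem_right _ _ (Ideal.subset_span (by simp))
    have : z = algebraMap R C r + p * d := by rw [← hd]; ring
    rw [this]
    exact Ideal.add_mem _ hrπ (Ideal.mul_mem_right _ _ (Ideal.subset_span (by simp)))
  · rw [Ideal.span_le]
    rintro y (rfl | rfl)
    · exact (mem_maximalIdeal _).2 hπ
    · exact (mem_maximalIdeal _).2 hp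

variable [IsDomain (C ⧸ Ideal.span {π})] [IsDiscreteValuationRing (C ⧸ Ideal.span {π})]

/-- The class of a rational section is a uniformiser of `D = C ⧸ (π)`. -/
theorem irreducible_mk_of_ratSec (hπ : ¬ IsUnit π) (hϖ : algebraMap R C ϖ = π)
    (hdvr : ∀ r : R, r ≠ 0 → ∃ (k : ℕ) (v : Rˣ), r = ϖ ^ k * v)
    {p : C} (hp : ¬ IsUnit p) (h : RatSec R p) :
    Irreducible (Ideal.Quotient.mk (Ideal.span {π}) p) := by
  rw [IsDiscreteValuationRing.irreducible_iff_uniformizer]
  have hsurj : Function.Surjective (Ideal.Quotient.mk (Ideal.span {π})) :=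
    Ideal.Quotient.mk_surjective
  have hmap : Ideal.map (Ideal.Quotient.mk (Ideal.span {π})) (maximalIdeal C) =
      maximalIdeal (C ⧸ Ideal.span {π}) := by
    apply le_antisymm
    · rw [Ideal.map_le_iff_le_comap]
      intro z hz
      rw [Ideal.mem_comap, mem_maximalIdeal, mem_nonunits_iff]
      intro hu
      have hloc : IsLocalHom (Ideal.Quotient.mk (Ideal.span {π})) :=
        IsLocalHom.of_surjective _ hsurj
      exact (mem_maximalIdeal _).1 hz (hloc.map_nonunit z hu)
    · intro y hy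
      obtain ⟨z, rfl⟩ := hsurj y
      apply Ideal.mem_map_of_mem
      rw [mem_maximalIdeal, mem_nonunits_iff]
      intro hu
      exact (mem_maximalIdeal _).1 hy (hu.map _)
  rw [← hmap, maximalIdeal_eq_span_pair hπ hϖ hdvr hp h, Ideal.map_span, Set.image_pair]
  have h0 : Ideal.Quotient.mk (Ideal.span {π}) π = 0 :=
    Ideal.Quotient.eq_zero_iff_mem.2 (Ideal.mem_span_singleton_self π)
  rw [h0]
  apply le_antisymm
  · rw [Ideal.span_le]
    rintro y (rfl | rfl)
    · exact Ideal.zero_mem _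
    · exact Ideal.subset_span rfl
  · exact Ideal.span_mono (by simp)

/-- `ord_D` of the class of a product of rational sections is the number of factors. -/
theorem addVal_mk_prod (hπ : ¬ IsUnit π) (hϖ : algebraMap R C ϖ = π)
    (hdvr : ∀ r : R, r ≠ 0 → ∃ (k : ℕ) (v : Rˣ), r = ϖ ^ k * v)
    (s : Multiset C) (hs : ∀ p ∈ s, ¬ IsUnit p ∧ RatSec R p) :
    IsDiscreteValuationRing.addVal (C ⧸ Ideal.span {π})
      (Ideal.Quotient.mk (Ideal.span {π}) s.prod) = (Multiset.card s : ℕ∞) := by
  induction s using Multiset.induction_on with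
  | empty => simp
  | cons p s ih =>
    have hp := hs p (Multiset.mem_cons_self p s)
    rw [Multiset.prod_cons, map_mul, IsDiscreteValuationRing.addVal_mul,
      ih (fun q hq => hs q (Multiset.mem_cons_of_mem hq)),
      IsDiscreteValuationRing.addVal_uniformizer
        (irreducible_mk_of_ratSec hπ hϖ hdvr hp.1 hp.2), Multiset.card_cons]
    push_cast
    rw [add_comm]

end Transversal

/-! ### Counting prime factors -/

section Factors

variable {R C : Type*} [CommRing R] [CommRing C] [Algebra R C] [IsLocalRing C] [IsDomain C]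
  [UniqueFactorizationMonoid C] {π : C} {ϖ : R}
  [IsDomain (C ⧸ Ideal.span {π})] [IsDiscreteValuationRing (C ⧸ Ideal.span {π})]

/-- If all prime factors of `a ≠ 0` are rational sections, `ord_D (a mod π)` is the number of prime
factors of `a`, counted with multiplicity. -/
theorem addVal_mk_of_factors (hπ : ¬ IsUnit π) (hϖ : algebraMap R C ϖ = π)
    (hdvr : ∀ r : R, r ≠ 0 → ∃ (k : ℕ) (v : Rˣ), r = ϖ ^ k * v)
    {a : C} (ha : a ≠ 0) (hrat : ∀ p : C, Prime p → p ∣ a → RatSec R p) :
    IsDiscreteValuationRing.addVal (C ⧸ Ideal.span {π}) (Ideal.Quotient.mk (Ideal.span {π}) a) =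
      (Multiset.card (UniqueFactorizationMonoid.factors a) : ℕ∞) := by
  obtain ⟨u, hu⟩ := UniqueFactorizationMonoid.factors_prod ha
  conv_lhs => rw [← hu]
  rw [map_mul, IsDiscreteValuationRing.addVal_mul,
    addVal_mk_prod hπ hϖ hdvr (UniqueFactorizationMonoid.factors a) (fun p hp =>
      ⟨(UniqueFactorizationMonoid.irreducible_of_factor p hp).not_isUnit,
        hrat p (UniqueFactorizationMonoid.prime_of_factor p hp)
          (UniqueFactorizationMonoid.dvd_of_mem_factors hp)⟩)]
  have h0 : IsDiscreteValuationRing.addVal (C ⧸ Ideal.span {π})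
      (Ideal.Quotient.mk (Ideal.span {π}) (u : C)) = 0 :=
    IsDiscreteValuationRing.addVal_eq_zero_of_unit
      (Units.map (Ideal.Quotient.mk (Ideal.span {π}) : C →* (C ⧸ Ideal.span {π})) u)
  rw [h0, add_zero]

end Factors

/-! ### The places `C_(p)` -/

section VsAt

open Fermat.Agent.RED.PUR.Hartogs22

variable {C : Type*} [CommRing C] [IsDomain C] [IsNoetherianRing C] [IsIntegrallyClosed C]
variable (F : Type*) [Field F] [Algebra C F] [IsFractionRing C F]

theorem isPrime_span_singleton {p : C} (hp : Prime p) : (Ideal.span {p} : Ideal C).IsPrime :=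
  (Ideal.span_singleton_prime hp.ne_zero).2 hp

theorem height_span_singleton {p : C} (hp : Prime p) : (Ideal.span {p} : Ideal C).height = 1 :=
  Ideal.height_span_singleton_eq_one_of_mem_nonZeroDivisors
    (mem_nonZeroDivisors_of_ne_zero hp.ne_zero) hp.not_isUnit

/-- The valuation subring `C_(p)` of `F = Frac C`, for a prime element `p`. -/
def vsAt (p : C) (hp : Prime p) : ValuationSubring F :=
  haveI := isPrime_span_singleton hp
  valuationSubringAt (K := F) (Ideal.span {p}) (height_span_singleton hp)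

variable {F}

theorem mem_vsAt_iff {p : C} {hp : Prime p} {x : F} :
    x ∈ vsAt F p hp ↔ ∃ a s : C, ¬ p ∣ s ∧ x * algebraMap C F s = algebraMap C F a := by
  haveI := isPrime_span_singleton hp
  unfold vsAt
  rw [mem_valuationSubringAt_iff]
  simp only [Ideal.mem_span_singleton]

theorem algebraMap_mem_vsAt {p : C} (hp : Prime p) (c : C) : algebraMap C F c ∈ vsAt F p hp :=
  mem_vsAt_iff.2 ⟨c, 1, fun h => hp.not_isUnit (isUnit_of_dvd_one h), by simp⟩

theorem inv_algebraMap_mem_vsAt {p : C} (hp : Prime p) {c : C} (hc : ¬ p ∣ c) :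
    (algebraMap C F c)⁻¹ ∈ vsAt F p hp := by
  have hc0 : c ≠ 0 := fun h => hc (h ▸ dvd_zero p)
  have hcF : algebraMap C F c ≠ 0 := by
    simpa using (IsFractionRing.injective C F).ne hc0
  exact mem_vsAt_iff.2 ⟨1, c, hc, by rw [map_one]; exact inv_mul_cancel₀ hcF⟩

theorem valuation_algebraMap_lt_one_iff {p : C} (hp : Prime p) (c : C) :
    (vsAt F p hp).valuation (algebraMap C F c) < 1 ↔ p ∣ c := by
  haveI := isPrime_span_singleton hp
  unfold vsAt
  rw [Fermat.Agent.RED.PUR.Hartogs22.valuation_algebraMap_lt_one_iff, Ideal.mem_span_singleton]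

theorem vsAt_ne_top {p : C} (hp : Prime p) : vsAt F p hp ≠ ⊤ := by
  haveI := isPrime_span_singleton hp
  exact valuationSubringAt_ne_top _ _

instance isDiscreteValuationRing_vsAt {p : C} (hp : Prime p) :
    IsDiscreteValuationRing (vsAt F p hp) := by
  haveI := isPrime_span_singleton hp
  unfold vsAt
  infer_instance

theorem vsAt_eq_of_associated {p q : C} (hp : Prime p) (hq : Prime q) (h : Associated p q) :
    vsAt F p hp = vsAt F q hq := by
  ext x
  rw [mem_vsAt_iff, mem_vsAt_iff]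
  simp only [h.dvd_iff_dvd_left]

/-- `p` is a uniformiser of `C_(p)`. -/
theorem irreducible_vsAt {p : C} (hp : Prime p) :
    Irreducible (⟨algebraMap C F p, algebraMap_mem_vsAt hp p⟩ : vsAt F p hp) := by
  rw [IsDiscreteValuationRing.irreducible_iff_uniformizer]
  set O := vsAt F p hp with hO
  set P : O := ⟨algebraMap C F p, algebraMap_mem_vsAt hp p⟩ with hP
  apply le_antisymm
  · intro x hx
    rw [Ideal.mem_span_singleton]
    have hxlt : O.valuation (x : F) < 1 := by
      rw [mem_maximalIdeal, mem_nonunits_iff] at hx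
      by_contra hcon
      apply hx
      have h1 : O.valuation (x : F) = 1 :=
        le_antisymm ((O.valuation_le_one_iff _).2 x.2) (not_lt.1 hcon)
      exact (O.valuation_eq_one_iff x).2 h1
    obtain ⟨a, s, hs, e⟩ := mem_vsAt_iff.1 x.2
    have hs0 : s ≠ 0 := fun h => hs (h ▸ dvd_zero p)
    have hsF : algebraMap C F s ≠ 0 := by
      simpa using (IsFractionRing.injective C F).ne hs0
    have hsu : O.valuation (algebraMap C F s) = 1 := by
      apply le_antisymm ((O.valuation_le_one_iff _).2 (algebraMap_mem_vsAt hp s))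
      rw [← not_lt, valuation_algebraMap_lt_one_iff hp]
      exact hs
    have ha : p ∣ a := by
      rw [← valuation_algebraMap_lt_one_iff (F := F) hp, ← e, map_mul, hsu, mul_one]
      exact hxlt
    obtain ⟨a', rfl⟩ := ha
    have hmem : algebraMap C F a' * (algebraMap C F s)⁻¹ ∈ O :=
      O.mul_mem _ _ (algebraMap_mem_vsAt hp a') (inv_algebraMap_mem_vsAt hp hs)
    refine ⟨⟨_, hmem⟩, Subtype.ext ?_⟩
    show (x : F) = algebraMap C F p * (algebraMap C F a' * (algebraMap C F s)⁻¹)
    rw [map_mul] at e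
    rw [← mul_assoc, ← e]
    field_simp
  · rw [Ideal.span_le, Set.singleton_subset_iff, SetLike.mem_coe, mem_maximalIdeal,
      mem_nonunits_iff]
    intro hu
    have h1 : O.valuation ((P : O) : F) = 1 := (O.valuation_eq_one_iff P).1 hu
    have h2 : O.valuation (algebraMap C F p) < 1 :=
      (valuation_algebraMap_lt_one_iff hp p).2 dvd_rfl
    rw [hP] at h1
    exact absurd h1 (ne_of_lt h2)

end VsAt

/-! ### Places of `F / K` through the closed point -/

section Places

variable {R K C F : Type*} [CommRing R] [Field K] [CommRing C] [Field F]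
  [Algebra R K] [IsFractionRing R K] [Algebra R C] [Algebra C F] [IsFractionRing C F]
  [Algebra K F] [Algebra R F] [IsScalarTower R K F] [IsScalarTower R C F]
  [IsDomain C] [IsNoetherianRing C] [IsIntegrallyClosed C] [IsLocalRing C]
  {π : C} {ϖ : R}

theorem algebraMap_R_eq (r : R) :
    algebraMap K F (algebraMap R K r) = algebraMap C F (algebraMap R C r) := by
  rw [← IsScalarTower.algebraMap_apply R K F, ← IsScalarTower.algebraMap_apply R C F]

/-- Nonzero elements of `R` are not divisible by a prime `p ∤ π`. -/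
theorem not_dvd_algebraMap (hϖ : algebraMap R C ϖ = π)
    (hdvr : ∀ r : R, r ≠ 0 → ∃ (k : ℕ) (v : Rˣ), r = ϖ ^ k * v)
    {p : C} (hp : Prime p) (hpπ : ¬ p ∣ π) {r : R} (hr : r ≠ 0) : ¬ p ∣ algebraMap R C r := by
  obtain ⟨k, v, rfl⟩ := hdvr r hr
  rw [map_mul, map_pow, hϖ]
  intro h
  rcases hp.dvd_or_dvd h with h1 | h1
  · exact hpπ (hp.dvd_of_dvd_pow h1)
  · exact hp.not_isUnit (isUnit_of_dvd_unit h1 (v.isUnit.map _))

/-- `K ⊂ C_(p)` for a prime `p ∤ π`. -/
theorem algebraMap_K_mem_vsAt (hϖ : algebraMap R C ϖ = π)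
    (hdvr : ∀ r : R, r ≠ 0 → ∃ (k : ℕ) (v : Rˣ), r = ϖ ^ k * v)
    {p : C} (hp : Prime p) (hpπ : ¬ p ∣ π) (κ : K) : algebraMap K F κ ∈ vsAt F p hp := by
  haveI : Nontrivial R := (IsFractionRing.nontrivial_iff_nontrivial R K).2 inferInstance
  obtain ⟨r₁, r₂, hr₂, rfl⟩ := IsFractionRing.div_surjective (A := R) κ
  have hr₂0 : r₂ ≠ 0 := nonZeroDivisors.ne_zero hr₂
  rw [map_div₀, algebraMap_R_eq (C := C), algebraMap_R_eq (C := C), div_eq_mul_inv]
  exact (vsAt F p hp).mul_mem _ _ (algebraMap_mem_vsAt hp _)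
    (inv_algebraMap_mem_vsAt hp (not_dvd_algebraMap hϖ hdvr hp hpπ hr₂0))

/-- The place `C_(p)` of `F / K`. -/
def placeAt (hϖ : algebraMap R C ϖ = π)
    (hdvr : ∀ r : R, r ≠ 0 → ∃ (k : ℕ) (v : Rˣ), r = ϖ ^ k * v)
    (p : C) (hp : Prime p) (hpπ : ¬ p ∣ π) : Place K F where
  toValuationSubring := vsAt F p hp
  algebraMap_mem' := algebraMap_K_mem_vsAt hϖ hdvr hp hpπ
  ne_top' := vsAt_ne_top hp
  isPrincipalIdealRing' := inferInstance

@[simp]
theorem placeAt_toValuationSubring (hϖ : algebraMap R C ϖ = π)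
    (hdvr : ∀ r : R, r ≠ 0 → ∃ (k : ℕ) (v : Rˣ), r = ϖ ^ k * v)
    (p : C) (hp : Prime p) (hpπ : ¬ p ∣ π) :
    (placeAt (K := K) (F := F) hϖ hdvr p hp hpπ).toValuationSubring = vsAt F p hp := rfl

/-- `ord` vanishes on units of the valuation ring. -/
theorem ord_eq_zero_of_mem_of_inv_mem (w : Place K F) {x : F}
    (hx : x ∈ w.toValuationSubring) (hxi : x⁻¹ ∈ w.toValuationSubring) (hx0 : x ≠ 0) :
    w.ord x = 0 := by
  let u : (w.toValuationSubring)ˣ :=
    ⟨⟨x, hx⟩, ⟨x⁻¹, hxi⟩, Subtype.ext (mul_inv_cancel₀ hx0), Subtype.ext (inv_mul_cancel₀ hx0)⟩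
  exact w.ord_coe_unit u

/-- `ord` is nonnegative on the valuation ring. -/
theorem ord_nonneg_of_mem (w : Place K F) {x : F} (hx : x ∈ w.toValuationSubring) :
    0 ≤ w.ord x := by
  by_cases hx0 : x = 0
  · rw [hx0, Place.ord_zero]
  obtain ⟨ϖ', hϖ'⟩ := IsDiscreteValuationRing.exists_irreducible w.toValuationSubring
  have hx0' : (⟨x, hx⟩ : w.toValuationSubring) ≠ 0 := fun h => hx0 (congrArg Subtype.val h)
  obtain ⟨n, u, hu⟩ := IsDiscreteValuationRing.eq_unit_mul_pow_irreducible hx0' hϖ'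
  have hxe : x = ((u : w.toValuationSubring) : F) * ((ϖ' : F) ^ (n : ℤ)) := by
    have := congrArg Subtype.val hu
    simpa using this
  rw [hxe, w.ord_unit_smul_zpow u hϖ']
  exact Int.natCast_nonneg n

theorem ord_placeAt_self (hϖ : algebraMap R C ϖ = π)
    (hdvr : ∀ r : R, r ≠ 0 → ∃ (k : ℕ) (v : Rˣ), r = ϖ ^ k * v)
    (p : C) (hp : Prime p) (hpπ : ¬ p ∣ π) :
    (placeAt (K := K) (F := F) hϖ hdvr p hp hpπ).ord (algebraMap C F p) = 1 :=
  (placeAt (K := K) (F := F) hϖ hdvr p hp hpπ).ord_coe_irreducible (irreducible_vsAt hp)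

/-- `ord_w c = 0` when `O_w = C_(q)` and `q ∤ c`. -/
theorem ord_eq_zero_of_not_dvd (w : Place K F) {q : C} (hq : Prime q)
    (hw : w.toValuationSubring = vsAt F q hq) {c : C} (hc : ¬ q ∣ c) :
    w.ord (algebraMap C F c) = 0 := by
  have hc0 : c ≠ 0 := fun h => hc (h ▸ dvd_zero q)
  have hcF : algebraMap C F c ≠ 0 := by
    simpa using (IsFractionRing.injective C F).ne hc0
  apply ord_eq_zero_of_mem_of_inv_mem w _ _ hcF
  · rw [hw]; exact algebraMap_mem_vsAt hq c
  · rw [hw]; exact inv_algebraMap_mem_vsAt hq hc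

/-- **Uniqueness**: a valuation subring of `F`, not `F`, containing `C` and `π⁻¹`, is `C_(p)` for a
prime element `p ∤ π`. -/
theorem eq_vsAt_of_le (hπ : Prime π) [IsPrincipalIdealRing (C ⧸ Ideal.span {π})]
    (O : ValuationSubring F) (hC : ∀ c : C, algebraMap C F c ∈ O)
    (hπO : (algebraMap C F π)⁻¹ ∈ O) (hO : O ≠ ⊤) :
    ∃ (p : C) (hp : Prime p), ¬ p ∣ π ∧ O = vsAt F p hp := by
  open Fermat.Agent.RED.PUR.ReducedFibre22 Fermat.Agent.RED.PUR.Hartogs22 in
  have hinj := IsFractionRing.injective C F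
  set 𝔭 := center O hC with h𝔭
  have hπF : algebraMap C F π ≠ 0 := by simpa using hinj.ne hπ.ne_zero
  have hπ𝔭 : π ∉ 𝔭 := by
    intro h
    rw [h𝔭, mem_center_iff] at h
    have h1 : O.valuation (algebraMap C F π)⁻¹ ≤ 1 := (O.valuation_le_one_iff _).2 hπO
    rw [map_inv₀] at h1
    have hv0 : O.valuation (algebraMap C F π) ≠ 0 := (Valuation.ne_zero_iff _).2 hπF
    have := (inv_le_one₀ (zero_lt_iff.2 hv0)).1 h1
    exact absurd h (not_lt.2 this)
  have h𝔭0 : 𝔭 ≠ ⊥ := by
    intro h0
    apply hO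
    rw [eq_top_iff]
    intro x _
    obtain ⟨a, s, hs, rfl⟩ := IsFractionRing.div_surjective (A := C) x
    have hs0 : s ≠ 0 := nonZeroDivisors.ne_zero hs
    have hs1 : O.valuation (algebraMap C F s) = 1 := by
      apply le_antisymm ((O.valuation_le_one_iff _).2 (hC s))
      rw [← not_lt]
      intro hlt
      have : s ∈ 𝔭 := hlt
      rw [h0, Ideal.mem_bot] at this
      exact hs0 this
    rw [← O.valuation_le_one_iff, map_div₀, hs1, div_one]
    exact (O.valuation_le_one_iff _).2 (hC a)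
  obtain ⟨f, hf𝔭, hf, h𝔭f⟩ :=
    Fermat.Agent.RED.CORE.LocalUFD15.exists_eq_span_singleton π hπ.not_isUnit 𝔭 h𝔭0 hπ𝔭
  refine ⟨f, hf, fun hfπ => hπ𝔭 (by rw [h𝔭f, Ideal.mem_span_singleton]; exact hfπ), ?_⟩
  haveI := isPrime_span_singleton hf
  unfold vsAt
  refine eq_valuationSubringAt_of_center O (Ideal.span {f}) (height_span_singleton hf) hC
    (fun r => ?_)
  rw [← h𝔭f]
  exact Iff.rfl

/-- **Rational places give rational sections**: if the residue field of `C_(p)` is `K`, then
`R → C ⧸ (p)` is onto. -/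
theorem ratSec_of_rational (hπ : ¬ IsUnit π) (hϖ : algebraMap R C ϖ = π)
    (hdvr : ∀ r : R, r ≠ 0 → ∃ (k : ℕ) (v : Rˣ), r = ϖ ^ k * v)
    {p : C} (hp : Prime p)
    (hrat : ∀ z ∈ vsAt F p hp, ∃ κ : K, (vsAt F p hp).valuation (z - algebraMap K F κ) < 1) :
    RatSec R p := by
  haveI : Nontrivial R := (IsFractionRing.nontrivial_iff_nontrivial R K).2 inferInstance
  intro c
  set O := vsAt F p hp with hO
  obtain ⟨κ, hκ⟩ := hrat _ (algebraMap_mem_vsAt hp c)
  obtain ⟨r₁, r₂, hr₂, rfl⟩ := IsFractionRing.div_surjective (A := R) κ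
  have hr₂0 : r₂ ≠ 0 := nonZeroDivisors.ne_zero hr₂
  by_cases hr₁0 : r₁ = 0
  · refine ⟨0, ?_⟩
    rw [hr₁0, map_zero, zero_div, map_zero, sub_zero, valuation_algebraMap_lt_one_iff hp] at hκ
    rwa [map_zero, sub_zero]
  obtain ⟨a, u₁, h₁⟩ := hdvr r₁ hr₁0
  obtain ⟨b, u₂, h₂⟩ := hdvr r₂ hr₂0
  have hr₂K : algebraMap R K r₂ ≠ 0 := by
    simpa using (IsFractionRing.injective R K).ne hr₂0
  rcases le_or_gt b a with hab | hab
  · -- `κ ∈ R`
    refine ⟨ϖ ^ (a - b) * u₁ * ((u₂⁻¹ : Rˣ) : R), ?_⟩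
    have hκR : algebraMap R K r₁ / algebraMap R K r₂ =
        algebraMap R K (ϖ ^ (a - b) * u₁ * ((u₂⁻¹ : Rˣ) : R)) := by
      rw [div_eq_iff hr₂K, ← map_mul]
      congr 1
      rw [h₁, h₂]
      have : ϖ ^ a = ϖ ^ (a - b) * ϖ ^ b := by rw [← pow_add, Nat.sub_add_cancel hab]
      rw [this]
      have hu : ((u₂⁻¹ : Rˣ) : R) * (u₂ : R) = 1 := by simp
      calc ϖ ^ (a - b) * ϖ ^ b * ↑u₁
          = ϖ ^ (a - b) * ↑u₁ * (((u₂⁻¹ : Rˣ) : R) * (u₂ : R)) * ϖ ^ b := by
            rw [hu]; ring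
        _ = _ := by ring
    rw [hκR, algebraMap_R_eq (C := C), ← map_sub, valuation_algebraMap_lt_one_iff hp] at hκ
    exact hκ
  · -- `κ ∉ R`: impossible
    exfalso
    set n := b - a with hn
    have hn0 : 0 < n := by omega
    set m : R := ϖ ^ n * u₂ with hm
    have hmO : O.valuation (algebraMap C F (algebraMap R C m)) ≤ 1 :=
      (O.valuation_le_one_iff _).2 (algebraMap_mem_vsAt hp _)
    have hlt : O.valuation (algebraMap C F (algebraMap R C m) *
        (algebraMap C F c - algebraMap K F (algebraMap R K r₁ / algebraMap R K r₂))) < 1 := by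
      rw [map_mul]
      exact lt_of_le_of_lt (mul_le_of_le_one_left' hmO) hκ
    have hmκ : algebraMap C F (algebraMap R C m) *
        algebraMap K F (algebraMap R K r₁ / algebraMap R K r₂) =
          algebraMap C F (algebraMap R C u₁) := by
      rw [← algebraMap_R_eq (K := K) (C := C) m, ← algebraMap_R_eq (K := K) (C := C) (u₁ : R),
        ← map_mul]
      congr 1
      rw [mul_div_assoc', div_eq_iff hr₂K, ← map_mul, ← map_mul]
      congr 1
      rw [hm, h₁, h₂]
      have : ϖ ^ b = ϖ ^ n * ϖ ^ a := by rw [← pow_add, hn, Nat.sub_add_cancel hab.le]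
      rw [this]
      ring
    rw [mul_sub, hmκ, ← map_mul, ← map_sub, valuation_algebraMap_lt_one_iff hp] at hlt
    -- `u₁ ∈ 𝔪_C`
    have hpm : p ∈ maximalIdeal C := (mem_maximalIdeal _).2 hp.not_isUnit
    have h1 : algebraMap R C m * c - algebraMap R C u₁ ∈ maximalIdeal C := by
      obtain ⟨d, hd⟩ := hlt
      rw [hd]
      exact Ideal.mul_mem_right _ _ hpm
    have h2 : algebraMap R C m * c ∈ maximalIdeal C := by
      apply Ideal.mul_mem_right
      rw [hm, map_mul, map_pow, hϖ]
      apply Ideal.mul_mem_right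
      obtain ⟨n', hn'⟩ : ∃ n', n = n' + 1 := ⟨n - 1, by omega⟩
      rw [hn', pow_succ]
      exact Ideal.mul_mem_left _ _ ((mem_maximalIdeal _).2 hπ)
    have h3 : algebraMap R C u₁ ∈ maximalIdeal C := by
      have := (maximalIdeal C).sub_mem h2 h1
      rwa [sub_sub_cancel] at this
    exact (mem_maximalIdeal _).1 h3 (u₁.isUnit.map _)

/-- `π` is a unit in every place of `F / K`. -/
theorem inv_pi_mem (hϖ : algebraMap R C ϖ = π) (w : Place K F) :
    (algebraMap C F π)⁻¹ ∈ w.toValuationSubring := by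
  rw [← hϖ, ← algebraMap_R_eq (K := K) (C := C), ← map_inv₀]
  exact w.algebraMap_mem' _

/-- Among the places containing `C`, only `C_(p)` sees the prime element `p`. -/
theorem sum_ord_prime (hπ : Prime π) (hϖ : algebraMap R C ϖ = π)
    (hdvr : ∀ r : R, r ≠ 0 → ∃ (k : ℕ) (v : Rˣ), r = ϖ ^ k * v)
    [IsPrincipalIdealRing (C ⧸ Ideal.span {π})]
    (W : Finset (Place K F)) (hWC : ∀ w ∈ W, ∀ c : C, algebraMap C F c ∈ w.toValuationSubring)
    (p : C) (hp : Prime p) (hpπ : ¬ p ∣ π) (hmem : placeAt hϖ hdvr p hp hpπ ∈ W) :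
    ∑ w ∈ W, w.ord (algebraMap C F p) = 1 := by
  rw [Finset.sum_eq_single_of_mem _ hmem, ord_placeAt_self]
  intro w hw hne
  obtain ⟨q, hq, -, hwq⟩ := eq_vsAt_of_le hπ w.toValuationSubring (hWC w hw)
    (inv_pi_mem hϖ w) w.ne_top'
  apply ord_eq_zero_of_not_dvd w hq hwq
  intro hqp
  apply hne
  apply Place.ext
  rw [hwq, placeAt_toValuationSubring]
  exact vsAt_eq_of_associated hq hp (hq.associated_of_dvd hp hqp)

/-- The sum of the orders of a product of prime elements. -/
theorem sum_ord_prod (hπ : Prime π) (hϖ : algebraMap R C ϖ = π)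
    (hdvr : ∀ r : R, r ≠ 0 → ∃ (k : ℕ) (v : Rˣ), r = ϖ ^ k * v)
    [IsPrincipalIdealRing (C ⧸ Ideal.span {π})]
    (W : Finset (Place K F)) (hWC : ∀ w ∈ W, ∀ c : C, algebraMap C F c ∈ w.toValuationSubring)
    (s : Multiset C)
    (hs : ∀ p ∈ s, ∃ (hp : Prime p) (hpπ : ¬ p ∣ π), placeAt hϖ hdvr p hp hpπ ∈ W) :
    ∑ w ∈ W, w.ord (algebraMap C F s.prod) = (Multiset.card s : ℤ) := by
  have hinj := IsFractionRing.injective C F
  induction s using Multiset.induction_on with
  | empty => simp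
  | cons p s ih =>
    obtain ⟨hp, hpπ, hmem⟩ := hs p (Multiset.mem_cons_self p s)
    have hs' : ∀ q ∈ s, ∃ (hq : Prime q) (hqπ : ¬ q ∣ π), placeAt hϖ hdvr q hq hqπ ∈ W :=
      fun q hq => hs q (Multiset.mem_cons_of_mem hq)
    have hs0 : s.prod ≠ 0 := by
      apply Multiset.prod_ne_zero
      intro h0
      obtain ⟨h0', -, -⟩ := hs' 0 h0
      exact h0'.ne_zero rfl
    have hpF : algebraMap C F p ≠ 0 := by simpa using hinj.ne hp.ne_zero
    have hsF : algebraMap C F s.prod ≠ 0 := by simpa using hinj.ne hs0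
    rw [Multiset.prod_cons, map_mul, Multiset.card_cons]
    simp_rw [fun w : Place K F => w.ord_mul hpF hsF]
    rw [Finset.sum_add_distrib, ih hs', sum_ord_prime hπ hϖ hdvr W hWC p hp hpπ hmem]
    push_cast
    ring

/-- **(R2-local)**: the order at the closed point of the reduction of `a` is the sum of the orders
of `a` at the places through the closed point, when those places are rational. -/
theorem sum_ord_eq_addVal (hπ : Prime π) (hϖ : algebraMap R C ϖ = π)
    (hdvr : ∀ r : R, r ≠ 0 → ∃ (k : ℕ) (v : Rˣ), r = ϖ ^ k * v)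
    [IsDomain (C ⧸ Ideal.span {π})] [IsDiscreteValuationRing (C ⧸ Ideal.span {π})]
    {a : C} (hπa : ¬ π ∣ a)
    (W : Finset (Place K F)) (hWC : ∀ w ∈ W, ∀ c : C, algebraMap C F c ∈ w.toValuationSubring)
    (hW : ∀ w : Place K F, (∀ c : C, algebraMap C F c ∈ w.toValuationSubring) →
      0 < w.ord (algebraMap C F a) → w ∈ W)
    (hrat : ∀ w ∈ W, 0 < w.ord (algebraMap C F a) → ∀ z ∈ w.toValuationSubring,
      ∃ κ : K, w.toValuationSubring.valuation (z - algebraMap K F κ) < 1) :
    ∃ n : ℕ, IsDiscreteValuationRing.addVal (C ⧸ Ideal.span {π})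
        (Ideal.Quotient.mk (Ideal.span {π}) a) = (n : ℕ∞) ∧
      ∑ w ∈ W, w.ord (algebraMap C F a) = (n : ℤ) := by
  have hinj := IsFractionRing.injective C F
  haveI : UniqueFactorizationMonoid C := Fermat.Agent.RED.CORE.LocalUFD15.ufd π hπ
  have ha : a ≠ 0 := fun h => hπa (h ▸ dvd_zero π)
  set s := UniqueFactorizationMonoid.factors a with hs
  obtain ⟨u, hu⟩ := UniqueFactorizationMonoid.factors_prod ha
  -- every prime factor gives a place in `W`
  have hfac : ∀ p ∈ s, ∃ (hp : Prime p) (hpπ : ¬ p ∣ π), placeAt hϖ hdvr p hp hpπ ∈ W ∧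
      0 < (placeAt (K := K) (F := F) hϖ hdvr p hp hpπ).ord (algebraMap C F a) := by
    intro p hps
    have hp : Prime p := UniqueFactorizationMonoid.prime_of_factor p hps
    have hpa : p ∣ a := UniqueFactorizationMonoid.dvd_of_mem_factors hps
    have hpπ : ¬ p ∣ π := fun h => hπa ((hp.associated_of_dvd hπ h).symm.dvd.trans hpa)
    have hpos : 0 < (placeAt (K := K) (F := F) hϖ hdvr p hp hpπ).ord (algebraMap C F a) := by
      obtain ⟨a', rfl⟩ := hpa
      have ha'0 : a' ≠ 0 := right_ne_zero_of_mul ha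
      have hpF : algebraMap C F p ≠ 0 := by simpa using hinj.ne hp.ne_zero
      have ha'F : algebraMap C F a' ≠ 0 := by simpa using hinj.ne ha'0
      rw [map_mul, Place.ord_mul _ hpF ha'F, ord_placeAt_self]
      have := ord_nonneg_of_mem (placeAt (K := K) (F := F) hϖ hdvr p hp hpπ)
        (x := algebraMap C F a') (algebraMap_mem_vsAt hp a')
      omega
    exact ⟨hp, hpπ, hW _ (fun c => algebraMap_mem_vsAt hp c) hpos, hpos⟩
  refine ⟨Multiset.card s, ?_, ?_⟩
  · apply addVal_mk_of_factors hπ.not_isUnit hϖ hdvr ha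
    intro p hp hpa
    -- `p` is associated to a factor
    obtain ⟨q, hqs, hpq⟩ := UniqueFactorizationMonoid.exists_mem_factors_of_dvd ha hp.irreducible hpa
    obtain ⟨hq, hqπ, hqW, hqpos⟩ := hfac q hqs
    apply RatSec.of_associated _ hpq.symm
    exact ratSec_of_rational (K := K) (F := F) hπ.not_isUnit hϖ hdvr hq (hrat _ hqW hqpos)
  · have hprod : ∀ w ∈ W, w.ord (algebraMap C F a) = w.ord (algebraMap C F s.prod) := by
      intro w hw
      have hs0 : s.prod ≠ 0 := left_ne_zero_of_mul (hu ▸ ha)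
      have hsF : algebraMap C F s.prod ≠ 0 := by simpa using hinj.ne hs0
      have huF : algebraMap C F (u : C) ≠ 0 := by simp
      rw [← hu, map_mul, w.ord_mul hsF huF]
      have : w.ord (algebraMap C F (u : C)) = 0 := by
        apply ord_eq_zero_of_mem_of_inv_mem w (hWC w hw _) _ huF
        have : (algebraMap C F (u : C))⁻¹ = algebraMap C F ((u⁻¹ : Cˣ) : C) :=
          inv_eq_of_mul_eq_one_right (by rw [← map_mul, Units.mul_inv, map_one])
        rw [this]
        exact hWC w hw _
      rw [this, add_zero]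
    rw [Finset.sum_congr rfl hprod]
    exact sum_ord_prod hπ hϖ hdvr W hWC s (fun p hp => by
      obtain ⟨h1, h2, h3, -⟩ := hfac p hp
      exact ⟨h1, h2, h3⟩)

/-- **(R2-local), fraction form**: for `y = a / b` with `π ∤ a`, `π ∤ b`. -/
theorem sum_ord_div_eq (hπ : Prime π) (hϖ : algebraMap R C ϖ = π)
    (hdvr : ∀ r : R, r ≠ 0 → ∃ (k : ℕ) (v : Rˣ), r = ϖ ^ k * v)
    [IsDomain (C ⧸ Ideal.span {π})] [IsDiscreteValuationRing (C ⧸ Ideal.span {π})]
    {a b : C} (hπa : ¬ π ∣ a) (hπb : ¬ π ∣ b)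
    (W : Finset (Place K F)) (hWC : ∀ w ∈ W, ∀ c : C, algebraMap C F c ∈ w.toValuationSubring)
    (hW : ∀ w : Place K F, (∀ c : C, algebraMap C F c ∈ w.toValuationSubring) →
      (0 < w.ord (algebraMap C F a) ∨ 0 < w.ord (algebraMap C F b)) → w ∈ W)
    (hrat : ∀ w ∈ W, (0 < w.ord (algebraMap C F a) ∨ 0 < w.ord (algebraMap C F b)) →
      ∀ z ∈ w.toValuationSubring,
        ∃ κ : K, w.toValuationSubring.valuation (z - algebraMap K F κ) < 1) :
    ∃ na nb : ℕ,
      IsDiscreteValuationRing.addVal (C ⧸ Ideal.span {π})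
        (Ideal.Quotient.mk (Ideal.span {π}) a) = (na : ℕ∞) ∧
      IsDiscreteValuationRing.addVal (C ⧸ Ideal.span {π})
        (Ideal.Quotient.mk (Ideal.span {π}) b) = (nb : ℕ∞) ∧
      ∑ w ∈ W, w.ord (algebraMap C F a / algebraMap C F b) = (na : ℤ) - (nb : ℤ) := by
  have hinj := IsFractionRing.injective C F
  have ha : a ≠ 0 := fun h => hπa (h ▸ dvd_zero π)
  have hb : b ≠ 0 := fun h => hπb (h ▸ dvd_zero π)
  have haF : algebraMap C F a ≠ 0 := by simpa using hinj.ne ha
  have hbF : algebraMap C F b ≠ 0 := by simpa using hinj.ne hb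
  obtain ⟨na, hna, hsa⟩ := sum_ord_eq_addVal hπ hϖ hdvr hπa W hWC
    (fun w hw h => hW w hw (Or.inl h)) (fun w hw h => hrat w hw (Or.inl h))
  obtain ⟨nb, hnb, hsb⟩ := sum_ord_eq_addVal hπ hϖ hdvr hπb W hWC
    (fun w hw h => hW w hw (Or.inr h)) (fun w hw h => hrat w hw (Or.inr h))
  refine ⟨na, nb, hna, hnb, ?_⟩
  simp_rw [div_eq_mul_inv, fun w : Place K F => w.ord_mul haF (inv_ne_zero hbF), Place.ord_inv]
  rw [Finset.sum_add_distrib, Finset.sum_neg_distrib, hsa, hsb]
  ring

end Places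

end Fermat.Agent.ES.RED.SpecLocal22
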