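/-
Program I (S37), chapter ES/RED — helper22: **(PEEL-local)** (leaf RED-L of I_RED_DESIGN8).

`C` a noetherian local ring with `𝔪_C = (π, u)`, `val : C →+* Ω` a ring homomorphism to a domain with
`val u = 0` and `val π ≠ 0` (`C = (B^K)_x`, `val` = evaluation at a place `P` of the generic fibre
specialising to `x`, `u = s - val_P s`).  Then

* `ker_eq_span`        : `ker val = (u)`;
* `exists_eq_mul`      : (peeling) `val z = 0 → ∃ z', z = u * z'`;
* `isPrime_span`, `prime_of_ne_zero` : `(u)` is a prime ideal; `u` is a prime element when `u ≠ 0`;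
* `ker_eq_ker`         : two evaluations killing `u` (and not `π`) have the same kernel;
* `eq_vsAt_of_center`  : for `C` an integrally closed domain, a valuation subring `O ⊇ C` of `Frac C`
                         whose centre on `C` is `ker val` is `C_(u)`; `u` is a uniformiser of `O`
                         (`irreducible_of_center`), so `ord_w u = 1` for a place `w` with `O_w = O`
                         (`ord_eq_one_of_center`).
-/
import Mathlib
import Fermat.Agent.ES.RED.SpecLocal22

set_option autoImplicit false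
set_option linter.unusedSectionVars false
set_option linter.style.haveILetI false

open IsLocalRing AlgebraicCurve

noncomputable section

namespace Fermat.Agent.ES.RED.PeelLocal22

section Ker

variable {C : Type*} [CommRing C] [IsNoetherianRing C] [IsLocalRing C] {π u : C}
  (hm : maximalIdeal C = Ideal.span {π, u})
  {Ω : Type*} [CommRing Ω] [IsDomain Ω] (val : C →+* Ω) (hu : val u = 0) (hπ : val π ≠ 0)

include hm hu hπ

/-- Elements of the kernel are congruent to `0` modulo `(u) + (π^j)` for every `j`. -/
theorem exists_eq_add_pow {z : C} (hz : val z = 0) (j : ℕ) :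
    ∃ w a : C, z = u * w + π ^ j * a := by
  induction j with
  | zero => exact ⟨0, z, by ring⟩
  | succ j ih =>
    obtain ⟨w, a, e⟩ := ih
    -- `val a = 0`, so `a ∈ 𝔪 = (π, u)`
    have hva : val a = 0 := by
      have h1 : val z = val u * val w + val π ^ j * val a := by
        rw [e, map_add, map_mul, map_mul, map_pow]
      rw [hz, hu, zero_mul, zero_add] at h1
      rcases mul_eq_zero.1 h1.symm with h2 | h2
      · exact absurd (pow_eq_zero_iff (M₀ := Ω) (by
          intro hj; rw [hj, pow_zero] at h2; exact one_ne_zero h2) |>.1 h2) hπ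
      · exact h2
    have ham : a ∈ maximalIdeal C := by
      rw [mem_maximalIdeal, mem_nonunits_iff]
      intro hunit
      have := hunit.map val
      rw [hva] at this
      exact not_isUnit_zero this
    rw [hm, Ideal.mem_span_pair] at ham
    obtain ⟨a₁, a₂, ha⟩ := ham
    refine ⟨w + π ^ j * a₂, a₁, ?_⟩
    rw [e, ← ha, pow_succ]
    ring

/-- **(PEEL-local)**: the kernel of `val` is `(u)`. -/
theorem ker_eq_span : RingHom.ker val = Ideal.span {u} := by
  apply le_antisymm
  · intro z hz
    rw [RingHom.mem_ker] at hz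
    -- Krull intersection in the `C`-module `C ⧸ (u)`
    have hkrull := Ideal.iInf_pow_smul_eq_bot_of_isLocalRing (R := C)
      (M := C ⧸ Ideal.span {u}) (maximalIdeal C) (Ideal.IsPrime.ne_top')
    have hmem : (Ideal.Quotient.mk (Ideal.span {u}) z : C ⧸ Ideal.span {u}) ∈
        (⨅ i : ℕ, maximalIdeal C ^ i • (⊤ : Submodule C (C ⧸ Ideal.span {u}))) := by
      rw [Submodule.mem_iInf]
      intro j
      obtain ⟨w, a, e⟩ := exists_eq_add_pow hm val hu hπ hz j
      have h1 : (Ideal.Quotient.mk (Ideal.span {u}) z : C ⧸ Ideal.span {u}) =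
          (π ^ j) • (Ideal.Quotient.mk (Ideal.span {u}) a : C ⧸ Ideal.span {u}) := by
        rw [e, map_add, map_mul, map_mul]
        have h0 : (Ideal.Quotient.mk (Ideal.span {u}) u : C ⧸ Ideal.span {u}) = 0 :=
          Ideal.Quotient.eq_zero_iff_mem.2 (Ideal.mem_span_singleton_self u)
        rw [h0, zero_mul, zero_add]
        rfl
      rw [h1]
      apply Submodule.smul_mem_smul _ Submodule.mem_top
      apply Ideal.pow_mem_pow
      rw [hm]
      exact Ideal.subset_span (by simp)
    rw [hkrull, Submodule.mem_bot] at hmem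
    exact Ideal.Quotient.eq_zero_iff_mem.1 hmem
  · rw [Ideal.span_le, Set.singleton_subset_iff]
    exact hu

/-- **Peeling**: an element vanishing at `val` is divisible by `u`. -/
theorem exists_eq_mul {z : C} (hz : val z = 0) : ∃ z' : C, z = u * z' := by
  have : z ∈ Ideal.span {u} := by
    rw [← ker_eq_span hm val hu hπ]; exact hz
  obtain ⟨z', hz'⟩ := Ideal.mem_span_singleton.1 this
  exact ⟨z', hz'⟩

theorem isPrime_span : (Ideal.span {u} : Ideal C).IsPrime := by
  rw [← ker_eq_span hm val hu hπ]
  exact RingHom.ker_isPrime val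

theorem prime_of_ne_zero (hu0 : u ≠ 0) : Prime u :=
  (Ideal.span_singleton_prime hu0).1 (isPrime_span hm val hu hπ)

omit hu hπ in
/-- Two evaluations that kill `u` and not `π` have the same kernel. -/
theorem ker_eq_ker (hu : val u = 0) (hπ : val π ≠ 0)
    {Ω' : Type*} [CommRing Ω'] [IsDomain Ω'] (val' : C →+* Ω')
    (hu' : val' u = 0) (hπ' : val' π ≠ 0) : RingHom.ker val' = RingHom.ker val := by
  rw [ker_eq_span hm val hu hπ, ker_eq_span hm val' hu' hπ']

end Ker

/-! ### The place through `u` -/

section Center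

open Fermat.Agent.ES.RED.SpecLocal22

variable {C : Type*} [CommRing C] [IsDomain C] [IsNoetherianRing C] [IsIntegrallyClosed C]
  [IsLocalRing C] {π u : C} (hm : maximalIdeal C = Ideal.span {π, u})
  {Ω : Type*} [CommRing Ω] [IsDomain Ω] (val : C →+* Ω) (hu : val u = 0) (hπ : val π ≠ 0)
  (hu0 : u ≠ 0)
  {F : Type*} [Field F] [Algebra C F] [IsFractionRing C F]

include hm hu hπ hu0

/-- A valuation subring `O ⊇ C` of `Frac C` whose centre on `C` is `ker val` is `C_(u)`. -/
theorem eq_vsAt_of_center (O : ValuationSubring F) (hC : ∀ c : C, algebraMap C F c ∈ O)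
    (hcen : ∀ c : C, O.valuation (algebraMap C F c) < 1 ↔ val c = 0) :
    O = vsAt F u (prime_of_ne_zero hm val hu hπ hu0) := by
  have hp := prime_of_ne_zero hm val hu hπ hu0
  haveI := isPrime_span_singleton hp
  unfold vsAt
  refine Fermat.Agent.RED.PUR.Hartogs22.eq_valuationSubringAt_of_center O (Ideal.span {u})
    (height_span_singleton hp) hC (fun r => ?_)
  rw [hcen, ← RingHom.mem_ker, ker_eq_span hm val hu hπ]

/-- `u` is a uniformiser of such an `O`. -/
theorem irreducible_of_center (O : ValuationSubring F) (hC : ∀ c : C, algebraMap C F c ∈ O)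
    (hcen : ∀ c : C, O.valuation (algebraMap C F c) < 1 ↔ val c = 0) :
    Irreducible (⟨algebraMap C F u, hC u⟩ : O) := by
  have hp := prime_of_ne_zero hm val hu hπ hu0
  have key : ∀ (O' : ValuationSubring F) (h : O' = vsAt F u hp)
      (hmem : algebraMap C F u ∈ O'), Irreducible (⟨algebraMap C F u, hmem⟩ : O') := by
    rintro _ rfl hmem
    exact irreducible_vsAt hp
  exact key O (eq_vsAt_of_center hm val hu hπ hu0 O hC hcen) (hC u)

/-- Elementwise uniformiser form (the shape of the purity hypotheses `hUNR`). -/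
theorem div_mem_of_center (O : ValuationSubring F) (hC : ∀ c : C, algebraMap C F c ∈ O)
    (hcen : ∀ c : C, O.valuation (algebraMap C F c) < 1 ↔ val c = 0) :
    (algebraMap C F u)⁻¹ ∉ O ∧ ∀ y ∈ O, y⁻¹ ∉ O → y / algebraMap C F u ∈ O := by
  have hp := prime_of_ne_zero hm val hu hπ hu0
  have hO := eq_vsAt_of_center hm val hu hπ hu0 O hC hcen
  have hirr := irreducible_of_center hm val hu hπ hu0 O hC hcen
  have huF : algebraMap C F u ≠ 0 := by
    simpa using (IsFractionRing.injective C F).ne hu0
  constructor
  · intro hinv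
    apply hirr.not_isUnit
    exact ⟨⟨⟨algebraMap C F u, hC u⟩, ⟨(algebraMap C F u)⁻¹, hinv⟩,
      Subtype.ext (mul_inv_cancel₀ huF), Subtype.ext (inv_mul_cancel₀ huF)⟩, rfl⟩
  · intro y hy hyinv
    haveI : IsDiscreteValuationRing O := by rw [hO]; infer_instance
    have hmax := hirr.maximalIdeal_eq
    have hymem : (⟨y, hy⟩ : O) ∈ maximalIdeal O := by
      rw [mem_maximalIdeal, mem_nonunits_iff]
      intro hunit
      obtain ⟨v, hv⟩ := hunit
      apply hyinv
      have : y⁻¹ = ((v⁻¹ : Oˣ) : O) := by
        have h1 : ((v : O) : F) = y := congrArg Subtype.val hv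
        rw [← h1]
        have h2 : ((v : O) : F) * (((v⁻¹ : Oˣ) : O) : F) = 1 := by
          have h3 : ((v : O) * ((v⁻¹ : Oˣ) : O) : O) = 1 := Units.mul_inv v
          have h4 := congrArg (Subtype.val : O → F) h3
          rwa [MulMemClass.coe_mul, OneMemClass.coe_one] at h4
        exact inv_eq_of_mul_eq_one_right h2
      rw [this]
      exact ((v⁻¹ : Oˣ) : O).2
    rw [hmax, Ideal.mem_span_singleton] at hymem
    obtain ⟨y', hy'⟩ := hymem
    have : y / algebraMap C F u = (y' : F) := by
      have h1 : y = algebraMap C F u * (y' : F) := congrArg Subtype.val hy'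
      rw [h1]
      field_simp
    rw [this]
    exact y'.2

/-- `ord_w u = 1` at a place `w` centred at `ker val`. -/
theorem ord_eq_one_of_center {K : Type*} [Field K] [Algebra K F] (w : Place K F)
    (hC : ∀ c : C, algebraMap C F c ∈ w.toValuationSubring)
    (hcen : ∀ c : C, w.toValuationSubring.valuation (algebraMap C F c) < 1 ↔ val c = 0) :
    w.ord (algebraMap C F u) = 1 :=
  w.ord_coe_irreducible
    (irreducible_of_center hm val hu hπ hu0 w.toValuationSubring hC hcen)

/-- `ord_w c = 0` for `c ∈ C` with `val c ≠ 0`. -/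
theorem ord_eq_zero_of_val_ne_zero {K : Type*} [Field K] [Algebra K F] (w : Place K F)
    (hC : ∀ c : C, algebraMap C F c ∈ w.toValuationSubring)
    (hcen : ∀ c : C, w.toValuationSubring.valuation (algebraMap C F c) < 1 ↔ val c = 0)
    {c : C} (hc : val c ≠ 0) : w.ord (algebraMap C F c) = 0 := by
  have hc0 : c ≠ 0 := fun h => hc (by rw [h, map_zero])
  have hcF : algebraMap C F c ≠ 0 := by
    simpa using (IsFractionRing.injective C F).ne hc0
  apply ord_eq_zero_of_mem_of_inv_mem w (hC c) _ hcF
  have h1 : w.toValuationSubring.valuation (algebraMap C F c) = 1 :=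
    le_antisymm ((w.toValuationSubring.valuation_le_one_iff _).2 (hC c))
      (not_lt.1 (fun hlt => hc ((hcen c).1 hlt)))
  rw [← w.toValuationSubring.valuation_le_one_iff, map_inv₀, h1, inv_one]

end Center

/-! ### Chart form: peeling in `B` up to a denominator outside `x` -/

section Chart

/-- `(π, s) = (π, s - π r)`. -/
theorem span_pair_sub_mul {C : Type*} [CommRing C] (π s r : C) :
    (Ideal.span {π, s - π * r} : Ideal C) = Ideal.span {π, s} := by
  apply le_antisymm
  · rw [Ideal.span_le]
    rintro y (rfl | rfl)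
    · exact Ideal.subset_span (by simp)
    · exact Ideal.sub_mem _ (Ideal.subset_span (by simp))
        (Ideal.mul_mem_right _ _ (Ideal.subset_span (by simp)))
  · rw [Ideal.span_le]
    rintro y (rfl | rfl)
    · exact Ideal.subset_span (by simp)
    · have : y = (y - π * r) + π * r := by ring
      rw [this]
      exact Ideal.add_mem _ (Ideal.subset_span (by simp))
        (Ideal.mul_mem_right _ _ (Ideal.subset_span (by simp)))

variable {B : Type*} [CommRing B] (x : Ideal B) [hx : x.IsPrime]
  (C : Type*) [CommRing C] [Algebra B C] [IsLocalization.AtPrime C x] [IsNoetherianRing C]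
  {π u : B}
  {Ω : Type*} [Field Ω] (val : B →+* Ω)

/-- **(PEEL)(a) at finite level.**  `B` a chart ring, `x` a closed point of the special fibre,
`𝔪 B_x = (π, u)`, `val : B → Ω` the evaluation at a place specialising to `x` (`val d ≠ 0` for
`d ∉ x`) with `val u = 0`, `val π ≠ 0`: every `z ∈ B` with `val z = 0` satisfies `z d = u z'` for some
`d ∉ x`. -/
theorem exists_mul_eq_mul_of_localization
    (hm : haveI := IsLocalization.AtPrime.isLocalRing C x
      maximalIdeal C = Ideal.span {algebraMap B C π, algebraMap B C u})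
    (hval : ∀ d : B, d ∉ x → val d ≠ 0) (hu : val u = 0) (hπ : val π ≠ 0)
    {z : B} (hz : val z = 0) : ∃ d z' : B, d ∉ x ∧ z * d = u * z' := by
  haveI := IsLocalization.AtPrime.isLocalRing C x
  -- extend `val` to `C`
  have hunit : ∀ d : x.primeCompl, IsUnit (val d) := fun d =>
    (isUnit_iff_ne_zero).2 (hval d d.2)
  set valC : C →+* Ω := IsLocalization.lift hunit with hvalC
  have hvalC_alg : ∀ b : B, valC (algebraMap B C b) = val b := fun b =>
    IsLocalization.lift_eq hunit b
  obtain ⟨c', hc'⟩ := exists_eq_mul hm valC (by rw [hvalC_alg, hu])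
    (by rw [hvalC_alg]; exact hπ) (z := algebraMap B C z) (by rw [hvalC_alg, hz])
  obtain ⟨z'', d', hd'⟩ := IsLocalization.exists_mk'_eq x.primeCompl c'
  -- `alg z * alg d' = alg u * alg z''`
  have h1 : algebraMap B C (z * d') = algebraMap B C (u * z'') := by
    rw [map_mul, map_mul, hc', ← hd', mul_assoc, IsLocalization.mk'_spec]
  obtain ⟨d'', hd''⟩ := (IsLocalization.eq_iff_exists x.primeCompl C).1 h1
  refine ⟨d' * d'', z'' * d'', ?_, ?_⟩
  · exact x.primeCompl.mul_mem d'.2 d''.2
  · calc z * (↑d' * ↑d'') = ↑d'' * (z * ↑d') := by ring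
      _ = ↑d'' * (u * z'') := hd''
      _ = u * (z'' * ↑d'') := by ring

end Chart

end Fermat.Agent.ES.RED.PeelLocal22
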