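/-
Program I (S37), chapter ES/RED — helper22: leaf **A3 RED-LV** of helper8's plan v2:
an ABSTRACT LEVEL SYSTEM gives (VAL) and (PEEL-a).

Data: `B` (the chart ring over the valuation ring `A` of `ℚ̄`: a domain, an `A`-algebra),
`val : B →+* A` (evaluation at a place `P`), `res : A →+* k`, `χ = res ∘ val`, `red : B →+* F~`
(coefficientwise reduction), levels `ι K : B_K →+* B` with elements `π_K ∈ B_K`.
`O = { y ∈ F~ | ∃ a d ∈ B, χ d ≠ 0 ∧ y · red d = red a }` (the reduced local ring of the model at the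
centre of `P`).

* Section `OneLevel`: `B_K` noetherian domain, `x` maximal, `𝔪 (B_K)_x = (π, s)`, `(π)` prime ⇒
  **Lemma V**: modulo `π`, for `a, b ∉ (π)`: `b/a` or `a/b` is `c/d` with `d ∉ x`.
* `valO` : **(VAL)** `O` is a valuation subring of `F~`.
* `peel_a` : **(PEEL-a)** given a uniformiser of `O`: `∃ u ∈ B, val u = 0 ∧ ∀ z, val z = 0 →
  ∃ d z', χ d ≠ 0 ∧ z * d = u * z'`.
-/
import Mathlib
import Fermat.Agent.ES.RED.PeelLocal22

set_option autoImplicit false
set_option linter.unusedSectionVars false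
set_option linter.style.haveILetI false

open IsLocalRing

noncomputable section

namespace Fermat.Agent.ES.RED.LevelPeel22

/-! ### One level -/

section OneLevel

variable {Bk : Type*} [CommRing Bk] (x : Ideal Bk) [hx : x.IsMaximal] {π s : Bk}
  (C : Type*) [CommRing C] [Algebra Bk C] [IsLocalization.AtPrime C x]

/-- `𝔪 (B_K)_x = (π, s)` from the smoothness field of `TwoChartModel`. -/
theorem maximalIdeal_eq_span_pair (hπx : π ∈ x) (hs : s ∈ x)
    (hsm : ∀ y ∈ x, ∃ d : Bk, d ∉ x ∧ d * y ∈ Ideal.span {π, s}) :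
    haveI := IsLocalization.AtPrime.isLocalRing C x
    maximalIdeal C = Ideal.span {algebraMap Bk C π, algebraMap Bk C s} := by
  haveI := IsLocalization.AtPrime.isLocalRing C x
  rw [← IsLocalization.AtPrime.map_eq_maximalIdeal x C]
  apply le_antisymm
  · rw [Ideal.map_le_iff_le_comap]
    intro y hy
    obtain ⟨d, hd, hdy⟩ := hsm y hy
    rw [Ideal.mem_comap]
    have hu : IsUnit (algebraMap Bk C d) :=
      IsLocalization.map_units C (⟨d, hd⟩ : x.primeCompl)
    have hmem : algebraMap Bk C (d * y) ∈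
        Ideal.span {algebraMap Bk C π, algebraMap Bk C s} := by
      have := Ideal.mem_map_of_mem (algebraMap Bk C) hdy
      rw [Ideal.map_span, Set.image_pair] at this
      exact this
    rw [map_mul] at hmem
    obtain ⟨v, hv⟩ := hu.exists_left_inv
    have : algebraMap Bk C y = v * (algebraMap Bk C d * algebraMap Bk C y) := by
      rw [← mul_assoc, hv, one_mul]
    rw [this]
    exact Ideal.mul_mem_left _ v hmem
  · rw [Ideal.span_le]
    rintro y (rfl | rfl)
    · exact Ideal.mem_map_of_mem _ hπx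
    · exact Ideal.mem_map_of_mem _ hs

/-- Modulo a prime element `π` with `𝔪 = (π, s)`, a noetherian local ring is a valuation ring:
of two elements, one divides the other modulo `π`. -/
theorem dvd_total_mod {C : Type*} [CommRing C] [IsLocalRing C] [IsNoetherianRing C] {π s : C}
    (hm : maximalIdeal C = Ideal.span {π, s}) (hprime : (Ideal.span {π} : Ideal C).IsPrime)
    (a b : C) : (∃ c e : C, b = a * c + π * e) ∨ (∃ c e : C, a = b * c + π * e) := by
  set mk := Ideal.Quotient.mk (Ideal.span {π} : Ideal C) with hmk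
  have hsurj : Function.Surjective mk := Ideal.Quotient.mk_surjective
  haveI : IsDomain (C ⧸ (Ideal.span {π} : Ideal C)) := Ideal.Quotient.isDomain _
  haveI : IsLocalRing (C ⧸ (Ideal.span {π} : Ideal C)) := IsLocalRing.of_surjective' mk hsurj
  have hmap : Ideal.map mk (maximalIdeal C) = maximalIdeal (C ⧸ (Ideal.span {π} : Ideal C)) := by
    apply le_antisymm
    · rw [Ideal.map_le_iff_le_comap]
      intro z hz
      rw [Ideal.mem_comap, mem_maximalIdeal, mem_nonunits_iff]
      intro hu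
      have hloc : IsLocalHom mk := IsLocalHom.of_surjective _ hsurj
      exact (mem_maximalIdeal _).1 hz (hloc.map_nonunit z hu)
    · intro y hy
      obtain ⟨z, rfl⟩ := hsurj y
      apply Ideal.mem_map_of_mem
      rw [mem_maximalIdeal, mem_nonunits_iff]
      intro hu
      exact (mem_maximalIdeal _).1 hy (hu.map _)
  have hprin : (maximalIdeal (C ⧸ (Ideal.span {π} : Ideal C))).IsPrincipal := by
    refine ⟨⟨mk s, ?_⟩⟩
    rw [← hmap, hm, Ideal.map_span, Set.image_pair]
    have h0 : mk π = 0 := Ideal.Quotient.eq_zero_iff_mem.2 (Ideal.mem_span_singleton_self π)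
    rw [h0]
    apply le_antisymm
    · rw [Ideal.span_le]
      rintro y (rfl | rfl)
      · exact Submodule.zero_mem _
      · exact Submodule.subset_span rfl
    · rw [Ideal.submodule_span_eq]
      exact Ideal.span_mono (by simp)
  haveI : ValuationRing (C ⧸ (Ideal.span {π} : Ideal C)) :=
    ((tfae_of_isNoetherianRing_of_isLocalRing_of_isDomain
      (R := C ⧸ (Ideal.span {π} : Ideal C))).out 4 1).1 hprin
  have key : ∀ a b : C, mk a ∣ mk b → ∃ c e : C, b = a * c + π * e := by
    intro a b hab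
    obtain ⟨c', hc'⟩ := hab
    obtain ⟨c, rfl⟩ := hsurj c'
    rw [← map_mul, Ideal.Quotient.eq, Ideal.mem_span_singleton] at hc'
    obtain ⟨e, he⟩ := hc'
    exact ⟨c, e, by rw [← he]; ring⟩
  rcases ValuationRing.dvd_total (mk a) (mk b) with h | h
  · exact Or.inl (key a b h)
  · exact Or.inr (key b a h)

/-- **Lemma V (one level).**  `B_K` a noetherian domain, `x` maximal, `𝔪 (B_K)_x = (π, s)`, `(π)` prime:
modulo `π`, one of `b/a`, `a/b` is a fraction `c/d` with `d ∉ x`. -/
theorem lemmaV {Bk : Type*} [CommRing Bk] [IsDomain Bk] [IsNoetherianRing Bk] (x : Ideal Bk)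
    [hx : x.IsMaximal] {π s : Bk} (hπx : π ∈ x) (hs : s ∈ x)
    (hsm : ∀ y ∈ x, ∃ d : Bk, d ∉ x ∧ d * y ∈ Ideal.span {π, s})
    (hprime : (Ideal.span {π} : Ideal Bk).IsPrime) (a b : Bk) :
    ∃ c d : Bk, d ∉ x ∧ (π ∣ b * d - a * c ∨ π ∣ a * d - b * c) := by
  set C := Localization.AtPrime x with hC
  haveI : IsLocalRing C := IsLocalization.AtPrime.isLocalRing C x
  haveI : IsNoetherianRing C := IsLocalization.isNoetherianRing x.primeCompl C inferInstance
  have hm := maximalIdeal_eq_span_pair x C hπx hs hsm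
  have hinj : Function.Injective (algebraMap Bk C) :=
    IsLocalization.injective C x.primeCompl_le_nonZeroDivisors
  have hprimeC : (Ideal.span {algebraMap Bk C π} : Ideal C).IsPrime := by
    have hdisj : Disjoint (x.primeCompl : Set Bk) (Ideal.span {π} : Ideal Bk) := by
      rw [Set.disjoint_left]
      intro y hy hy'
      apply hy
      rw [SetLike.mem_coe, Ideal.mem_span_singleton] at hy'
      obtain ⟨c, rfl⟩ := hy'
      exact x.mul_mem_right _ hπx
    have := IsLocalization.isPrime_of_isPrime_disjoint x.primeCompl C _ hprime hdisj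
    rwa [Ideal.map_span, Set.image_singleton] at this
  have key : ∀ a b : Bk, (∃ c e : C, algebraMap Bk C b = algebraMap Bk C a * c +
      algebraMap Bk C π * e) → ∃ c d : Bk, d ∉ x ∧ π ∣ b * d - a * c := by
    rintro a b ⟨c, e, hce⟩
    obtain ⟨⟨c₁, d₁⟩, hc₁⟩ := IsLocalization.surj x.primeCompl c
    obtain ⟨⟨e₁, d₂⟩, he₁⟩ := IsLocalization.surj x.primeCompl e
    simp only at hc₁ he₁
    refine ⟨c₁ * d₂, d₁ * d₂, x.primeCompl.mul_mem d₁.2 d₂.2, e₁ * d₁, ?_⟩
    apply hinj
    rw [map_sub, map_mul, map_mul, map_mul, map_mul, map_mul, map_mul, hce, ← hc₁, ← he₁]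
    ring
  rcases dvd_total_mod hm hprimeC (algebraMap Bk C a) (algebraMap Bk C b) with h | h
  · obtain ⟨c, d, hd, hdvd⟩ := key a b h
    exact ⟨c, d, hd, Or.inl hdvd⟩
  · obtain ⟨c, d, hd, hdvd⟩ := key b a h
    exact ⟨c, d, hd, Or.inr hdvd⟩

end OneLevel

/-! ### The level system -/

section System

variable {A B k Ft : Type*} [CommRing A] [IsDomain A] [CommRing B] [IsDomain B] [Algebra A B]
  [Field k] [Field Ft]
  (res : A →+* k) (val : B →+* A) (red : B →+* Ft)
  {I : Type*} (Bk : I → Type*) [∀ K, CommRing (Bk K)] (ι : ∀ K, Bk K →+* B) (π : ∀ K, Bk K)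

/-- `χ = res ∘ val : B → k`. -/
def chi : B →+* k := res.comp val

/-- `x_K = ker (χ | B_K)`. -/
def xK (K : I) : Ideal (Bk K) := RingHom.ker ((chi res val).comp (ι K))

theorem mem_xK_iff {K : I} {b : Bk K} : b ∈ xK res val Bk ι K ↔ chi res val (ι K b) = 0 :=
  Iff.rfl

/-- The reduced local ring of the model at the centre of `P`. -/
def Oset : Set Ft := {y | ∃ a d : B, chi res val d ≠ 0 ∧ y * red d = red a}

/-- The hypotheses (L0)–(L4) of the level system. -/
structure LevelSystem : Prop where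
  val_algebraMap : ∀ a : A, val (algebraMap A B a) = a
  red_algebraMap : ∀ a : A, res a = 0 → red (algebraMap A B a) = 0
  inj : ∀ K, Function.Injective (ι K)
  L0 : ∀ S : List B, ∃ K, ∀ b ∈ S, ∃ b' : Bk K, ι K b' = b
  noeth : ∀ K, IsNoetherianRing (Bk K)
  val_pi : ∀ K, val (ι K (π K)) ≠ 0
  chi_pi : ∀ K, chi res val (ι K (π K)) = 0
  isMax : ∀ K, (xK res val Bk ι K).IsMaximal
  smooth : ∀ K, ∃ s ∈ xK res val Bk ι K, ∀ y ∈ xK res val Bk ι K,
    ∃ d : Bk K, d ∉ xK res val Bk ι K ∧ d * y ∈ Ideal.span {π K, s}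
  L3 : ∀ K (b : Bk K), red (ι K b) = 0 ↔ π K ∣ b
  L4 : ∀ y : Ft, ∃ a b : B, red b ≠ 0 ∧ y * red b = red a

variable {res val red Bk ι π}
variable (h : LevelSystem res val red Bk ι π)

include h

theorem LevelSystem.isDomain (K : I) : IsDomain (Bk K) :=
  Function.Injective.isDomain (ι K) (h.inj K)

/-- `ker red ⊂ ker χ`. -/
theorem LevelSystem.chi_eq_zero_of_red {b : B} (hb : red b = 0) : chi res val b = 0 := by
  obtain ⟨K, hK⟩ := h.L0 [b]
  obtain ⟨b', rfl⟩ := hK b (by simp)
  obtain ⟨c, rfl⟩ := (h.L3 K b').1 hb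
  rw [map_mul, map_mul, h.chi_pi, zero_mul]

theorem LevelSystem.red_ne_zero {d : B} (hd : chi res val d ≠ 0) : red d ≠ 0 :=
  fun h0 => hd (h.chi_eq_zero_of_red h0)

theorem LevelSystem.pi_mem_xK (K : I) : π K ∈ xK res val Bk ι K := h.chi_pi K

theorem LevelSystem.isPrime_span_pi (K : I) : (Ideal.span {π K} : Ideal (Bk K)).IsPrime := by
  have : (Ideal.span {π K} : Ideal (Bk K)) = RingHom.ker (red.comp (ι K)) := by
    ext b
    rw [Ideal.mem_span_singleton, RingHom.mem_ker, RingHom.comp_apply, h.L3]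
  rw [this]
  exact RingHom.ker_isPrime _

omit h in
theorem zero_mem_Oset : (0 : Ft) ∈ Oset res val red :=
  ⟨0, 1, by rw [map_one]; exact one_ne_zero, by rw [map_zero, zero_mul]⟩

omit h in
theorem one_mem_Oset : (1 : Ft) ∈ Oset res val red :=
  ⟨1, 1, by rw [map_one]; exact one_ne_zero, by rw [map_one, one_mul]⟩

omit h in
theorem add_mem_Oset {y z : Ft} (hy : y ∈ Oset res val red) (hz : z ∈ Oset res val red) :
    y + z ∈ Oset res val red := by
  obtain ⟨a₁, d₁, hd₁, e₁⟩ := hy
  obtain ⟨a₂, d₂, hd₂, e₂⟩ := hz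
  refine ⟨a₁ * d₂ + a₂ * d₁, d₁ * d₂, by rw [map_mul]; exact mul_ne_zero hd₁ hd₂, ?_⟩
  rw [map_add, map_mul, map_mul, map_mul, ← e₁, ← e₂]
  ring

omit h in
theorem mul_mem_Oset {y z : Ft} (hy : y ∈ Oset res val red) (hz : z ∈ Oset res val red) :
    y * z ∈ Oset res val red := by
  obtain ⟨a₁, d₁, hd₁, e₁⟩ := hy
  obtain ⟨a₂, d₂, hd₂, e₂⟩ := hz
  refine ⟨a₁ * a₂, d₁ * d₂, by rw [map_mul]; exact mul_ne_zero hd₁ hd₂, ?_⟩
  rw [map_mul, map_mul, ← e₁, ← e₂]
  ring

omit h in
theorem neg_mem_Oset {y : Ft} (hy : y ∈ Oset res val red) : -y ∈ Oset res val red := by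
  obtain ⟨a₁, d₁, hd₁, e₁⟩ := hy
  exact ⟨-a₁, d₁, hd₁, by rw [map_neg, ← e₁]; ring⟩

omit h in
theorem red_mem_Oset (b : B) : red b ∈ Oset res val red :=
  ⟨b, 1, by rw [map_one]; exact one_ne_zero, by rw [map_one, mul_one]⟩

/-- A unit and a non-unit representation exclude each other. -/
theorem LevelSystem.not_inv_of_chi_eq_zero {y : Ft} (hy0 : y ≠ 0) (hy : y ∈ Oset res val red)
    {a d : B} (ha : chi res val a = 0) (hd : chi res val d ≠ 0) (e : y⁻¹ * red d = red a) :
    False := by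
  obtain ⟨a₁, d₁, hd₁, e₁⟩ := hy
  have h1 : red (d₁ * d - a₁ * a) = 0 := by
    rw [map_sub, map_mul, map_mul, ← e₁, ← e]
    field_simp
    ring
  have h2 := h.chi_eq_zero_of_red h1
  rw [map_sub, map_mul, map_mul, ha, mul_zero, sub_zero] at h2
  exact mul_ne_zero hd₁ hd h2

/-- Lemma V in reduced form at level `K`. -/
theorem LevelSystem.ratio_level (K : I) (a b : Bk K) :
    ∃ c d : Bk K, d ∉ xK res val Bk ι K ∧
      (red (ι K b) * red (ι K d) = red (ι K a) * red (ι K c) ∨
        red (ι K a) * red (ι K d) = red (ι K b) * red (ι K c)) := by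
  haveI := h.isDomain K
  haveI := h.noeth K
  haveI := h.isMax K
  obtain ⟨s, hs, hsm⟩ := h.smooth K
  obtain ⟨c, d, hd, hcd⟩ := lemmaV (xK res val Bk ι K) (h.pi_mem_xK K) hs hsm
    (h.isPrime_span_pi K) a b
  refine ⟨c, d, hd, ?_⟩
  rcases hcd with h1 | h1
  · left
    have := (h.L3 K _).2 h1
    rw [map_sub, map_sub, sub_eq_zero, map_mul, map_mul, map_mul, map_mul] at this
    exact this
  · right
    have := (h.L3 K _).2 h1
    rw [map_sub, map_sub, sub_eq_zero, map_mul, map_mul, map_mul, map_mul] at this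
    exact this

/-- **(VAL)**: `O` is a valuation ring of `F~`. -/
theorem LevelSystem.mem_or_inv_mem (y : Ft) :
    y ∈ Oset res val red ∨ y⁻¹ ∈ Oset res val red := by
  by_cases hy0 : y = 0
  · left; rw [hy0]; exact zero_mem_Oset
  obtain ⟨a, b, hb, e⟩ := h.L4 y
  have ha : red a ≠ 0 := by rw [← e]; exact mul_ne_zero hy0 hb
  obtain ⟨K, hK⟩ := h.L0 [a, b]
  obtain ⟨a', rfl⟩ := hK a (by simp)
  obtain ⟨b', rfl⟩ := hK b (by simp)
  obtain ⟨c, d, hd, hcd⟩ := h.ratio_level K a' b'
  have hdχ : chi res val (ι K d) ≠ 0 := hd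
  have hy : y = red (ι K a') / red (ι K b') := by rw [eq_div_iff hb, e]
  rcases hcd with h1 | h1
  · right
    refine ⟨ι K c, ι K d, hdχ, ?_⟩
    rw [hy, inv_div, div_mul_eq_mul_div, div_eq_iff ha, h1, mul_comm]
  · left
    refine ⟨ι K c, ι K d, hdχ, ?_⟩
    rw [hy, div_mul_eq_mul_div, div_eq_iff hb, h1, mul_comm]

/-- **(VAL)** packaged: the valuation subring `O_{rP}` of `F~`. -/
def LevelSystem.valO : ValuationSubring Ft where
  carrier := Oset res val red
  mul_mem' := mul_mem_Oset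
  one_mem' := one_mem_Oset
  add_mem' := add_mem_Oset
  zero_mem' := zero_mem_Oset
  neg_mem' := neg_mem_Oset
  mem_or_inv_mem' := h.mem_or_inv_mem

theorem LevelSystem.mem_valO_iff {y : Ft} :
    y ∈ h.valO ↔ ∃ a d : B, chi res val d ≠ 0 ∧ y * red d = red a := Iff.rfl

/-- The generator of the maximal ideal may be replaced by a uniformiser coming from `B`
(helper8's R-6): if `red b₀ · (unit) = ϖ` is a uniformiser of `O` then `𝔪 (B_K)_x = (π_K, b₀)` at
every level `K` containing `b₀` and the denominator. -/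
theorem LevelSystem.maximalIdeal_eq_of_uniformizer (ϖ : Ft) (hϖ0 : ϖ ≠ 0)
    (hϖ : ∀ y ∈ Oset res val red, y⁻¹ ∉ Oset res val red → ∃ g ∈ Oset res val red, y = ϖ * g)
    (K : I) (a₀ d₀ : Bk K) (hd₀ : d₀ ∉ xK res val Bk ι K) (ha₀ : a₀ ∈ xK res val Bk ι K)
    (e₀ : ϖ * red (ι K d₀) = red (ι K a₀)) :
    haveI := h.isMax K
    haveI := IsLocalization.AtPrime.isLocalRing (Localization.AtPrime (xK res val Bk ι K))
      (xK res val Bk ι K)
    maximalIdeal (Localization.AtPrime (xK res val Bk ι K)) =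
      Ideal.span {algebraMap (Bk K) _ (π K), algebraMap (Bk K) _ a₀} := by
  haveI := h.isDomain K
  haveI := h.noeth K
  haveI := h.isMax K
  set x := xK res val Bk ι K with hx
  set C := Localization.AtPrime x with hC
  haveI : IsLocalRing C := IsLocalization.AtPrime.isLocalRing C x
  obtain ⟨s, hs, hsm⟩ := h.smooth K
  have hm₀ := maximalIdeal_eq_span_pair x C (h.pi_mem_xK K) hs hsm
  have hredd₀ : red (ι K d₀) ≠ 0 := h.red_ne_zero hd₀
  have hreda₀ : red (ι K a₀) ≠ 0 := by rw [← e₀]; exact mul_ne_zero hϖ0 hredd₀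
  -- `alg s ∈ (alg π, alg a₀)`
  have hsmem : algebraMap (Bk K) C s ∈
      Ideal.span {algebraMap (Bk K) C (π K), algebraMap (Bk K) C a₀} := by
    by_cases hreds : red (ι K s) = 0
    · obtain ⟨c, rfl⟩ := (h.L3 K s).1 hreds
      rw [map_mul]
      exact Ideal.mul_mem_right _ _ (Ideal.subset_span (by simp))
    -- `y = red s` is a non-unit of `O`
    have hyO : red (ι K s) ∈ Oset res val red := red_mem_Oset _
    have hyn : (red (ι K s))⁻¹ ∉ Oset res val red := by
      intro hinv
      refine h.not_inv_of_chi_eq_zero (inv_ne_zero hreds) hinv (a := ι K s) (d := 1) hs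
        (by rw [map_one]; exact one_ne_zero) ?_
      rw [inv_inv, map_one, mul_one]
    obtain ⟨g, hgO, hg⟩ := hϖ _ hyO hyn
    have hg0 : g ≠ 0 := by
      rintro rfl
      rw [mul_zero] at hg
      exact hreds hg
    -- `g = red (s d₀) / red a₀`
    have hgeq : g * red (ι K a₀) = red (ι K (s * d₀)) := by
      rw [← e₀, map_mul, map_mul, hg]
      ring
    -- Lemma V at level `K`
    have hcd : ∃ c d : Bk K, d ∉ x ∧
        red (ι K (s * d₀)) * red (ι K d) = red (ι K a₀) * red (ι K c) := by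
      obtain ⟨c, d, hd, hcd⟩ := h.ratio_level K a₀ (s * d₀)
      rcases hcd with h1 | h1
      · exact ⟨c, d, hd, h1⟩
      · -- `g⁻¹ = red c / red d`
        by_cases hc : c ∈ x
        · exfalso
          refine h.not_inv_of_chi_eq_zero hg0 hgO (a := ι K c) (d := ι K d) hc hd ?_
          have hsd0 : red (ι K (s * d₀)) ≠ 0 := by
            rw [← hgeq]; exact mul_ne_zero hg0 hreda₀
          have : g = red (ι K (s * d₀)) / red (ι K a₀) := by
            rw [eq_div_iff hreda₀, hgeq]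
          rw [this, inv_div, div_mul_eq_mul_div, div_eq_iff hsd0, h1, mul_comm]
        · exact ⟨d, c, hc, h1.symm⟩
    obtain ⟨c, d, hd, hcd⟩ := hcd
    -- `π ∣ s d₀ d - a₀ c`
    have hdvd : π K ∣ s * d₀ * d - a₀ * c := by
      rw [← h.L3]
      simp only [map_mul] at hcd
      simp only [map_sub, map_mul, sub_eq_zero]
      exact hcd
    obtain ⟨e, he⟩ := hdvd
    have hunit : IsUnit (algebraMap (Bk K) C (d₀ * d)) :=
      IsLocalization.map_units C (⟨d₀ * d, x.primeCompl.mul_mem hd₀ hd⟩ : x.primeCompl)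
    obtain ⟨v, hv⟩ := hunit.exists_left_inv
    have hs_eq : algebraMap (Bk K) C s =
        v * (algebraMap (Bk K) C (π K) * algebraMap (Bk K) C e +
          algebraMap (Bk K) C a₀ * algebraMap (Bk K) C c) := by
      have h1 : algebraMap (Bk K) C (s * (d₀ * d)) =
          algebraMap (Bk K) C (π K) * algebraMap (Bk K) C e +
            algebraMap (Bk K) C a₀ * algebraMap (Bk K) C c := by
        rw [← map_mul, ← map_mul, ← map_add]
        congr 1
        have : s * (d₀ * d) = (s * d₀ * d - a₀ * c) + a₀ * c := by ring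
        rw [this, he]
      calc algebraMap (Bk K) C s
          = (v * algebraMap (Bk K) C (d₀ * d)) * algebraMap (Bk K) C s := by rw [hv, one_mul]
        _ = v * algebraMap (Bk K) C (s * (d₀ * d)) := by
            rw [map_mul (algebraMap (Bk K) C) s]; ring
        _ = _ := by rw [h1]
    rw [hs_eq]
    apply Ideal.mul_mem_left
    exact Ideal.add_mem _ (Ideal.mul_mem_right _ _ (Ideal.subset_span (by simp)))
      (Ideal.mul_mem_right _ _ (Ideal.subset_span (by simp)))
  apply le_antisymm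
  · rw [hm₀, Ideal.span_le]
    rintro y (rfl | rfl)
    · exact Ideal.subset_span (Or.inl rfl)
    · exact hsmem
  · rw [Ideal.span_le, ← IsLocalization.AtPrime.map_eq_maximalIdeal x C]
    rintro y (rfl | rfl)
    · exact Ideal.mem_map_of_mem _ (h.pi_mem_xK K)
    · exact Ideal.mem_map_of_mem _ ha₀

/-- **(PEEL-a).**  Given a uniformiser `ϖ` of the valuation ring `O`, there is `u ∈ B` vanishing at
`P` such that every `z ∈ B` vanishing at `P` is `u z' / d` with `d` a unit at the centre of `P`.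
Moreover `red u = ϖ · red d₀` with `χ d₀ ≠ 0`. -/
theorem LevelSystem.peel_a (ϖ : Ft) (hϖ0 : ϖ ≠ 0) (hϖO : ϖ ∈ Oset res val red)
    (hϖn : ϖ⁻¹ ∉ Oset res val red)
    (hϖ : ∀ y ∈ Oset res val red, y⁻¹ ∉ Oset res val red → ∃ g ∈ Oset res val red, y = ϖ * g) :
    ∃ u : B, val u = 0 ∧ (∃ d₀ : B, chi res val d₀ ≠ 0 ∧ ϖ * red d₀ = red u) ∧
      ∀ z : B, val z = 0 → ∃ d z' : B, chi res val d ≠ 0 ∧ z * d = u * z' := by
  obtain ⟨a₀, d₀, hd₀, e₀⟩ := hϖO
  -- `χ a₀ = 0` since `ϖ` is not a unit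
  have ha₀ : chi res val a₀ = 0 := by
    by_contra hne
    apply hϖn
    refine ⟨d₀, a₀, hne, ?_⟩
    rw [← e₀]
    field_simp
  set c₀ : B := algebraMap A B (val a₀) with hc₀
  have hresval : res (val a₀) = 0 := ha₀
  have hredc₀ : red c₀ = 0 := h.red_algebraMap _ hresval
  have hvalc₀ : val c₀ = val a₀ := h.val_algebraMap _
  set u : B := a₀ - c₀ with hu
  have hvalu : val u = 0 := by rw [hu, map_sub, hvalc₀, sub_self]
  have hredu : red u = red a₀ := by rw [hu, map_sub, hredc₀, sub_zero]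
  have hχu : chi res val u = 0 := by
    show res (val u) = 0
    rw [hvalu, map_zero]
  refine ⟨u, hvalu, ⟨d₀, hd₀, by rw [hredu, e₀]⟩, ?_⟩
  intro z hz
  -- a common level
  obtain ⟨K, hK⟩ := h.L0 [z, u, d₀]
  obtain ⟨z', rfl⟩ := hK z (by simp)
  obtain ⟨u', hu'⟩ := hK u (by simp)
  obtain ⟨d₀', hd₀'⟩ := hK d₀ (by simp)
  haveI := h.isDomain K
  haveI := h.noeth K
  haveI := h.isMax K
  set x := xK res val Bk ι K with hx
  have hd₀x : d₀' ∉ x := by
    intro hmem
    apply hd₀
    rw [← hd₀']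
    exact hmem
  have hu'x : u' ∈ x := by
    show chi res val (ι K u') = 0
    rw [hu', hχu]
  have hm := h.maximalIdeal_eq_of_uniformizer ϖ hϖ0 hϖ K u' d₀' hd₀x hu'x
    (by rw [hu', hd₀', hredu, e₀])
  -- peel at level `K`
  set valΩ : Bk K →+* FractionRing A :=
    (algebraMap A (FractionRing A)).comp (val.comp (ι K)) with hvalΩ
  have hinjA : Function.Injective (algebraMap A (FractionRing A)) :=
    IsFractionRing.injective A (FractionRing A)
  have hvalΩ0 : ∀ b : Bk K, valΩ b = 0 ↔ val (ι K b) = 0 := by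
    intro b
    rw [hvalΩ, RingHom.comp_apply, RingHom.comp_apply]
    constructor
    · intro h0
      exact hinjA (by rw [h0, map_zero])
    · intro h0
      rw [h0, map_zero]
  obtain ⟨d, z'', hd, hdz⟩ :=
    Fermat.Agent.ES.RED.PeelLocal22.exists_mul_eq_mul_of_localization x
      (Localization.AtPrime x) valΩ hm
      (fun d hd h0 => hd (by
        show res (val (ι K d)) = 0
        rw [(hvalΩ0 d).1 h0, map_zero]))
      ((hvalΩ0 u').2 (by rw [hu', hvalu]))
      (fun h0 => h.val_pi K ((hvalΩ0 _).1 h0))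
      (z := z') ((hvalΩ0 z').2 hz)
  refine ⟨ι K d, ι K z'', hd, ?_⟩
  rw [← hu', ← map_mul, ← map_mul, hdz]

end System

end Fermat.Agent.ES.RED.LevelPeel22
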