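/-
Program I (S37), chapter ES/RED — helper22: leaf **A3 RED-LV**, the adapter to helper8's contract
`ES/RED/Contract8`: a level system for the chart `S : ChartSpec A hx Ft` at a place `P` in the chart
gives `S.Val P hP` (VAL) and (with a principal maximal ideal, leaf A5) `S.PeelA P hP` (PEEL-a).

`ChartLevels S P hP Bk ι π` is the list of proof obligations for the instantiators (leaf B1):
levels `ι K : B_K →+* ↥S.B`, elements `π K : B_K`, with (L0)–(L4) of `LevelPeel22.LevelSystem`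
(the two compatibilities with constants are automatic for a `ChartSpec`).
-/
import Mathlib
import Fermat.Agent.ES.RED.Contract8
import Fermat.Agent.ES.RED.LevelPeel22

set_option autoImplicit false
set_option linter.unusedSectionVars false
set_option linter.style.haveILetI false

open AlgebraicCurve

noncomputable section

namespace Fermat.Agent.ES.RED.LevelContract22

open Fermat.Agent.X0.FF Fermat.Agent.ES.RED.PlaceValue13 Fermat.Agent.ES.RED.Contract8
open Fermat.Agent.ES.RED.LevelPeel22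

variable {L : Type*} [Field L] [IsAlgClosed L] {A : ValuationSubring L}
variable {F : Type*} [Field F] [Algebra L F] {x : F} {hx : IsGen L x}
variable {Ft : Type*} [Field Ft] [Algebra (kA A) Ft] (S : ChartSpec A hx Ft)
variable (P : Place L F) (hP : S.InChart P)
variable {I : Type*} (Bk : I → Type*) [∀ K, CommRing (Bk K)] (ι : ∀ K, Bk K →+* ↥S.B)
  (π : ∀ K, Bk K)

/-- The `A`-algebra structure of the chart ring (constants). -/
@[reducible] def algebraConst : Algebra ↥A ↥S.B := S.constHom.toAlgebra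

/-- `x_K := ker (χ_P ∘ ι_K)`, the centre of `P` at level `K`. -/
def centre (K : I) : Ideal (Bk K) := RingHom.ker ((S.chi P hP).comp (ι K))

theorem mem_centre_iff {K : I} {b : Bk K} :
    b ∈ centre S P hP Bk ι K ↔ S.chi P hP (ι K b) = 0 := Iff.rfl

/-- **The level system of a chart at a place `P`**: the proof obligations (L0)–(L4). -/
structure ChartLevels : Prop where
  /-- the levels are subrings of the chart ring -/
  inj : ∀ K, Function.Injective (ι K)
  /-- (L0) every finite subset of the chart ring lies in one level -/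
  L0 : ∀ T : List ↥S.B, ∃ K, ∀ b ∈ T, ∃ b' : Bk K, ι K b' = b
  /-- (L1) the levels are noetherian -/
  noeth : ∀ K, IsNoetherianRing (Bk K)
  /-- (L1) `π_K(P) ≠ 0` -/
  ev_pi : ∀ K, S.ev P hP (ι K (π K)) ≠ 0
  /-- (L1) `χ_P π_K = 0` -/
  chi_pi : ∀ K, S.chi P hP (ι K (π K)) = 0
  /-- (L2) the centre is a closed point -/
  isMax : ∀ K, (centre S P hP Bk ι K).IsMaximal
  /-- (L2) smoothness: `𝔪 = (π_K, s)` locally at the centre -/
  smooth : ∀ K, ∃ s ∈ centre S P hP Bk ι K, ∀ y ∈ centre S P hP Bk ι K,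
    ∃ d : Bk K, d ∉ centre S P hP Bk ι K ∧ d * y ∈ Ideal.span {π K, s}
  /-- (L3) `ker (red | B_K) = π_K B_K` -/
  L3 : ∀ K (b : Bk K), S.red (ι K b) = 0 ↔ π K ∣ b
  /-- (L4) `Ft = Frac (red B)` -/
  L4 : ∀ y : Ft, ∃ a b : ↥S.B, S.red b ≠ 0 ∧ y * S.red b = S.red a

variable {S P hP Bk ι π}

/-- A `ChartLevels` is a `LevelPeel22.LevelSystem`. -/
theorem ChartLevels.levelSystem (h : ChartLevels S P hP Bk ι π) :
    @LevelSystem ↥A ↥S.B (kA A) Ft _ _ (algebraConst S) _ _ (resA A) (S.ev P hP) S.red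
      I Bk _ ι π := by
  letI : Algebra ↥A ↥S.B := algebraConst S
  refine
    { val_algebraMap := fun a => S.ev_const P hP a
      red_algebraMap := fun a ha => ?_
      inj := h.inj
      L0 := h.L0
      noeth := h.noeth
      val_pi := h.ev_pi
      chi_pi := h.chi_pi
      isMax := h.isMax
      smooth := h.smooth
      L3 := h.L3
      L4 := h.L4 }
  show S.red (S.const a) = 0
  rw [S.red_const', ha, map_zero]

/-- `Oset` of the level system is the carrier of `S.rSubring P hP`. -/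
theorem mem_rSubring_iff_mem_Oset (y : Ft) :
    y ∈ S.rSubring P hP ↔ y ∈ Oset (resA A) (S.ev P hP) S.red := Iff.rfl

/-- **(VAL)** for the chart `S` at `P`. -/
theorem ChartLevels.val (h : ChartLevels S P hP Bk ι π) : S.Val P hP := by
  letI : Algebra ↥A ↥S.B := algebraConst S
  exact fun y => h.levelSystem.mem_or_inv_mem y

/-- A uniformiser of a valuation subring `O ≠ ⊤` with principal maximal ideal. -/
theorem exists_uniformizer (O : ValuationSubring Ft) (hne : O ≠ ⊤)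
    (hpir : (IsLocalRing.maximalIdeal ↥O).IsPrincipal) :
    ∃ ϖ : Ft, ϖ ≠ 0 ∧ ϖ ∈ O ∧ ϖ⁻¹ ∉ O ∧ ∀ y ∈ O, y⁻¹ ∉ O → ∃ g ∈ O, y = ϖ * g := by
  obtain ⟨ϖ, hϖ⟩ := hpir.principal
  have hmem : ∀ z : ↥O, z ∈ IsLocalRing.maximalIdeal ↥O ↔ ∃ g : ↥O, z = ϖ * g := by
    intro z
    rw [hϖ]
    rw [Ideal.submodule_span_eq, Ideal.mem_span_singleton']
    constructor
    · rintro ⟨g, rfl⟩; exact ⟨g, mul_comm _ _⟩
    · rintro ⟨g, rfl⟩; exact ⟨g, mul_comm _ _⟩
  have hnonunit : ∀ (y : Ft) (hy : y ∈ O), y⁻¹ ∉ O →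
      (⟨y, hy⟩ : ↥O) ∈ IsLocalRing.maximalIdeal ↥O := by
    intro y hy hyinv
    rw [IsLocalRing.mem_maximalIdeal, mem_nonunits_iff]
    intro hu
    obtain ⟨w, hw⟩ := hu.exists_right_inv
    have hw' : y * (w : Ft) = 1 := by
      have := congrArg Subtype.val hw
      simpa using this
    apply hyinv
    rw [inv_eq_of_mul_eq_one_right hw']
    exact w.2
  have hϖmem : ϖ ∈ IsLocalRing.maximalIdeal ↥O := (hmem ϖ).2 ⟨1, (mul_one _).symm⟩
  have hϖ0 : (ϖ : Ft) ≠ 0 := by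
    intro h0
    apply hne
    rw [eq_top_iff]
    intro y _
    by_contra hy
    have hyinv : y⁻¹ ∈ O := (O.mem_or_inv_mem y).resolve_left hy
    have : (⟨y⁻¹, hyinv⟩ : ↥O) ∈ IsLocalRing.maximalIdeal ↥O :=
      hnonunit _ hyinv (by rw [inv_inv]; exact hy)
    obtain ⟨g, hg⟩ := (hmem _).1 this
    have hg' : y⁻¹ = (ϖ : Ft) * (g : Ft) := by
      have := congrArg Subtype.val hg
      simpa using this
    rw [h0, zero_mul, inv_eq_zero] at hg'
    apply hy
    rw [hg']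
    exact O.zero_mem
  refine ⟨(ϖ : Ft), hϖ0, ϖ.2, ?_, ?_⟩
  · intro hinv
    have hu : IsUnit ϖ := by
      refine IsUnit.of_mul_eq_one (⟨(ϖ : Ft)⁻¹, hinv⟩ : ↥O) ?_
      apply Subtype.ext
      simp [hϖ0]
    exact (IsLocalRing.mem_maximalIdeal _).1 hϖmem hu
  · intro y hy hyinv
    obtain ⟨g, hg⟩ := (hmem _).1 (hnonunit y hy hyinv)
    refine ⟨(g : Ft), g.2, ?_⟩
    have := congrArg Subtype.val hg
    simpa using this

/-- **(PEEL-a)** for the chart `S` at `P`, given that `O_{rP}` has a principal maximal ideal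
(leaf A5) and is not all of `Ft`. -/
theorem ChartLevels.peelA (h : ChartLevels S P hP Bk ι π) (hne : S.rVS P hP h.val ≠ ⊤)
    (hpir : (IsLocalRing.maximalIdeal ↥(S.rVS P hP h.val)).IsPrincipal) : S.PeelA P hP := by
  letI : Algebra ↥A ↥S.B := algebraConst S
  obtain ⟨ϖ, hϖ0, hϖO, hϖn, hϖ⟩ := exists_uniformizer (S.rVS P hP h.val) hne hpir
  obtain ⟨u, hu, -, hpeel⟩ := h.levelSystem.peel_a ϖ hϖ0 hϖO hϖn hϖ
  exact ⟨u, hu, hpeel⟩

/-- (PEEL-a) from `IsPrincipalIdealRing` (the form of `ChartSpec.rPlace`). -/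
theorem ChartLevels.peelA_of_isPrincipalIdealRing (h : ChartLevels S P hP Bk ι π)
    (hne : S.rVS P hP h.val ≠ ⊤) (hpir : IsPrincipalIdealRing ↥(S.rVS P hP h.val)) :
    S.PeelA P hP :=
  h.peelA hne (hpir.principal _)

/-- (PEEL-a), refined: the peeling element `u` reduces to a uniformiser of `O_{rP}` times a unit:
`red u ≠ 0`, `(red u)⁻¹ ∉ O_{rP}` and every non-unit of `O_{rP}` is divisible by `red u`. -/
theorem ChartLevels.peelA_unif (h : ChartLevels S P hP Bk ι π) (hne : S.rVS P hP h.val ≠ ⊤)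
    (hpir : (IsLocalRing.maximalIdeal ↥(S.rVS P hP h.val)).IsPrincipal) :
    ∃ u : ↥S.B, S.ev P hP u = 0 ∧ S.red u ≠ 0 ∧
      (∀ y ∈ S.rSubring P hP, y⁻¹ ∉ S.rSubring P hP → ∃ g ∈ S.rSubring P hP, y = S.red u * g) ∧
      ∀ z : ↥S.B, S.ev P hP z = 0 → ∃ d z' : ↥S.B, S.chi P hP d ≠ 0 ∧ z * d = u * z' := by
  letI : Algebra ↥A ↥S.B := algebraConst S
  obtain ⟨ϖ, hϖ0, hϖO, hϖn, hϖ⟩ := exists_uniformizer (S.rVS P hP h.val) hne hpir
  obtain ⟨u, hu, ⟨d₀, hd₀, e₀⟩, hpeel⟩ := h.levelSystem.peel_a ϖ hϖ0 hϖO hϖn hϖ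
  have hd₀0 : S.red d₀ ≠ 0 := fun h0 => hd₀ (S.chi_eq_zero_of_red_eq_zero P hP h0)
  refine ⟨u, hu, ?_, ?_, hpeel⟩
  · rw [← e₀]; exact mul_ne_zero hϖ0 hd₀0
  · intro y hy hyinv
    obtain ⟨g, hg, rfl⟩ := hϖ y hy hyinv
    refine ⟨(S.red d₀)⁻¹ * g, (S.rSubring P hP).mul_mem (S.inv_red_mem_rSubring P hP hd₀) hg, ?_⟩
    rw [← e₀]
    field_simp

end Fermat.Agent.ES.RED.LevelContract22
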