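/-
Program I (S37), chapter ES/RED — helper26.  **The two-chart model at the EXPLICIT charts.**

`NumInst4.HasModel O E` (Program H) is existential in the charts.  Program I's reduction map needs
the model at the explicit charts `chart O t`, `chart O t⁻¹` (integral closures of `O[t^{±1}]` in `E`)
and the explicit Gauss valuation ring `OvE O hπ E hE`:

* `twoChartModel_of_g1`, `twoChartModel_of_split` : generic `(O, E)`, same hypotheses as
  `ModelAsm4.hasModel_of_g1` / `ModelIface4.hasModel_of_split`;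
* `explicitModelStep_of_targets` : at `(AK A K, FK M K)`, `t = tq K n e`, for all number fields
  `K ⊇ K₀`, from the five concrete targets of `ModelTargets4` (as `ModelMain4.modelStep_of_targets`).
-/
import Mathlib
import Fermat.Agent.RED.ModelMain4

set_option autoImplicit false

open HahnSeries ModularCurve IntermediateField
open scoped MatrixGroups

noncomputable section

namespace Fermat.Agent.ES.RED.ModelExplicit26

open Fermat.Agent.RED.CORE.CoreIface24 Fermat.Agent.RED.PUR.GaussGen8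
  Fermat.Agent.RED.PUR.KtGauss8 Fermat.Agent.RED.PUR.G1Package8
  Fermat.Agent.RED.PUR.ChartGeneric22 Fermat.Agent.RED.NumInst4
  Fermat.Agent.RED.ModelAsm4 Fermat.Agent.RED.ModelIface4

section Generic

variable {K : Type*} [Field K] {O : ValuationSubring K} [IsDiscreteValuationRing ↥O]
  {E : IntermediateField K (LaurentSeries K)}

/-- **MODEL at the explicit charts**, generic assembly (`ModelAsm4.hasModel_of_g1` with the
witnesses exposed). -/
theorem twoChartModel_of_g1 [CharZero K] {π : ↥O} (hπ : Irreducible π) (hE : E ≤ fracField O)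
    (t : ↥E) (ht : (t : LaurentSeries K) ∈ gaussRing O)
    (htr : Transcendental (Res O) (gaussRed O ⟨(t : LaurentSeries K), ht⟩))
    {n : ℕ} (hn : relfinrank (Kt O ⟨(t : LaurentSeries K), ht⟩) E ≠ 0)
    (hdeg : DegLe O E ⟨(t : LaurentSeries K), ht⟩ n)
    (hirr : Irr O E ⟨(t : LaurentSeries K), ht⟩ n)
    (hsm0 : SmoothChart O E π t) (hsm1 : SmoothChart O E π t⁻¹) :
    TwoChartModel ↥O K ↥E π t (chart ↥O t) (chart ↥O t⁻¹) (OvE O hπ E hE) := by
  have : IsScalarTower ↥O K ↥E := isScalarTower_OE O E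
  have : FiniteDimensional ↥(IntermediateField.adjoin K {t}) ↥E := finiteDimensional_adjoin t hn
  have htrK : Transcendental K t :=
    transcendental_of_coe t (transcendental_t (tG := ⟨(t : LaurentSeries K), ht⟩) hπ htr)
  refine twoChartModel_of (R := ↥O) (K := K) (F := ↥E) (π := π) (t := t) (OvE O hπ E hE) htrK
    (dvr_factor hπ) ?_ (t_mem hπ hE t ht) (t_inv_mem hπ hE t ht htr)
    (algebraMap_pi_ne_zero hπ) (pi_inv_not_mem hπ hE)
    (fun x hx hxi => exists_eq_pi_mul hπ hE hx hxi) ?_ ?_ hsm0 hsm1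
  · intro r
    exact (mem_OvE_iff O hπ E hE _).mpr (algebraMap_O_mem r)
  · intro b hb c hc hbc
    rw [mem_chart_iff] at hb ⊢
    exact isIntegral_of_mul hπ hE t ht htr hdeg hirr hc (hbc ▸ hb)
  · intro b hb c hc hbc
    rw [mem_chart_iff] at hb ⊢
    exact isIntegral_of_mul_inv hπ hE t ht htr hdeg hirr hc (hbc ▸ hb)

/-- **MODEL at the explicit charts from the split (LOC)** (`ModelIface4.hasModel_of_split` with the
witnesses exposed). -/
theorem twoChartModel_of_split [CharZero K] {π : ↥O} (hπ : Irreducible π)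
    [Finite (↥O ⧸ (Ideal.span {π} : Ideal ↥O))] (hE : E ≤ fracField O) (t : ↥E)
    (ht : (t : LaurentSeries K) ∈ gaussRing O)
    (htr : Transcendental (Res O) (gaussRed O ⟨(t : LaurentSeries K), ht⟩))
    {n : ℕ} (hn : relfinrank (Kt O ⟨(t : LaurentSeries K), ht⟩) E ≠ 0)
    (hdeg : DegLe O E ⟨(t : LaurentSeries K), ht⟩ n)
    (hirr : Irr O E ⟨(t : LaurentSeries K), ht⟩ n)
    (S : Set ↥O) (hoff : SmoothOff O E π t S) (hover : ∀ c ∈ S, SmoothOver O E π t c)
    (hinf : SmoothOver O E π t⁻¹ 0) :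
    TwoChartModel ↥O K ↥E π t (chart ↥O t) (chart ↥O t⁻¹) (OvE O hπ E hE) := by
  have hfd : FiniteDimensional ↥(IntermediateField.adjoin K {t}) ↥E := finiteDimensional_adjoin t hn
  have htrK : Transcendental K t :=
    transcendental_of_coe t (transcendental_t (tG := ⟨(t : LaurentSeries K), ht⟩) hπ htr)
  have h0 : SmoothChart O E π t := smoothChart_of_split hoff hover
  exact twoChartModel_of_g1 hπ hE t ht htr hn hdeg hirr h0
    (smoothChart_inv_of_split hπ htrK h0 hinf)

end Generic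

section Concrete

open Fermat.Agent.RED.Interface4 Fermat.Agent.RED.ModelTargets4
  Fermat.Agent.RED.BASE.EtaQuot12 Fermat.Agent.X0
  Fermat.Agent.RED.NumMain4 Fermat.Agent.RED.DESC.NumberFieldDVR27 Fermat.Agent.RED.ModelMain4

variable {n e M : ℕ} [NeZero n] [NeZero M] {A : ValuationSubring Qbar}

/-- **The explicit model over all large number fields.**  For `K ⊇ K₀`: `AK A K` is a DVR, every
uniformiser `ϖ` and the Hauptmodul `t = tq K n e ∈ FK M K` give the two-chart model at the charts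
`chart (AK A K) t^{±1}` with the Gauss valuation ring of `FK M K`. -/
theorem explicitModelStep_of_targets {ℓ : ℕ} [Fact ℓ.Prime] (hℓM : ¬ ℓ ∣ M)
    (hA : A.LiesOverPrime ℓ) (cv : SL(2, ℤ) → Option Kbar)
    (hT : TTarget n e M) (hJ : JTarget n e) (hoff : OffTarget n e M A cv)
    (hover : OverTarget n e M A cv) (hinf : InfTarget n e M A) :
    ∃ K₀ : IntermediateField ℚ Qbar, FiniteDimensional ℚ K₀ ∧
      ∀ K : IntermediateField ℚ Qbar, FiniteDimensional ℚ K → K₀ ≤ K →
        IsDiscreteValuationRing ↥(AK A K) ∧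
        ∀ (ϖ : ↥(AK A K)) (_ : Irreducible ϖ) (hu : IsUnif (AK A K) ϖ) (t : ↥(FK M K)),
          (t : LaurentSeries K) = tq K n e →
          TwoChartModel ↥(AK A K) K ↥(FK M K) ϖ t (chart ↥(AK A K) t) (chart ↥(AK A K) t⁻¹)
            (Fermat.Agent.RED.PUR.GaussBridge10.OvK A K M hu) := by
  have hℓ : ℓ.Prime := Fact.out
  obtain ⟨K₁, hK₁, hT⟩ := hT
  obtain ⟨K₂, hK₂, hJ⟩ := hJ
  obtain ⟨K₃, hK₃, hoff⟩ := hoff
  obtain ⟨K₄, hK₄, hover⟩ := hover
  obtain ⟨K₅, hK₅, hinf⟩ := hinf
  refine ⟨K₁ ⊔ K₂ ⊔ K₃ ⊔ K₄ ⊔ K₅, inferInstance, fun K hKfd hle => ?_⟩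
  have hle1 : K₁ ≤ K := le_trans (le_trans (le_trans (le_trans le_sup_left le_sup_left)
    le_sup_left) le_sup_left) hle
  have hle2 : K₂ ≤ K := le_trans (le_trans (le_trans (le_trans le_sup_right le_sup_left)
    le_sup_left) le_sup_left) hle
  have hle3 : K₃ ≤ K := le_trans (le_trans (le_trans le_sup_right le_sup_left) le_sup_left) hle
  have hle4 : K₄ ≤ K := le_trans (le_trans le_sup_right le_sup_left) hle
  have hle5 : K₅ ≤ K := le_trans le_sup_right hle
  have hdvr : IsDiscreteValuationRing ↥(AK A K) := isDiscreteValuationRing_AK A K hℓ.ne_zero hA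
  refine ⟨hdvr, fun ϖ hϖ hu t htq => ?_⟩
  have hchar : CharP (Res (AK A K)) ℓ := charP_residueField_AK A K hℓ hA
  have hfin : Finite (↥(AK A K) ⧸ (Ideal.span {ϖ} : Ideal ↥(AK A K))) := by
    have h1 : Finite (IsLocalRing.ResidueField ↥(AK A K)) :=
      finite_residueField_AK A K hℓ.ne_zero hA
    rw [← hϖ.maximalIdeal_eq]
    exact h1
  have hE : FK M K ≤ fracField (AK A K) :=
    Fermat.Agent.RED.PUR.GaussBridge10.FK_le_fracField A K M
  have htE : tq K n e ∈ FK M K := hT K hKfd hle1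
  have ht : ((t : ↥(FK M K)) : LaurentSeries K) ∈ gaussRing (AK A K) := by
    rw [htq]; exact tq_mem_gaussRing (AK A K) n e
  have htr : Transcendental (Res (AK A K))
      (gaussRed (AK A K) ⟨((t : ↥(FK M K)) : LaurentSeries K), ht⟩) := by
    have h1 : (⟨((t : ↥(FK M K)) : LaurentSeries K), ht⟩ : ↥(gaussRing (AK A K))) =
        ⟨tq K n e, tq_mem_gaussRing (AK A K) n e⟩ := Subtype.ext htq
    rw [h1]
    exact transcendental_gaussRed_tq (AK A K) n e
  have htE' : ((t : ↥(FK M K)) : LaurentSeries K) ∈ FK M K := t.2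
  have hjt : jqModC K ∈ Kt (AK A K) ⟨((t : ↥(FK M K)) : LaurentSeries K), ht⟩ := by
    have h1 : (⟨((t : ↥(FK M K)) : LaurentSeries K), ht⟩ : ↥(gaussRing (AK A K))) =
        ⟨tq K n e, tq_mem_gaussRing (AK A K) n e⟩ := Subtype.ext htq
    rw [h1]
    exact hJ K hKfd hle2
  obtain ⟨nn, -, hdeg, hirr⟩ := Fermat.Agent.RED.PUR.GaussInst25.exists_degLe_irr_FK A K hϖ ℓ M hℓM
    ⟨((t : ↥(FK M K)) : LaurentSeries K), ht⟩ htE' hjt
  have hn : relfinrank (Kt (AK A K) ⟨((t : ↥(FK M K)) : LaurentSeries K), ht⟩) (FK M K) ≠ 0 :=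
    relfinrank_ne_zero (AK A K) M _ htE' hjt
  exact twoChartModel_of_split hϖ hE t ht htr hn hdeg hirr (cuspSet A K cv)
    (hoff K hKfd hle3 ϖ hϖ t htq) (hover K hKfd hle4 ϖ hϖ t htq) (hinf K hKfd hle5 ϖ hϖ t htq)

end Concrete

end Fermat.Agent.ES.RED.ModelExplicit26
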