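/-
Program I (S37), chapter ES/RED — helper22: leaf **B1.2**: the concrete level system
(`LevelContract22.ChartLevels`) of a chart `S : ChartSpec A hx Ft` at `L = ℚ̄`, `F = Fbar M`,
`Ft = k·F̃_M`, from the two-chart models over the number fields.

* `isMaximal_ker_of_pow_eq`, `exists_pow_eq_self` : kernels of ring homs into `k = A/𝔪_A` are maximal;
* `coeffMap_res_eq` : reduction of an `A`-expansion of a Gauss-integral element of `K·F_M` is the
  base change of its Gauss reduction;
* `GoodLevel A M s i` : what is needed of one level `i = (K, t_K, ϖ)`; `goodLevel_of_model0/1` from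
  `CoreIface24.TwoChartModel` at the explicit charts;
* `chartLevels` : `ChartLevels S P hP (LevelRing …) (levelHom …) (levelPi …)`;
* `val_of_levels`, `peelA_of_levels` : (VAL) and (PEEL-a) for `S`.
-/
import Mathlib
import Fermat.Agent.ES.RED.LevelContract22
import Fermat.Agent.ES.RED.ChartUnion1
import Fermat.Agent.ES.RED.ResidueUnion1
import Fermat.Agent.ES.RED.GaussUnit25
import Fermat.Agent.ES.RED.ModelExplicit26

set_option autoImplicit false
set_option linter.unusedSectionVars false
set_option linter.style.haveILetI false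

open HahnSeries ModularCurve AlgebraicCurve

noncomputable section

namespace Fermat.Agent.ES.RED.LevelsInst22

open Fermat.Agent.X0.FF Fermat.Agent.ES.RED.PlaceValue13 Fermat.Agent.ES.RED.Contract8
open Fermat.Agent.ES.RED.LevelContract22
open Fermat.Agent.RED.Interface4 Fermat.Agent.RED.DESC.PlaceExtend27 Fermat.Agent.RED.DESC
  Fermat.Agent.RED.DESC.NumberFieldDVR27
  Fermat.Agent.RED.PUR.ChartGeneric22 Fermat.Agent.RED.NumInst4 Fermat.Agent.RED.PUR.GaussGen8
  Fermat.Agent.RED.PUR.GaussBridge10 Fermat.Agent.RED.CORE.CoreIface24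

/-! ### kernels of homomorphisms into a locally finite field -/

/-- A ring homomorphism into a field all of whose elements satisfy `c ^ m = c` for some `m > 1`
(an algebraic extension of a finite field) has a maximal kernel. -/
theorem isMaximal_ker_of_pow_eq {B k : Type*} [CommRing B] [Field k] (φ : B →+* k)
    (hk : ∀ c : k, ∃ m : ℕ, 1 < m ∧ c ^ m = c) : (RingHom.ker φ).IsMaximal := by
  have hfield : IsField ↥φ.range := by
    refine ⟨⟨0, 1, zero_ne_one⟩, mul_comm, ?_⟩
    intro c hc
    obtain ⟨m, hm, hcm⟩ := hk (c : k)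
    have hc0 : (c : k) ≠ 0 := fun h => hc (Subtype.ext h)
    refine ⟨c ^ (m - 2), Subtype.ext ?_⟩
    show (c : k) * (c : k) ^ (m - 2) = 1
    have h1 : (c : k) * ((c : k) * (c : k) ^ (m - 2)) = (c : k) * 1 := by
      rw [mul_one, ← pow_succ', ← pow_succ']
      have : m - 2 + 1 + 1 = m := by omega
      rw [this, hcm]
    exact mul_left_cancel₀ hc0 h1
  letI := hfield.toField
  have h2 := RingHom.ker_isMaximal_of_surjective φ.rangeRestrict φ.rangeRestrict_surjective
  rwa [RingHom.ker_rangeRestrict] at h2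

variable (A : ValuationSubring Qbar)

/-- The residue field of a valuation ring of `ℚ̄` over `ℓ` is locally finite. -/
theorem exists_pow_eq_self {ℓ : ℕ} (hℓ : ℓ ≠ 0) (hA : A.LiesOverPrime ℓ)
    (c : IsLocalRing.ResidueField ↥A) : ∃ m : ℕ, 1 < m ∧ c ^ m = c := by
  obtain ⟨K₁, hfin, -, H⟩ := ResidueUnion1.exists_residue_descent A ⊥ c
  haveI := hfin
  obtain ⟨c₀, rfl⟩ := H K₁ le_rfl
  haveI : Finite (IsLocalRing.ResidueField ↥(AK A K₁)) := finite_residueField_AK A K₁ hℓ hA
  letI := Fintype.ofFinite (IsLocalRing.ResidueField ↥(AK A K₁))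
  refine ⟨Fintype.card (IsLocalRing.ResidueField ↥(AK A K₁)), Fintype.one_lt_card, ?_⟩
  rw [← map_pow, FiniteField.pow_card]

/-- Kernels of ring homomorphisms into the residue field of `A` are maximal. -/
theorem isMaximal_ker {ℓ : ℕ} (hℓ : ℓ ≠ 0) (hA : A.LiesOverPrime ℓ) {B : Type*} [CommRing B]
    (φ : B →+* IsLocalRing.ResidueField ↥A) : (RingHom.ker φ).IsMaximal :=
  isMaximal_ker_of_pow_eq φ (exists_pow_eq_self A hℓ hA)

/-! ### reduction of expansions -/

variable (K : IntermediateField ℚ Qbar)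

/-- **Compatibility of the reductions**: if `f ∈ K((q))` is Gauss-integral over `A ∩ K` and `Y` is an
`A`-expansion of its base change, then `Y mod 𝔪_A` is the base change of the Gauss reduction. -/
theorem coeffMap_res_eq {f : LaurentSeries K} (hf : f ∈ gaussRing (AK A K))
    {Y : LaurentSeries ↥A} (hY : coeffMap A.subtype Y = coeffMap (algebraMap K Qbar) f) :
    coeffMap (IsLocalRing.residue ↥A) Y =
      coeffMap (resMap A K) (gaussRed (AK A K) ⟨f, hf⟩) := by
  obtain ⟨a, s, h⟩ := hf
  rw [gaussRed_eq (AK A K) (f := ⟨f, a, s, h⟩) h, map_div₀]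
  have hs : coeffMap (resMap A K) (redL (AK A K) s) ≠ 0 := by
    intro h0
    apply h.1
    exact CoeffDescent1.coeffMap_injective_of_injective (resMap A K) (resMap_injective A K)
      (h0.trans (map_zero _).symm)
  rw [eq_div_iff hs, ← GaussUnit25.coeffMap_residue_incl, ← GaussUnit25.coeffMap_residue_incl,
    ← map_mul]
  congr 1
  apply CoeffDescent1.coeffMap_injective_of_injective A.subtype Subtype.val_injective
  rw [map_mul, hY, GaussUnit25.coeffMap_subtype_incl, GaussUnit25.coeffMap_subtype_incl, ← map_mul,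
    h.2]

/-! ### one level -/

variable (M : ℕ) [NeZero M]

/-- Shortcut for the (slow) instance search `Algebra ↥(A ∩ K) ↥(K·F_M)`; it is the instance found by
`inferInstance`. -/
@[reducible] def algebraAKFK (K : IntermediateField ℚ Qbar) : Algebra ↥(AK A K) ↥(FK M K) :=
  Algebra.ofSubsemiring (AK A K)

attribute [local instance] algebraAKFK

/-- An index of the level system: a subfield `K ⊆ ℚ̄`, a coordinate `t_K ∈ K·F_M` and an element
`ϖ ∈ A ∩ K`. -/
abbrev LevelIdx : Type := Σ K : IntermediateField ℚ Qbar, ↥(FK M K) × ↥(AK A K)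

/-- The ring of level `i = (K, t_K, ϖ)`: the integral closure of `(A ∩ K)[t_K]` in `K·F_M`. -/
abbrev LevelRing (i : LevelIdx A M) : Type := ↥(chart ↥(AK A i.1) i.2.1)

/-- The element `π_i = ϖ` of the ring of level `i`. -/
abbrev levelPi (i : LevelIdx A M) : LevelRing A M i :=
  algebraMap ↥(AK A i.1) (LevelRing A M i) i.2.2

/-- What is needed of the level `i = (K, t_K, ϖ)` for the chart with coordinate `s`. -/
structure GoodLevel (s : ↥(Fbar M)) (i : LevelIdx A M) : Prop where
  unif : IsUnif (AK A i.1) i.2.2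
  hts : baseChangeHom M i.1 i.2.1 = s
  noeth : IsNoetherianRing (LevelRing A M i)
  le_gauss : ∀ b ∈ chart ↥(AK A i.1) i.2.1, (b : LaurentSeries i.1) ∈ gaussRing (AK A i.1)
  sat : ∀ b ∈ chart ↥(AK A i.1) i.2.1, ∀ c : ↥(FK M i.1),
    (c : LaurentSeries i.1) ∈ gaussRing (AK A i.1) →
      b = algebraMap ↥(AK A i.1) ↥(FK M i.1) i.2.2 * c → c ∈ chart ↥(AK A i.1) i.2.1
  smooth : ∀ x : Ideal (LevelRing A M i), x.IsMaximal → levelPi A M i ∈ x →
    ∃ s ∈ x, ∀ y ∈ x, ∃ d : LevelRing A M i, d ∉ x ∧ d * y ∈ Ideal.span {levelPi A M i, s}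

/-- A good level for the chart `t` from the two-chart model over `A ∩ K`. -/
theorem goodLevel_of_model0 {K : IntermediateField ℚ Qbar} {ϖ : ↥(AK A K)}
    (hu : IsUnif (AK A K) ϖ) {t : ↥(FK M K)}
    (hmodel : TwoChartModel ↥(AK A K) K ↥(FK M K) ϖ t (chart ↥(AK A K) t) (chart ↥(AK A K) t⁻¹)
      (OvK A K M hu)) :
    GoodLevel A M (baseChangeHom M K t) ⟨K, t, ϖ⟩ where
  unif := hu
  hts := rfl
  noeth := hmodel.noeth0
  le_gauss b hb := (mem_OvK_iff A K M hu b).1 (hmodel.le_Ov0 b hb)
  sat b hb c hc hbc := hmodel.sat0 b hb c ((mem_OvK_iff A K M hu c).2 hc) hbc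
  smooth := hmodel.smooth0

/-- A good level for the chart `t⁻¹` from the two-chart model over `A ∩ K`. -/
theorem goodLevel_of_model1 {K : IntermediateField ℚ Qbar} {ϖ : ↥(AK A K)}
    (hu : IsUnif (AK A K) ϖ) {t : ↥(FK M K)}
    (hmodel : TwoChartModel ↥(AK A K) K ↥(FK M K) ϖ t (chart ↥(AK A K) t) (chart ↥(AK A K) t⁻¹)
      (OvK A K M hu)) :
    GoodLevel A M (baseChangeHom M K t)⁻¹ ⟨K, t⁻¹, ϖ⟩ where
  unif := hu
  hts := map_inv₀ _ _
  noeth := hmodel.noeth1
  le_gauss b hb := (mem_OvK_iff A K M hu b).1 (hmodel.le_Ov1 b hb)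
  sat b hb c hc hbc := hmodel.sat1 b hb c ((mem_OvK_iff A K M hu c).2 hc) hbc
  smooth := hmodel.smooth1

/-! ### the level system of a chart -/

variable {A M}
variable {x : ↥(Fbar M)} {hx : IsGen Qbar x}
variable (S : ChartSpec A hx ↥(modularFunctionFieldFullC (kA A) M))

/-- The index set of the level system of the chart `S`: the good levels for the coordinate `S.s`. -/
abbrev Levels : Type := {i : LevelIdx A M // GoodLevel A M S.s i}

/-- The ring of level `i`. -/
abbrev Bk (i : Levels S) : Type := LevelRing A M i.1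

/-- The element `π_i`. -/
abbrev pik (i : Levels S) : Bk S i := levelPi A M i.1

variable (hB : ∀ b : ↥(Fbar M), b ∈ chart ↥A S.s → b ∈ S.B)

include hB in
theorem baseChangeHom_mem (i : Levels S) (b : Bk S i) :
    baseChangeHom M i.1.1 ((b : Bk S i) : ↥(FK M i.1.1)) ∈ S.B := by
  apply hB
  have h := ChartUnion1.baseChangeHom_mem_chart A M i.1.1 i.1.2.1 _ b.2
  rwa [i.2.hts] at h

/-- The level homomorphism `ι_i : B_i →+* B` (coefficientwise base change). -/
def levelHom (i : Levels S) : Bk S i →+* ↥S.B :=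
  ((baseChangeHom M i.1.1).comp (chart ↥(AK A i.1.1) i.1.2.1).val.toRingHom).codRestrict S.B
    (baseChangeHom_mem S hB i)

theorem coe_levelHom (i : Levels S) (b : Bk S i) :
    ((levelHom S hB i b : ↥S.B) : ↥(Fbar M)) = baseChangeHom M i.1.1 (b : ↥(FK M i.1.1)) := rfl

theorem levelHom_injective (i : Levels S) : Function.Injective (levelHom S hB i) := by
  intro b b' h
  have h1 := congrArg (Subtype.val) h
  rw [coe_levelHom, coe_levelHom] at h1
  exact Subtype.ext (baseChangeHom_injective M i.1.1 h1)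

/-- `ι_i π_i` is the constant `ϖ`. -/
theorem levelHom_pik (i : Levels S) :
    levelHom S hB i (pik S i) = S.const (incl A i.1.1 i.1.2.2) := by
  apply Subtype.ext
  rw [coe_levelHom]
  exact ChartUnion1.baseChangeHom_algebraMap_AK A M i.1.1 i.1.2.2

theorem resA_incl_pi (i : Levels S) : resA A (incl A i.1.1 i.1.2.2) = 0 := by
  show IsLocalRing.residue ↥A (incl A i.1.1 i.1.2.2) = 0
  rw [← resMap_residue]
  have : IsLocalRing.residue ↥(AK A i.1.1) i.1.2.2 = 0 := res0_unif i.2.unif
  rw [this, map_zero]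

/-- the compatibility hypothesis on `S.red`: it is the coefficientwise reduction of `A`-expansions. -/
def RedCompat : Prop :=
  ∀ b : ↥S.B, ∃ Y : LaurentSeries ↥A,
    coeffMap A.subtype Y = (((b : ↥S.B) : ↥(Fbar M)) : LaurentSeries Qbar) ∧
      ((S.red b : ↥(modularFunctionFieldFullC (kA A) M)) : LaurentSeries (kA A)) =
        coeffMap (resA A) Y

variable {S}

/-- **(L3)** at level `i`. -/
theorem red_levelHom_eq_zero_iff (hcompat : RedCompat S) (i : Levels S) (b : Bk S i) :
    S.red (levelHom S hB i b) = 0 ↔ pik S i ∣ b := by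
  constructor
  · intro h0
    obtain ⟨Y, hY, hredY⟩ := hcompat (levelHom S hB i b)
    have hbG : ((b : ↥(FK M i.1.1)) : LaurentSeries i.1.1) ∈ gaussRing (AK A i.1.1) :=
      i.2.le_gauss _ b.2
    have h1 := coeffMap_res_eq A i.1.1 hbG (Y := Y) (by rw [hY, coe_levelHom]; rfl)
    have h2 : coeffMap (resA A) Y = 0 := by
      rw [← hredY, h0]; rfl
    have h3 : gaussRed (AK A i.1.1) ⟨_, hbG⟩ = 0 := by
      apply CoeffDescent1.coeffMap_injective_of_injective (resMap A i.1.1) (resMap_injective A i.1.1)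
      rw [map_zero, ← h1]
      exact h2
    obtain ⟨g, hg⟩ := (gaussRed_eq_zero_iff i.2.unif _).1 h3
    -- `g = b / ϖ` lies in `K·F_M`
    have hg' : ((b : ↥(FK M i.1.1)) : LaurentSeries i.1.1) =
        HahnSeries.C ((i.1.2.2 : ↥(AK A i.1.1)) : i.1.1) * (g : LaurentSeries i.1.1) := by
      have := congrArg Subtype.val hg
      exact this
    have hπ0 : (algebraMap ↥(AK A i.1.1) ↥(FK M i.1.1) i.1.2.2) ≠ 0 := by
      intro h
      have h' := congrArg (Subtype.val) h
      rw [coe_algebraMap_OE] at h'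
      have : ((i.1.2.2 : ↥(AK A i.1.1)) : i.1.1) = 0 := by
        have := congrArg (fun z : LaurentSeries i.1.1 => z.coeff 0) h'
        simpa using this
      exact i.2.unif.ne_zero (Subtype.ext this)
    set c : ↥(FK M i.1.1) := (b : ↥(FK M i.1.1)) / algebraMap ↥(AK A i.1.1) ↥(FK M i.1.1) i.1.2.2
      with hc
    have hbc : (b : ↥(FK M i.1.1)) = algebraMap ↥(AK A i.1.1) ↥(FK M i.1.1) i.1.2.2 * c := by
      rw [hc, mul_div_cancel₀ _ hπ0]
    have hcg : (c : LaurentSeries i.1.1) = (g : LaurentSeries i.1.1) := by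
      have hC0 : (HahnSeries.C ((i.1.2.2 : ↥(AK A i.1.1)) : i.1.1) : LaurentSeries i.1.1) ≠ 0 := by
        rw [← coe_algebraMap_OE (AK A i.1.1) (FK M i.1.1)]
        intro h
        exact hπ0 (Subtype.ext h)
      apply mul_left_cancel₀ hC0
      rw [← hg', ← coe_algebraMap_OE (AK A i.1.1) (FK M i.1.1)]
      have := congrArg (Subtype.val) hbc
      exact this.symm
    have hcG : (c : LaurentSeries i.1.1) ∈ gaussRing (AK A i.1.1) := by rw [hcg]; exact g.2
    have hcmem := i.2.sat _ b.2 c hcG hbc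
    exact ⟨⟨c, hcmem⟩, Subtype.ext hbc⟩
  · rintro ⟨c, rfl⟩
    rw [map_mul, map_mul, levelHom_pik, S.red_const', resA_incl_pi, map_zero, zero_mul]

end Fermat.Agent.ES.RED.LevelsInst22
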