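/-
Program I (S37), chapter ES/RED — helper22: leaf **B1.2**, main statements.  The level system of a
chart `S : ChartSpec A hx Ft` at `L = ℚ̄`, `F = Fbar M`, `Ft = k·F̃_M` (see `LevelsInst22`):

* `EventuallyGood s` : all large number fields `K` carry a good level for the coordinate `s`;
  `eventuallyGood_of_models` : from two-chart models over `A ∩ K` (both charts);
* `chartLevels` : `ChartLevels S P hP (Bk S) (levelHom S _) (pik S)` from
  `hB : S.B = chart ↥A S.s`, `RedCompat S`, (L4) and `EventuallyGood S.s`;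
* `val_of_levels` (VAL), `peelA_of_levels` (PEEL-a), `hasPlaces_of_levels`, `peelA_of_hasPlaces`.
-/
import Mathlib
import Fermat.Agent.ES.RED.LevelsInst22
import Fermat.Agent.ES.RED.TwoCharts8

set_option autoImplicit false
set_option linter.unusedSectionVars false
set_option linter.style.haveILetI false

open HahnSeries ModularCurve AlgebraicCurve

noncomputable section

namespace Fermat.Agent.ES.RED.LevelsMain22

open Fermat.Agent.X0.FF Fermat.Agent.ES.RED.PlaceValue13 Fermat.Agent.ES.RED.Contract8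
open Fermat.Agent.ES.RED.LevelContract22 Fermat.Agent.ES.RED.LevelsInst22
open Fermat.Agent.RED.Interface4 Fermat.Agent.RED.DESC.PlaceExtend27 Fermat.Agent.RED.DESC
  Fermat.Agent.RED.DESC.NumberFieldDVR27
  Fermat.Agent.RED.PUR.ChartGeneric22 Fermat.Agent.RED.NumInst4 Fermat.Agent.RED.PUR.GaussGen8
  Fermat.Agent.RED.PUR.GaussBridge10 Fermat.Agent.RED.CORE.CoreIface24

attribute [local instance] algebraAKFK

variable (A : ValuationSubring Qbar) (M : ℕ) [NeZero M]

/-- All large number fields carry a good level for the coordinate `s`. -/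
def EventuallyGood (s : ↥(Fbar M)) : Prop :=
  ∃ K₀ : IntermediateField ℚ Qbar, FiniteDimensional ℚ K₀ ∧
    ∀ K : IntermediateField ℚ Qbar, FiniteDimensional ℚ K → K₀ ≤ K →
      ∃ (t : ↥(FK M K)) (ϖ : ↥(AK A K)), GoodLevel A M s ⟨K, t, ϖ⟩

/-- Good levels for both charts from the two-chart models over the number fields. -/
theorem eventuallyGood_of_models (s : ↥(Fbar M))
    (h : ∃ K₀ : IntermediateField ℚ Qbar, FiniteDimensional ℚ K₀ ∧
      ∀ K : IntermediateField ℚ Qbar, FiniteDimensional ℚ K → K₀ ≤ K →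
        ∃ (ϖ : ↥(AK A K)) (hu : IsUnif (AK A K) ϖ) (t : ↥(FK M K)), baseChangeHom M K t = s ∧
          TwoChartModel ↥(AK A K) K ↥(FK M K) ϖ t (chart ↥(AK A K) t) (chart ↥(AK A K) t⁻¹)
            (OvK A K M hu)) :
    EventuallyGood A M s ∧ EventuallyGood A M s⁻¹ := by
  obtain ⟨K₀, hfd, H⟩ := h
  refine ⟨⟨K₀, hfd, fun K hK hle => ?_⟩, ⟨K₀, hfd, fun K hK hle => ?_⟩⟩
  · obtain ⟨ϖ, hu, t, hts, hmodel⟩ := H K hK hle
    exact ⟨t, ϖ, hts ▸ goodLevel_of_model0 A M hu hmodel⟩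
  · obtain ⟨ϖ, hu, t, hts, hmodel⟩ := H K hK hle
    exact ⟨t⁻¹, ϖ, hts ▸ goodLevel_of_model1 A M hu hmodel⟩

variable {A M}
variable {x : ↥(Fbar M)} {hx : IsGen Qbar x}
variable (S : ChartSpec A hx ↥(modularFunctionFieldFullC (kA A) M))

/-- **(L0)**: every finite list of elements of the chart ring comes from one good level. -/
theorem exists_level (hB : ∀ b : ↥(Fbar M), b ∈ S.B ↔ b ∈ chart ↥A S.s)
    (hgood : EventuallyGood A M S.s) (T : List ↥S.B) :
    ∃ i : Levels S, ∀ b ∈ T, ∃ b' : Bk S i, levelHom S (fun b h => (hB b).2 h) i b' = b := by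
  obtain ⟨K₀, hfd₀, H⟩ := hgood
  haveI := hfd₀
  -- a common field of definition
  have key : ∃ K₁ : IntermediateField ℚ Qbar, FiniteDimensional ℚ K₁ ∧ K₀ ≤ K₁ ∧
      ∀ K : IntermediateField ℚ Qbar, K₁ ≤ K → ∀ tK : ↥(FK M K), baseChangeHom M K tK = S.s →
        ∀ b ∈ T, ∃ y ∈ chart ↥(AK A K) tK, baseChangeHom M K y = (b : ↥(Fbar M)) := by
    induction T with
    | nil => exact ⟨K₀, hfd₀, le_rfl, fun K _ tK _ b hb => absurd hb (List.not_mem_nil)⟩
    | cons b T ih =>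
      obtain ⟨K₁, hfd₁, hle₁, H₁⟩ := ih
      haveI := hfd₁
      obtain ⟨K₂, hfd₂, hle₂, H₂⟩ :=
        ChartUnion1.exists_chart_descent A M K₁ S.s (b : ↥(Fbar M)) ((hB _).1 b.2)
      refine ⟨K₂, hfd₂, hle₁.trans hle₂, fun K hK tK htK c hc => ?_⟩
      rcases List.mem_cons.1 hc with rfl | hc
      · exact H₂ K hK tK htK
      · exact H₁ K (hle₂.trans hK) tK htK c hc
  obtain ⟨K₁, hfd₁, hle₁, H₁⟩ := key
  obtain ⟨t, ϖ, hg⟩ := H K₁ hfd₁ hle₁
  refine ⟨⟨⟨K₁, t, ϖ⟩, hg⟩, fun b hb => ?_⟩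
  obtain ⟨y, hy, hyb⟩ := H₁ K₁ le_rfl t hg.hts b hb
  exact ⟨⟨y, hy⟩, Subtype.ext hyb⟩

variable {S}

/-- **The level system of the chart `S` at a place `P` of the chart.** -/
theorem chartLevels {ℓ : ℕ} (hℓ : ℓ ≠ 0) (hA : A.LiesOverPrime ℓ)
    (hB : ∀ b : ↥(Fbar M), b ∈ S.B ↔ b ∈ chart ↥A S.s) (hcompat : RedCompat S)
    (hL4 : ∀ y : ↥(modularFunctionFieldFullC (kA A) M),
      ∃ a b : ↥S.B, S.red b ≠ 0 ∧ y * S.red b = S.red a)
    (hgood : EventuallyGood A M S.s) (P : Place Qbar ↥(Fbar M)) (hP : S.InChart P) :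
    ChartLevels S P hP (Bk S) (levelHom S (fun b h => (hB b).2 h)) (pik S) := by
  have hchi : ∀ i : Levels S,
      S.chi P hP (levelHom S (fun b h => (hB b).2 h) i (pik S i)) = 0 := by
    intro i
    rw [levelHom_pik, S.chi_const, resA_incl_pi]
  have hmax : ∀ i : Levels S,
      (centre S P hP (Bk S) (levelHom S (fun b h => (hB b).2 h)) i).IsMaximal :=
    fun i => isMaximal_ker A hℓ hA _
  refine
    { inj := levelHom_injective S _
      L0 := exists_level S hB hgood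
      noeth := fun i => i.2.noeth
      ev_pi := fun i => ?_
      chi_pi := hchi
      isMax := hmax
      smooth := fun i => i.2.smooth _ (hmax i) (hchi i)
      L3 := fun i b => red_levelHom_eq_zero_iff _ hcompat i b
      L4 := hL4 }
  rw [levelHom_pik, S.ev_const]
  intro h
  exact i.2.unif.ne_zero (incl_injective A i.1.1 (h.trans (map_zero _).symm))

/-- **(VAL)** for the chart `S` at `P`. -/
theorem val_of_levels {ℓ : ℕ} (hℓ : ℓ ≠ 0) (hA : A.LiesOverPrime ℓ)
    (hB : ∀ b : ↥(Fbar M), b ∈ S.B ↔ b ∈ chart ↥A S.s) (hcompat : RedCompat S)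
    (hL4 : ∀ y : ↥(modularFunctionFieldFullC (kA A) M),
      ∃ a b : ↥S.B, S.red b ≠ 0 ∧ y * S.red b = S.red a)
    (hgood : EventuallyGood A M S.s) (P : Place Qbar ↥(Fbar M)) (hP : S.InChart P) :
    S.Val P hP :=
  (chartLevels hℓ hA hB hcompat hL4 hgood P hP).val

/-- **(PEEL-a)** for the chart `S` at `P`, given (A5) that `O_{rP}` is a principal ideal ring. -/
theorem peelA_of_levels {ℓ : ℕ} (hℓ : ℓ ≠ 0) (hA : A.LiesOverPrime ℓ)
    (hB : ∀ b : ↥(Fbar M), b ∈ S.B ↔ b ∈ chart ↥A S.s) (hcompat : RedCompat S)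
    (hL4 : ∀ y : ↥(modularFunctionFieldFullC (kA A) M),
      ∃ a b : ↥S.B, S.red b ≠ 0 ∧ y * S.red b = S.red a)
    (hgood : EventuallyGood A M S.s) (P : Place Qbar ↥(Fbar M)) (hP : S.InChart P)
    (hval : S.Val P hP) (hne : S.rVS P hP hval ≠ ⊤)
    (hpir : IsPrincipalIdealRing ↥(S.rVS P hP hval)) : S.PeelA P hP :=
  (chartLevels hℓ hA hB hcompat hL4 hgood P hP).peelA_of_isPrincipalIdealRing hne hpir

/-- `TwoCharts8.HasPlaces S` from the level system and (A5) in the form: every valuation ring of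
`Ft` over `k` containing `red s`, not `Ft`, is a principal ideal ring. -/
theorem hasPlaces_of_levels {ℓ : ℕ} (hℓ : ℓ ≠ 0) (hA : A.LiesOverPrime ℓ)
    (hB : ∀ b : ↥(Fbar M), b ∈ S.B ↔ b ∈ chart ↥A S.s) (hcompat : RedCompat S)
    (hL4 : ∀ y : ↥(modularFunctionFieldFullC (kA A) M),
      ∃ a b : ↥S.B, S.red b ≠ 0 ∧ y * S.red b = S.red a)
    (hgood : EventuallyGood A M S.s)
    (htr : Transcendental (kA A) (S.red S.sB))
    (hpir : ∀ O : ValuationSubring ↥(modularFunctionFieldFullC (kA A) M),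
      (∀ c : kA A, algebraMap (kA A) ↥(modularFunctionFieldFullC (kA A) M) c ∈ O) →
        S.red S.sB ∈ O → O ≠ ⊤ → IsPrincipalIdealRing ↥O) :
    TwoCharts8.HasPlaces S := by
  intro P hP
  have hval := val_of_levels hℓ hA hB hcompat hL4 hgood P hP
  refine ⟨hval, hpir _ (fun c => S.algebraMap_mem_rSubring P hP c)
    (S.red_mem_rSubring P hP S.sB) ?_⟩
  exact S.rVS_ne_top P hP hval (TwoCharts8.chi_sSub P hP) (TwoCharts8.red_sSub_ne_zero htr P hP)

/-- (PEEL-a) at every place of the chart, from `HasPlaces`. -/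
theorem peelA_of_hasPlaces {ℓ : ℕ} (hℓ : ℓ ≠ 0) (hA : A.LiesOverPrime ℓ)
    (hB : ∀ b : ↥(Fbar M), b ∈ S.B ↔ b ∈ chart ↥A S.s) (hcompat : RedCompat S)
    (hL4 : ∀ y : ↥(modularFunctionFieldFullC (kA A) M),
      ∃ a b : ↥S.B, S.red b ≠ 0 ∧ y * S.red b = S.red a)
    (hgood : EventuallyGood A M S.s)
    (htr : Transcendental (kA A) (S.red S.sB)) (hS : TwoCharts8.HasPlaces S)
    (P : Place Qbar ↥(Fbar M)) (hP : S.InChart P) : S.PeelA P hP :=
  peelA_of_levels hℓ hA hB hcompat hL4 hgood P hP (hS.val P hP)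
    (TwoCharts8.rVS_ne_top hS htr P hP) (hS.pir P hP)

end Fermat.Agent.ES.RED.LevelsMain22
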