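/-
Program I (ES/RED, leaf B1 (2a); helper16): **level-`K` `π`-saturation of the two chart rings**, i.e.
the hypothesis `ChartIntegralA1.LevelSat A M t` of `ChartIntegralA1.exists_content` for the Hauptmodul
`t = tF M hmem` and for `t⁻¹` (fields `sat0` / `sat1` of `CoreIface24.TwoChartModel` at all large number
fields `K`), directly from the Gauss package `G1Package8.isIntegral_of_mul(_inv)` — no smoothness input.
-/
import Fermat.Agent.ES.RED.ChartIntegralA1
import Fermat.Agent.ES.RED.FracRed16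
import Fermat.Agent.RED.BASE.Main12

set_option autoImplicit false
set_option linter.unusedSectionVars false
set_option linter.style.haveILetI false

noncomputable section

namespace Fermat.Agent.ES.RED.LevelSat16

open Polynomial HahnSeries ModularCurve

open Fermat.Agent.RED.Interface4 Fermat.Agent.RED.DESC Fermat.Agent.RED.DESC.NumberFieldDVR27
open Fermat.Agent.RED.DESC.PlaceExtend27
open Fermat.Agent.RED.PUR.GaussGen8 Fermat.Agent.RED.PUR.KtGauss8 Fermat.Agent.RED.PUR.G1Package8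
  Fermat.Agent.RED.PUR.GaussBridge10 Fermat.Agent.RED.PUR.ChartGeneric22
open Fermat.Agent.RED.BASE.EtaQuot12 Fermat.Agent.RED.BASE.Interface12
open Fermat.Agent.X0 Fermat.Agent.ES.RED.ChartIntegralA1

variable (A : ValuationSubring Qbar) {M : ℕ} [NeZero M]

/-- The Gauss package at every large number field `K`, for the Hauptmodul. -/
theorem exists_package (n e : ℕ) [NeZero n] (ℓ : ℕ) [Fact ℓ.Prime] (hℓM : ¬ ℓ ∣ M)
    (hmem : TMem n e M) (hgen : TGenBase n e) (hA : A.LiesOverPrime ℓ) :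
    ∃ K₀ : IntermediateField ℚ Qbar, FiniteDimensional ℚ K₀ ∧
      ∀ K : IntermediateField ℚ Qbar, FiniteDimensional ℚ K → K₀ ≤ K →
        ∀ (ϖ : ↥(AK A K)) (_ : Irreducible ϖ),
        ∃ (_ : IsDiscreteValuationRing ↥(AK A K))
          (t : ↥(FK M K)) (_ : (t : LaurentSeries K) = tq K n e)
          (ht : (t : LaurentSeries K) ∈ gaussRing (AK A K))
          (_ : Transcendental (Res (AK A K)) (gaussRed (AK A K) ⟨(t : LaurentSeries K), ht⟩))
          (m : ℕ) (_ : DegLe (AK A K) (FK M K) ⟨(t : LaurentSeries K), ht⟩ m),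
          Irr (AK A K) (FK M K) ⟨(t : LaurentSeries K), ht⟩ m := by
  have hℓ : ℓ.Prime := Fact.out
  obtain ⟨K₁, hK₁, hT⟩ := Fermat.Agent.RED.BASE.TBridge15.exists_tq_mem n e M hmem
  obtain ⟨K₂, hK₂, hJ⟩ := Fermat.Agent.RED.BASE.JInKt25.exists_j_mem_adjoin n e hgen
  haveI := hK₁
  haveI := hK₂
  refine ⟨K₁ ⊔ K₂, inferInstance, fun K hKfd hle ϖ hϖ => ?_⟩
  haveI := hKfd
  have hle1 : K₁ ≤ K := le_trans le_sup_left hle
  have hle2 : K₂ ≤ K := le_trans le_sup_right hle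
  have hdvr : IsDiscreteValuationRing ↥(AK A K) := isDiscreteValuationRing_AK A K hℓ.ne_zero hA
  haveI : CharP (Res (AK A K)) ℓ := charP_residueField_AK A K hℓ hA
  have htE : tq K n e ∈ FK M K := hT K hle1
  have ht : tq K n e ∈ gaussRing (AK A K) :=
    Fermat.Agent.RED.ModelTargets4.tq_mem_gaussRing (AK A K) n e
  have htr : Transcendental (Res (AK A K)) (gaussRed (AK A K) ⟨tq K n e, ht⟩) :=
    Fermat.Agent.RED.ModelTargets4.transcendental_gaussRed_tq (AK A K) n e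
  have hjt : jqModC K ∈ Kt (AK A K) ⟨tq K n e, ht⟩ := hJ K hle2
  obtain ⟨m, -, hdeg, hirr⟩ := Fermat.Agent.RED.PUR.GaussInst25.exists_degLe_irr_FK A K hϖ ℓ M hℓM
    ⟨tq K n e, ht⟩ htE hjt
  exact ⟨hdvr, ⟨tq K n e, htE⟩, rfl, ht, htr, m, hdeg, hirr⟩

theorem baseChangeHom_injective (K : IntermediateField ℚ Qbar) :
    Function.Injective (baseChangeHom M K) := (baseChangeHom M K).injective

/-- **`LevelSat` for the Hauptmodul chart.** -/
theorem levelSat_t' (n e : ℕ) [NeZero n] (ℓ : ℕ) [Fact ℓ.Prime] (hℓM : ¬ ℓ ∣ M)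
    (hmem : TMem n e M) (hgen : TGenBase n e) (hA : A.LiesOverPrime ℓ) :
    LevelSat A M (tF M hmem) := by
  obtain ⟨K₀, hK₀, H⟩ := exists_package A n e ℓ hℓM hmem hgen hA
  refine ⟨K₀, hK₀, fun K hKfd hle ϖ hϖ hu tK htK b hb c hc hbc => ?_⟩
  obtain ⟨hdvr, t, htq, ht, htr, m, hdeg, hirr⟩ := H K hKfd hle ϖ hϖ
  haveI := hdvr
  have htt : tK = t := by
    apply baseChangeHom_injective (M := M) K
    rw [htK, Fermat.Agent.RED.CUSP.RankConcrete16.baseChangeHom_eq_tF M K hmem t htq]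
  subst htt
  have hE : FK M K ≤ fracField (AK A K) := FK_le_fracField A K M
  rw [mem_chart_iff] at hb ⊢
  exact isIntegral_of_mul hϖ hE tK ht htr hdeg hirr hc (hbc ▸ hb)

/-- **`LevelSat` for the chart at infinity.** -/
theorem levelSat_inv' (n e : ℕ) [NeZero n] (ℓ : ℕ) [Fact ℓ.Prime] (hℓM : ¬ ℓ ∣ M)
    (hmem : TMem n e M) (hgen : TGenBase n e) (hA : A.LiesOverPrime ℓ) :
    LevelSat A M (tF M hmem)⁻¹ := by
  obtain ⟨K₀, hK₀, H⟩ := exists_package A n e ℓ hℓM hmem hgen hA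
  refine ⟨K₀, hK₀, fun K hKfd hle ϖ hϖ hu tK htK b hb c hc hbc => ?_⟩
  obtain ⟨hdvr, t, htq, ht, htr, m, hdeg, hirr⟩ := H K hKfd hle ϖ hϖ
  haveI := hdvr
  have htt : tK = t⁻¹ := by
    apply baseChangeHom_injective (M := M) K
    rw [htK, map_inv₀, Fermat.Agent.RED.CUSP.RankConcrete16.baseChangeHom_eq_tF M K hmem t htq]
  subst htt
  have hE : FK M K ≤ fracField (AK A K) := FK_le_fracField A K M
  rw [mem_chart_iff] at hb ⊢
  exact isIntegral_of_mul_inv hϖ hE t ht htr hdeg hirr hc (hbc ▸ hb)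

/-! ### in the conventions of the `B1` integrator -/

section Conv

open Fermat.Agent.RED.BASE

variable {n e : ℕ} [NeZero n]

/-- `LevelSat` for `t`, in the conventions `hB := Main12.baseExports hb M hnM`, `hmem := hB.mem`. -/
theorem levelSat_t (hb : Hauptmodul12.BaseHyp n e) (M : ℕ) [NeZero M] (hnM : n ∣ M)
    (ℓ : ℕ) [Fact ℓ.Prime] (hℓM : ¬ ℓ ∣ M) (A : ValuationSubring Qbar) (hA : A.LiesOverPrime ℓ) :
    LevelSat A M (tF M (Main12.baseExports hb M hnM).mem) :=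
  levelSat_t' A n e ℓ hℓM (Main12.baseExports hb M hnM).mem (Main12.baseExports hb M hnM).genBase hA

/-- `LevelSat` for `t⁻¹`, same conventions. -/
theorem levelSat_inv (hb : Hauptmodul12.BaseHyp n e) (M : ℕ) [NeZero M] (hnM : n ∣ M)
    (ℓ : ℕ) [Fact ℓ.Prime] (hℓM : ¬ ℓ ∣ M) (A : ValuationSubring Qbar) (hA : A.LiesOverPrime ℓ) :
    LevelSat A M (tF M (Main12.baseExports hb M hnM).mem)⁻¹ :=
  levelSat_inv' A n e ℓ hℓM (Main12.baseExports hb M hnM).mem (Main12.baseExports hb M hnM).genBase hA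

end Conv

end Fermat.Agent.ES.RED.LevelSat16
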