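/-
Program I (S37), chapter ES/RED, leaf of A1/RED-2 (helper9): GENERIC CHART FACTS feeding the fields
`ord_nonneg`, `ord_red_nonneg`, `zeros_mem` of `R2Abstract14.ChartHyp` and the hypothesis (SEP) of
`R2Peel14`.

Setting: `L` a field, `A : ValuationSubring L`, `F / L` a function field with generator `x`,
`B := ChartGeneric22.chart ↥A x` (the integral closure of `A[x]` in `F`).

* (G1)  `ord_nonneg_of_mem_chart`  : `P : Place L F`, `0 ≤ P.ord x`, `b ∈ B` ⇒ `0 ≤ P.ord b`;
* (G2)  `place_eq_of_chart_pos_imp` (= SEP): places `P P'` with `0 ≤ ord x`, and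
        `∀ b ∈ B, 0 < P.ord b → 0 < P'.ord b` ⇒ `P = P'`  (`L` of characteristic zero, `IsGen L x`);
* (G3)  `ord_nonneg_of_zero_sub_const` : zeros of `x - a` (`a ∈ L`) have `0 ≤ ord x`;
* (G1~) `isIntegral_red_of_mem_chart`, `ord_red_nonneg_of_mem_chart` : for a ring hom
        `red : G →+* Ft` (`B ≤ G ≤ F`) which is `res` on the constants of `A`:  `b ∈ B` ⇒ `red b` is
        integral over `k[red x]`, hence `0 ≤ Q.ord (red b)` at places `Q` of `Ft / k` with
        `0 ≤ Q.ord (red x)`.
-/
import Mathlib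
import Fermat.Prelude.Def_AlgebraicCurve_DivisorClassGroup
import Fermat.Agent.X0.FFSum
import Fermat.Agent.X0.FFDedekind
import Fermat.Agent.RED.PUR.ChartGeneric22
import Fermat.Agent.RED.CUSP.CharZeroInj9

set_option autoImplicit false
set_option linter.unusedSectionVars false
set_option linter.style.haveILetI false

namespace Fermat.Agent.ES.RED.ChartFacts9

open AlgebraicCurve Polynomial IsDedekindDomain
open Fermat.Agent.X0.FF Fermat.Agent.X0.FFDedekind Fermat.Agent.RED.PUR.ChartGeneric22

/-! ### (G1): the chart ring lies in the valuation rings of the places of the chart -/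

section G1

variable {L F : Type*} [Field L] [Field F] [Algebra L F]

/-- Generic form: `R → F` with image in `O_P`, `x ∈ O_P` ⇒ the integral closure of `R[x]` lies
in `O_P`. -/
theorem mem_of_isIntegral_adjoin (P : Place L F) {R : Type*} [CommRing R] [Algebra R F]
    (hR : ∀ r : R, algebraMap R F r ∈ P.toValuationSubring) {x : F}
    (hx : x ∈ P.toValuationSubring) {b : F} (hb : IsIntegral (Algebra.adjoin R {x}) b) :
    b ∈ P.toValuationSubring := by
  refine mem_of_isIntegral_of_algebraMap_mem P (A := Algebra.adjoin R {x}) ?_ hb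
  rintro ⟨c, hc⟩
  change c ∈ P.toValuationSubring
  induction hc using Algebra.adjoin_induction with
  | mem y hy =>
    rw [Set.mem_singleton_iff] at hy
    rw [hy]
    exact hx
  | algebraMap r => exact hR r
  | add y z _ _ hy hz => exact add_mem hy hz
  | mul y z _ _ hy hz => exact mul_mem hy hz

variable (A : ValuationSubring L)

/-- constants of `A` lie in every valuation ring of a place of `F / L`. -/
theorem algebraMap_mem_place (P : Place L F) (a : A) :
    algebraMap ↥A F a ∈ P.toValuationSubring :=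
  P.algebraMap_mem' (a : L)

/-- **(G1)** -/
theorem mem_place_of_mem_chart {x : F} (P : Place L F) (hx : 0 ≤ P.ord x) {b : F}
    (hb : b ∈ chart ↥A x) : b ∈ P.toValuationSubring :=
  mem_of_isIntegral_adjoin P (algebraMap_mem_place A P) ((ffp_mem_iff_ord_nonneg P).2 hx)
    (mem_chart_iff.1 hb)

/-- **(G1)**, order form. -/
theorem ord_nonneg_of_mem_chart {x : F} (P : Place L F) (hx : 0 ≤ P.ord x) {b : F}
    (hb : b ∈ chart ↥A x) : 0 ≤ P.ord b :=
  (ffp_mem_iff_ord_nonneg P).1 (mem_place_of_mem_chart A P hx hb)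

/-- constants of `A` are in the chart. -/
theorem const_mem_chart (x : F) (a : A) : algebraMap L F (a : L) ∈ chart ↥A x :=
  (chart ↥A x).algebraMap_mem a

/-- **(G3)**: a zero of `x - a` is a place of the chart. -/
theorem ord_nonneg_of_zero_sub_const {x : F} (P : Place L F) (a : L)
    (h : 0 < P.ord (x - algebraMap L F a)) : 0 ≤ P.ord x := by
  rw [← ffp_mem_iff_ord_nonneg]
  have h1 : x - algebraMap L F a ∈ P.toValuationSubring :=
    (ffp_mem_iff_ord_nonneg P).2 h.le
  have h2 : algebraMap L F a ∈ P.toValuationSubring := P.algebraMap_mem' a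
  have := add_mem h1 h2
  rwa [sub_add_cancel] at this

end G1

/-! ### (G2) = (SEP) -/

section G2

variable {L F : Type*} [Field L] [CharZero L] [Field F] [Algebra L F] (A : ValuationSubring L)

/-- Clearing denominators: an element of `intRing L x` times a non-zero constant of `A` lies in
the chart over `A`. -/
theorem exists_const_mul_mem_chart (x : F) {f : F} (hf : f ∈ intRing L x) :
    ∃ c : A, c ≠ 0 ∧ algebraMap L F (c : L) * f ∈ chart ↥A x := by
  obtain ⟨c, hc, hcf⟩ :=
    Fermat.Agent.RED.CUSP.CharZeroInj9.exists_smul_isIntegral (A := ↥A) (K := L) x f hf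
  exact ⟨c, hc, mem_chart_iff.2 hcf⟩

/-- **(G2) = (SEP)**: two places of the chart such that every element of the chart ring over `A`
vanishing at `P` vanishes at `P'` coincide. -/
theorem place_eq_of_chart_pos_imp {x : F} (hx : IsGen L x) (P P' : Place L F)
    (hP : 0 ≤ P.ord x) (hP' : 0 ≤ P'.ord x)
    (h : ∀ b ∈ chart ↥A x, 0 < P.ord b → 0 < P'.ord b) : P = P' := by
  haveI := isDedekindDomain_intRing hx
  haveI := isFractionRing_intRing hx
  have hxP : x ∈ P.toValuationSubring := (ffp_mem_iff_ord_nonneg P).2 hP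
  have hxP' : x ∈ P'.toValuationSubring := (ffp_mem_iff_ord_nonneg P').2 hP'
  have hB : ∀ (R : Place L F), x ∈ R.toValuationSubring →
      ∀ b : intRing L x, algebraMap (intRing L x) F b ∈ R.toValuationSubring := by
    intro R hxR b
    exact mem_of_isIntegral_adjoin R (R := L) R.algebraMap_mem' hxR b.2
  have hle : centre P (hB P hxP) ≤ centre P' (hB P' hxP') := by
    intro b hb
    rw [mem_centre_iff] at hb ⊢
    by_cases hb0 : b = 0
    · rw [hb0, map_zero]
      exact not_isUnit_zero
    have hbF : (b : F) ≠ 0 := fun h0 => hb0 (Subtype.ext h0)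
    -- `0 < P.ord b`
    have hpos : 0 < P.ord (b : F) := by
      have := (ffp_mem_maximalIdeal_iff P (toValuationSubringHom P (hB P hxP) b)
        (fun h0 => hbF (congrArg Subtype.val h0))).1
        (by rwa [IsLocalRing.mem_maximalIdeal, mem_nonunits_iff])
      simpa using this
    obtain ⟨c, hc, hcb⟩ := exists_const_mul_mem_chart A x b.2
    have hcL : (c : L) ≠ 0 := fun h0 => hc (Subtype.ext h0)
    have hcF : algebraMap L F (c : L) ≠ 0 := (map_ne_zero (algebraMap L F)).2 hcL
    have h1 : 0 < P.ord (algebraMap L F (c : L) * (b : F)) := by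
      rw [P.ord_mul hcF hbF, ffp_ord_algebraMap, zero_add]
      exact hpos
    have h2 := h _ hcb h1
    rw [P'.ord_mul hcF hbF, ffp_ord_algebraMap, zero_add] at h2
    intro hu
    have := ffp_ord_eq_zero_of_isUnit P' hu
    rw [coe_toValuationSubringHom] at this
    change P'.ord (b : F) = 0 at this
    omega
  have hmax : (centre P (hB P hxP)).IsMaximal :=
    (centreSpec P (hB P hxP)).isMaximal
  have hne : centre P' (hB P' hxP') ≠ ⊤ := (centre_isPrime P' (hB P' hxP')).ne_top
  have heq : centre P (hB P hxP) = centre P' (hB P' hxP') := hmax.eq_of_le hne hle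
  have hspec : centreSpec P (hB P hxP) = centreSpec P' (hB P' hxP') :=
    HeightOneSpectrum.ext heq
  rw [← ofHeightOneSpectrum_centreSpec P (hB P hxP), hspec,
    ofHeightOneSpectrum_centreSpec P' (hB P' hxP')]

end G2

/-! ### (G1~): reductions of chart elements are integral over `k[x~]` -/

section G1t

variable {L F : Type*} [Field L] [Field F] [Algebra L F] (A : ValuationSubring L)
variable {k Ft : Type*} [Field k] [Field Ft] [Algebra k Ft]

/-- `red` maps `A[x]` into `k[red x]`. -/
theorem red_mem_adjoin (res : A →+* k) (G : Subring F) (red : G →+* Ft) (x : G)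
    (hle : ∀ c ∈ Algebra.adjoin ↥A {(x : F)}, c ∈ G)
    (hconst : ∀ (a : A) (h : algebraMap L F (a : L) ∈ G),
      red ⟨algebraMap L F (a : L), h⟩ = algebraMap k Ft (res a))
    {c : F} (hc : c ∈ Algebra.adjoin ↥A {(x : F)}) :
    red ⟨c, hle c hc⟩ ∈ Algebra.adjoin k {red x} := by
  induction hc using Algebra.adjoin_induction with
  | mem y hy =>
    have hyx : y = (x : F) := Set.mem_singleton_iff.1 hy
    have : (⟨y, hle y (Algebra.subset_adjoin hy)⟩ : G) = x := Subtype.ext hyx
    rw [this]
    exact Algebra.self_mem_adjoin_singleton k _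
  | algebraMap a =>
    have h1 : algebraMap L F (a : L) ∈ G := hle _ (Subalgebra.algebraMap_mem _ a)
    have : red ⟨algebraMap ↥A F a, hle _ (Subalgebra.algebraMap_mem _ a)⟩ =
        red ⟨algebraMap L F (a : L), h1⟩ := rfl
    rw [this, hconst a h1]
    exact Subalgebra.algebraMap_mem _ _
  | add y z hy hz hy' hz' =>
    have : (⟨y + z, hle _ (add_mem hy hz)⟩ : G) = ⟨y, hle y hy⟩ + ⟨z, hle z hz⟩ := rfl
    rw [this, map_add]
    exact add_mem hy' hz'
  | mul y z hy hz hy' hz' =>
    have : (⟨y * z, hle _ (mul_mem hy hz)⟩ : G) = ⟨y, hle y hy⟩ * ⟨z, hle z hz⟩ := rfl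
    rw [this, map_mul]
    exact mul_mem hy' hz'

/-- **(G1~), integrality**: the reduction of an element of the chart ring is integral over
`k[red x]`. -/
theorem isIntegral_red_of_mem_chart (res : A →+* k) (G : Subring F) (red : G →+* Ft) (x : G)
    (hle : ∀ c ∈ Algebra.adjoin ↥A {(x : F)}, c ∈ G)
    (hconst : ∀ (a : A) (h : algebraMap L F (a : L) ∈ G),
      red ⟨algebraMap L F (a : L), h⟩ = algebraMap k Ft (res a))
    (b : G) (hb : (b : F) ∈ chart ↥A (x : F)) :
    IsIntegral (Algebra.adjoin k {red x}) (red b) := by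
  rw [mem_chart_iff, isIntegral_subalgebra_iff] at hb
  obtain ⟨p, hp, hcoeff, hpb⟩ := hb
  -- lift `p` to `G[X]`
  have hl : p ∈ lifts (G.subtype) := by
    rw [lifts_iff_coeff_lifts]
    intro n
    exact ⟨⟨p.coeff n, hle _ (hcoeff n)⟩, rfl⟩
  obtain ⟨q, hq, -, hqm⟩ := lifts_and_natDegree_eq_and_monic hl hp
  have hqb : q.eval b = 0 := by
    apply Subtype.ext
    have h1 : ((q.eval b : G) : F) = (q.map G.subtype).eval (G.subtype b) := by
      rw [eval_map, eval₂_at_apply]
      rfl
    rw [h1, hq]
    exact hpb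
  rw [isIntegral_subalgebra_iff]
  refine ⟨q.map red, hqm.map red, fun i => ?_, ?_⟩
  · rw [coeff_map]
    have hi : ((q.coeff i : G) : F) = p.coeff i := by
      rw [← hq, coeff_map]
      rfl
    have hmem : ((q.coeff i : G) : F) ∈ Algebra.adjoin ↥A {(x : F)} := by
      rw [hi]; exact hcoeff i
    have := red_mem_adjoin A res G red x hle hconst hmem
    exact this
  · rw [eval_map, eval₂_at_apply, hqb, map_zero]

/-- **(G1~)**, order form. -/
theorem ord_red_nonneg_of_mem_chart (res : A →+* k) (G : Subring F) (red : G →+* Ft) (x : G)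
    (hle : ∀ c ∈ Algebra.adjoin ↥A {(x : F)}, c ∈ G)
    (hconst : ∀ (a : A) (h : algebraMap L F (a : L) ∈ G),
      red ⟨algebraMap L F (a : L), h⟩ = algebraMap k Ft (res a))
    (Q : Place k Ft) (hQ : 0 ≤ Q.ord (red x))
    (b : G) (hb : (b : F) ∈ chart ↥A (x : F)) : 0 ≤ Q.ord (red b) := by
  rw [← ffp_mem_iff_ord_nonneg]
  exact mem_of_isIntegral_adjoin Q (R := k) Q.algebraMap_mem' ((ffp_mem_iff_ord_nonneg Q).2 hQ)
    (isIntegral_red_of_mem_chart A res G red x hle hconst b hb)

end G1t

end Fermat.Agent.ES.RED.ChartFacts9
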