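/-
Program I (S37) / chapter ES/RED / helper18: leaf A4 (RED-N), norm closure and primitive
factorisation.

* `exists_mul_eq_aeval` (N1): for any domain-type situation `R → F` (`F` a field), every nonzero
  element `z` of the chart `B = chart R t` (integral closure of `R[t]` in `F`) has a complement
  `z' ∈ B` with `z * z' = P(t)` for some nonzero `P ∈ R[X]`.
* `exists_factorisation` (N2): over a valuation ring `A` of an algebraically closed field, every
  nonzero `P ∈ A[X]` is `c · ∏ (X - a_i) · ∏ (1 - b_j X)` with `c ∈ A ∖ 0`, `a_i ∈ A`, `b_j ∈ 𝔪_A`;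
  `c` is a unit as soon as `P` has nonzero reduction (`exists_factorisation_of_map_ne_zero`).
* `aeval_factorisation`: the same evaluated at an element `s` of an `A`-algebra.
-/
import Mathlib
import Fermat.Agent.RED.PUR.ChartGeneric22

set_option autoImplicit false

open Polynomial

noncomputable section

namespace Fermat.Agent.ES.RED.NormClosure18

open Fermat.Agent.RED.PUR.ChartGeneric22

section N1

variable {R F : Type*} [CommRing R] [Field F] [Algebra R F]

/-- **(N1) norm closure.** Every nonzero element of the chart `B` (integral closure of `R[t]` in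
`F`) divides, inside `B`, a nonzero polynomial in `t` with coefficients in `R`. -/
theorem exists_mul_eq_aeval (t : F) {z : F} (hz : z ∈ chart R t) (hz0 : z ≠ 0) :
    ∃ z' ∈ chart R t, ∃ P : R[X], P ≠ 0 ∧ z * z' = aeval t P := by
  classical
  rw [mem_chart_iff] at hz
  obtain ⟨p, hp, hpz⟩ := hz
  have hp0 : p ≠ 0 := hp.ne_zero
  obtain ⟨q, hpq, hq⟩ := Polynomial.exists_eq_pow_rootMultiplicity_mul_and_not_dvd p hp0 0
  rw [C_0, sub_zero] at hpq hq
  have hq0 : q.coeff 0 ≠ 0 := fun h => hq (Polynomial.X_dvd_iff.mpr h)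
  -- `q z = 0`
  have hqz : aeval z q = 0 := by
    have h1 : aeval z p = 0 := hpz
    rw [hpq, map_mul, map_pow, aeval_X] at h1
    exact (mul_eq_zero.mp h1).resolve_left (pow_ne_zero _ hz0)
  -- split off the constant coefficient
  have hsplit : z * aeval z (divX q) + algebraMap (Algebra.adjoin R {t}) F (q.coeff 0) = 0 := by
    have h2 := congrArg (aeval z) (X_mul_divX_add q)
    rw [map_add, map_mul, aeval_X, aeval_C, hqz] at h2
    exact h2
  have hzint : IsIntegral (Algebra.adjoin R {t}) z := ⟨p, hp, hpz⟩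
  have hwint : IsIntegral (Algebra.adjoin R {t}) (aeval z (divX q)) := by
    have hmem : aeval z (divX q) ∈ Algebra.adjoin (Algebra.adjoin R {t}) {z} :=
      Polynomial.aeval_mem_adjoin_singleton _ _
    have hle : Algebra.adjoin (Algebra.adjoin R {t}) {z} ≤
        integralClosure (Algebra.adjoin R {t}) F :=
      Algebra.adjoin_le (Set.singleton_subset_iff.mpr hzint)
    exact hle hmem
  -- the constant coefficient is a polynomial in `t`
  have hc : ((q.coeff 0 : Algebra.adjoin R {t}) : F) ∈ (aeval t : R[X] →ₐ[R] F).range := by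
    rw [← Algebra.adjoin_singleton_eq_range_aeval]
    exact (q.coeff 0).2
  obtain ⟨P, hP⟩ := hc
  refine ⟨-aeval z (divX q), ?_, P, ?_, ?_⟩
  · rw [mem_chart_iff]
    exact hwint.neg
  · rintro rfl
    rw [map_zero] at hP
    exact hq0 (Subtype.ext hP.symm)
  · have h3 : algebraMap (Algebra.adjoin R {t}) F (q.coeff 0) = aeval t P := hP.symm
    rw [← h3, mul_neg]
    exact neg_eq_of_add_eq_zero_right hsplit

end N1

section N2

variable {L : Type*} [Field L] (A : ValuationSubring L)

/-- Splitting off a linear factor `X - a` with `a ∈ A`. -/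
theorem exists_eq_X_sub_mul (P : Polynomial A) (a : A)
    (hroot : (P.map A.subtype).IsRoot (a : L)) : ∃ P' : Polynomial A, P = (X - C a) * P' := by
  have h1 : P.IsRoot a := by
    have h2 : (P.map A.subtype).eval (A.subtype a) = A.subtype (P.eval a) := by
      rw [eval_map, eval₂_at_apply]
    have h3 : A.subtype (P.eval a) = 0 := by rw [← h2]; exact hroot
    exact Subtype.ext h3
  exact ⟨P /ₘ (X - C a), (mul_divByMonic_eq_iff_isRoot.mpr h1).symm⟩

/-- Splitting off a factor `1 - b X`, `b ∈ 𝔪_A`, for a root `ρ = b⁻¹ ∉ A`. -/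
theorem exists_eq_one_sub_mul (P : Polynomial A) (ρ : L) (hρ : ρ ∉ A)
    (hroot : (P.map A.subtype).IsRoot ρ) :
    ∃ (b : A) (P' : Polynomial A), b ≠ 0 ∧ b ∈ IsLocalRing.maximalIdeal A ∧
      P = (1 - C b * X) * P' := by
  have hρ0 : ρ ≠ 0 := fun h => hρ (h ▸ zero_mem _)
  have hbmem : ρ⁻¹ ∈ A := (A.mem_or_inv_mem ρ).resolve_left hρ
  have hbmax : (⟨ρ⁻¹, hbmem⟩ : A) ∈ IsLocalRing.maximalIdeal A := by
    rw [IsLocalRing.mem_maximalIdeal, mem_nonunits_iff]
    intro hu
    obtain ⟨u, hu⟩ := isUnit_iff_exists_inv.mp hu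
    have h1 : ρ⁻¹ * (u : L) = 1 := congrArg Subtype.val hu
    have h2 : (u : L) = ρ := by
      field_simp at h1
      exact h1
    exact hρ (h2 ▸ u.2)
  -- over `L`
  have h1 : (X - C ρ) * ((P.map A.subtype) /ₘ (X - C ρ)) = P.map A.subtype :=
    mul_divByMonic_eq_iff_isRoot.mpr hroot
  set Q₂ : Polynomial L := C (-ρ) * ((P.map A.subtype) /ₘ (X - C ρ)) with hQ₂
  have h2 : P.map A.subtype = (1 - C ρ⁻¹ * X) * Q₂ := by
    rw [← h1, hQ₂, ← mul_assoc]
    congr 1
    have h3 : (C ρ⁻¹ : Polynomial L) * C ρ = 1 := by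
      rw [← C_mul, inv_mul_cancel₀ hρ0, C_1]
    rw [C_neg]
    linear_combination (-(X : Polynomial L)) * h3
  -- the coefficients of `Q₂` lie in `A`
  have hcoeff : ∀ n, Q₂.coeff n ∈ A := by
    intro n
    induction n with
    | zero =>
      have h4 := congrArg (fun p => p.coeff 0) h2
      simp only [coeff_map, sub_mul, one_mul, coeff_sub, mul_assoc, mul_coeff_zero,
        coeff_X_zero, zero_mul, mul_zero, sub_zero] at h4
      rw [← h4]
      exact (P.coeff 0).2
    | succ n ih =>
      have h4 := congrArg (fun p => p.coeff (n + 1)) h2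
      simp only [coeff_map, sub_mul, one_mul, coeff_sub, mul_assoc, coeff_C_mul,
        coeff_X_mul] at h4
      have h5 : Q₂.coeff (n + 1) = A.subtype (P.coeff (n + 1)) + ρ⁻¹ * Q₂.coeff n := by
        rw [h4]; ring
      rw [h5]
      exact add_mem (P.coeff (n + 1)).2 (mul_mem hbmem ih)
  have hlift : Q₂ ∈ lifts A.subtype := by
    rw [lifts_iff_coeff_lifts]
    intro n
    exact ⟨⟨Q₂.coeff n, hcoeff n⟩, rfl⟩
  obtain ⟨P', hP'⟩ := hlift
  refine ⟨⟨ρ⁻¹, hbmem⟩, P', fun h0 => inv_ne_zero hρ0 (congrArg Subtype.val h0), hbmax, ?_⟩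
  apply Polynomial.map_injective A.subtype Subtype.val_injective
  rw [h2, Polynomial.map_mul, Polynomial.map_sub, Polynomial.map_one, Polynomial.map_mul,
    Polynomial.map_C, Polynomial.map_X]
  exact congrArg _ hP'.symm

variable [IsAlgClosed L]

/-- **(N2) primitive factorisation.** Over a valuation ring `A` of an algebraically closed field,
every nonzero polynomial is `c · ∏ (X - a_i) · ∏ (1 - b_j X)` with `c ∈ A ∖ 0`, `a_i ∈ A`,
`b_j ∈ 𝔪_A`. -/
theorem exists_factorisation (P : Polynomial A) (hP : P ≠ 0) :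
    ∃ (c : A) (a b : Multiset A), c ≠ 0 ∧ (∀ x ∈ b, x ∈ IsLocalRing.maximalIdeal A) ∧
      P = C c * (a.map fun x => X - C x).prod * (b.map fun x => 1 - C x * X).prod := by
  induction h : P.natDegree using Nat.strong_induction_on generalizing P with
  | _ n ih =>
    by_cases hn : P.natDegree = 0
    · obtain ⟨c, rfl⟩ := natDegree_eq_zero.mp hn
      refine ⟨c, 0, 0, ?_, ?_, ?_⟩
      · rintro rfl
        exact hP C_0
      · intro x hx
        exact absurd hx (Multiset.notMem_zero x)
      · simp
    · have hinj : Function.Injective A.subtype := Subtype.val_injective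
      have hdeg : (P.map A.subtype).degree ≠ 0 := by
        rw [degree_map_eq_of_injective hinj]
        intro h0
        exact hn (natDegree_eq_of_degree_eq_some h0)
      obtain ⟨ρ, hρ⟩ := IsAlgClosed.exists_root (P.map A.subtype) hdeg
      by_cases hA : ρ ∈ A
      · obtain ⟨P', hP'⟩ := exists_eq_X_sub_mul A P ⟨ρ, hA⟩ hρ
        have hP'0 : P' ≠ 0 := by
          rintro rfl
          exact hP (by rw [hP', mul_zero])
        have hdeg' : P'.natDegree < n := by
          rw [← h, hP', natDegree_mul (X_sub_C_ne_zero _) hP'0, natDegree_X_sub_C]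
          omega
        obtain ⟨c, a, b, hc, hb, hfact⟩ := ih _ hdeg' P' hP'0 rfl
        refine ⟨c, (⟨ρ, hA⟩ : A) ::ₘ a, b, hc, hb, ?_⟩
        rw [hP', Multiset.map_cons, Multiset.prod_cons]
        conv_lhs => rw [hfact]
        ring
      · obtain ⟨b₀, P', hb₀0, hb₀, hP'⟩ := exists_eq_one_sub_mul A P ρ hA hρ
        have hP'0 : P' ≠ 0 := by
          rintro rfl
          exact hP (by rw [hP', mul_zero])
        have hlin0 : (1 - C b₀ * X : Polynomial A) ≠ 0 := by
          intro h0
          have := congrArg (fun p => p.coeff 0) h0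
          simp at this
        have hlin1 : (1 - C b₀ * X : Polynomial A).natDegree = 1 := by
          rw [natDegree_sub_eq_right_of_natDegree_lt, natDegree_C_mul_X b₀ hb₀0]
          rw [natDegree_one, natDegree_C_mul_X b₀ hb₀0]
          exact Nat.zero_lt_one
        have hdeg' : P'.natDegree < n := by
          rw [← h, hP', natDegree_mul hlin0 hP'0, hlin1]
          omega
        obtain ⟨c, a, b, hc, hb, hfact⟩ := ih _ hdeg' P' hP'0 rfl
        refine ⟨c, a, b₀ ::ₘ b, hc, ?_, ?_⟩
        · intro x hx
          rcases Multiset.mem_cons.mp hx with rfl | hx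
          · exact hb₀
          · exact hb x hx
        · rw [hP', Multiset.map_cons, Multiset.prod_cons]
          conv_lhs => rw [hfact]
          ring

omit [IsAlgClosed L] in
/-- The reduction modulo `𝔪_A` of a product `c · ∏ (X - a_i) · ∏ (1 - b_j X)`, `b_j ∈ 𝔪_A`. -/
theorem map_residue_factorisation (c : A) (a b : Multiset A)
    (hb : ∀ x ∈ b, x ∈ IsLocalRing.maximalIdeal A) :
    (C c * (a.map fun x => X - C x).prod * (b.map fun x => 1 - C x * X).prod).map
        (IsLocalRing.residue A) =
      C (IsLocalRing.residue A c) * (a.map fun x => X - C (IsLocalRing.residue A x)).prod := by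
  rw [Polynomial.map_mul, Polynomial.map_mul, Polynomial.map_C, Polynomial.map_multiset_prod,
    Polynomial.map_multiset_prod, Multiset.map_map, Multiset.map_map]
  have h1 : (b.map ((Polynomial.map (IsLocalRing.residue A)) ∘ fun x => 1 - C x * X)).prod = 1 := by
    apply Multiset.prod_eq_one
    intro y hy
    obtain ⟨x, hx, rfl⟩ := Multiset.mem_map.mp hy
    have : IsLocalRing.residue A x = 0 := (IsLocalRing.residue_eq_zero_iff x).mpr (hb x hx)
    simp [this]
  rw [h1, mul_one]
  congr 2
  refine Multiset.map_congr rfl fun x _ => ?_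
  simp

/-- **(N2), primitive form.** If `P` has nonzero reduction, the constant `c` is a unit. -/
theorem exists_factorisation_of_map_ne_zero (P : Polynomial A)
    (hP : P.map (IsLocalRing.residue A) ≠ 0) :
    ∃ (c : A) (a b : Multiset A), IsUnit c ∧ (∀ x ∈ b, x ∈ IsLocalRing.maximalIdeal A) ∧
      P = C c * (a.map fun x => X - C x).prod * (b.map fun x => 1 - C x * X).prod := by
  have hP0 : P ≠ 0 := by
    rintro rfl
    exact hP (Polynomial.map_zero _)
  obtain ⟨c, a, b, -, hb, hfact⟩ := exists_factorisation A P hP0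
  refine ⟨c, a, b, ?_, hb, hfact⟩
  by_contra hc
  apply hP
  have hc0 : IsLocalRing.residue A c = 0 := (IsLocalRing.residue_eq_zero_iff c).mpr hc
  rw [hfact, map_residue_factorisation A c a b hb, hc0, C_0, zero_mul]

omit [IsAlgClosed L] in
/-- The factorisation evaluated at an element `s` of an `A`-algebra. -/
theorem aeval_factorisation {F : Type*} [CommRing F] [Algebra A F] (s : F) (c : A)
    (a b : Multiset A) :
    aeval s (C c * (a.map fun x => X - C x).prod * (b.map fun x => 1 - C x * X).prod) =
      algebraMap A F c * (a.map fun x => s - algebraMap A F x).prod *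
        (b.map fun x => 1 - algebraMap A F x * s).prod := by
  rw [map_mul, map_mul, aeval_C, map_multiset_prod, map_multiset_prod, Multiset.map_map,
    Multiset.map_map]
  congr 2
  · congr 1
    refine Multiset.map_congr rfl fun x _ => ?_
    simp
  · refine Multiset.map_congr rfl fun x _ => ?_
    simp

/-- **(N1) + (N2).** Every nonzero `z` of the chart `B = chart A s` divides in `B` a product
`c · ∏ (s - a_i) · ∏ (1 - b_j s)` with `c ∈ A ∖ 0`, `a_i ∈ A`, `b_j ∈ 𝔪_A`. -/
theorem exists_mul_eq_prod {F : Type*} [Field F] [Algebra A F] (s : F) {z : F}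
    (hz : z ∈ chart A s) (hz0 : z ≠ 0) :
    ∃ z' ∈ chart A s, ∃ (c : A) (a b : Multiset A), c ≠ 0 ∧
      (∀ x ∈ b, x ∈ IsLocalRing.maximalIdeal A) ∧
      z * z' = algebraMap A F c * (a.map fun x => s - algebraMap A F x).prod *
        (b.map fun x => 1 - algebraMap A F x * s).prod := by
  obtain ⟨z', hz', P, hP0, hP⟩ := exists_mul_eq_aeval (R := A) s hz hz0
  obtain ⟨c, a, b, hc, hb, hfact⟩ := exists_factorisation A P hP0
  refine ⟨z', hz', c, a, b, hc, hb, ?_⟩
  rw [hP, hfact, aeval_factorisation]

end N2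

end Fermat.Agent.ES.RED.NormClosure18
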