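/-
Program I (S37) / chapter ES/RED / helper18: the `norm` and `frac` fields of
`R2Abstract14.ChartHyp` for the chart `B = ChartGeneric22.chart ↥A x` over a valuation ring `A` of
an algebraically closed (or any) field `L`, `x ∈ F` transcendental over `L`, `F` algebraic over
`L(x)`.

* `norm_chart` : `z ∈ B`, `z ≠ 0` ⟹ `∃ z' ∈ B, z' ≠ 0 ∧ ∃ p : L[X], z * z' = aeval x p`;
* `frac_chart` : `∀ y : F, ∃ b₁ b₂ ∈ B, b₂ ≠ 0 ∧ y * b₂ = b₁`;
* `norm_field`, `frac_field` : the same in the literal shape of the `ChartHyp` fields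
  (`G : Subring F` containing `B`, `B : Subring F` with `z ∈ B ↔ z ∈ chart ↥A x`).
-/
import Mathlib
import Fermat.Agent.ES.RED.NormClosure18
import Fermat.Agent.X0.FFDefs

set_option autoImplicit false

open Polynomial IntermediateField

noncomputable section

namespace Fermat.Agent.ES.RED.NormFrac18

open Fermat.Agent.RED.PUR.ChartGeneric22 Fermat.Agent.ES.RED.NormClosure18 Fermat.Agent.X0.FF

variable {L : Type*} [Field L] (A : ValuationSubring L) {F : Type*} [Field F] [Algebra L F]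

/-- **`norm`**: every nonzero element of the chart divides, in the chart, a nonzero polynomial in
`x` (with coefficients in `A`, a fortiori in `L`). -/
theorem norm_chart {x : F} (hx : Transcendental L x) {z : F} (hz : z ∈ chart A x)
    (hz0 : z ≠ 0) : ∃ z' ∈ chart A x, z' ≠ 0 ∧ ∃ p : L[X], z * z' = aeval x p := by
  obtain ⟨z', hz', P, hP0, hP⟩ := exists_mul_eq_aeval (R := A) x hz hz0
  have hinj : Function.Injective (algebraMap A L) := Subtype.val_injective
  have hmap0 : P.map (algebraMap A L) ≠ 0 := (Polynomial.map_ne_zero_iff hinj).mpr hP0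
  have haev : aeval x (P.map (algebraMap A L)) = aeval x P := aeval_map_algebraMap L x P
  have hne : aeval x P ≠ 0 := by
    rw [← haev]
    intro h0
    exact hmap0 (transcendental_iff.mp hx _ h0)
  refine ⟨z', hz', ?_, P.map (algebraMap A L), by rw [hP, haev]⟩
  rintro rfl
  rw [mul_zero] at hP
  exact hne hP.symm

/-- **`frac`**: `F` is the fraction field of the chart, elementwise. -/
theorem frac_chart (x : F) [Algebra.IsAlgebraic L⟮x⟯ F] (y : F) :
    ∃ b₁ ∈ chart A x, ∃ b₂ ∈ chart A x, b₂ ≠ 0 ∧ y * b₂ = b₁ := by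
  let E : IntermediateField L F := L⟮x⟯
  have hxE : x ∈ E := mem_adjoin_simple_self L x
  let _ : Algebra (Algebra.adjoin A {x}) E := (adjoinToField (R := A) E hxE).toAlgebra
  have hfr : IsFractionRing (Algebra.adjoin A {x}) E :=
    isFractionRing_adjoin (R := A) E hxE le_rfl
  have : IsScalarTower (Algebra.adjoin A {x}) E F := IsScalarTower.of_algebraMap_eq (fun _ => rfl)
  have halg : IsAlgebraic (Algebra.adjoin A {x}) y :=
    (IsFractionRing.isAlgebraic_iff (Algebra.adjoin A {x}) E F).2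
      (Algebra.IsAlgebraic.isAlgebraic y)
  obtain ⟨c, hc0, hc⟩ := halg.exists_integral_multiple
  refine ⟨c • y, hc, (c : F), adjoin_le_chart x c.2, ?_, ?_⟩
  · intro h
    exact hc0 (Subtype.ext h)
  · rw [mul_comm]; rfl

/-- `frac` from a transcendental generator. -/
theorem frac_chart_of_isGen {x : F} (hx : IsGen L x) (y : F) :
    ∃ b₁ ∈ chart A x, ∃ b₂ ∈ chart A x, b₂ ≠ 0 ∧ y * b₂ = b₁ := by
  have : FiniteDimensional L⟮x⟯ F := hx.finite
  have : Algebra.IsAlgebraic L⟮x⟯ F := Algebra.IsAlgebraic.of_finite _ _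
  exact frac_chart A x y

/-- The `norm` field of `R2Abstract14.ChartHyp`, literal shape. -/
theorem norm_field (G B : Subring F) {x : F} (hx : Transcendental L x)
    (hB : ∀ z : F, z ∈ B ↔ z ∈ chart A x) (hBG : B ≤ G) :
    ∀ z : G, (z : F) ∈ B → z ≠ 0 → ∃ z' : G, (z' : F) ∈ B ∧ z' ≠ 0 ∧
      ∃ p : L[X], (z : F) * (z' : F) = aeval x p := by
  intro z hz hz0
  have hz0' : (z : F) ≠ 0 := fun h => hz0 (Subtype.ext h)
  obtain ⟨z', hz', hz'0, p, hp⟩ := norm_chart A hx ((hB _).mp hz) hz0'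
  have hz'B : z' ∈ B := (hB _).mpr hz'
  exact ⟨⟨z', hBG hz'B⟩, hz'B, fun h => hz'0 (congrArg Subtype.val h), p, hp⟩

/-- The `frac` field of `R2Abstract14.ChartHyp`, literal shape. -/
theorem frac_field (G B : Subring F) {x : F} (hx : IsGen L x)
    (hB : ∀ z : F, z ∈ B ↔ z ∈ chart A x) (hBG : B ≤ G) :
    ∀ y : F, ∃ b₁ b₂ : G, (b₁ : F) ∈ B ∧ (b₂ : F) ∈ B ∧ b₂ ≠ 0 ∧ y * (b₂ : F) = (b₁ : F) := by
  intro y
  obtain ⟨b₁, hb₁, b₂, hb₂, hb₂0, h⟩ := frac_chart_of_isGen A hx y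
  have h1 : b₁ ∈ B := (hB _).mpr hb₁
  have h2 : b₂ ∈ B := (hB _).mpr hb₂
  exact ⟨⟨b₁, hBG h1⟩, ⟨b₂, hBG h2⟩, h1, h2, fun h => hb₂0 (congrArg Subtype.val h), h⟩

/-- The `frac` field of `Contract8.ChartSpec`, literal shape (`a b : ↥B`). -/
theorem frac_subring (B : Subring F) {x : F} (hx : IsGen L x)
    (hB : ∀ z : F, z ∈ B ↔ z ∈ chart A x) :
    ∀ y : F, ∃ a b : B, b ≠ 0 ∧ y * (b : F) = (a : F) := by
  intro y
  obtain ⟨b₁, hb₁, b₂, hb₂, hb₂0, h⟩ := frac_chart_of_isGen A hx y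
  exact ⟨⟨b₁, (hB _).mpr hb₁⟩, ⟨b₂, (hB _).mpr hb₂⟩, fun h0 => hb₂0 (congrArg Subtype.val h0), h⟩

end Fermat.Agent.ES.RED.NormFrac18
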