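/-
Program I (S37) / chapter ES/RED / helper18: the generic fields of `Contract8.ChartSpec` for the
chart ring `B := (ChartGeneric22.chart ↥A s).toSubring` (integral closure of `A[s]` in `F`).

* `value_mem_of_mem_chart`: a ring homomorphism `v : G →+* L` on a subring `G ⊇ A[s]` of `F` which is
  the identity on the constants of `A` and has `v s ∈ A` maps every element of the chart into `A`
  (`A` is integrally closed in `L`);
* `valueHom_mem_of_mem_chart`: the `val_mem` field: values of chart elements at a place `P` with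
  `s(P) ∈ A` lie in `A`;
* `chartSpecOfChart`: a `ChartSpec` from a reduction map `red` on the chart with `red_const` and the
  strong saturation `sat` — all other fields (`s_mem`, `const_mem`, `mem_place`, `val_mem`, `frac`)
  are proved here.
-/
import Mathlib
import Fermat.Agent.ES.RED.Contract8
import Fermat.Agent.ES.RED.ChartFacts9
import Fermat.Agent.ES.RED.NormFrac18

set_option autoImplicit false

open Polynomial AlgebraicCurve

noncomputable section

namespace Fermat.Agent.ES.RED.ChartSpecOfChart18

open Fermat.Agent.RED.PUR.ChartGeneric22 Fermat.Agent.X0.FF Fermat.Agent.ES.RED.PlaceValue13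
  Fermat.Agent.ES.RED.Contract8 Fermat.Agent.ES.RED.ChartFacts9

section Value

variable {L F : Type*} [Field L] [Field F] [Algebra L F] (A : ValuationSubring L)

/-- A ring homomorphism `v : G →+* L` (`G ⊇ A[s]` a subring of `F`) fixing the constants of `A`
with `v s ∈ A` maps `A[s]` into `A`. -/
theorem value_mem_of_mem_adjoin (G : Subring F) (v : G →+* L) (s : G)
    (hle : ∀ c ∈ Algebra.adjoin ↥A {(s : F)}, c ∈ G)
    (hconst : ∀ (a : A) (h : algebraMap L F (a : L) ∈ G), v ⟨algebraMap L F (a : L), h⟩ = (a : L))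
    (hs : v s ∈ A) {c : F} (hc : c ∈ Algebra.adjoin ↥A {(s : F)}) :
    v ⟨c, hle c hc⟩ ∈ A := by
  induction hc using Algebra.adjoin_induction with
  | mem y hy =>
    have hyx : y = (s : F) := Set.mem_singleton_iff.1 hy
    have : (⟨y, hle y (Algebra.subset_adjoin hy)⟩ : G) = s := Subtype.ext hyx
    rw [this]
    exact hs
  | algebraMap a =>
    have h1 : algebraMap L F (a : L) ∈ G := hle _ (Subalgebra.algebraMap_mem _ a)
    have : v ⟨algebraMap ↥A F a, hle _ (Subalgebra.algebraMap_mem _ a)⟩ =
        v ⟨algebraMap L F (a : L), h1⟩ := rfl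
    rw [this, hconst a h1]
    exact a.2
  | add y z hy hz hy' hz' =>
    have : (⟨y + z, hle _ (add_mem hy hz)⟩ : G) = ⟨y, hle y hy⟩ + ⟨z, hle z hz⟩ := rfl
    rw [this, map_add]
    exact add_mem hy' hz'
  | mul y z hy hz hy' hz' =>
    have : (⟨y * z, hle _ (mul_mem hy hz)⟩ : G) = ⟨y, hle y hy⟩ * ⟨z, hle z hz⟩ := rfl
    rw [this, map_mul]
    exact mul_mem hy' hz'

/-- … and then maps the whole chart (integral closure of `A[s]`) into `A`, because `A` is
integrally closed in `L`. -/
theorem value_mem_of_mem_chart (G : Subring F) (v : G →+* L) (s : G)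
    (hle : ∀ c ∈ Algebra.adjoin ↥A {(s : F)}, c ∈ G)
    (hconst : ∀ (a : A) (h : algebraMap L F (a : L) ∈ G), v ⟨algebraMap L F (a : L), h⟩ = (a : L))
    (hs : v s ∈ A) (b : G) (hb : (b : F) ∈ chart ↥A (s : F)) : v b ∈ A := by
  rw [mem_chart_iff, isIntegral_subalgebra_iff] at hb
  obtain ⟨p, hp, hcoeff, hpb⟩ := hb
  -- lift `p` to `G[X]`
  have hl : p ∈ lifts (G.subtype) := by
    rw [lifts_iff_coeff_lifts]
    intro n
    exact ⟨⟨p.coeff n, hle _ (hcoeff n)⟩, rfl⟩
  obtain ⟨q, hq, -, hqm⟩ := lifts_and_natDegree_eq_and_monic hl hp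
  have hqb : q.eval b = 0 := by
    apply Subtype.ext
    have h1 : ((q.eval b : G) : F) = (q.map G.subtype).eval (G.subtype b) := by
      rw [eval_map, eval₂_at_apply]
      rfl
    rw [h1, hq]
    exact hpb
  -- the image polynomial has coefficients in `A`
  have hl2 : q.map v ∈ lifts (A.subtype) := by
    rw [lifts_iff_coeff_lifts]
    intro i
    rw [coeff_map]
    have hi : ((q.coeff i : G) : F) = p.coeff i := by
      rw [← hq, coeff_map]
      rfl
    have hmem : ((q.coeff i : G) : F) ∈ Algebra.adjoin ↥A {(s : F)} := by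
      rw [hi]; exact hcoeff i
    have h2 := value_mem_of_mem_adjoin A G v s hle hconst hs hmem
    exact ⟨⟨_, h2⟩, rfl⟩
  obtain ⟨Q, hQ, -, hQm⟩ := lifts_and_natDegree_eq_and_monic hl2 (hqm.map v)
  have hint : IsIntegral ↥A (v b) := by
    refine ⟨Q, hQm, ?_⟩
    have h3 : eval₂ (algebraMap ↥A L) (v b) Q = (Q.map A.subtype).eval (v b) := by
      rw [eval_map]
      rfl
    rw [h3, hQ, eval_map, eval₂_at_apply, hqb, map_zero]
  obtain ⟨a, ha⟩ := IsIntegrallyClosed.isIntegral_iff.mp hint
  rw [← ha]
  exact a.2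

end Value

section Spec

variable {L : Type*} [Field L] [IsAlgClosed L] (A : ValuationSubring L)
variable {F : Type*} [Field F] [Algebra L F] {x : F} (hx : IsGen L x)

omit [IsAlgClosed L] in
/-- **`mem_place`** for the chart: a place at which `s` is regular contains the chart ring. -/
theorem mem_place_of_mem_chart' (s : F) (P : Place L F) (hs : s ∈ P.toValuationSubring) {b : F}
    (hb : b ∈ chart ↥A s) : b ∈ P.toValuationSubring :=
  mem_of_isIntegral_adjoin P (algebraMap_mem_place A P) hs (mem_chart_iff.1 hb)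

/-- **`val_mem`** for the chart: the values at a place `P` with `s(P) ∈ A` of the elements of the
chart ring lie in `A`. -/
theorem valueHom_mem_of_mem_chart (s : F) (P : Place L F) (hs : s ∈ P.toValuationSubring)
    (hsA : valueHom hx P ⟨s, hs⟩ ∈ A) {b : F} (hb : b ∈ chart ↥A s)
    (hbP : b ∈ P.toValuationSubring) : valueHom hx P ⟨b, hbP⟩ ∈ A := by
  have hle : ∀ c ∈ Algebra.adjoin ↥A {s}, c ∈ P.toValuationSubring.toSubring := fun c hc =>
    mem_place_of_mem_chart' A s P hs (adjoin_le_chart s hc)
  exact value_mem_of_mem_chart A P.toValuationSubring.toSubring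
    ((valueHom hx P : ↥P.toValuationSubring →+* L)) ⟨s, hs⟩ hle
    (fun a h => (valueHom hx P).commutes (a : L)) hsA ⟨b, hbP⟩ hb

variable {Ft : Type*} [Field Ft] [Algebra (kA A) Ft]

/-- **A `ChartSpec` from the chart ring** `B := chart ↥A s`, a reduction map `red` on it which is the
residue map on constants, and strong saturation. -/
def chartSpecOfChart (s : F) (hs : IsGen L s) (red : ↥(chart ↥A s).toSubring →+* Ft)
    (red_const : ∀ a : ↥A, red ⟨algebraMap L F (a : L), const_mem_chart A s a⟩ =
      algebraMap (kA A) Ft (resA A a))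
    (sat : ∀ b : ↥(chart ↥A s).toSubring, b ≠ 0 →
      ∃ (c : ↥A) (b' : ↥(chart ↥A s).toSubring),
        (b : F) = algebraMap L F (c : L) * (b' : F) ∧ red b' ≠ 0) :
    ChartSpec A hx Ft where
  B := (chart ↥A s).toSubring
  red := red
  s := s
  s_mem := self_mem_chart s
  const_mem := const_mem_chart A s
  red_const := red_const
  mem_place := fun P h _ hb => mem_place_of_mem_chart' A s P h.1 hb
  val_mem := fun P h _ hb =>
    valueHom_mem_of_mem_chart A hx s P h.1 h.2 hb (mem_place_of_mem_chart' A s P h.1 hb)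
  sat := sat
  frac := NormFrac18.frac_subring A (chart ↥A s).toSubring hs (fun _ => Iff.rfl)

@[simp] theorem chartSpecOfChart_B (s : F) (hs : IsGen L s)
    (red : ↥(chart ↥A s).toSubring →+* Ft) (red_const) (sat) :
    (chartSpecOfChart A hx s hs red red_const sat).B = (chart ↥A s).toSubring := rfl

@[simp] theorem chartSpecOfChart_s (s : F) (hs : IsGen L s)
    (red : ↥(chart ↥A s).toSubring →+* Ft) (red_const) (sat) :
    (chartSpecOfChart A hx s hs red red_const sat).s = s := rfl

@[simp] theorem chartSpecOfChart_red (s : F) (hs : IsGen L s)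
    (red : ↥(chart ↥A s).toSubring →+* Ft) (red_const) (sat) :
    (chartSpecOfChart A hx s hs red red_const sat).red = red := rfl

end Spec

end Fermat.Agent.ES.RED.ChartSpecOfChart18
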