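/-
Program I (S37), RED-2 (helper14): the abstract form of (R2) of `I_RED_DESIGN8.md` §3.

One chart.  `L ⊇ A` a valuation subring of an algebraically closed field, `res : A →+* k`,
`F / L` and `Ft / k` function fields, `G ≤ F` the Gauss ring with reduction `red : G →+* Ft`,
`B ≤ G` the chart ring (integral closure of `A[x]`), `r` a map from places of `F` to places of `Ft`,
`S` / `St` the places of the chart.  From the order-only forms of (R1), (PEEL), (SAT), the two
fundamental identities and the norm / fraction properties of `B` we prove, for every `Q ∈ St` and every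
`y ∈ G` with `red y ≠ 0`:
  `∑_{P : r P = Q} P.ord y = Q.ord (red y)`     (`r2_chart`, `r2_chart_mapDomain`).
Steps: (i) `push_le` (peeling), (ii) `good_sub_const` (fundamental identities),
(iii) `good_of_mem` (norm trick, no primitivity needed: constants of `L` are compared at the end),
(iv) `r2_chart` (fractions).
-/
import Mathlib
import Fermat.Prelude.Def_AlgebraicCurve_DivisorClassGroup
import Fermat.Agent.X0.FFPlace

set_option autoImplicit false

namespace Fermat.Agent.ES.RED.R2Abstract14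

open AlgebraicCurve Polynomial

noncomputable section

section Push

variable {L F : Type*} [Field L] [Field F] [Algebra L F]
variable {β : Type*}

/-- Every function has a finitely supported divisor. -/
def FinDiv (L F : Type*) [Field L] [Field F] [Algebra L F] : Prop :=
  ∀ f : F, {P : Place L F | P.ord f ≠ 0}.Finite

/-- The divisor of a function. -/
def divOf (hfin : FinDiv L F) (f : F) : Place L F →₀ ℤ :=
  Finsupp.ofSupportFinite (fun P => P.ord f) (hfin f)

@[simp]
theorem divOf_apply (hfin : FinDiv L F) (f : F) (P : Place L F) : divOf hfin f P = P.ord f := rfl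

theorem mem_support_divOf (hfin : FinDiv L F) (f : F) (P : Place L F) :
    P ∈ (divOf hfin f).support ↔ P.ord f ≠ 0 := by
  rw [Finsupp.mem_support_iff, divOf_apply]

theorem divOf_mul (hfin : FinDiv L F) {f g : F} (hf : f ≠ 0) (hg : g ≠ 0) :
    divOf hfin (f * g) = divOf hfin f + divOf hfin g := by
  ext P
  rw [Finsupp.add_apply, divOf_apply, divOf_apply, divOf_apply, P.ord_mul hf hg]

theorem eq_divOf (hfin : FinDiv L F) (f : F) (D : Place L F →₀ ℤ) (hD : ∀ P, D P = P.ord f) :
    D = divOf hfin f := by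
  ext P
  rw [hD, divOf_apply]

/-- The push-forward of the divisor of `f`, evaluated at `Q`. -/
def push (hfin : FinDiv L F) (r : Place L F → β) (f : F) (Q : β) : ℤ :=
  Finsupp.mapDomain r (divOf hfin f) Q

theorem push_eq_sum [DecidableEq β] (hfin : FinDiv L F) (r : Place L F → β) (f : F) (Q : β) :
    push hfin r f Q = ∑ P ∈ (divOf hfin f).support, if r P = Q then P.ord f else 0 := by
  rw [push, Finsupp.mapDomain, Finsupp.sum, Finsupp.finsetSum_apply]
  refine Finset.sum_congr rfl fun P _ => ?_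
  rw [Finsupp.single_apply, divOf_apply]

theorem push_mul (hfin : FinDiv L F) (r : Place L F → β) {f g : F} (hf : f ≠ 0) (hg : g ≠ 0)
    (Q : β) : push hfin r (f * g) Q = push hfin r f Q + push hfin r g Q := by
  rw [push, divOf_mul hfin hf hg, Finsupp.mapDomain_add, Finsupp.add_apply]
  rfl

theorem push_nonneg (hfin : FinDiv L F) (r : Place L F → β) (f : F) (Q : β)
    (h : ∀ P, r P = Q → 0 ≤ P.ord f) : 0 ≤ push hfin r f Q := by
  classical
  rw [push_eq_sum]
  refine Finset.sum_nonneg fun P _ => ?_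
  split_ifs with hP
  · exact h P hP
  · exact le_rfl

theorem push_eq_zero (hfin : FinDiv L F) (r : Place L F → β) (f : F) (Q : β)
    (h : ∀ P, r P = Q → P.ord f = 0) : push hfin r f Q = 0 := by
  classical
  rw [push_eq_sum]
  refine Finset.sum_eq_zero fun P _ => ?_
  split_ifs with hP
  · exact h P hP
  · rfl

theorem push_eq_of_unique (hfin : FinDiv L F) (r : Place L F → β) (f : F) (Q : β)
    (P₀ : Place L F) (hP₀ : r P₀ = Q) (h : ∀ P, r P = Q → P ≠ P₀ → P.ord f = 0) :
    push hfin r f Q = P₀.ord f := by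
  classical
  rw [push_eq_sum]
  rw [Finset.sum_eq_single P₀]
  · rw [if_pos hP₀]
  · intro P _ hne
    split_ifs with hP
    · exact h P hP hne
    · rfl
  · intro hnot
    rw [mem_support_divOf, not_not] at hnot
    rw [if_pos hP₀, hnot]

theorem push_const (hfin : FinDiv L F) (r : Place L F → β) (c : L) (Q : β) :
    push hfin r (algebraMap L F c) Q = 0 :=
  push_eq_zero hfin r _ Q fun P _ => Fermat.Agent.X0.FF.ffp_ord_algebraMap P c

theorem push_const_mul (hfin : FinDiv L F) (r : Place L F → β) {c : L} (hc : c ≠ 0) {f : F}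
    (hf : f ≠ 0) (Q : β) : push hfin r (algebraMap L F c * f) Q = push hfin r f Q := by
  rw [push_mul hfin r ((_root_.map_ne_zero (algebraMap L F)).2 hc) hf, push_const, zero_add]

/-- Summing the push-forward over a finite set of target places. -/
theorem sum_push [DecidableEq β] (hfin : FinDiv L F) (r : Place L F → β) (f : F) (T : Finset β) :
    ∑ Q ∈ T, push hfin r f Q = ∑ P ∈ (divOf hfin f).support, if r P ∈ T then P.ord f else 0 := by
  simp_rw [push_eq_sum]
  rw [Finset.sum_comm]
  refine Finset.sum_congr rfl fun P _ => ?_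
  rw [Finset.sum_ite_eq]

end Push

section Chart

variable {L : Type*} [Field L] {k : Type*} [Field k]
variable {F : Type*} [Field F] [Algebra L F] {Ft : Type*} [Field Ft] [Algebra k Ft]

/-- The hypotheses on one chart (order-only forms of (R1), (PEEL), (SAT), fundamental identities,
norm and fraction properties). -/
structure ChartHyp (A : ValuationSubring L) (res : A →+* k) (G : Subring F) (red : G →+* Ft)
    (r : Place L F → Place k Ft) (B : Subring F) (x : G) (n : ℕ)
    (S : Set (Place L F)) (St : Set (Place k Ft)) : Prop where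
  /-- `res` kills the maximal ideal. -/
  res_nonunit : ∀ a : A, ¬ IsUnit a → res a = 0
  /-- constants of `A` are in `B`. -/
  const_mem : ∀ a : A, algebraMap L F a ∈ B
  B_le : B ≤ G
  /-- `red` is `res` on constants. -/
  red_const : ∀ a : A, red ⟨algebraMap L F a, B_le (const_mem a)⟩ = algebraMap k Ft (res a)
  x_mem : (x : F) ∈ B
  red_x_ne : ∀ c : k, red x ≠ algebraMap k Ft c
  /-- chart consistency. -/
  r_mem : ∀ P, r P ∈ St ↔ P ∈ S
  ord_nonneg : ∀ P ∈ S, ∀ b ∈ B, 0 ≤ P.ord b
  ord_red_nonneg : ∀ Q ∈ St, ∀ b : G, (b : F) ∈ B → 0 ≤ Q.ord (red b)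
  /-- (R1), order form. -/
  r1 : ∀ P ∈ S, ∀ b : G, (b : F) ∈ B → 0 < P.ord (b : F) → red b ≠ 0 → 0 < (r P).ord (red b)
  /-- (PEEL), order form. -/
  peel : ∀ P ∈ S, ∃ u : G, (u : F) ∈ B ∧ P.ord (u : F) = 1 ∧ red u ≠ 0 ∧
      (∀ P' ∈ S, r P' = r P → P' ≠ P → P'.ord (u : F) = 0) ∧
      ∀ z : G, (z : F) ∈ B → 0 < P.ord (z : F) → ∃ d z' : G, (d : F) ∈ B ∧ (z' : F) ∈ B ∧
        red d ≠ 0 ∧ (r P).ord (red d) = 0 ∧ z * d = u * z'
  /-- (SAT), strong form. -/
  sat : ∀ b : G, (b : F) ∈ B → b ≠ 0 → ∃ c : A, c ≠ 0 ∧ ∃ b' : G, (b' : F) ∈ B ∧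
      (b : F) = algebraMap L F c * (b' : F) ∧ red b' ≠ 0
  /-- fundamental identity upstairs. -/
  fi : ∀ a : A, ∑ᶠ (P : Place L F) (_ : 0 < P.ord ((x : F) - algebraMap L F a)),
      P.ord ((x : F) - algebraMap L F a) = n
  /-- fundamental identity downstairs. -/
  fit : ∀ c : k, ∑ᶠ (Q : Place k Ft) (_ : 0 < Q.ord (red x - algebraMap k Ft c)),
      Q.ord (red x - algebraMap k Ft c) = n
  fint : ∀ c : k, {Q : Place k Ft | 0 < Q.ord (red x - algebraMap k Ft c)}.Finite
  zeros_mem : ∀ a : A, ∀ P : Place L F, 0 < P.ord ((x : F) - algebraMap L F a) → P ∈ S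
  zeros_memt : ∀ c : k, ∀ Q : Place k Ft, 0 < Q.ord (red x - algebraMap k Ft c) → Q ∈ St
  /-- norm property. -/
  norm : ∀ z : G, (z : F) ∈ B → z ≠ 0 → ∃ z' : G, (z' : F) ∈ B ∧ z' ≠ 0 ∧
      ∃ p : L[X], (z : F) * (z' : F) = aeval (x : F) p
  /-- fractions. -/
  frac : ∀ y : F, ∃ b₁ b₂ : G, (b₁ : F) ∈ B ∧ (b₂ : F) ∈ B ∧ b₂ ≠ 0 ∧ y * (b₂ : F) = (b₁ : F)

variable {A : ValuationSubring L} {res : A →+* k} {G : Subring F} {red : G →+* Ft}
  {r : Place L F → Place k Ft} {B : Subring F} {x : G} {n : ℕ}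
  {S : Set (Place L F)} {St : Set (Place k Ft)}

/-- `z` is good at `Q`: its reduction is nonzero and the push-forward of its divisor has the
right coefficient at `Q`. -/
def Good (hfin : FinDiv L F) (red : G →+* Ft) (r : Place L F → Place k Ft) (Q : Place k Ft)
    (z : G) : Prop :=
  red z ≠ 0 ∧ push hfin r (z : F) Q = Q.ord (red z)

theorem ne_zero_of_red_ne_zero {z : G} (hz : red z ≠ 0) : z ≠ 0 := by
  rintro rfl
  exact hz (map_zero red)

theorem coe_ne_zero_of_red_ne_zero {z : G} (hz : (red : G →+* Ft) z ≠ 0) : (z : F) ≠ 0 := by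
  intro h0
  exact ne_zero_of_red_ne_zero hz (Subtype.ext h0)

theorem good_one (hfin : FinDiv L F) (Q : Place k Ft) : Good hfin red r Q (1 : G) := by
  refine ⟨by rw [map_one]; exact one_ne_zero, ?_⟩
  rw [map_one, Place.ord_one]
  have : ((1 : G) : F) = algebraMap L F 1 := by rw [map_one]; rfl
  rw [this, push_const]

theorem good_mul (hfin : FinDiv L F) {Q : Place k Ft} {z₁ z₂ : G}
    (h₁ : Good hfin red r Q z₁) (h₂ : Good hfin red r Q z₂) : Good hfin red r Q (z₁ * z₂) := by
  refine ⟨by rw [map_mul]; exact mul_ne_zero h₁.1 h₂.1, ?_⟩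
  rw [map_mul, Q.ord_mul h₁.1 h₂.1, ← h₁.2, ← h₂.2]
  have : ((z₁ * z₂ : G) : F) = (z₁ : F) * (z₂ : F) := rfl
  rw [this, push_mul hfin r (coe_ne_zero_of_red_ne_zero h₁.1) (coe_ne_zero_of_red_ne_zero h₂.1)]

/-- The element of `G` given by a constant of `A`. -/
def constG (h : ChartHyp A res G red r B x n S St) (a : A) : G :=
  ⟨algebraMap L F a, h.B_le (h.const_mem a)⟩

@[simp]
theorem coe_constG (h : ChartHyp A res G red r B x n S St) (a : A) :
    ((constG h a : G) : F) = algebraMap L F a := rfl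

theorem red_constG (h : ChartHyp A res G red r B x n S St) (a : A) :
    red (constG h a) = algebraMap k Ft (res a) := h.red_const a

theorem res_ne_zero_of_isUnit {a : A} (ha : IsUnit a) : (res : A →+* k) a ≠ 0 :=
  (ha.map res).ne_zero

/-- Comparison of constants: if `y₁ = c • y₂` with both reductions nonzero, then `c` is a unit
of `A`. -/
theorem exists_unit_of_eq (h : ChartHyp A res G red r B x n S St) {y₁ y₂ : G}
    (h₁ : red y₁ ≠ 0) (h₂ : red y₂ ≠ 0) {c : L} (hc : c ≠ 0)
    (e : (y₁ : F) = algebraMap L F c * (y₂ : F)) : ∃ a : A, IsUnit a ∧ (a : L) = c := by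
  rcases A.mem_or_inv_mem c with hcA | hcA
  · refine ⟨⟨c, hcA⟩, ?_, rfl⟩
    by_contra hnu
    apply h₁
    have e' : y₁ = constG h ⟨c, hcA⟩ * y₂ := Subtype.ext e
    rw [e', map_mul, red_constG, h.res_nonunit _ hnu, map_zero, zero_mul]
  · have hu : IsUnit (⟨c⁻¹, hcA⟩ : A) := by
      by_contra hnu
      apply h₂
      have e' : y₂ = constG h ⟨c⁻¹, hcA⟩ * y₁ := by
        apply Subtype.ext
        change (y₂ : F) = algebraMap L F c⁻¹ * (y₁ : F)
        rw [e, ← mul_assoc, ← map_mul, inv_mul_cancel₀ hc, map_one, one_mul]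
      rw [e', map_mul, red_constG, h.res_nonunit _ hnu, map_zero, zero_mul]
    obtain ⟨u, hu⟩ := hu
    refine ⟨((u⁻¹ : Aˣ) : A), Units.isUnit _, ?_⟩
    have h1 : ((u : A) : L) * (((u⁻¹ : Aˣ) : A) : L) = 1 := by
      exact congrArg (fun a : A => (a : L)) (Units.mul_inv u)
    rw [hu] at h1
    change c⁻¹ * _ = 1 at h1
    field_simp at h1
    exact h1

theorem good_of_eq_const_mul (h : ChartHyp A res G red r B x n S St) (hfin : FinDiv L F)
    {Q : Place k Ft} {y₁ y₂ : G} (h₁ : red y₁ ≠ 0) (hg : Good hfin red r Q y₂) {c : L} (hc : c ≠ 0)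
    (e : (y₁ : F) = algebraMap L F c * (y₂ : F)) : Good hfin red r Q y₁ := by
  obtain ⟨a, hau, rfl⟩ := exists_unit_of_eq h h₁ hg.1 hc e
  refine ⟨h₁, ?_⟩
  have e' : y₁ = constG h a * y₂ := Subtype.ext e
  rw [e, push_const_mul hfin r hc (coe_ne_zero_of_red_ne_zero hg.1), hg.2, e', map_mul, red_constG,
    Q.ord_mul ((_root_.map_ne_zero (algebraMap k Ft)).2 (res_ne_zero_of_isUnit hau)) hg.1,
    Fermat.Agent.X0.FF.ffp_ord_algebraMap, zero_add]

/-- Places in the fibre of a chart place lie in the chart. -/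
theorem mem_S_of_eq (h : ChartHyp A res G red r B x n S St) {Q : Place k Ft} (hQ : Q ∈ St)
    {P : Place L F} (hP : r P = Q) : P ∈ S :=
  (h.r_mem P).1 (hP ▸ hQ)

theorem push_nonneg_of_mem (h : ChartHyp A res G red r B x n S St) (hfin : FinDiv L F)
    {Q : Place k Ft} (hQ : Q ∈ St) {z : G} (hz : (z : F) ∈ B) : 0 ≤ push hfin r (z : F) Q :=
  push_nonneg hfin r _ Q fun P hP => h.ord_nonneg P (mem_S_of_eq h hQ hP) _ hz

/-- **Step (i)** (peeling): `∑_{rP = Q} P.ord z ≤ Q.ord (red z)` for `z ∈ B` with `red z ≠ 0`. -/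
theorem push_le_aux (h : ChartHyp A res G red r B x n S St) (hfin : FinDiv L F)
    {Q : Place k Ft} (hQ : Q ∈ St) :
    ∀ (m : ℕ) (z : G), (z : F) ∈ B → red z ≠ 0 → Q.ord (red z) ≤ m →
      push hfin r (z : F) Q ≤ Q.ord (red z) := by
  intro m
  induction m with
  | zero =>
    intro z hzB hz hm
    have h0 := h.ord_red_nonneg Q hQ z hzB
    rw [push_eq_zero hfin r _ Q]
    · exact h0
    · intro P hP
      have hPS := mem_S_of_eq h hQ hP
      have h1 := h.ord_nonneg P hPS _ hzB
      by_contra hne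
      have hpos : 0 < P.ord (z : F) := lt_of_le_of_ne h1 (Ne.symm hne)
      have := h.r1 P hPS z hzB hpos hz
      rw [hP] at this
      push_cast at hm
      omega
  | succ m ih =>
    intro z hzB hz hm
    have h0 := h.ord_red_nonneg Q hQ z hzB
    by_cases hex : ∃ P, r P = Q ∧ 0 < P.ord (z : F)
    · obtain ⟨P, hP, hpos⟩ := hex
      have hPS := mem_S_of_eq h hQ hP
      obtain ⟨u, huB, hu1, hu, huniq, hdiv⟩ := h.peel P hPS
      obtain ⟨d, z', hdB, hz'B, hd, hd0, e⟩ := hdiv z hzB hpos
      rw [hP] at hd0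
      -- reductions
      have hred : red z * red d = red u * red z' := by rw [← map_mul, ← map_mul, e]
      have hz' : red z' ≠ 0 := by
        intro h0'
        rw [h0', mul_zero] at hred
        exact mul_ne_zero hz hd hred
      have hordred : Q.ord (red z) = Q.ord (red u) + Q.ord (red z') := by
        have := congrArg Q.ord hred
        rw [Q.ord_mul hz hd, Q.ord_mul hu hz', hd0, add_zero] at this
        exact this
      have hupos : 0 < Q.ord (red u) := by
        have := h.r1 P hPS u huB (by rw [hu1]; exact one_pos) hu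
        rwa [hP] at this
      -- pushes
      have hzF := coe_ne_zero_of_red_ne_zero hz
      have hdF := coe_ne_zero_of_red_ne_zero hd
      have huF := coe_ne_zero_of_red_ne_zero hu
      have hz'F := coe_ne_zero_of_red_ne_zero hz'
      have eF : (z : F) * (d : F) = (u : F) * (z' : F) := congrArg (fun g : G => (g : F)) e
      have hpush : push hfin r (z : F) Q + push hfin r (d : F) Q
          = push hfin r (u : F) Q + push hfin r (z' : F) Q := by
        rw [← push_mul hfin r hzF hdF, ← push_mul hfin r huF hz'F, eF]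
      have hpu : push hfin r (u : F) Q = 1 := by
        rw [push_eq_of_unique hfin r _ Q P hP, hu1]
        intro P' hP' hne
        exact huniq P' (mem_S_of_eq h hQ hP') (hP'.trans hP.symm) hne
      have hpd : push hfin r (d : F) Q = 0 := by
        refine push_eq_zero hfin r _ Q fun P' hP' => ?_
        have hP'S := mem_S_of_eq h hQ hP'
        have h1 := h.ord_nonneg P' hP'S _ hdB
        by_contra hne
        have hpos' : 0 < P'.ord (d : F) := lt_of_le_of_ne h1 (Ne.symm hne)
        have := h.r1 P' hP'S d hdB hpos' hd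
        rw [hP', hd0] at this
        exact lt_irrefl _ this
      have hz'0 := h.ord_red_nonneg Q hQ z' hz'B
      have hih := ih z' hz'B hz' (by push_cast at hm; omega)
      rw [hpu, hpd] at hpush
      omega
    · rw [push_eq_zero hfin r _ Q]
      · exact h0
      · intro P hP
        have hPS := mem_S_of_eq h hQ hP
        have h1 := h.ord_nonneg P hPS _ hzB
        by_contra hne
        exact hex ⟨P, hP, lt_of_le_of_ne h1 (Ne.symm hne)⟩

theorem push_le (h : ChartHyp A res G red r B x n S St) (hfin : FinDiv L F)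
    {Q : Place k Ft} (hQ : Q ∈ St) {z : G} (hzB : (z : F) ∈ B) (hz : red z ≠ 0) :
    push hfin r (z : F) Q ≤ Q.ord (red z) :=
  push_le_aux h hfin hQ (Q.ord (red z)).toNat z hzB hz (Int.self_le_toNat _)

/-- If a product of two elements of `B` is good, both factors are good. -/
theorem good_of_good_mul (h : ChartHyp A res G red r B x n S St) (hfin : FinDiv L F)
    {Q : Place k Ft} (hQ : Q ∈ St) {z₁ z₂ : G} (h₁B : (z₁ : F) ∈ B) (h₂B : (z₂ : F) ∈ B)
    (hg : Good hfin red r Q (z₁ * z₂)) : Good hfin red r Q z₁ := by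
  have hne := hg.1
  rw [map_mul] at hne
  have h₁ : red z₁ ≠ 0 := left_ne_zero_of_mul hne
  have h₂ : red z₂ ≠ 0 := right_ne_zero_of_mul hne
  refine ⟨h₁, ?_⟩
  have e := hg.2
  have : ((z₁ * z₂ : G) : F) = (z₁ : F) * (z₂ : F) := rfl
  rw [this, push_mul hfin r (coe_ne_zero_of_red_ne_zero h₁) (coe_ne_zero_of_red_ne_zero h₂),
    map_mul, Q.ord_mul h₁ h₂] at e
  have l₁ := push_le h hfin hQ h₁B h₁
  have l₂ := push_le h hfin hQ h₂B h₂
  omega

/-- The element `x - a` of `G`. -/
def subG (h : ChartHyp A res G red r B x n S St) (a : A) : G := x - constG h a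

theorem coe_subG (h : ChartHyp A res G red r B x n S St) (a : A) :
    ((subG h a : G) : F) = (x : F) - algebraMap L F a := rfl

theorem subG_mem (h : ChartHyp A res G red r B x n S St) (a : A) : ((subG h a : G) : F) ∈ B :=
  B.sub_mem h.x_mem (h.const_mem a)

theorem red_subG (h : ChartHyp A res G red r B x n S St) (a : A) :
    red (subG h a) = red x - algebraMap k Ft (res a) := by
  rw [subG, map_sub, red_constG]

theorem red_subG_ne (h : ChartHyp A res G red r B x n S St) (a : A) : red (subG h a) ≠ 0 := by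
  rw [red_subG]
  exact sub_ne_zero.2 (h.red_x_ne _)

/-- **Step (ii)**: `x - a` is good at every chart place (fundamental identities + step (i)). -/
theorem good_sub_const (h : ChartHyp A res G red r B x n S St) (hfin : FinDiv L F)
    {Q : Place k Ft} (hQ : Q ∈ St) (a : A) : Good hfin red r Q (subG h a) := by
  classical
  have hredf : red (subG h a) = red x - algebraMap k Ft (res a) := red_subG h a
  have hfne : red (subG h a) ≠ 0 := red_subG_ne h a
  have hfB := subG_mem h a
  refine ⟨hfne, ?_⟩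
  set f : G := subG h a with hf
  set ft : Ft := red x - algebraMap k Ft (res a) with hft
  let T : Finset (Place k Ft) := (h.fint (res a)).toFinset
  have hT : ∀ Q', Q' ∈ T ↔ 0 < Q'.ord ft := by
    intro Q'
    simp only [T, Set.Finite.mem_toFinset, Set.mem_ofPred_eq, hft]
  have hTSt : ∀ Q' ∈ T, Q' ∈ St := fun Q' hQ' => h.zeros_memt (res a) Q' ((hT Q').1 hQ')
  -- total downstairs
  have c1 : ∑ Q' ∈ T, Q'.ord ft = n := by
    rw [← h.fit (res a)]
    exact (finsum_mem_eq_finite_toFinset_sum (fun Q' : Place k Ft => Q'.ord ft)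
      (h.fint (res a))).symm
  -- total upstairs
  have c2 : ∑ Q' ∈ T, push hfin r (f : F) Q' = n := by
    rw [sum_push, ← h.fi a]
    have hfinpos : {P : Place L F | 0 < P.ord ((x : F) - algebraMap L F a)}.Finite :=
      (hfin _).subset fun P hP => ne_of_gt hP
    refine Eq.trans ?_ (finsum_mem_eq_finite_toFinset_sum
      (fun P : Place L F => P.ord ((x : F) - algebraMap L F a)) hfinpos).symm
    rw [← Finset.sum_filter]
    refine Finset.sum_congr ?_ fun _ _ => rfl
    ext P
    simp only [Finset.mem_filter, mem_support_divOf, Set.Finite.mem_toFinset, Set.mem_ofPred_eq]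
    constructor
    · rintro ⟨hne, hrT⟩
      have hPS : P ∈ S := (h.r_mem P).1 (hTSt _ hrT)
      have := h.ord_nonneg P hPS _ hfB
      exact lt_of_le_of_ne this (Ne.symm hne)
    · intro hpos
      refine ⟨ne_of_gt hpos, ?_⟩
      rw [hT]
      have hPS := h.zeros_mem a P hpos
      have := h.r1 P hPS f hfB hpos hfne
      rwa [hredf] at this
  -- pointwise inequality
  have c3 : ∀ Q' ∈ T, push hfin r (f : F) Q' ≤ Q'.ord ft := fun Q' hQ' => by
    have := push_le h hfin (hTSt Q' hQ') hfB hfne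
    rwa [hredf] at this
  have c4 : ∀ Q' ∈ T, push hfin r (f : F) Q' = Q'.ord ft :=
    (Finset.sum_eq_sum_iff_of_le c3).1 (c2.trans c1.symm)
  by_cases hQT : Q ∈ T
  · rw [c4 Q hQT, hredf]
  · have h0 : Q.ord ft = 0 := by
      have h1 : ¬ 0 < Q.ord ft := fun hh => hQT ((hT Q).2 hh)
      have h2 := h.ord_red_nonneg Q hQ f hfB
      rw [hredf] at h2
      omega
    have l1 := push_le h hfin hQ hfB hfne
    have l2 := push_nonneg_of_mem h hfin hQ hfB
    rw [hredf] at l1 ⊢
    omega

/-- An element of `B` whose reduction is a unit at `Q` is good. -/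
theorem good_of_ord_red_eq_zero (h : ChartHyp A res G red r B x n S St) (hfin : FinDiv L F)
    {Q : Place k Ft} (hQ : Q ∈ St) {z : G} (hzB : (z : F) ∈ B) (hz : red z ≠ 0)
    (h0 : Q.ord (red z) = 0) : Good hfin red r Q z := by
  refine ⟨hz, ?_⟩
  have l1 := push_le h hfin hQ hzB hz
  have l2 := push_nonneg_of_mem h hfin hQ hzB
  omega

/-- The element `1 - b x` of `G`. -/
def oneSubG (h : ChartHyp A res G red r B x n S St) (b : A) : G := 1 - constG h b * x

theorem coe_oneSubG (h : ChartHyp A res G red r B x n S St) (b : A) :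
    ((oneSubG h b : G) : F) = 1 - algebraMap L F b * (x : F) := rfl

theorem oneSubG_mem (h : ChartHyp A res G red r B x n S St) (b : A) :
    ((oneSubG h b : G) : F) ∈ B :=
  B.sub_mem B.one_mem (B.mul_mem (h.const_mem b) h.x_mem)

theorem good_oneSubG (h : ChartHyp A res G red r B x n S St) (hfin : FinDiv L F)
    {Q : Place k Ft} (hQ : Q ∈ St) {b : A} (hb : ¬ IsUnit b) : Good hfin red r Q (oneSubG h b) := by
  have hred : red (oneSubG h b) = 1 := by
    rw [oneSubG, map_sub, map_one, map_mul, red_constG, h.res_nonunit b hb, map_zero, zero_mul,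
      sub_zero]
  refine good_of_ord_red_eq_zero h hfin hQ (oneSubG_mem h b) ?_ ?_
  · rw [hred]; exact one_ne_zero
  · rw [hred, Place.ord_one]

/-- A product of linear factors `x - α` (`α ∈ L` arbitrary) is a nonzero constant of `L` times a
good element of `B`. -/
theorem exists_good_prod (h : ChartHyp A res G red r B x n S St) (hfin : FinDiv L F)
    {Q : Place k Ft} (hQ : Q ∈ St) (s : Multiset L) :
    ∃ c : L, c ≠ 0 ∧ ∃ W : G, (W : F) ∈ B ∧ Good hfin red r Q W ∧
      (s.map fun α => (x : F) - algebraMap L F α).prod = algebraMap L F c * (W : F) := by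
  induction s using Multiset.induction_on with
  | empty =>
    refine ⟨1, one_ne_zero, 1, B.one_mem, good_one hfin Q, ?_⟩
    simp
  | cons α s ih =>
    obtain ⟨c, hc, W, hWB, hW, e⟩ := ih
    rw [Multiset.map_cons, Multiset.prod_cons, e]
    by_cases hα : α ∈ A
    · refine ⟨c, hc, subG h ⟨α, hα⟩ * W, B.mul_mem (subG_mem h _) hWB,
        good_mul hfin (good_sub_const h hfin hQ _) hW, ?_⟩
      change _ = algebraMap L F c * (((x : F) - algebraMap L F α) * (W : F))
      ring
    · have hα0 : α ≠ 0 := by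
        rintro rfl
        exact hα A.zero_mem
      have hαi : α⁻¹ ∈ A := (A.mem_or_inv_mem α).resolve_left hα
      have hnu : ¬ IsUnit (⟨α⁻¹, hαi⟩ : A) := by
        intro hu
        obtain ⟨b, hb⟩ := hu.exists_right_inv
        have hb' : α⁻¹ * (b : L) = 1 := congrArg (fun a : A => (a : L)) hb
        have : (b : L) = α := by
          field_simp at hb'
          exact hb'
        exact hα (this ▸ b.2)
      refine ⟨-α * c, mul_ne_zero (neg_ne_zero.2 hα0) hc, oneSubG h ⟨α⁻¹, hαi⟩ * W,
        B.mul_mem (oneSubG_mem h _) hWB, good_mul hfin (good_oneSubG h hfin hQ hnu) hW, ?_⟩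
      change _ = algebraMap L F (-α * c) * ((1 - algebraMap L F α⁻¹ * (x : F)) * (W : F))
      have hαF : algebraMap L F α ≠ 0 := (_root_.map_ne_zero (algebraMap L F)).2 hα0
      rw [map_mul, map_neg, map_inv₀]
      field_simp
      ring

/-- The value at `x` of a nonzero polynomial over `L` is a nonzero constant times a good element
of `B`. -/
theorem exists_good_aeval [IsAlgClosed L] (h : ChartHyp A res G red r B x n S St)
    (hfin : FinDiv L F) {Q : Place k Ft} (hQ : Q ∈ St) (p : L[X]) (hp : p ≠ 0) :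
    ∃ c : L, c ≠ 0 ∧ ∃ W : G, (W : F) ∈ B ∧ Good hfin red r Q W ∧
      aeval (x : F) p = algebraMap L F c * (W : F) := by
  obtain ⟨c, hc, W, hWB, hW, e⟩ := exists_good_prod h hfin hQ p.roots
  refine ⟨p.leadingCoeff * c, mul_ne_zero (leadingCoeff_ne_zero.2 hp) hc, W, hWB, hW, ?_⟩
  have hsplit := (IsAlgClosed.splits p).eq_prod_roots
  have : aeval (x : F) p = algebraMap L F p.leadingCoeff *
      (p.roots.map fun α => (x : F) - algebraMap L F α).prod := by
    conv_lhs => rw [hsplit]
    rw [map_mul, aeval_C, map_multiset_prod, Multiset.map_map]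
    congr 2
    refine Multiset.map_congr rfl fun α _ => ?_
    simp
  rw [this, e, map_mul, mul_assoc]

/-- **Step (iii)** (norm trick): every `z ∈ B` with `red z ≠ 0` is good. -/
theorem good_of_mem [IsAlgClosed L] (h : ChartHyp A res G red r B x n S St) (hfin : FinDiv L F)
    {Q : Place k Ft} (hQ : Q ∈ St) {z : G} (hzB : (z : F) ∈ B) (hz : red z ≠ 0) :
    Good hfin red r Q z := by
  have hz0 := ne_zero_of_red_ne_zero hz
  have hzF := coe_ne_zero_of_red_ne_zero hz
  obtain ⟨z', hz'B, hz'0, p, e⟩ := h.norm z hzB hz0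
  have hz'F : (z' : F) ≠ 0 := fun h0 => hz'0 (Subtype.ext h0)
  obtain ⟨c', hc', z'', hz''B, e', hz''⟩ := h.sat z' hz'B hz'0
  have hc'L : (c' : L) ≠ 0 := fun h0 => hc' (Subtype.ext h0)
  have hp : p ≠ 0 := by
    rintro rfl
    rw [map_zero] at e
    exact mul_ne_zero hzF hz'F e
  obtain ⟨c, hc, W, hWB, hW, eW⟩ := exists_good_aeval h hfin hQ p hp
  have hprod : Good hfin red r Q (z * z'') := by
    refine good_of_eq_const_mul h hfin (y₂ := W) (c := c / c') ?_ hW (div_ne_zero hc hc'L) ?_
    · rw [map_mul]; exact mul_ne_zero hz hz''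
    · change (z : F) * (z'' : F) = algebraMap L F (c / c') * (W : F)
      have hc'F : algebraMap L F (c' : L) ≠ 0 := (_root_.map_ne_zero (algebraMap L F)).2 hc'L
      rw [map_div₀, div_mul_eq_mul_div, eq_div_iff hc'F, ← eW, ← e, e']
      ring
  exact good_of_good_mul h hfin hQ hzB hz''B hprod

/-- **Step (iv)**, (R2) on one chart: for every `y` in the Gauss ring with nonzero reduction and
every chart place `Q`, `∑_{r P = Q} P.ord y = Q.ord (red y)`. -/
theorem r2_chart [IsAlgClosed L] (h : ChartHyp A res G red r B x n S St) (hfin : FinDiv L F)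
    {Q : Place k Ft} (hQ : Q ∈ St) (y : G) (hy : red y ≠ 0) :
    push hfin r (y : F) Q = Q.ord (red y) := by
  have hyF := coe_ne_zero_of_red_ne_zero hy
  obtain ⟨b₁, b₂, h₁B, h₂B, h₂0, e⟩ := h.frac (y : F)
  have h₂F : (b₂ : F) ≠ 0 := fun h0 => h₂0 (Subtype.ext h0)
  have h₁0 : b₁ ≠ 0 := by
    rintro rfl
    exact mul_ne_zero hyF h₂F e
  obtain ⟨c₁, hc₁, b₁', h₁'B, e₁, hb₁'⟩ := h.sat b₁ h₁B h₁0
  obtain ⟨c₂, hc₂, b₂', h₂'B, e₂, hb₂'⟩ := h.sat b₂ h₂B h₂0
  have hc₁L : (c₁ : L) ≠ 0 := fun h0 => hc₁ (Subtype.ext h0)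
  have hc₂L : (c₂ : L) ≠ 0 := fun h0 => hc₂ (Subtype.ext h0)
  have g₁ := good_of_mem h hfin hQ h₁'B hb₁'
  have g₂ := good_of_mem h hfin hQ h₂'B hb₂'
  have g : Good hfin red r Q (y * b₂') := by
    refine good_of_eq_const_mul h hfin (y₂ := b₁') (c := c₁ / c₂) ?_ g₁ (div_ne_zero hc₁L hc₂L) ?_
    · rw [map_mul]; exact mul_ne_zero hy hb₂'
    · change (y : F) * (b₂' : F) = algebraMap L F (c₁ / c₂) * (b₁' : F)
      have hc₂F : algebraMap L F (c₂ : L) ≠ 0 := (_root_.map_ne_zero (algebraMap L F)).2 hc₂L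
      rw [map_div₀, div_mul_eq_mul_div, eq_div_iff hc₂F, ← e₁, ← e, e₂]
      ring
  have e3 := g.2
  have : ((y * b₂' : G) : F) = (y : F) * (b₂' : F) := rfl
  rw [this, push_mul hfin r hyF (coe_ne_zero_of_red_ne_zero hb₂'), map_mul, Q.ord_mul hy hb₂',
    g₂.2] at e3
  omega

/-- (R2) on one chart, in the `Finsupp.mapDomain` form of the Prelude's
`IsPlaceReductionAlong`. -/
theorem r2_chart_mapDomain [IsAlgClosed L] (h : ChartHyp A res G red r B x n S St)
    (hfin : FinDiv L F) {Q : Place k Ft} (hQ : Q ∈ St) (y : G) (hy : red y ≠ 0)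
    (D : Place L F →₀ ℤ) (hD : ∀ P, D P = P.ord (y : F)) :
    Finsupp.mapDomain r D Q = Q.ord (red y) := by
  rw [eq_divOf hfin _ D hD]
  exact r2_chart h hfin hQ y hy

/-- Consequence of step (ii): every zero `Q` of `red x - res a` in the special fibre has a zero of
`x - a` above it (so `r` hits every such `Q`). -/
theorem exists_place_over (h : ChartHyp A res G red r B x n S St) (hfin : FinDiv L F)
    {Q : Place k Ft} (a : A) (hQa : 0 < Q.ord (red x - algebraMap k Ft (res a))) :
    ∃ P : Place L F, r P = Q ∧ 0 < P.ord ((x : F) - algebraMap L F a) := by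
  classical
  have hQ : Q ∈ St := h.zeros_memt (res a) Q hQa
  have hg := (good_sub_const h hfin hQ a).2
  rw [red_subG] at hg
  by_contra hno
  have : push hfin r ((subG h a : G) : F) Q = 0 := by
    refine push_eq_zero hfin r _ Q fun P hP => ?_
    have hPS := mem_S_of_eq h hQ hP
    have h1 := h.ord_nonneg P hPS _ (subG_mem h a)
    by_contra hne
    exact hno ⟨P, hP, lt_of_le_of_ne h1 (Ne.symm hne)⟩
  rw [this] at hg
  omega

end Chart

end

end Fermat.Agent.ES.RED.R2Abstract14
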