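/-
Program I (S37), RED-2 (helper14), second file: the full (PEEL) package of `R2Abstract14.ChartHyp`
from its part (a) alone (`I_RED_DESIGN8` / plan v2, ruling R-5).

`ChartHypA` has the same fields as `ChartHyp` except that `peel` is replaced by
* `peelA` : for `P ∈ S` there is `u ∈ B` vanishing at `P` such that every `z ∈ B` vanishing at `P`
  satisfies `z * d = u * z'` with `d, z' ∈ B` and `red d` a unit at `r P`;
* `sep` : the ideals `𝔪_P ∩ B` separate the places of the chart;
* `exists_zero` : every chart place is a zero of some `x - a`, `a ∈ A`.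
We prove (b) `P.ord u = 1`, (c) `u` does not vanish at the other places over `r P`, (d) `red u ≠ 0`,
hence `ChartHypA.toChartHyp`, and restate the main theorems.
-/
import Mathlib
import Fermat.Agent.ES.RED.R2Abstract14

set_option autoImplicit false

namespace Fermat.Agent.ES.RED.R2Peel14

open AlgebraicCurve Polynomial Fermat.Agent.ES.RED.R2Abstract14

noncomputable section

variable {L : Type*} [Field L] {k : Type*} [Field k]
variable {F : Type*} [Field F] [Algebra L F] {Ft : Type*} [Field Ft] [Algebra k Ft]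

/-- The hypotheses on one chart, with only part (a) of (PEEL). -/
structure ChartHypA (A : ValuationSubring L) (res : A →+* k) (G : Subring F) (red : G →+* Ft)
    (r : Place L F → Place k Ft) (B : Subring F) (x : G) (n : ℕ)
    (S : Set (Place L F)) (St : Set (Place k Ft)) : Prop where
  res_nonunit : ∀ a : A, ¬ IsUnit a → res a = 0
  const_mem : ∀ a : A, algebraMap L F a ∈ B
  B_le : B ≤ G
  red_const : ∀ a : A, red ⟨algebraMap L F a, B_le (const_mem a)⟩ = algebraMap k Ft (res a)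
  x_mem : (x : F) ∈ B
  red_x_ne : ∀ c : k, red x ≠ algebraMap k Ft c
  r_mem : ∀ P, r P ∈ St ↔ P ∈ S
  ord_nonneg : ∀ P ∈ S, ∀ b ∈ B, 0 ≤ P.ord b
  ord_red_nonneg : ∀ Q ∈ St, ∀ b : G, (b : F) ∈ B → 0 ≤ Q.ord (red b)
  r1 : ∀ P ∈ S, ∀ b : G, (b : F) ∈ B → 0 < P.ord (b : F) → red b ≠ 0 → 0 < (r P).ord (red b)
  /-- (PEEL-a), order form. -/
  peelA : ∀ P ∈ S, ∃ u : G, (u : F) ∈ B ∧ ((u : F) = 0 ∨ 0 < P.ord (u : F)) ∧
      ∀ z : G, (z : F) ∈ B → 0 < P.ord (z : F) → ∃ d z' : G, (d : F) ∈ B ∧ (z' : F) ∈ B ∧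
        red d ≠ 0 ∧ (r P).ord (red d) = 0 ∧ z * d = u * z'
  /-- separation of the chart places by `B`. -/
  sep : ∀ P ∈ S, ∀ P' ∈ S, (∀ z ∈ B, 0 < P.ord z → 0 < P'.ord z) → P = P'
  /-- every chart place is a zero of some `x - a`. -/
  exists_zero : ∀ P ∈ S, ∃ a : A, 0 < P.ord ((x : F) - algebraMap L F a)
  sat : ∀ b : G, (b : F) ∈ B → b ≠ 0 → ∃ c : A, c ≠ 0 ∧ ∃ b' : G, (b' : F) ∈ B ∧
      (b : F) = algebraMap L F c * (b' : F) ∧ red b' ≠ 0
  fi : ∀ a : A, ∑ᶠ (P : Place L F) (_ : 0 < P.ord ((x : F) - algebraMap L F a)),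
      P.ord ((x : F) - algebraMap L F a) = n
  fit : ∀ c : k, ∑ᶠ (Q : Place k Ft) (_ : 0 < Q.ord (red x - algebraMap k Ft c)),
      Q.ord (red x - algebraMap k Ft c) = n
  fint : ∀ c : k, {Q : Place k Ft | 0 < Q.ord (red x - algebraMap k Ft c)}.Finite
  zeros_mem : ∀ a : A, ∀ P : Place L F, 0 < P.ord ((x : F) - algebraMap L F a) → P ∈ S
  zeros_memt : ∀ c : k, ∀ Q : Place k Ft, 0 < Q.ord (red x - algebraMap k Ft c) → Q ∈ St
  norm : ∀ z : G, (z : F) ∈ B → z ≠ 0 → ∃ z' : G, (z' : F) ∈ B ∧ z' ≠ 0 ∧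
      ∃ p : L[X], (z : F) * (z' : F) = aeval (x : F) p
  frac : ∀ y : F, ∃ b₁ b₂ : G, (b₁ : F) ∈ B ∧ (b₂ : F) ∈ B ∧ b₂ ≠ 0 ∧ y * (b₂ : F) = (b₁ : F)

variable {A : ValuationSubring L} {res : A →+* k} {G : Subring F} {red : G →+* Ft}
  {r : Place L F → Place k Ft} {B : Subring F} {x : G} {n : ℕ}
  {S : Set (Place L F)} {St : Set (Place k Ft)}

namespace ChartHypA

variable (h : ChartHypA A res G red r B x n S St)
include h

/-- An element of `B` whose reduction is a unit at `r P` is a unit at `P`. -/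
theorem ord_eq_zero_of_red {P : Place L F} (hP : P ∈ S) {d : G} (hdB : (d : F) ∈ B)
    (hd : red d ≠ 0) (hd0 : (r P).ord (red d) = 0) : P.ord (d : F) = 0 := by
  have h1 := h.ord_nonneg P hP _ hdB
  by_contra hne
  have hpos : 0 < P.ord (d : F) := lt_of_le_of_ne h1 (Ne.symm hne)
  have := h.r1 P hP d hdB hpos hd
  rw [hd0] at this
  exact lt_irrefl _ this

/-- The constant `a`, as an element of `G`. -/
def cG (a : A) : G := ⟨algebraMap L F a, h.B_le (h.const_mem a)⟩

theorem red_cG (a : A) : red (h.cG a) = algebraMap k Ft (res a) := h.red_const a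

/-- Existence of the peeling element with all four properties. -/
theorem peel_full {P : Place L F} (hP : P ∈ S) :
    ∃ u : G, (u : F) ∈ B ∧ P.ord (u : F) = 1 ∧ red u ≠ 0 ∧
      (∀ P' ∈ S, r P' = r P → P' ≠ P → P'.ord (u : F) = 0) ∧
      ∀ z : G, (z : F) ∈ B → 0 < P.ord (z : F) → ∃ d z' : G, (d : F) ∈ B ∧ (z' : F) ∈ B ∧
        red d ≠ 0 ∧ (r P).ord (red d) = 0 ∧ z * d = u * z' := by
  obtain ⟨u, huB, hu0, hdiv⟩ := h.peelA P hP
  -- `u ≠ 0`, hence `0 < P.ord u`
  have hupos : 0 < P.ord (u : F) := by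
    rcases hu0 with hu0 | hu0
    · exfalso
      obtain ⟨a, ha⟩ := h.exists_zero P hP
      have hzB : (((x - h.cG a : G)) : F) ∈ B := B.sub_mem h.x_mem (h.const_mem a)
      obtain ⟨d, z', -, -, hd, -, e⟩ := hdiv (x - h.cG a) hzB ha
      have hz0 : (x - h.cG a : G) ≠ 0 := by
        intro h0
        have : (((x - h.cG a : G)) : F) = 0 := by rw [h0]; rfl
        have h1 : ((x : F) - algebraMap L F a) = 0 := this
        rw [h1, Place.ord_zero] at ha
        exact lt_irrefl _ ha
      have hu : u = 0 := Subtype.ext hu0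
      rw [hu, zero_mul] at e
      exact mul_ne_zero hz0 (ne_zero_of_red_ne_zero hd) e
    · exact hu0
  have huF : (u : F) ≠ 0 := by
    intro h0
    rw [h0, Place.ord_zero] at hupos
    exact lt_irrefl _ hupos
  have hu0' : u ≠ 0 := fun h0 => huF (by rw [h0]; rfl)
  -- (d) `red u ≠ 0`
  have hured : red u ≠ 0 := by
    obtain ⟨c, hc, u', hu'B, e, hu'⟩ := h.sat u huB hu0'
    have eG : u = h.cG c * u' := Subtype.ext e
    by_cases hcu : IsUnit c
    · rw [eG, map_mul, h.red_cG]
      exact mul_ne_zero ((_root_.map_ne_zero (algebraMap k Ft)).2 (res_ne_zero_of_isUnit hcu)) hu'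
    · exfalso
      have hcL : (c : L) ≠ 0 := fun h0 => hc (Subtype.ext h0)
      have hu'F := coe_ne_zero_of_red_ne_zero hu'
      have hordu' : 0 < P.ord (u' : F) := by
        rw [e, P.ord_mul ((_root_.map_ne_zero (algebraMap L F)).2 hcL) hu'F,
          Fermat.Agent.X0.FF.ffp_ord_algebraMap, zero_add] at hupos
        exact hupos
      obtain ⟨d, z', -, -, hd, -, e2⟩ := hdiv u' hu'B hordu'
      -- `u' * d = c * u' * z'` so `d = c * z'`
      have e3 : d = h.cG c * z' := by
        have : u' * d = u' * (h.cG c * z') := by rw [e2, eG]; ring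
        exact mul_left_cancel₀ (ne_zero_of_red_ne_zero hu') this
      apply hd
      rw [e3, map_mul, h.red_cG, h.res_nonunit c hcu, map_zero, zero_mul]
  -- divisibility of all orders of elements of `B` by `e := P.ord u`
  have hdvd : ∀ (m : ℕ) (z : G), (z : F) ∈ B → z ≠ 0 → P.ord (z : F) ≤ m →
      P.ord (u : F) ∣ P.ord (z : F) := by
    intro m
    induction m with
    | zero =>
      intro z hzB _ hm
      have := h.ord_nonneg P hP _ hzB
      have h0 : P.ord (z : F) = 0 := by push_cast at hm; omega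
      rw [h0]
      exact dvd_zero _
    | succ m ih =>
      intro z hzB hz0 hm
      have h1 := h.ord_nonneg P hP _ hzB
      rcases eq_or_lt_of_le h1 with h0 | hpos
      · rw [← h0]
        exact dvd_zero _
      · obtain ⟨d, z', hdB, hz'B, hd, hd0, e⟩ := hdiv z hzB hpos
        have hzF : (z : F) ≠ 0 := fun h0 => hz0 (Subtype.ext h0)
        have hdF := coe_ne_zero_of_red_ne_zero hd
        have eF : (z : F) * (d : F) = (u : F) * (z' : F) := congrArg (fun g : G => (g : F)) e
        have hz'F : (z' : F) ≠ 0 := by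
          intro h0
          rw [h0, mul_zero] at eF
          exact mul_ne_zero hzF hdF eF
        have hz'0 : z' ≠ 0 := fun h0 => hz'F (by rw [h0]; rfl)
        have hordd := h.ord_eq_zero_of_red hP hdB hd hd0
        have hord := congrArg P.ord eF
        rw [P.ord_mul hzF hdF, P.ord_mul huF hz'F, hordd, add_zero] at hord
        have h2 := h.ord_nonneg P hP _ hz'B
        have hih := ih z' hz'B hz'0 (by push_cast at hm; omega)
        rw [hord]
        exact dvd_add (dvd_refl _) hih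
  -- (b) `P.ord u = 1`
  have hu1 : P.ord (u : F) = 1 := by
    obtain ⟨π, hπ⟩ := IsDiscreteValuationRing.exists_irreducible P.toValuationSubring
    have hπ1 : P.ord (π : F) = 1 := P.ord_coe_irreducible hπ
    have hπF : (π : F) ≠ 0 := by
      intro h0
      rw [h0, Place.ord_zero] at hπ1
      exact zero_ne_one hπ1
    obtain ⟨b₁, b₂, h₁B, h₂B, h₂0, e⟩ := h.frac (π : F)
    have h₂F : (b₂ : F) ≠ 0 := fun h0 => h₂0 (Subtype.ext h0)
    have h₁F : (b₁ : F) ≠ 0 := by
      rw [← e]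
      exact mul_ne_zero hπF h₂F
    have h₁0 : b₁ ≠ 0 := fun h0 => h₁F (by rw [h0]; rfl)
    have hord := congrArg P.ord e
    rw [P.ord_mul hπF h₂F, hπ1] at hord
    have d₁ := hdvd _ b₁ h₁B h₁0 (Int.self_le_toNat _)
    have d₂ := hdvd _ b₂ h₂B h₂0 (Int.self_le_toNat _)
    have d3 : P.ord (u : F) ∣ 1 := by
      have : (1 : ℤ) = P.ord (b₁ : F) - P.ord (b₂ : F) := by omega
      rw [this]
      exact dvd_sub d₁ d₂
    exact Int.eq_one_of_dvd_one hupos.le d3
  refine ⟨u, huB, hu1, hured, ?_, hdiv⟩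
  -- (c)
  intro P' hP' hrP' hne
  have h1 := h.ord_nonneg P' hP' _ huB
  by_contra hne0
  have hpos' : 0 < P'.ord (u : F) := lt_of_le_of_ne h1 (Ne.symm hne0)
  apply hne
  refine (h.sep P hP P' hP' ?_).symm
  intro z hzB hzpos
  obtain ⟨d, z', hdB, hz'B, hd, hd0, e⟩ := hdiv ⟨z, h.B_le hzB⟩ hzB hzpos
  have hzF : z ≠ 0 := by
    intro h0
    rw [h0, Place.ord_zero] at hzpos
    exact lt_irrefl _ hzpos
  have hdF := coe_ne_zero_of_red_ne_zero hd
  have eF : z * (d : F) = (u : F) * (z' : F) := congrArg (fun g : G => (g : F)) e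
  have hz'F : (z' : F) ≠ 0 := by
    intro h0
    rw [h0, mul_zero] at eF
    exact mul_ne_zero hzF hdF eF
  have hordd : P'.ord (d : F) = 0 := by
    rw [← hrP'] at hd0
    exact h.ord_eq_zero_of_red hP' hdB hd hd0
  have hord := congrArg P'.ord eF
  rw [P'.ord_mul hzF hdF, P'.ord_mul huF hz'F, hordd, add_zero] at hord
  have h2 := h.ord_nonneg P' hP' _ hz'B
  omega

/-- The full chart hypotheses. -/
theorem toChartHyp : ChartHyp A res G red r B x n S St where
  res_nonunit := h.res_nonunit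
  const_mem := h.const_mem
  B_le := h.B_le
  red_const := h.red_const
  x_mem := h.x_mem
  red_x_ne := h.red_x_ne
  r_mem := h.r_mem
  ord_nonneg := h.ord_nonneg
  ord_red_nonneg := h.ord_red_nonneg
  r1 := h.r1
  peel := fun _ hP => h.peel_full hP
  sat := h.sat
  fi := h.fi
  fit := h.fit
  fint := h.fint
  zeros_mem := h.zeros_mem
  zeros_memt := h.zeros_memt
  norm := h.norm
  frac := h.frac

/-- (R2) on one chart from the (PEEL-a) form of the hypotheses. -/
theorem r2_chart [IsAlgClosed L] (hfin : FinDiv L F) {Q : Place k Ft} (hQ : Q ∈ St) (y : G)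
    (hy : red y ≠ 0) : push hfin r (y : F) Q = Q.ord (red y) :=
  R2Abstract14.r2_chart h.toChartHyp hfin hQ y hy

theorem r2_chart_mapDomain [IsAlgClosed L] (hfin : FinDiv L F) {Q : Place k Ft} (hQ : Q ∈ St)
    (y : G) (hy : red y ≠ 0) (D : Place L F →₀ ℤ) (hD : ∀ P, D P = P.ord (y : F)) :
    Finsupp.mapDomain r D Q = Q.ord (red y) :=
  R2Abstract14.r2_chart_mapDomain h.toChartHyp hfin hQ y hy D hD

end ChartHypA

end

end Fermat.Agent.ES.RED.R2Peel14
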