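/-
Program I (S37), chapter ES/RED, leaf RED-Z (helper15): change of the ambient Gauss ring in
`R2Peel14.ChartHypA` / `R2Abstract14.ChartHyp`.

All fields of `ChartHypA A res G red r B x n S St` only concern elements of the chart ring `B ≤ G`
and the values of `red` on `B`.  Hence the structure transports along any other pair `(G', red')`
with `B ≤ G'` and `red' = red` on `B` (`ChartHypA.changeG`).  Used to pass from the adapter's
`G := B`, `red := S.red` (Contract8) to the common Gauss ring `GaussRing15.gaussRingN` of both charts.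
-/
import Mathlib
import Fermat.Agent.ES.RED.R2Peel14

set_option autoImplicit false

namespace Fermat.Agent.ES.RED.ChangeG15

open AlgebraicCurve Polynomial Fermat.Agent.ES.RED.R2Abstract14 Fermat.Agent.ES.RED.R2Peel14

noncomputable section

variable {L : Type*} [Field L] {k : Type*} [Field k]
variable {F : Type*} [Field F] [Algebra L F] {Ft : Type*} [Field Ft] [Algebra k Ft]
variable {A : ValuationSubring L} {res : A →+* k} {G : Subring F} {red : G →+* Ft}
  {r : Place L F → Place k Ft} {B : Subring F} {x : G} {n : ℕ}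
  {S : Set (Place L F)} {St : Set (Place k Ft)}

/-- **Change of the Gauss ring**: `ChartHypA` only depends on `red` restricted to `B`. -/
theorem changeG (h : ChartHypA A res G red r B x n S St) (G' : Subring F) (red' : G' →+* Ft)
    (hBG : B ≤ G')
    (hred : ∀ (b : F) (hb : b ∈ B), red' ⟨b, hBG hb⟩ = red ⟨b, h.B_le hb⟩) :
    ChartHypA A res G' red' r B ⟨(x : F), hBG h.x_mem⟩ n S St := by
  -- transport of an element of `G'` lying in `B` to `G`
  have key : ∀ (z : G') (hz : (z : F) ∈ B), red' z = red ⟨(z : F), h.B_le hz⟩ := by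
    rintro ⟨z, hzG⟩ hz
    exact hred z hz
  have keyx : red' ⟨(x : F), hBG h.x_mem⟩ = red x := by
    rw [hred _ h.x_mem]
  refine
    { res_nonunit := h.res_nonunit
      const_mem := h.const_mem
      B_le := hBG
      red_const := ?_
      x_mem := h.x_mem
      red_x_ne := ?_
      r_mem := h.r_mem
      ord_nonneg := h.ord_nonneg
      ord_red_nonneg := ?_
      r1 := ?_
      peelA := ?_
      sep := h.sep
      exists_zero := h.exists_zero
      sat := ?_
      fi := h.fi
      fit := ?_
      fint := ?_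
      zeros_mem := h.zeros_mem
      zeros_memt := ?_
      norm := ?_
      frac := ?_ }
  · intro a
    rw [hred _ (h.const_mem a)]
    exact h.red_const a
  · intro c
    rw [keyx]
    exact h.red_x_ne c
  · intro Q hQ b hb
    rw [key b hb]
    exact h.ord_red_nonneg Q hQ ⟨(b : F), h.B_le hb⟩ hb
  · intro P hP b hb hpos hne
    rw [key b hb] at hne ⊢
    exact h.r1 P hP ⟨(b : F), h.B_le hb⟩ hb hpos hne
  · intro P hP
    obtain ⟨u, huB, hu0, hdiv⟩ := h.peelA P hP
    refine ⟨⟨(u : F), hBG huB⟩, huB, hu0, ?_⟩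
    intro z hz hpos
    obtain ⟨d, z', hdB, hz'B, hd, hd0, e⟩ := hdiv ⟨(z : F), h.B_le hz⟩ hz hpos
    refine ⟨⟨(d : F), hBG hdB⟩, ⟨(z' : F), hBG hz'B⟩, hdB, hz'B, ?_, ?_, ?_⟩
    · rw [hred _ hdB]
      exact hd
    · rw [hred _ hdB]
      exact hd0
    · apply Subtype.ext
      have := congrArg (fun w : G => (w : F)) e
      exact this
  · intro b hb hb0
    have hb0' : (⟨(b : F), h.B_le hb⟩ : G) ≠ 0 := by
      intro h0
      apply hb0
      apply Subtype.ext
      exact congrArg (fun w : G => (w : F)) h0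
    obtain ⟨c, hc, b', hb'B, e, hb'⟩ := h.sat ⟨(b : F), h.B_le hb⟩ hb hb0'
    refine ⟨c, hc, ⟨(b' : F), hBG hb'B⟩, hb'B, e, ?_⟩
    rw [hred _ hb'B]
    exact hb'
  · intro c
    rw [keyx]
    exact h.fit c
  · intro c
    rw [keyx]
    exact h.fint c
  · intro c Q hQ
    rw [keyx] at hQ
    exact h.zeros_memt c Q hQ
  · intro z hz hz0
    have hz0' : (⟨(z : F), h.B_le hz⟩ : G) ≠ 0 := by
      intro h0
      apply hz0
      apply Subtype.ext
      exact congrArg (fun w : G => (w : F)) h0
    obtain ⟨z', hz'B, hz'0, p, e⟩ := h.norm ⟨(z : F), h.B_le hz⟩ hz hz0'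
    refine ⟨⟨(z' : F), hBG hz'B⟩, hz'B, ?_, p, e⟩
    intro h0
    apply hz'0
    apply Subtype.ext
    exact congrArg (fun w : G' => (w : F)) h0
  · intro y
    obtain ⟨b₁, b₂, h₁, h₂, h₂0, e⟩ := h.frac y
    refine ⟨⟨(b₁ : F), hBG h₁⟩, ⟨(b₂ : F), hBG h₂⟩, h₁, h₂, ?_, e⟩
    intro h0
    apply h₂0
    apply Subtype.ext
    exact congrArg (fun w : G' => (w : F)) h0

end

end Fermat.Agent.ES.RED.ChangeG15
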