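/-
Program I (S37), chapter ES/RED, leaf RED-Z (helper15): assembly of the Prelude's
`IsPlaceReductionAlong` / `IsPlaceReductionModL` / `ReductionInputsModL` from TWO charts of
`Contract8.ChartSpec`.

Inputs per chart `S_i : ChartSpec A hx F~` (`s₀ = t`, `s₁ = t⁻¹`):
* `Compat A N S_i` : every `b ∈ S_i.B` has an `A`-integral `q`-expansion `Y` and
  `S_i.red b = coeffMap res Y`  (concrete charts: RED-U);
* the adapter's `R2Peel14.ChartHypA A res S_i.B S_i.red r S_i.B S_i.sB n_i {P | S_i.InChart P}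
  {Q | 0 ≤ Q.ord (S_i.red S_i.sB)}`  (`G := B`; R2Adapter9);
* `S₁.red S₁.sB = (S₀.red S₀.sB)⁻¹` (the charts cover the special fibre).
The charts are transported to the common Gauss ring `GaussRing15.gaussRingN` by `ChangeG15.changeG`
and assembled by `RedAssembly15.isPlaceReductionAlong_of_charts`.
At `ℚbar`: degrees are `1` (`FbarFacts20`, `X0.FF.deg_eq_one`), divisors are finite, and `(Rgen)` is
`GaussUnit25.principalGeneratedByIntegral`.
-/
import Mathlib
import Fermat.Agent.ES.RED.GaussRing15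
import Fermat.Agent.ES.RED.ChangeG15
import Fermat.Agent.ES.RED.Contract8
import Fermat.Agent.ES.RED.GaussUnit25
import Fermat.Agent.ES.KRON.KronInst10
import Fermat.Agent.RED.TOP.FbarFacts20

set_option autoImplicit false

open AlgebraicCurve ModularCurve HahnSeries

noncomputable section

namespace Fermat.Agent.ES.RED.RedCharts15

open Fermat.Agent.ES.RED.R2Abstract14 Fermat.Agent.ES.RED.R2Peel14
open Fermat.Agent.ES.RED.RedAssembly15 Fermat.Agent.ES.RED.GaussRing15
open Fermat.Agent.ES.RED.Contract8 Fermat.Agent.ES.RED.ChangeG15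
open Fermat.Agent.RED.TOP Fermat.Agent.X0

/-! ### compatibility of a chart with the common Gauss ring -/

section Compat

variable {L : Type*} [Field L] [Algebra ℚ L] [IsAlgClosed L] (A : ValuationSubring L) (N : ℕ)
variable {x : ↥(laurentBaseChange L (modularFunctionFieldFull N))} {hx : FF.IsGen L x}
variable (S : ChartSpec A hx ↥(modularFunctionFieldFullC (kA A) N))

/-- **Compatibility of a chart with `q`-expansions**: every element of the chart ring has an
`A`-integral `q`-expansion, and the chart's reduction is its coefficientwise reduction. -/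
def Compat : Prop :=
  ∀ b : ↥S.B, ∃ Y : LaurentSeries ↥A,
    coeffMap A.subtype Y =
      (((b : ↥(laurentBaseChange L (modularFunctionFieldFull N))) : LaurentSeries L)) ∧
    ((S.red b : ↥(modularFunctionFieldFullC (kA A) N)) : LaurentSeries (kA A)) =
      coeffMap (resA A) Y

variable {A N S}

theorem Compat.le_gaussRingN (hS : Compat A N S) : S.B ≤ gaussRingN A (resA A) N := by
  intro b hb
  obtain ⟨Y, hY, hYr⟩ := hS ⟨b, hb⟩
  refine ⟨Y, hY, ?_⟩
  rw [← hYr]
  exact (S.red ⟨b, hb⟩).2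

theorem Compat.gaussRedN_eq (hS : Compat A N S)
    (b : ↥(laurentBaseChange L (modularFunctionFieldFull N))) (hb : b ∈ S.B) :
    gaussRedN A (resA A) N ⟨b, hS.le_gaussRingN hb⟩ = S.red ⟨b, hb⟩ := by
  obtain ⟨Y, hY, hYr⟩ := hS ⟨b, hb⟩
  apply Subtype.ext
  rw [gaussRed_eq A (resA A) _ _ _ (Y := Y) hY, hYr]

end Compat

/-! ### the assembly from two `Contract8.ChartSpec`s -/

section Main

variable {L : Type*} [Field L] [Algebra ℚ L] [IsAlgClosed L] {A : ValuationSubring L} {N : ℕ}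
variable {x : ↥(laurentBaseChange L (modularFunctionFieldFull N))} {hx : FF.IsGen L x}
variable {S₀ S₁ : ChartSpec A hx ↥(modularFunctionFieldFullC (kA A) N)}

/-- **RED-Z from two charts of `Contract8`**: the adapter's `ChartHypA` on each chart (with
`G := B`, `red := S.red`), compatibility with `q`-expansions, and `s₁~ = s₀~⁻¹` give the
Prelude's `IsPlaceReductionAlong`. -/
theorem isPlaceReductionAlong_of_chartSpecs
    (r : Place L ↥(laurentBaseChange L (modularFunctionFieldFull N)) →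
      Place (kA A) ↥(modularFunctionFieldFullC (kA A) N))
    (hS₀ : Compat A N S₀) (hS₁ : Compat A N S₁) {n₀ n₁ : ℕ}
    (h₀ : ChartHypA A (resA A) S₀.B S₀.red r S₀.B S₀.sB n₀ {P | S₀.InChart P}
      {Q | 0 ≤ Q.ord (S₀.red S₀.sB)})
    (h₁ : ChartHypA A (resA A) S₁.B S₁.red r S₁.B S₁.sB n₁ {P | S₁.InChart P}
      {Q | 0 ≤ Q.ord (S₁.red S₁.sB)})
    (hinv : S₁.red S₁.sB = (S₀.red S₀.sB)⁻¹)
    (hfin : FinDiv L ↥(laurentBaseChange L (modularFunctionFieldFull N)))
    (hdeg : ∀ P, (r P).deg = P.deg) :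
    IsPlaceReductionAlong A (resA A) N r := by
  have g₀ := changeG h₀ (gaussRingN A (resA A) N) (gaussRedN A (resA A) N) hS₀.le_gaussRingN
    (fun b hb => hS₀.gaussRedN_eq b hb)
  have g₁ := changeG h₁ (gaussRingN A (resA A) N) (gaussRedN A (resA A) N) hS₁.le_gaussRingN
    (fun b hb => hS₁.gaussRedN_eq b hb)
  refine isPlaceReductionAlong_of_charts r _ _ (gaussBridge A (resA A) N) hfin hdeg
    g₀.toChartHyp g₁.toChartHyp ?_
  intro Q
  rcases le_total 0 (Q.ord (S₀.red S₀.sB)) with h | h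
  · exact Or.inl h
  · right
    show 0 ≤ Q.ord (S₁.red S₁.sB)
    rw [hinv, Q.ord_inv]
    omega

end Main

/-! ### at `ℚbar` -/

section Qbar

/-- `ℚbar`. -/
abbrev Qb : Type := AlgebraicClosure ℚ

variable {A : ValuationSubring Qb} {M : ℕ} [NeZero M]
variable {x : ↥(modularFunctionFieldBar M)} {hx : FF.IsGen Qb x}
variable {S₀ S₁ : ChartSpec A hx ↥(modularFunctionFieldFullC (kA A) M)}

/-- **RED-Z at `ℚbar`**: `IsPlaceReductionModL A M r` and `ReductionInputsModL A M` from the two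
charts, a generator `xt` of the special fibre (all places of degree one) and `(Rgen)`. -/
theorem reductionInputsModL_of_chartSpecs
    (r : Place Qb ↥(modularFunctionFieldBar M) →
      Place (kA A) ↥(modularFunctionFieldFullC (kA A) M))
    (hS₀ : Compat A M S₀) (hS₁ : Compat A M S₁) {n₀ n₁ : ℕ}
    (h₀ : ChartHypA A (resA A) S₀.B S₀.red r S₀.B S₀.sB n₀ {P | S₀.InChart P}
      {Q | 0 ≤ Q.ord (S₀.red S₀.sB)})
    (h₁ : ChartHypA A (resA A) S₁.B S₁.red r S₁.B S₁.sB n₁ {P | S₁.InChart P}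
      {Q | 0 ≤ Q.ord (S₁.red S₁.sB)})
    (hinv : S₁.red S₁.sB = (S₀.red S₀.sB)⁻¹)
    {xt : ↥(modularFunctionFieldFullC (kA A) M)} (hxt : FF.IsGen (kA A) xt)
    (hgen : PrincipalGeneratedByIntegral A (resA A) M) :
    IsPlaceReductionModL A M r ∧ ReductionInputsModL A M := by
  have : IsAlgClosed (kA A) := Fermat.Agent.ES.KRON.KronInst10.isAlgClosed_residueField A
  have := FbarFacts20.hasPrincipalDivisors_bar M
  have hdeg : ∀ P, (r P).deg = P.deg := fun P => by
    rw [FF.deg_eq_one hxt (r P), FbarFacts20.deg_eq_one_bar M P]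
  have hr : IsPlaceReductionAlong A (resA A) M r :=
    isPlaceReductionAlong_of_chartSpecs r hS₀ hS₁ h₀ h₁ hinv finDiv_of_hasPrincipalDivisors hdeg
  exact ⟨hr, r, hr, hgen⟩

/-- The same with `(Rgen)` discharged by `GaussUnit25` (`A` over `ℓ ∤ M`). -/
theorem reductionInputsModL_of_chartSpecs' (ℓ : ℕ) [Fact ℓ.Prime] (hA : A.LiesOverPrime ℓ)
    (hℓM : ¬ ℓ ∣ M)
    (r : Place Qb ↥(modularFunctionFieldBar M) →
      Place (kA A) ↥(modularFunctionFieldFullC (kA A) M))
    (hS₀ : Compat A M S₀) (hS₁ : Compat A M S₁) {n₀ n₁ : ℕ}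
    (h₀ : ChartHypA A (resA A) S₀.B S₀.red r S₀.B S₀.sB n₀ {P | S₀.InChart P}
      {Q | 0 ≤ Q.ord (S₀.red S₀.sB)})
    (h₁ : ChartHypA A (resA A) S₁.B S₁.red r S₁.B S₁.sB n₁ {P | S₁.InChart P}
      {Q | 0 ≤ Q.ord (S₁.red S₁.sB)})
    (hinv : S₁.red S₁.sB = (S₀.red S₀.sB)⁻¹)
    {xt : ↥(modularFunctionFieldFullC (kA A) M)} (hxt : FF.IsGen (kA A) xt) :
    IsPlaceReductionModL A M r ∧ ReductionInputsModL A M :=
  reductionInputsModL_of_chartSpecs r hS₀ hS₁ h₀ h₁ hinv hxt
    (Fermat.Agent.ES.RED.GaussUnit25.principalGeneratedByIntegral A ℓ hA M hℓM)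

end Qbar

end Fermat.Agent.ES.RED.RedCharts15
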