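/-
Program I (S37), chapter ES/RED — helper4 (B1 integrator).  GENERIC ASSEMBLY of
`TwoCharts8.TwoCharts` and (PEEL-a) from level systems.

For a chart `S : ChartSpec A hx Ft`:
* `HasLevels S`  : at every place `P` of the chart there is a level system
  (`LevelContract22.ChartLevels S P hP Bk ι π`, index type and levels in `Type`);
* `PIRHyp A Ft`  : every valuation subring `O ≠ ⊤` of `Ft` containing `k` is a principal ideal ring
  (leaf A5/T3);
* `hasPlaces_of_levels` : `HasLevels S` + `PIRHyp` + `red s` transcendental ⇒ `TwoCharts8.HasPlaces S`;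
* `peelA_of_levels`     : … ⇒ `S.PeelA P hP` at every place of the chart;
* `twoChartsOf`         : the `TwoCharts` structure from two charts with levels and the overlap data.
-/
import Mathlib
import Fermat.Agent.ES.RED.TwoCharts8
import Fermat.Agent.ES.RED.LevelContract22

set_option autoImplicit false

noncomputable section

open AlgebraicCurve

namespace Fermat.Agent.ES.RED.ModelInstGen4

open Fermat.Agent.X0.FF Fermat.Agent.ES.RED.PlaceValue13 Fermat.Agent.ES.RED.Contract8
  Fermat.Agent.ES.RED.TwoCharts8 Fermat.Agent.ES.RED.LevelContract22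

variable {L : Type*} [Field L] [IsAlgClosed L] {A : ValuationSubring L}
variable {F : Type*} [Field F] [Algebra L F] {x : F} {hx : IsGen L x}
variable {Ft : Type*} [Field Ft] [Algebra (kA A) Ft]

/-- **Level systems at every place of the chart.** -/
def HasLevels (S : ChartSpec A hx Ft) : Prop :=
  ∀ (P : Place L F) (hP : S.InChart P),
    ∃ (I : Type) (Bk : I → Type) (_ : ∀ K, CommRing (Bk K)) (ι : ∀ K, Bk K →+* ↥S.B)
      (π : ∀ K, Bk K), ChartLevels S P hP Bk ι π

variable (A Ft) in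
/-- **(PIR)**: every valuation subring `O ≠ ⊤` of `Ft` containing the constants is a principal
ideal ring. -/
def PIRHyp : Prop :=
  ∀ O : ValuationSubring Ft, (∀ c : kA A, algebraMap (kA A) Ft c ∈ O) → O ≠ ⊤ →
    IsPrincipalIdealRing ↥O

variable {S : ChartSpec A hx Ft}

/-- (VAL) from the level systems. -/
theorem val_of_levels (hlev : HasLevels S) (P : Place L F) (hP : S.InChart P) : S.Val P hP := by
  obtain ⟨I, Bk, inst, ι, π, h⟩ := hlev P hP
  exact h.val

/-- `O_{rP} ≠ Ft`. -/
theorem rVS_ne_top_of_levels (hlev : HasLevels S) (htr : Transcendental (kA A) (S.red S.sB))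
    (P : Place L F) (hP : S.InChart P) : S.rVS P hP (val_of_levels hlev P hP) ≠ ⊤ :=
  S.rVS_ne_top P hP (val_of_levels hlev P hP) (chi_sSub P hP) (red_sSub_ne_zero htr P hP)

/-- `O_{rP}` is a principal ideal ring. -/
theorem pir_of_levels (hlev : HasLevels S) (htr : Transcendental (kA A) (S.red S.sB))
    (hpir : PIRHyp A Ft) (P : Place L F) (hP : S.InChart P) :
    IsPrincipalIdealRing ↥(S.rVS P hP (val_of_levels hlev P hP)) :=
  hpir _ (fun c => S.algebraMap_mem_rSubring P hP c) (rVS_ne_top_of_levels hlev htr P hP)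

/-- **(VAL) + (PIR) at every place of the chart.** -/
theorem hasPlaces_of_levels (hlev : HasLevels S) (htr : Transcendental (kA A) (S.red S.sB))
    (hpir : PIRHyp A Ft) : HasPlaces S :=
  fun P hP => ⟨val_of_levels hlev P hP, pir_of_levels hlev htr hpir P hP⟩

/-- **(PEEL-a) at every place of the chart.** -/
theorem peelA_of_levels (hlev : HasLevels S) (htr : Transcendental (kA A) (S.red S.sB))
    (hpir : PIRHyp A Ft) (P : Place L F) (hP : S.InChart P) : S.PeelA P hP := by
  obtain ⟨I, Bk, inst, ι, π, h⟩ := hlev P hP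
  exact h.peelA_of_isPrincipalIdealRing (rVS_ne_top_of_levels hlev htr P hP)
    (pir_of_levels hlev htr hpir P hP)

/-- `red s⁻¹` is transcendental if `red s` is and `red s * red s⁻¹ = 1`. -/
theorem transcendental_of_mul_eq_one {a b : Ft} (ha : Transcendental (kA A) a) (hab : a * b = 1) :
    Transcendental (kA A) b := by
  have hb : b = a⁻¹ := eq_inv_of_mul_eq_one_right hab
  rw [hb]
  intro h
  exact ha (by simpa using h.inv)

/-- **The two-chart structure** from two charts with level systems and the overlap data. -/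
def twoChartsOf (S0 S1 : ChartSpec A hx Ft) (s_ne : S0.s ≠ 0) (s_inv : S1.s = S0.s⁻¹)
    (red_s_mul : S0.red S0.sB * S1.red S1.sB = 1)
    (ov0 : ∀ b : ↥S1.B, ∃ (n : ℕ) (b0 : ↥S0.B),
      (b0 : F) = S0.s ^ n * (b : F) ∧ S0.red b0 = S0.red S0.sB ^ n * S1.red b)
    (hlev0 : HasLevels S0) (hlev1 : HasLevels S1)
    (tr0 : Transcendental (kA A) (S0.red S0.sB)) (hpir : PIRHyp A Ft) : TwoCharts A hx Ft where
  S0 := S0
  S1 := S1
  s_ne := s_ne
  s_inv := s_inv
  red_s_mul := red_s_mul
  ov0 := ov0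
  places0 := hasPlaces_of_levels hlev0 tr0 hpir
  places1 := hasPlaces_of_levels hlev1 (transcendental_of_mul_eq_one tr0 red_s_mul) hpir
  tr0 := tr0

@[simp] theorem twoChartsOf_S0 (S0 S1 : ChartSpec A hx Ft) (s_ne) (s_inv) (red_s_mul) (ov0)
    (hlev0) (hlev1) (tr0) (hpir) :
    (twoChartsOf S0 S1 s_ne s_inv red_s_mul ov0 hlev0 hlev1 tr0 hpir).S0 = S0 := rfl

@[simp] theorem twoChartsOf_S1 (S0 S1 : ChartSpec A hx Ft) (s_ne) (s_inv) (red_s_mul) (ov0)
    (hlev0) (hlev1) (tr0) (hpir) :
    (twoChartsOf S0 S1 s_ne s_inv red_s_mul ov0 hlev0 hlev1 tr0 hpir).S1 = S1 := rfl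

/-- (PEEL-a) on both charts of `twoChartsOf`. -/
theorem twoChartsOf_peelA (S0 S1 : ChartSpec A hx Ft) (s_ne : S0.s ≠ 0) (s_inv : S1.s = S0.s⁻¹)
    (red_s_mul : S0.red S0.sB * S1.red S1.sB = 1)
    (ov0 : ∀ b : ↥S1.B, ∃ (n : ℕ) (b0 : ↥S0.B),
      (b0 : F) = S0.s ^ n * (b : F) ∧ S0.red b0 = S0.red S0.sB ^ n * S1.red b)
    (hlev0 : HasLevels S0) (hlev1 : HasLevels S1)
    (tr0 : Transcendental (kA A) (S0.red S0.sB)) (hpir : PIRHyp A Ft) :
    (∀ P (hP : S0.InChart P), S0.PeelA P hP) ∧ (∀ P (hP : S1.InChart P), S1.PeelA P hP) :=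
  ⟨fun P hP => peelA_of_levels hlev0 tr0 hpir P hP,
    fun P hP => peelA_of_levels hlev1 (transcendental_of_mul_eq_one tr0 red_s_mul) hpir P hP⟩

end Fermat.Agent.ES.RED.ModelInstGen4
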