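/-
Program I (S37), chapter ES/RED, leaf T1e OVERLAP (helper23): the overlap fields `s_ne`, `s_inv`,
`red_s_mul`, `ov0` of `TwoCharts8.TwoCharts` for the two charts
`S0 := chartSpecOfChart A hx s …` (integral closure of `A[s]`) and
`S1 := chartSpecOfChart A hx s⁻¹ …` (integral closure of `A[s⁻¹]`).

* `Abstract` : the two reductions `red0`, `red1` are restrictions of ONE ring homomorphism
  `ρ : G →+* Ω` on a subring `G ⊇ chart A s, chart A s⁻¹` of `F` (through an injective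
  `j : Ft →+* Ω`).  Then `red0 s * red1 s⁻¹ = 1` and `B1 ⊆ B0[1/s]` compatibly with the reductions
  (`ChartGeneric22.exists_pow_mul_mem_chart`).
* `Series` : the instance `G := Setup8.gaussA A F`, `ρ := Setup8.redA A F` (coefficientwise
  reduction of the `A`-expansion), for `F ≤ L((q))`, `Ft ≤ k((q))`: the hypotheses are then
  "every chart element has an `A`-expansion `Y`" and "`red b = coeffMap (residue A) Y` whenever
  `coeffMap A.subtype Y = b`".
-/
import Mathlib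
import Fermat.Agent.ES.RED.TwoCharts8
import Fermat.Agent.ES.RED.ChartSpecOfChart18
import Fermat.Agent.ES.RED.Setup8

set_option autoImplicit false
set_option linter.unusedSectionVars false
set_option linter.unusedVariables false

open AlgebraicCurve HahnSeries ModularCurve

noncomputable section

namespace Fermat.Agent.ES.RED.Overlap23

open Fermat.Agent.RED.PUR.ChartGeneric22 Fermat.Agent.X0.FF Fermat.Agent.ES.RED.Contract8
  Fermat.Agent.ES.RED.ChartSpecOfChart18 Fermat.Agent.ES.RED.TwoCharts8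

/-! ### abstract: both reductions come from one ring homomorphism -/

section Abstract

variable {L : Type*} [Field L] (A : ValuationSubring L)
variable {F : Type*} [Field F] [Algebra L F]
variable {Ft : Type*} [Field Ft] {Ω : Type*} [CommRing Ω]
variable (s : F) (red0 : ↥(chart ↥A s).toSubring →+* Ft) (red1 : ↥(chart ↥A s⁻¹).toSubring →+* Ft)
  (G : Subring F) (ρ : ↥G →+* Ω) (j : Ft →+* Ω) (hj : Function.Injective j)
  (h0 : ∀ b ∈ chart ↥A s, b ∈ G) (h1 : ∀ b ∈ chart ↥A s⁻¹, b ∈ G)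
  (hred0 : ∀ b : ↥(chart ↥A s).toSubring, j (red0 b) = ρ ⟨(b : F), h0 b b.2⟩)
  (hred1 : ∀ b : ↥(chart ↥A s⁻¹).toSubring, j (red1 b) = ρ ⟨(b : F), h1 b b.2⟩)

include hj hred0 hred1 in
/-- **`red_s_mul`**: `red0 s * red1 s⁻¹ = 1`. -/
theorem red_s_mul_of_common (hs : s ≠ 0) :
    red0 ⟨s, self_mem_chart s⟩ * red1 ⟨s⁻¹, self_mem_chart s⁻¹⟩ = 1 := by
  apply hj
  rw [map_mul, map_one, hred0, hred1, ← map_mul]
  have : (⟨s, h0 s (self_mem_chart s)⟩ * ⟨s⁻¹, h1 s⁻¹ (self_mem_chart s⁻¹)⟩ : ↥G) = 1 :=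
    Subtype.ext (mul_inv_cancel₀ hs)
  rw [this, map_one]

include hj hred0 hred1 in
/-- **`ov0`**: `B1 ⊆ B0[1/s]`, compatibly with the reductions. -/
theorem ov0_of_common (hs : s ≠ 0) (b : ↥(chart ↥A s⁻¹).toSubring) :
    ∃ (n : ℕ) (b0 : ↥(chart ↥A s).toSubring),
      (b0 : F) = s ^ n * (b : F) ∧ red0 b0 = red0 ⟨s, self_mem_chart s⟩ ^ n * red1 b := by
  obtain ⟨n, hn⟩ := exists_pow_mul_mem_chart (R := ↥A) hs b.2
  refine ⟨n, ⟨s ^ n * (b : F), hn⟩, rfl, ?_⟩
  apply hj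
  rw [map_mul, map_pow, hred0, hred0, hred1, ← map_pow, ← map_mul]
  rfl

end Abstract

/-! ### the fields of `TwoCharts` for the two `chartSpecOfChart`s -/

section Spec

variable {L : Type*} [Field L] [IsAlgClosed L] (A : ValuationSubring L)
variable {F : Type*} [Field F] [Algebra L F] {x : F} (hx : IsGen L x)
variable {Ft : Type*} [Field Ft] [Algebra (kA A) Ft] {Ω : Type*} [CommRing Ω]
variable (s : F) (hs : IsGen L s) (hs' : IsGen L s⁻¹)
  (red0 : ↥(chart ↥A s).toSubring →+* Ft) (red1 : ↥(chart ↥A s⁻¹).toSubring →+* Ft)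
  (rc0 : ∀ a : ↥A, red0 ⟨algebraMap L F (a : L), ChartFacts9.const_mem_chart A s a⟩ =
    algebraMap (kA A) Ft (resA A a))
  (rc1 : ∀ a : ↥A, red1 ⟨algebraMap L F (a : L), ChartFacts9.const_mem_chart A s⁻¹ a⟩ =
    algebraMap (kA A) Ft (resA A a))
  (sat0 : ∀ b : ↥(chart ↥A s).toSubring, b ≠ 0 →
    ∃ (c : ↥A) (b' : ↥(chart ↥A s).toSubring),
      (b : F) = algebraMap L F (c : L) * (b' : F) ∧ red0 b' ≠ 0)
  (sat1 : ∀ b : ↥(chart ↥A s⁻¹).toSubring, b ≠ 0 →
    ∃ (c : ↥A) (b' : ↥(chart ↥A s⁻¹).toSubring),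
      (b : F) = algebraMap L F (c : L) * (b' : F) ∧ red1 b' ≠ 0)

/-- field `s_ne`. -/
theorem spec_s_ne : (chartSpecOfChart A hx s hs red0 rc0 sat0).s ≠ 0 := hs.ne_zero

/-- field `s_inv`. -/
theorem spec_s_inv : (chartSpecOfChart A hx s⁻¹ hs' red1 rc1 sat1).s =
    (chartSpecOfChart A hx s hs red0 rc0 sat0).s⁻¹ := rfl

variable (G : Subring F) (ρ : ↥G →+* Ω) (j : Ft →+* Ω) (hj : Function.Injective j)
  (h0 : ∀ b ∈ chart ↥A s, b ∈ G) (h1 : ∀ b ∈ chart ↥A s⁻¹, b ∈ G)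
  (hred0 : ∀ b : ↥(chart ↥A s).toSubring, j (red0 b) = ρ ⟨(b : F), h0 b b.2⟩)
  (hred1 : ∀ b : ↥(chart ↥A s⁻¹).toSubring, j (red1 b) = ρ ⟨(b : F), h1 b b.2⟩)

include hj hred0 hred1 in
/-- field `red_s_mul`. -/
theorem spec_red_s_mul :
    (chartSpecOfChart A hx s hs red0 rc0 sat0).red (chartSpecOfChart A hx s hs red0 rc0 sat0).sB *
      (chartSpecOfChart A hx s⁻¹ hs' red1 rc1 sat1).red
        (chartSpecOfChart A hx s⁻¹ hs' red1 rc1 sat1).sB = 1 :=
  red_s_mul_of_common A s red0 red1 G ρ j hj h0 h1 hred0 hred1 hs.ne_zero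

include hj hred0 hred1 in
/-- field `ov0`. -/
theorem spec_ov0 (b : ↥(chartSpecOfChart A hx s⁻¹ hs' red1 rc1 sat1).B) :
    ∃ (n : ℕ) (b0 : ↥(chartSpecOfChart A hx s hs red0 rc0 sat0).B),
      (b0 : F) = (chartSpecOfChart A hx s hs red0 rc0 sat0).s ^ n * (b : F) ∧
        (chartSpecOfChart A hx s hs red0 rc0 sat0).red b0 =
          (chartSpecOfChart A hx s hs red0 rc0 sat0).red
            (chartSpecOfChart A hx s hs red0 rc0 sat0).sB ^ n *
            (chartSpecOfChart A hx s⁻¹ hs' red1 rc1 sat1).red b :=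
  ov0_of_common A s red0 red1 G ρ j hj h0 h1 hred0 hred1 hs.ne_zero b

/-- **The two charts** `S0 = chartSpecOfChart … s`, `S1 = chartSpecOfChart … s⁻¹` as a `TwoCharts`,
given the places of both charts and the transcendence of `red0 s`. -/
def twoChartsOfCommon
    (places0 : HasPlaces (chartSpecOfChart A hx s hs red0 rc0 sat0))
    (places1 : HasPlaces (chartSpecOfChart A hx s⁻¹ hs' red1 rc1 sat1))
    (tr0 : Transcendental (kA A) (red0 ⟨s, self_mem_chart s⟩)) :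
    TwoCharts A hx Ft where
  S0 := chartSpecOfChart A hx s hs red0 rc0 sat0
  S1 := chartSpecOfChart A hx s⁻¹ hs' red1 rc1 sat1
  s_ne := hs.ne_zero
  s_inv := rfl
  red_s_mul := red_s_mul_of_common A s red0 red1 G ρ j hj h0 h1 hred0 hred1 hs.ne_zero
  ov0 := ov0_of_common A s red0 red1 G ρ j hj h0 h1 hred0 hred1 hs.ne_zero
  places0 := places0
  places1 := places1
  tr0 := tr0

end Spec

/-! ### the instance `G := gaussA`, `ρ := redA` (coefficientwise reduction of `A`-expansions) -/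

section Series

variable {L : Type*} [Field L] [IsAlgClosed L] (A : ValuationSubring L)
variable (F : IntermediateField L (LaurentSeries L))
  (Ft : IntermediateField (kA A) (LaurentSeries (kA A)))
variable (s : ↥F) (red0 : ↥(chart ↥A s).toSubring →+* ↥Ft)
  (red1 : ↥(chart ↥A s⁻¹).toSubring →+* ↥Ft)
  (hex0 : ∀ b ∈ chart ↥A s, ∃ Y : LaurentSeries ↥A,
    coeffMap A.subtype Y = ((b : ↥F) : LaurentSeries L))
  (hex1 : ∀ b ∈ chart ↥A s⁻¹, ∃ Y : LaurentSeries ↥A,
    coeffMap A.subtype Y = ((b : ↥F) : LaurentSeries L))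
  (hred0 : ∀ (b : ↥(chart ↥A s).toSubring) (Y : LaurentSeries ↥A),
    coeffMap A.subtype Y = (((b : ↥F)) : LaurentSeries L) →
      ((red0 b : ↥Ft) : LaurentSeries (kA A)) = coeffMap (resA A) Y)
  (hred1 : ∀ (b : ↥(chart ↥A s⁻¹).toSubring) (Y : LaurentSeries ↥A),
    coeffMap A.subtype Y = (((b : ↥F)) : LaurentSeries L) →
      ((red1 b : ↥Ft) : LaurentSeries (kA A)) = coeffMap (resA A) Y)

include hex0 hred0 in
/-- the hypothesis `hred0` of the abstract part, from the series form. -/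
theorem val_red0_eq_redA (b : ↥(chart ↥A s).toSubring) :
    (IntermediateField.val Ft).toRingHom (red0 b) =
      Setup8.redA A F ⟨(b : ↥F), hex0 b b.2⟩ := by
  obtain ⟨Y, hY⟩ := hex0 b b.2
  rw [Setup8.redA_eq A F ⟨(b : ↥F), hex0 b b.2⟩ hY]
  exact hred0 b Y hY

include hex1 hred1 in
theorem val_red1_eq_redA (b : ↥(chart ↥A s⁻¹).toSubring) :
    (IntermediateField.val Ft).toRingHom (red1 b) =
      Setup8.redA A F ⟨(b : ↥F), hex1 b b.2⟩ := by
  obtain ⟨Y, hY⟩ := hex1 b b.2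
  rw [Setup8.redA_eq A F ⟨(b : ↥F), hex1 b b.2⟩ hY]
  exact hred1 b Y hY

theorem val_injective :
    Function.Injective ((IntermediateField.val Ft).toRingHom : ↥Ft →+* LaurentSeries (kA A)) :=
  fun _ _ h => Subtype.ext h

include hex0 hex1 hred0 hred1 in
/-- **`red_s_mul`**, series form. -/
theorem red_s_mul_of_series (hs : s ≠ 0) :
    red0 ⟨s, self_mem_chart s⟩ * red1 ⟨s⁻¹, self_mem_chart s⁻¹⟩ = 1 :=
  red_s_mul_of_common A s red0 red1 (Setup8.gaussA A F) (Setup8.redA A F)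
    (IntermediateField.val Ft).toRingHom (val_injective A Ft) hex0 hex1
    (val_red0_eq_redA A F Ft s red0 hex0 hred0) (val_red1_eq_redA A F Ft s red1 hex1 hred1) hs

include hex0 hex1 hred0 hred1 in
/-- **`ov0`**, series form. -/
theorem ov0_of_series (hs : s ≠ 0) (b : ↥(chart ↥A s⁻¹).toSubring) :
    ∃ (n : ℕ) (b0 : ↥(chart ↥A s).toSubring),
      (b0 : ↥F) = s ^ n * (b : ↥F) ∧ red0 b0 = red0 ⟨s, self_mem_chart s⟩ ^ n * red1 b :=
  ov0_of_common A s red0 red1 (Setup8.gaussA A F) (Setup8.redA A F)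
    (IntermediateField.val Ft).toRingHom (val_injective A Ft) hex0 hex1
    (val_red0_eq_redA A F Ft s red0 hex0 hred0) (val_red1_eq_redA A F Ft s red1 hex1 hred1) hs b

variable {x : ↥F} (hx : IsGen L x) (hs : IsGen L s) (hs' : IsGen L s⁻¹)
  (rc0 : ∀ a : ↥A, red0 ⟨algebraMap L ↥F (a : L), ChartFacts9.const_mem_chart A s a⟩ =
    algebraMap (kA A) ↥Ft (resA A a))
  (rc1 : ∀ a : ↥A, red1 ⟨algebraMap L ↥F (a : L), ChartFacts9.const_mem_chart A s⁻¹ a⟩ =
    algebraMap (kA A) ↥Ft (resA A a))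
  (sat0 : ∀ b : ↥(chart ↥A s).toSubring, b ≠ 0 →
    ∃ (c : ↥A) (b' : ↥(chart ↥A s).toSubring),
      (b : ↥F) = algebraMap L ↥F (c : L) * (b' : ↥F) ∧ red0 b' ≠ 0)
  (sat1 : ∀ b : ↥(chart ↥A s⁻¹).toSubring, b ≠ 0 →
    ∃ (c : ↥A) (b' : ↥(chart ↥A s⁻¹).toSubring),
      (b : ↥F) = algebraMap L ↥F (c : L) * (b' : ↥F) ∧ red1 b' ≠ 0)

include hex0 hex1 hred0 hred1 in
/-- **The two charts as a `TwoCharts`**, series form: `red0`, `red1` are the coefficientwise
reductions of the `A`-expansions. -/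
def twoChartsOfSeries
    (places0 : HasPlaces (chartSpecOfChart A hx s hs red0 rc0 sat0))
    (places1 : HasPlaces (chartSpecOfChart A hx s⁻¹ hs' red1 rc1 sat1))
    (tr0 : Transcendental (kA A) (red0 ⟨s, self_mem_chart s⟩)) :
    TwoCharts A hx ↥Ft :=
  twoChartsOfCommon A hx s hs hs' red0 red1 rc0 rc1 sat0 sat1 (Setup8.gaussA A F)
    (Setup8.redA A F) (IntermediateField.val Ft).toRingHom (val_injective A Ft) hex0 hex1
    (val_red0_eq_redA A F Ft s red0 hex0 hred0) (val_red1_eq_redA A F Ft s red1 hex1 hred1)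
    places0 places1 tr0

end Series

end Fermat.Agent.ES.RED.Overlap23
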