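/-
Program I (S37), chapter ES/RED (helper15): CHARACTERISTIC-FREE versions of the fundamental
identities of `X0.FFSum`.

`X0.FFSum` proves `∑_{v | x = c} ord_v (x - c) = [F : K(x)]` and `∑_{v | x = ∞} -ord_v x = [F : K(x)]`
for a function field `F/K` with `K` algebraically closed of characteristic zero; the characteristic
is used only to make `F / K(x)` separable.  Here the same statements are proved for `K`
algebraically closed of ANY characteristic under the hypothesis `[Algebra.IsSeparable K⟮x⟯ F]`
(to be used on the special fibre: `K := k`, `F := F~`, `x := t~`).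

Also: `X0.FF.intRing K x` (the integral closure of `K[x]` in `F`) is a Dedekind domain, finite over
`K[x]`, with fraction field `F`.  (`X0.FF.deg_eq_one`, `X0.FF.exists_ord_sub_pos` of `X0.FFConst`
need no hypothesis on the characteristic.)
-/
import Mathlib
import Fermat.Agent.X0.FFSum

set_option autoImplicit false
set_option linter.unusedSectionVars false

open AlgebraicCurve IntermediateField Polynomial IsDedekindDomain
open scoped IntermediateField.algebraAdjoinAdjoin

noncomputable section

namespace Fermat.Agent.ES.RED.SumOrdSep15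

open Fermat.Agent.X0 Fermat.Agent.X0.FF

variable {K F : Type*} [Field K] [Field F] [Algebra K F] {x : F}

/-- Separability is invariant under equality of the base intermediate field. -/
theorem isSeparable_of_eq {E₁ E₂ : IntermediateField K F} (h : E₁ = E₂)
    [Algebra.IsSeparable E₂ F] : Algebra.IsSeparable E₁ F := by
  subst h
  infer_instance

theorem isSeparable_sub_algebraMap (x : F) (c : K) [Algebra.IsSeparable K⟮x⟯ F] :
    Algebra.IsSeparable K⟮x - algebraMap K F c⟯ F :=
  isSeparable_of_eq (adjoin_sub_algebraMap x c)

theorem isSeparable_inv (x : F) [Algebra.IsSeparable K⟮x⟯ F] :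
    Algebra.IsSeparable K⟮x⁻¹⟯ F :=
  isSeparable_of_eq (adjoin_inv x)

/-! ### the integral closure of `K[x]` in `F` -/

theorem isDedekindDomain_intRing_sep (hx : IsGen K x) [Algebra.IsSeparable K⟮x⟯ F] :
    IsDedekindDomain (intRing K x) := by
  have := hx.finite
  have := isPrincipalIdealRing_polyRing hx.transcendental
  exact integralClosure.isDedekindDomain (polyRing K x) K⟮x⟯ F

theorem finite_intRing_sep (hx : IsGen K x) [Algebra.IsSeparable K⟮x⟯ F] :
    Module.Finite (polyRing K x) (intRing K x) := by
  have := hx.finite
  have := isPrincipalIdealRing_polyRing hx.transcendental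
  exact IsIntegralClosure.finite (polyRing K x) K⟮x⟯ F (intRing K x)

/-! ### the fundamental identity -/

variable [IsAlgClosed K]

theorem zeros_aux_sep (hx : IsGen K x) [Algebra.IsSeparable K⟮x⟯ F] :
    {v : Place K F | 0 < v.ord x}.Finite ∧
    ∑ᶠ (v : Place K F) (_ : 0 < v.ord x), v.ord x = (Module.finrank K⟮x⟯ F : ℤ) := by
  have := hx.finite
  have hPID := isPrincipalIdealRing_polyRing hx.transcendental
  have hDedB := isDedekindDomain_intRing_sep hx
  have hFracB := isFractionRing_intRing hx
  have hFinB := finite_intRing_sep hx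
  have hfaith : FaithfulSMul (polyRing K x) (intRing K x) :=
    (faithfulSMul_iff_algebraMap_injective _ _).mpr
      (fun a b h => Subtype.ext (congrArg (fun z : intRing K x => (z : F)) h))
  have key := sum_ord_of_dedekind (K := K) (F := F) (A := polyRing K x) (B := intRing K x)
    (genA K x) (genA_ne_zero hx.transcendental) (idealX_isMaximal hx.transcendental)
    (fun v f hf => exists_ord_sub_pos hx v hf)
  have hset : {v : Place K F | (∀ b : intRing K x,
        algebraMap (intRing K x) F b ∈ v.toValuationSubring) ∧
      0 < v.ord (algebraMap (intRing K x) F (algebraMap (polyRing K x) (intRing K x) (genA K x)))}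
      = {v : Place K F | 0 < v.ord x} := by
    ext v
    constructor
    · exact fun h => h.2
    · intro hv
      have hv' : 0 < v.ord x := hv
      exact ⟨intRing_le_of_mem v (mem_of_ord_nonneg v hv'.le), hv'⟩
  rw [hset, finrank_intRing hx] at key
  exact key

/-- the zeros of a separating transcendental generator are finite in number -/
theorem finite_zeros_sep (hx : IsGen K x) [Algebra.IsSeparable K⟮x⟯ F] :
    {v : Place K F | 0 < v.ord x}.Finite := (zeros_aux_sep hx).1

/-- **fundamental identity** (any characteristic): the orders of the zeros of `x` sum to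
`[F : K(x)]` -/
theorem sum_ord_zeros_sep (hx : IsGen K x) [Algebra.IsSeparable K⟮x⟯ F] :
    ∑ᶠ (v : Place K F) (_ : 0 < v.ord x), v.ord x = (Module.finrank K⟮x⟯ F : ℤ) :=
  (zeros_aux_sep hx).2

theorem finite_fibre_sep (hx : IsGen K x) [Algebra.IsSeparable K⟮x⟯ F] (c : K) :
    {v : Place K F | 0 < v.ord (x - algebraMap K F c)}.Finite :=
  haveI := isSeparable_sub_algebraMap x c
  finite_zeros_sep (hx.sub_algebraMap c)

theorem sum_ord_fibre_sep (hx : IsGen K x) [Algebra.IsSeparable K⟮x⟯ F] (c : K) :
    ∑ᶠ (v : Place K F) (_ : 0 < v.ord (x - algebraMap K F c)), v.ord (x - algebraMap K F c)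
      = (Module.finrank K⟮x⟯ F : ℤ) := by
  have := isSeparable_sub_algebraMap x c
  rw [sum_ord_zeros_sep (hx.sub_algebraMap c), adjoin_sub_algebraMap]

theorem finite_poles_sep (hx : IsGen K x) [Algebra.IsSeparable K⟮x⟯ F] :
    {v : Place K F | v.ord x < 0}.Finite := by
  have := isSeparable_inv (K := K) x
  have := finite_zeros_sep hx.inv
  convert this using 3 with v
  rw [v.ord_inv]
  omega

theorem sum_ord_poles_sep (hx : IsGen K x) [Algebra.IsSeparable K⟮x⟯ F] :
    ∑ᶠ (v : Place K F) (_ : v.ord x < 0), -v.ord x = (Module.finrank K⟮x⟯ F : ℤ) := by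
  have := isSeparable_inv (K := K) x
  have := sum_ord_zeros_sep hx.inv
  rw [adjoin_inv] at this
  rw [← this]
  refine finsum_congr fun v => ?_
  rw [v.ord_inv]
  have : (v.ord x < 0) = (0 < -v.ord x) := by
    apply propext; constructor <;> intro h <;> omega
  rw [this]

end Fermat.Agent.ES.RED.SumOrdSep15
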