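/-
Program I (S37), chapter RED, helper13: leaf **PIR (B1.5 / A5 RED-V)**.

* `intRing_le_valuationSubring` : a valuation subring `O` of `F` containing the constants `K` and
  the generator `x` contains the integral closure `intRing K x` of `K[x]` in `F`.
* `isPrincipalIdealRing_of_gen_mem` : for a function field `F / K` with separating generator `x`,
  a valuation subring `O ≠ ⊤` of `F` with `K ⊆ O`, `x ∈ O` is a principal ideal ring (it is the
  localisation of the Dedekind domain `intRing K x` at its centre, `PlaceExtend27`).
* `placeOfValuationSubring` : the corresponding `Place K F`.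
* `hasPlaces_of_val` : **for a chart `S : Contract8.ChartSpec A hx Ft` whose reduced coordinate
  `red s` is a separating generator of `Ft / k`, (VAL) at every place of the chart implies
  `TwoCharts8.HasPlaces S`** (the principal ideal property is automatic).
-/
import Mathlib
import Fermat.Agent.ES.RED.TwoCharts8
import Fermat.Agent.ES.RED.SumOrdSep15
import Fermat.Agent.RED.DESC.PlaceExtend27

set_option autoImplicit false

noncomputable section

open AlgebraicCurve IntermediateField

namespace Fermat.Agent.ES.RED.PlacePIR13

open Fermat.Agent.X0.FF Fermat.Agent.ES.RED.SumOrdSep15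
open Fermat.Agent.ES.RED.Contract8 Fermat.Agent.ES.RED.TwoCharts8

section Generic

variable {K F : Type*} [Field K] [Field F] [Algebra K F] {x : F}

/-- a valuation subring containing `K` and `x` contains `K[x]`. -/
theorem polyRing_le_valuationSubring (O : ValuationSubring F)
    (hK : ∀ c : K, algebraMap K F c ∈ O) (hxO : x ∈ O) (a : polyRing K x) :
    algebraMap (polyRing K x) F a ∈ O := by
  let OA : Subalgebra K F :=
    { O.toSubring.toSubsemiring with algebraMap_mem' := hK }
  have h1 : Algebra.adjoin K {x} ≤ OA :=
    Algebra.adjoin_le (by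
      intro y hy
      rw [Set.mem_singleton_iff] at hy
      rw [hy]
      exact hxO)
  exact h1 a.2

/-- a valuation subring containing `K` and `x` contains the integral closure of `K[x]`. -/
theorem intRing_le_valuationSubring (O : ValuationSubring F)
    (hK : ∀ c : K, algebraMap K F c ∈ O) (hxO : x ∈ O) (b : intRing K x) :
    algebraMap (intRing K x) F b ∈ O := by
  have hA : ∀ a : polyRing K x, algebraMap (polyRing K x) F a ∈ O.toSubring :=
    fun a => polyRing_le_valuationSubring O hK hxO a
  let _ : Algebra (polyRing K x) O :=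
    ((algebraMap (polyRing K x) F).codRestrict O.toSubring hA).toAlgebra
  have : IsScalarTower (polyRing K x) O F :=
    IsScalarTower.of_algebraMap_eq fun f => rfl
  have hb : IsIntegral (polyRing K x) (algebraMap (intRing K x) F b) := b.2
  have hb' : IsIntegral O (algebraMap (intRing K x) F b) := hb.tower_top
  obtain ⟨z, hz⟩ := IsIntegrallyClosed.isIntegral_iff.mp hb'
  exact hz ▸ z.2

variable (hx : IsGen K x) [Algebra.IsSeparable K⟮x⟯ F]

include hx in
/-- **(PIR)**: a valuation subring `O ≠ ⊤` of the function field `F / K` (with separating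
generator `x`) which contains `K` and `x` is a principal ideal ring. -/
theorem isPrincipalIdealRing_of_gen_mem (O : ValuationSubring F)
    (hK : ∀ c : K, algebraMap K F c ∈ O) (hxO : x ∈ O) (hO : O ≠ ⊤) :
    IsPrincipalIdealRing ↥O := by
  have := isDedekindDomain_intRing_sep hx
  have := isFractionRing_intRing hx
  exact Fermat.Agent.RED.DESC.PlaceExtend27.isPrincipalIdealRing_of_dedekind_le
    (B := intRing K x) O (intRing_le_valuationSubring O hK hxO) hO

/-- the place of `F / K` with a given valuation ring `O ⊇ K[x]`, `O ≠ ⊤`. -/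
def placeOfValuationSubring (O : ValuationSubring F)
    (hK : ∀ c : K, algebraMap K F c ∈ O) (hxO : x ∈ O) (hO : O ≠ ⊤) : Place K F where
  toValuationSubring := O
  algebraMap_mem' := hK
  ne_top' := hO
  isPrincipalIdealRing' := isPrincipalIdealRing_of_gen_mem hx O hK hxO hO

@[simp] theorem placeOfValuationSubring_toValuationSubring (O : ValuationSubring F)
    (hK : ∀ c : K, algebraMap K F c ∈ O) (hxO : x ∈ O) (hO : O ≠ ⊤) :
    (placeOfValuationSubring hx O hK hxO hO).toValuationSubring = O := rfl

include hx in
/-- the same for `x⁻¹ ∈ O` (the other chart). -/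
theorem isPrincipalIdealRing_of_inv_gen_mem (O : ValuationSubring F)
    (hK : ∀ c : K, algebraMap K F c ∈ O) (hxO : x⁻¹ ∈ O) (hO : O ≠ ⊤) :
    IsPrincipalIdealRing ↥O := by
  have : Algebra.IsSeparable K⟮x⁻¹⟯ F := isSeparable_inv (K := K) (F := F) (x := x)
  have hx' : IsGen K x⁻¹ := by
    apply hx.of_transcendental
    intro h
    exact hx.transcendental (by simpa using h.inv)
  exact isPrincipalIdealRing_of_gen_mem hx' O hK hxO hO

include hx in
/-- **every** valuation subring `O ≠ ⊤` of `F` containing `K` is a principal ideal ring. -/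
theorem isPrincipalIdealRing_of_algebraMap_mem (O : ValuationSubring F)
    (hK : ∀ c : K, algebraMap K F c ∈ O) (hO : O ≠ ⊤) : IsPrincipalIdealRing ↥O := by
  rcases O.mem_or_inv_mem x with h | h
  · exact isPrincipalIdealRing_of_gen_mem hx O hK h hO
  · exact isPrincipalIdealRing_of_inv_gen_mem hx O hK h hO

end Generic

/-! ### the chart form: (VAL) ⇒ `HasPlaces` -/

section Chart

variable {L : Type*} [Field L] [IsAlgClosed L] {A : ValuationSubring L}
variable {F : Type*} [Field F] [Algebra L F] {x : F} {hx : IsGen L x}
variable {Ft : Type*} [Field Ft] [Algebra (kA A) Ft]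

/-- (PIR) at one place of the chart: `O_{rP}` is a principal ideal ring as soon as it is a
valuation ring, `Ft / k` being a function field with a separating generator `xt`. -/
theorem isPrincipalIdealRing_rVS (S : ChartSpec A hx Ft) {xt : Ft} (hxt : IsGen (kA A) xt)
    [Algebra.IsSeparable (kA A)⟮xt⟯ Ft] (P : Place L F) (hP : S.InChart P)
    (hval : S.Val P hP) (hne : S.rVS P hP hval ≠ ⊤) :
    IsPrincipalIdealRing ↥(S.rVS P hP hval) :=
  isPrincipalIdealRing_of_algebraMap_mem hxt (S.rVS P hP hval)
    (fun c => S.algebraMap_mem_rSubring P hP c) hne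

/-- **(VAL) ⇒ `HasPlaces`** for a chart whose reduced coordinate is transcendental, `Ft / k` being a
function field with a separating generator `xt` (e.g. `xt = red s` or its inverse). -/
theorem hasPlaces_of_val (S : ChartSpec A hx Ft) {xt : Ft} (hxt : IsGen (kA A) xt)
    [Algebra.IsSeparable (kA A)⟮xt⟯ Ft] (htr : Transcendental (kA A) (S.red S.sB))
    (hval : ∀ (P : Place L F) (hP : S.InChart P), S.Val P hP) : HasPlaces S := by
  intro P hP
  refine ⟨hval P hP, ?_⟩
  exact isPrincipalIdealRing_rVS S hxt P hP (hval P hP)
    (S.rVS_ne_top P hP (hval P hP) (chi_sSub P hP) (red_sSub_ne_zero htr P hP))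

/-- the form with `xt = red s`. -/
theorem hasPlaces_of_val_gen (S : ChartSpec A hx Ft) (hgen : IsGen (kA A) (S.red S.sB))
    [Algebra.IsSeparable (kA A)⟮S.red S.sB⟯ Ft]
    (hval : ∀ (P : Place L F) (hP : S.InChart P), S.Val P hP) : HasPlaces S :=
  hasPlaces_of_val S hgen hgen.transcendental hval

end Chart

end Fermat.Agent.ES.RED.PlacePIR13
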