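/-
Program I (S37), chapter ES/RED, helper25: the DEGREE half of (MA4):
`[F̃_k : k(t̃)] = [Fbar M : Qbar(t)]` for the Hauptmodul `t = tq · n e`, `k = ResidueField A`, `A` over `ℓ ∤ M`.

* `baseChange_degrees` (generic): base change of constants `φ : k → κ` preserves `[F : k(t)]` and
  `[k(t) : k(j)]` as soon as `[F : k(j)] = ψ` on both sides (sandwich);
* `gauss_degrees` (generic DVR `O ⊂ K`): `[F̃_κ : κ(t̃)] = [F_K : K(t)]` ((LI) + (IRR) + (GB2));
* `relfinrank_tq_residueField` : the concrete statement.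
-/
import Mathlib
import Fermat.Agent.ES.RED.GaussUnit25
import Fermat.Agent.RED.BASE.TBridge15
import Fermat.Agent.RED.BASE.JInKt25
import Fermat.Agent.RED.PUR.SepLaurent25
import Fermat.Agent.RED.PUR.TqOrder26

set_option autoImplicit false
set_option linter.style.haveILetI false

noncomputable section

open HahnSeries ModularCurve IntermediateField

namespace Fermat.Agent.ES.RED.SpecialDegree25

open Fermat.Agent.RED.PUR.GaussGen8 Fermat.Agent.RED.PUR.KtGauss8 Fermat.Agent.RED.PUR.G1Package8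
open Fermat.Agent.RED.PUR.GaussBridge10 Fermat.Agent.RED.PUR.GaussInst25
open Fermat.Agent.RED.PUR Fermat.Agent.IG.PR Fermat.Agent.ES.RED.GaussUnit25

section BaseChange

variable {k κ : Type*} [Field k] [Field κ] (φ : k →+* κ)

theorem eq_of_mul_eq_of_le {n d n' d' ψ : ℕ} (hψ0 : ψ ≠ 0) (h : n * d = ψ) (h' : n' * d' = ψ)
    (hn : n' ≤ n) (hd : d' ≤ d) : n' = n ∧ d' = d := by
  have hd'0 : d' ≠ 0 := fun h0 => hψ0 (by rw [← h', h0, mul_zero])
  have hn'0 : n' ≠ 0 := fun h0 => hψ0 (by rw [← h', h0, zero_mul])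
  constructor
  · by_contra hne
    have hlt : n' < n := lt_of_le_of_ne hn hne
    have : n' * d' < n * d := by
      calc n' * d' < n * d' := Nat.mul_lt_mul_of_pos_right hlt (Nat.pos_of_ne_zero hd'0)
        _ ≤ n * d := Nat.mul_le_mul_left _ hd
    omega
  · by_contra hne
    have hlt : d' < d := lt_of_le_of_ne hd hne
    have : n' * d' < n * d := by
      calc n' * d' < n' * d := Nat.mul_lt_mul_of_pos_left hlt (Nat.pos_of_ne_zero hn'0)
        _ ≤ n * d := Nat.mul_le_mul_right _ hn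
    omega

/-- **Base change of constants** for a tower `k(j) ⊂ k(t) ⊂ F_M`. -/
theorem baseChange_degrees (M : ℕ) [NeZero M] (ψ : ℕ) (hψ0 : ψ ≠ 0)
    (hk : relfinrank k⟮jqModC k⟯ (modularFunctionFieldFullC k M) = ψ)
    (hκ : relfinrank κ⟮jqModC κ⟯ (modularFunctionFieldFullC κ M) = ψ)
    (t : LaurentSeries k) (htE : t ∈ modularFunctionFieldFullC k M) (hjt : jqModC k ∈ k⟮t⟯) :
    coeffMap φ t ∈ modularFunctionFieldFullC κ M ∧ jqModC κ ∈ κ⟮coeffMap φ t⟯ ∧
    relfinrank κ⟮coeffMap φ t⟯ (modularFunctionFieldFullC κ M) =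
      relfinrank k⟮t⟯ (modularFunctionFieldFullC k M) ∧
    relfinrank κ⟮jqModC κ⟯ κ⟮coeffMap φ t⟯ = relfinrank k⟮jqModC k⟯ k⟮t⟯ := by
  have hΦ := DegBaseChange25.coeffMap_algebraMap' φ
  have ht'E : coeffMap φ t ∈ modularFunctionFieldFullC κ M := coeffMap_mem_fullC φ M htE
  have hjt' : jqModC κ ∈ κ⟮coeffMap φ t⟯ := by
    have := DegBaseChange25.map_mem_adjoin φ (coeffMap φ) hΦ {t} hjt
    rwa [Set.image_singleton, coeffMap_jqModC] at this
  -- towers
  have h1 : k⟮jqModC k⟯ ≤ k⟮t⟯ := adjoin_simple_le_iff.mpr hjt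
  have h2 : k⟮t⟯ ≤ modularFunctionFieldFullC k M := adjoin_simple_le_iff.mpr htE
  have h1' : κ⟮jqModC κ⟯ ≤ κ⟮coeffMap φ t⟯ := adjoin_simple_le_iff.mpr hjt'
  have h2' : κ⟮coeffMap φ t⟯ ≤ modularFunctionFieldFullC κ M := adjoin_simple_le_iff.mpr ht'E
  have hmul := relfinrank_mul_relfinrank h1 h2
  have hmul' := relfinrank_mul_relfinrank h1' h2'
  rw [hk] at hmul
  rw [hκ] at hmul'
  have hd0 : relfinrank k⟮jqModC k⟯ k⟮t⟯ ≠ 0 := fun h0 => hψ0 (by rw [← hmul, h0, zero_mul])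
  have hn0 : relfinrank k⟮t⟯ (modularFunctionFieldFullC k M) ≠ 0 :=
    fun h0 => hψ0 (by rw [← hmul, h0, mul_zero])
  -- `n' ≤ n`
  have hn : relfinrank κ⟮coeffMap φ t⟯ (modularFunctionFieldFullC κ M) ≤
      relfinrank k⟮t⟯ (modularFunctionFieldFullC k M) := by
    refine FamilyForm20.relfinrank_le_of_family_bound h2' _ fun m c hc hli => ?_
    refine DegBaseChange25.family_bound_map φ (coeffMap φ) hΦ {t} (divisorExpansionsC k M) h2 _
      (fun m c hc hli => FamilyForm20.le_relfinrank_of_family h2 m hn0 c hc hli) m c ?_ ?_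
    · rw [DegBaseChange25.image_divisorExpansionsC]; exact hc
    · rw [Set.image_singleton]; exact hli
  -- `d' ≤ d`
  have hd : relfinrank κ⟮jqModC κ⟯ κ⟮coeffMap φ t⟯ ≤ relfinrank k⟮jqModC k⟯ k⟮t⟯ := by
    refine FamilyForm20.relfinrank_le_of_family_bound h1' _ fun m c hc hli => ?_
    refine DegBaseChange25.family_bound_map φ (coeffMap φ) hΦ {jqModC k} {t} h1 _
      (fun m c hc hli => FamilyForm20.le_relfinrank_of_family h1 m hd0 c hc hli) m c ?_ ?_
    · rw [Set.image_singleton]; exact hc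
    · rw [Set.image_singleton, coeffMap_jqModC]; exact hli
  obtain ⟨e1, e2⟩ := eq_of_mul_eq_of_le hψ0 (by rw [mul_comm]; exact hmul)
    (by rw [mul_comm]; exact hmul') hn hd
  exact ⟨ht'E, hjt', e1, e2⟩

end BaseChange

section Gauss

variable {K : Type} [Field K] [CharZero K] (O : ValuationSubring K) [IsDiscreteValuationRing ↥O]
  {π : ↥O}

/-- **Degrees under the Gauss reduction**: `[F̃_κ : κ(t̃)] = [F_K : K(t)]`. -/
theorem gauss_degrees (hπ : Irreducible π) (ℓ : ℕ) [Fact ℓ.Prime] [CharP (Res O) ℓ]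
    (M : ℕ) [NeZero M] (hℓM : ¬ ℓ ∣ M) (tG : ↥(gaussRing O))
    (htE : (tG : LaurentSeries K) ∈ modularFunctionFieldFullC K M)
    (hjt : jqModC K ∈ Kt O tG) (htr : Transcendental (Res O) (gaussRed O tG)) :
    gaussRed O tG ∈ modularFunctionFieldFullC (Res O) M ∧ jqModC (Res O) ∈ kt O tG ∧
    relfinrank (kt O tG) (modularFunctionFieldFullC (Res O) M) =
      relfinrank (Kt O tG) (modularFunctionFieldFullC K M) := by
  have hGB2 := resField_fullC_eq O hπ ℓ M hℓM
  have ht'E : gaussRed O tG ∈ modularFunctionFieldFullC (Res O) M := by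
    rw [← hGB2]
    exact ⟨tG, tG.2, htE, rfl⟩
  have hjt' : jqModC (Res O) ∈ kt O tG := by
    have := gaussRed_mem_kt hπ htr hjt (jG O).2
    rwa [show (⟨jqModC K, (jG O).2⟩ : ↥(gaussRing O)) = jG O from rfl, gaussRed_jG] at this
  refine ⟨ht'E, hjt', ?_⟩
  obtain ⟨hn0, hdeg, b, hbE, hbli⟩ := GaussInstN25.degLe_irr_fullC O hπ ℓ M hℓM tG htE hjt
  have hTF : Kt O tG ≤ modularFunctionFieldFullC K M := adjoin_simple_le_iff.mpr htE
  have hTF' : kt O tG ≤ modularFunctionFieldFullC (Res O) M := adjoin_simple_le_iff.mpr ht'E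
  have hJT' : (Res O)⟮jqModC (Res O)⟯ ≤ kt O tG := adjoin_simple_le_iff.mpr hjt'
  have hψ0 : dedekindPsi M ≠ 0 :=
    (Fermat.Agent.X0.GNPsi.gnp_dedekindPsi_pos (NeZero.ne M)).ne'
  have hmul' := relfinrank_mul_relfinrank hJT' hTF'
  rw [DegBaseChange25.relfinrank_fullC_eq_psi_of_charP ℓ (Res O) M hℓM] at hmul'
  have hn'0 : relfinrank (kt O tG) (modularFunctionFieldFullC (Res O) M) ≠ 0 :=
    fun h0 => hψ0 (by rw [← hmul', h0, mul_zero])
  apply le_antisymm
  · -- lift a basis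
    obtain ⟨c, hc, hli⟩ := FamilyForm20.exists_basis_family hTF'
    have hres : ∀ i, ∃ x : ↥(gaussRing O),
        (x : LaurentSeries K) ∈ modularFunctionFieldFullC K M ∧ gaussRed O x = c i := by
      intro i
      obtain ⟨f, hf, hfE, hfy⟩ := fullC_le_resField O M (hc i)
      exact ⟨⟨f, hf⟩, hfE, hfy⟩
    choose x hxE hx using hres
    have hliK := GaussDeg25.linearIndependent_of_gaussRed hπ htr x
      (by
        have : (fun i => gaussRed O (x i)) = c := funext hx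
        rw [this]; exact hli)
    exact hdeg _ _ hxE hliK
  · -- (IRR)
    refine FamilyForm20.le_relfinrank_of_family hTF' _ hn'0 (fun i => gaussRed O (b i)) ?_ hbli
    intro i
    rw [← hGB2]
    exact ⟨b i, (b i).2, hbE i, rfl⟩

end Gauss

section Separable

/-- A finite extension `E / k(x)` inside `k((q))` is finite-dimensional and separable when `x` has
order `-1` (`k` perfect of characteristic `ℓ`). -/
theorem finite_and_separable_of_order {k : Type*} [Field k] (ℓ : ℕ) [Fact ℓ.Prime] [CharP k ℓ]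
    [PerfectField k] {x : LaurentSeries k} (hx : x.order = -1)
    (E : IntermediateField k (LaurentSeries k)) (h : k⟮x⟯ ≤ E) (hfin : relfinrank k⟮x⟯ E ≠ 0) :
    FiniteDimensional ↥(k⟮x⟯) ↥(extendScalars h) ∧
      Algebra.IsSeparable ↥(k⟮x⟯) ↥(extendScalars h) := by
  rw [relfinrank_eq_finrank_of_le h] at hfin
  have hfd : FiniteDimensional ↥(k⟮x⟯) ↥(extendScalars h) :=
    Module.finite_of_finrank_pos (Nat.pos_of_ne_zero hfin)
  refine ⟨hfd, ?_⟩
  have hx0 : x ≠ 0 := by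
    rintro rfl
    rw [HahnSeries.order_zero] at hx
    omega
  have hcop : IsCoprime x.order (ℓ : ℤ) := by
    rw [hx]
    exact (isCoprime_one_left (x := (ℓ : ℤ))).neg_left
  exact SepLaurent25.isSeparable_intermediateField ℓ hx0 hcop (extendScalars h)

end Separable

section Concrete

open Fermat.Agent.RED.Interface4 Fermat.Agent.RED.DESC.NumberFieldDVR27
open Fermat.Agent.RED.BASE Fermat.Agent.RED.BASE.EtaQuot12

/-- **(MA4), degree half.**  For `A` over `ℓ ∤ M`, `k = ResidueField A`, `t = tq · n e` a Hauptmodul at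
level `n ∣ M` (BASE: `TMem n e M`, `TGenBase n e`): `t̃ ∈ F̃_k`, `j̃ ∈ k(t̃)`, and
`[F̃_k : k(t̃)] = [Fbar M : Qbar(t)]`, `[k(t̃) : k(j̃)] = [Qbar(t) : Qbar(j)]`. -/
theorem relfinrank_tq_residueField (n e M : ℕ) [NeZero n] [NeZero M] (ℓ : ℕ) [Fact ℓ.Prime]
    (hℓM : ¬ ℓ ∣ M) (hmem : Interface12.TMem n e M) (hgen : Interface12.TGenBase n e)
    (A : ValuationSubring Qbar) (hA : A.LiesOverPrime ℓ) :
    tq (IsLocalRing.ResidueField ↥A) n e ∈
        modularFunctionFieldFullC (IsLocalRing.ResidueField ↥A) M ∧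
    jqModC (IsLocalRing.ResidueField ↥A) ∈
        (IsLocalRing.ResidueField ↥A)⟮tq (IsLocalRing.ResidueField ↥A) n e⟯ ∧
    relfinrank (IsLocalRing.ResidueField ↥A)⟮tq (IsLocalRing.ResidueField ↥A) n e⟯
        (modularFunctionFieldFullC (IsLocalRing.ResidueField ↥A) M) =
      relfinrank Qbar⟮tq Qbar n e⟯ (Fbar M) ∧
    relfinrank (IsLocalRing.ResidueField ↥A)⟮jqModC (IsLocalRing.ResidueField ↥A)⟯
        (IsLocalRing.ResidueField ↥A)⟮tq (IsLocalRing.ResidueField ↥A) n e⟯ =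
      relfinrank Qbar⟮jqModC Qbar⟯ Qbar⟮tq Qbar n e⟯ := by
  obtain ⟨K₁, hfin₁, hK₁⟩ := TBridge15.exists_tq_mem n e M hmem
  obtain ⟨K₂, hfin₂, hK₂⟩ := JInKt25.exists_j_mem_adjoin (n := n) (e := e) hgen
  haveI := hfin₁
  haveI := hfin₂
  set K : IntermediateField ℚ Qbar := K₁ ⊔ K₂ with hK
  haveI : FiniteDimensional ℚ K := by rw [hK]; infer_instance
  have htK : tq ↥K n e ∈ modularFunctionFieldFullC ↥K M := by
    rw [← DegBaseChange25.laurentBaseChange_full_eq]
    exact hK₁ K le_sup_left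
  have hjK : jqModC ↥K ∈ (↥K)⟮tq ↥K n e⟯ := hK₂ K le_sup_right
  haveI : IsDiscreteValuationRing ↥(AK A K) :=
    isDiscreteValuationRing_AK A K (Fact.out : ℓ.Prime).ne_zero hA
  haveI : CharP (Res (AK A K)) ℓ := charP_residueField_AK A K Fact.out hA
  haveI : CharP (IsLocalRing.ResidueField ↥A) ℓ :=
    charP_of_injective_ringHom (resMap_injective A K) ℓ
  obtain ⟨π, hπ⟩ := IsDiscreteValuationRing.exists_irreducible ↥(AK A K)
  have hψ0 : dedekindPsi M ≠ 0 :=
    (Fermat.Agent.X0.GNPsi.gnp_dedekindPsi_pos (NeZero.ne M)).ne'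
  -- Gauss step
  obtain ⟨g1, g2, g3⟩ := gauss_degrees (AK A K) hπ ℓ M hℓM (TBridge15.tG (AK A K) n e) htK hjK
    (TBridge15.transcendental_gaussRed_tG (AK A K) n e)
  rw [TBridge15.gaussRed_tG] at g1
  have g2' : jqModC (Res (AK A K)) ∈ (Res (AK A K))⟮tq (Res (AK A K)) n e⟯ := by
    have := g2
    rwa [show kt (AK A K) (TBridge15.tG (AK A K) n e) =
      (Res (AK A K))⟮gaussRed (AK A K) (TBridge15.tG (AK A K) n e)⟯ from rfl,
      TBridge15.gaussRed_tG] at this
  have g3' : relfinrank (Res (AK A K))⟮tq (Res (AK A K)) n e⟯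
      (modularFunctionFieldFullC (Res (AK A K)) M) =
      relfinrank (↥K)⟮tq ↥K n e⟯ (modularFunctionFieldFullC ↥K M) := by
    have := g3
    rwa [show kt (AK A K) (TBridge15.tG (AK A K) n e) =
      (Res (AK A K))⟮gaussRed (AK A K) (TBridge15.tG (AK A K) n e)⟯ from rfl,
      TBridge15.gaussRed_tG] at this
  -- `K → Qbar`
  obtain ⟨-, -, b3, b4⟩ := baseChange_degrees (algebraMap ↥K Qbar) M (dedekindPsi M) hψ0
    (DegBaseChange25.relfinrank_fullC_eq_psi_of_charZero ↥K M)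
    (DegBaseChange25.relfinrank_fullC_eq_psi_of_charZero Qbar M) (tq ↥K n e) htK hjK
  rw [coeffMap_tq] at b3 b4
  -- `κ → k`
  obtain ⟨c1, c2, c3, c4⟩ := baseChange_degrees (resMap A K) M (dedekindPsi M) hψ0
    (DegBaseChange25.relfinrank_fullC_eq_psi_of_charP ℓ (Res (AK A K)) M hℓM)
    (DegBaseChange25.relfinrank_fullC_eq_psi_of_charP ℓ (IsLocalRing.ResidueField ↥A) M hℓM)
    (tq (Res (AK A K)) n e) g1 g2'
  rw [coeffMap_tq] at c1 c2 c3 c4
  refine ⟨c1, c2, ?_, ?_⟩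
  · rw [c3, g3', ← b3]
    show _ = relfinrank Qbar⟮tq Qbar n e⟯ (laurentBaseChange Qbar (modularFunctionFieldFull M))
    rw [DegBaseChange25.laurentBaseChange_full_eq]
  · rw [c4, b4]
    -- `[κ(t̃) : κ(j̃)] = [K(t) : K(j)]` from the two products `= ψ(M)`
    have h1 : (↥K)⟮jqModC ↥K⟯ ≤ (↥K)⟮tq ↥K n e⟯ := adjoin_simple_le_iff.mpr hjK
    have h2 : (↥K)⟮tq ↥K n e⟯ ≤ modularFunctionFieldFullC ↥K M := adjoin_simple_le_iff.mpr htK
    have h1' : (Res (AK A K))⟮jqModC (Res (AK A K))⟯ ≤ (Res (AK A K))⟮tq (Res (AK A K)) n e⟯ :=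
      adjoin_simple_le_iff.mpr g2'
    have h2' : (Res (AK A K))⟮tq (Res (AK A K)) n e⟯ ≤
        modularFunctionFieldFullC (Res (AK A K)) M := adjoin_simple_le_iff.mpr g1
    have hmul := relfinrank_mul_relfinrank h1 h2
    have hmul' := relfinrank_mul_relfinrank h1' h2'
    rw [DegBaseChange25.relfinrank_fullC_eq_psi_of_charZero ↥K M] at hmul
    rw [DegBaseChange25.relfinrank_fullC_eq_psi_of_charP ℓ (Res (AK A K)) M hℓM, g3'] at hmul'
    have hn0 : relfinrank (↥K)⟮tq ↥K n e⟯ (modularFunctionFieldFullC ↥K M) ≠ 0 :=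
      fun h0 => hψ0 (by rw [← hmul, h0, mul_zero])
    exact Nat.eq_of_mul_eq_mul_right (Nat.pos_of_ne_zero hn0) (hmul'.trans hmul.symm)

/-- **(MA4), separability half**, over any perfect field `k` of characteristic `ℓ`: if `t̃ ∈ F̃_k`
and `[F̃_k : k(t̃)] ≠ 0` then `F̃_k / k(t̃)` is finite and separable. -/
theorem finite_separable_fullC_over_tq {k : Type*} [Field k] (ℓ : ℕ) [Fact ℓ.Prime] [CharP k ℓ]
    [PerfectField k] (n e M : ℕ) [NeZero n] [NeZero M]
    (h : k⟮tq k n e⟯ ≤ modularFunctionFieldFullC k M)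
    (hfin : relfinrank k⟮tq k n e⟯ (modularFunctionFieldFullC k M) ≠ 0) :
    FiniteDimensional ↥(k⟮tq k n e⟯) ↥(extendScalars h) ∧
      Algebra.IsSeparable ↥(k⟮tq k n e⟯) ↥(extendScalars h) :=
  finite_and_separable_of_order ℓ (Fermat.Agent.RED.PUR.TqOrder26.order_tq k n e) _ h hfin

end Concrete

end Fermat.Agent.ES.RED.SpecialDegree25
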