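/-
Program I (S37), chapter ES/RED, helper25: the inputs of `SpecialFibre13` / `SumOrdSep15` for the special
fibre `F̃ = modularFunctionFieldFullC k M`, `k = ResidueField A`, `t̃ = tq k n e`, in the literal shapes
`X0.FF.IsGen k t̃` and `Algebra.IsSeparable ↥(k⟮t̃⟯) ↥F̃` (subfield generated INSIDE `F̃`).

* generic bridge (`E : IntermediateField k Ω`, `x : ↥E`): `adjoin_simple_eq_comap`,
  `finrank_adjoin_simple_eq_relfinrank`, `isSeparable_adjoin_simple_of_extendScalars`,
  `isGen_of_relfinrank_ne_zero`;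
* concrete: `tRes`, `isGen_tRes`, `isSeparable_tRes`, `finrank_tRes`.
-/
import Mathlib
import Fermat.Agent.ES.RED.SpecialDegree25
import Fermat.Agent.X0.FFDefs
import Fermat.Agent.ES.KRON.KronInst10

set_option autoImplicit false
set_option linter.style.haveILetI false

noncomputable section

open HahnSeries ModularCurve IntermediateField

namespace Fermat.Agent.ES.RED.SpecialGen25

open Fermat.Agent.X0

section Bridge

variable {k Ω : Type*} [Field k] [Field Ω] [Algebra k Ω] (E : IntermediateField k Ω) (x : ↥E)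

theorem adjoin_simple_le : k⟮(x : Ω)⟯ ≤ E := adjoin_simple_le_iff.mpr x.2

/-- `k(x)` generated inside `E` is the preimage of `k(x)` generated inside `Ω`. -/
theorem adjoin_simple_eq_comap :
    (k⟮x⟯ : IntermediateField k ↥E) = (k⟮(x : Ω)⟯).comap E.val := by
  apply le_antisymm
  · rw [adjoin_simple_le_iff]
    exact mem_adjoin_simple_self k (x : Ω)
  · intro y hy
    have h2 : (y : Ω) ∈ IntermediateField.lift (k⟮x⟯ : IntermediateField k ↥E) := by
      rw [IntermediateField.lift_adjoin_simple]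
      exact hy
    exact (IntermediateField.mem_lift y).mp h2

theorem mem_adjoin_simple_iff_coe (y : ↥E) :
    y ∈ (k⟮x⟯ : IntermediateField k ↥E) ↔ (y : Ω) ∈ k⟮(x : Ω)⟯ := by
  rw [adjoin_simple_eq_comap]
  rfl

/-- `[E : k(x)]`, computed inside `E`, is `relfinrank k(x) E`. -/
theorem finrank_adjoin_simple_eq_relfinrank :
    Module.finrank ↥(k⟮x⟯ : IntermediateField k ↥E) ↥E = relfinrank k⟮(x : Ω)⟯ E := by
  rw [adjoin_simple_eq_comap, IntermediateField.finrank_comap, IntermediateField.fieldRange_val]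

/-- The comparison isomorphism `k(x) ⊂ Ω` ≃ `k(x) ⊂ E`. -/
def adjoinEquiv : ↥(k⟮(x : Ω)⟯) ≃+* ↥(k⟮x⟯ : IntermediateField k ↥E) where
  toFun y := ⟨⟨y.1, adjoin_simple_le E x y.2⟩,
    (mem_adjoin_simple_iff_coe E x ⟨y.1, adjoin_simple_le E x y.2⟩).mpr y.2⟩
  invFun z := ⟨(z.1 : Ω), (mem_adjoin_simple_iff_coe E x z.1).mp z.2⟩
  left_inv _ := rfl
  right_inv _ := rfl
  map_mul' _ _ := rfl
  map_add' _ _ := rfl

/-- `E` as an extension of `k(x) ⊂ Ω`, identified with `E`. -/
def extendEquiv : ↥(extendScalars (adjoin_simple_le E x)) ≃+* ↥E where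
  toFun y := ⟨y.1, (mem_extendScalars (adjoin_simple_le E x)).mp y.2⟩
  invFun y := ⟨y.1, (mem_extendScalars (adjoin_simple_le E x)).mpr y.2⟩
  left_inv _ := rfl
  right_inv _ := rfl
  map_mul' _ _ := rfl
  map_add' _ _ := rfl

/-- Separability transfers from the ambient description to the one inside `E`. -/
theorem isSeparable_adjoin_simple_of_extendScalars
    [h : Algebra.IsSeparable ↥(k⟮(x : Ω)⟯) ↥(extendScalars (adjoin_simple_le E x))] :
    Algebra.IsSeparable ↥(k⟮x⟯ : IntermediateField k ↥E) ↥E :=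
  Algebra.IsSeparable.of_equiv_equiv (adjoinEquiv E x) (extendEquiv E x) (by ext y; rfl)

/-- `x` generates `E` in the sense of `X0.FF.IsGen`. -/
theorem isGen_of_relfinrank_ne_zero (htr : Transcendental k (x : Ω))
    (hfin : relfinrank k⟮(x : Ω)⟯ E ≠ 0) : FF.IsGen k x := by
  refine ⟨?_, ?_⟩
  · intro halg
    exact htr (halg.algHom E.val)
  · apply Module.finite_of_finrank_pos
    rw [finrank_adjoin_simple_eq_relfinrank]
    exact Nat.pos_of_ne_zero hfin

end Bridge

section Concrete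

open Fermat.Agent.RED.Interface4 Fermat.Agent.RED.BASE Fermat.Agent.RED.BASE.EtaQuot12
open Fermat.Agent.ES.RED.SpecialDegree25

variable (n e M : ℕ) [NeZero n] [NeZero M] (ℓ : ℕ) [Fact ℓ.Prime] (hℓM : ¬ ℓ ∣ M)
  (hmem : Interface12.TMem n e M) (hgen : Interface12.TGenBase n e)
  (A : ValuationSubring Qbar) (hA : A.LiesOverPrime ℓ)

/-- The Hauptmodul `t̃ = tq k n e` as an element of the special fibre field `F̃ = k(j̃(q^d) : d ∣ M)`,
`k = ResidueField A`. -/
def tRes : ↥(modularFunctionFieldFullC (IsLocalRing.ResidueField ↥A) M) :=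
  ⟨tq (IsLocalRing.ResidueField ↥A) n e,
    (relfinrank_tq_residueField n e M ℓ hℓM hmem hgen A hA).1⟩

@[simp] theorem coe_tRes :
    ((tRes n e M ℓ hℓM hmem hgen A hA : ↥(modularFunctionFieldFullC (IsLocalRing.ResidueField ↥A) M)) :
      LaurentSeries (IsLocalRing.ResidueField ↥A)) = tq (IsLocalRing.ResidueField ↥A) n e := rfl

/-- `[Fbar M : Qbar(t)]`, computed inside `Fbar M`. -/
theorem finrank_tF_eq_relfinrank :
    Module.finrank ↥(Qbar⟮Interface12.tF M hmem⟯ : IntermediateField Qbar (X0.FF M)) (X0.FF M) =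
      relfinrank Qbar⟮tq Qbar n e⟯ (Fbar M) :=
  finrank_adjoin_simple_eq_relfinrank (Fbar M) (Interface12.tF M hmem)

include hmem hgen in
theorem relfinrank_tq_bar_ne_zero : relfinrank Qbar⟮tq Qbar n e⟯ (Fbar M) ≠ 0 := by
  have hle : Qbar⟮tq Qbar n e⟯ ≤ Fbar M := adjoin_simple_le_iff.mpr hmem
  have hj : Qbar⟮jqModC Qbar⟯ ≤ Qbar⟮tq Qbar n e⟯ := by
    obtain ⟨K₂, hfin₂, hK₂⟩ := JInKt25.exists_j_mem_adjoin (n := n) (e := e) hgen
    have hjK := hK₂ K₂ le_rfl
    have := Fermat.Agent.RED.PUR.DegBaseChange25.map_mem_adjoin (algebraMap ↥K₂ Qbar)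
      (coeffMap (algebraMap ↥K₂ Qbar))
      (Fermat.Agent.RED.PUR.DegBaseChange25.coeffMap_algebraMap' (algebraMap ↥K₂ Qbar))
      {tq ↥K₂ n e} hjK
    rw [Set.image_singleton, coeffMap_jqModC, coeffMap_tq] at this
    exact adjoin_simple_le_iff.mpr this
  have hmul := relfinrank_mul_relfinrank hj hle
  have hψ : relfinrank Qbar⟮jqModC Qbar⟯ (Fbar M) = dedekindPsi M :=
    Fermat.Agent.RED.PUR.DegBaseChange25.relfinrank_laurentBaseChange_eq_psi Qbar M
  rw [hψ] at hmul
  intro h0
  rw [h0, mul_zero] at hmul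
  exact (Fermat.Agent.X0.GNPsi.gnp_dedekindPsi_pos (NeZero.ne M)).ne hmul

include hℓM hmem hgen hA in
theorem relfinrank_tRes_ne_zero :
    relfinrank (IsLocalRing.ResidueField ↥A)⟮tq (IsLocalRing.ResidueField ↥A) n e⟯
      (modularFunctionFieldFullC (IsLocalRing.ResidueField ↥A) M) ≠ 0 := by
  rw [(relfinrank_tq_residueField n e M ℓ hℓM hmem hgen A hA).2.2.1]
  exact relfinrank_tq_bar_ne_zero n e M hmem hgen

/-- **`t̃` is a transcendental generator of the special fibre field.** -/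
theorem isGen_tRes : FF.IsGen (IsLocalRing.ResidueField ↥A) (tRes n e M ℓ hℓM hmem hgen A hA) :=
  isGen_of_relfinrank_ne_zero _ _ (TBridge15.transcendental_tq (IsLocalRing.ResidueField ↥A) n e)
    (relfinrank_tRes_ne_zero n e M ℓ hℓM hmem hgen A hA)

/-- **`deg t̃ = deg t`**: `[F̃ : k(t̃)] = [Fbar M : Qbar(t)]`, both computed inside the fields. -/
theorem finrank_tRes :
    Module.finrank
        ↥((IsLocalRing.ResidueField ↥A)⟮tRes n e M ℓ hℓM hmem hgen A hA⟯ :
          IntermediateField (IsLocalRing.ResidueField ↥A)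
            ↥(modularFunctionFieldFullC (IsLocalRing.ResidueField ↥A) M))
        ↥(modularFunctionFieldFullC (IsLocalRing.ResidueField ↥A) M) =
      Module.finrank ↥(Qbar⟮Interface12.tF M hmem⟯ : IntermediateField Qbar (X0.FF M)) (X0.FF M) := by
  rw [finrank_adjoin_simple_eq_relfinrank, finrank_tF_eq_relfinrank]
  exact (relfinrank_tq_residueField n e M ℓ hℓM hmem hgen A hA).2.2.1

/-- **`F̃ / k(t̃)` is separable.** -/
theorem isSeparable_tRes :
    Algebra.IsSeparable
      ↥((IsLocalRing.ResidueField ↥A)⟮tRes n e M ℓ hℓM hmem hgen A hA⟯ :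
        IntermediateField (IsLocalRing.ResidueField ↥A)
          ↥(modularFunctionFieldFullC (IsLocalRing.ResidueField ↥A) M))
      ↥(modularFunctionFieldFullC (IsLocalRing.ResidueField ↥A) M) := by
  haveI : IsAlgClosed (IsLocalRing.ResidueField ↥A) :=
    Fermat.Agent.ES.KRON.KronInst10.isAlgClosed_residueField A
  haveI : CharP (IsLocalRing.ResidueField ↥A) ℓ :=
    Fermat.Agent.ES.KRON.KronInst10.charP_residueField A Fact.out hA
  have hsep := (finite_separable_fullC_over_tq (k := IsLocalRing.ResidueField ↥A) ℓ n e M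
    (adjoin_simple_le _ (tRes n e M ℓ hℓM hmem hgen A hA))
    (relfinrank_tRes_ne_zero n e M ℓ hℓM hmem hgen A hA)).2
  exact isSeparable_adjoin_simple_of_extendScalars (h := hsep) _ (tRes n e M ℓ hℓM hmem hgen A hA)

end Concrete

end Fermat.Agent.ES.RED.SpecialGen25
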