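/-
Program I (S37), chapter RED, helper13: leaf **PIR (B1.5)** in the literal shape consumed by the
B1 integrator (`ModelInstGen4.PIRHyp A Ft`).

* `pirHyp_of_isGen` : `Ft / k` a function field with separating generator `xt` ⇒ `PIRHyp A Ft`;
* `pirHyp_fullC`    : the concrete instance `Ft = k·F̃_M = modularFunctionFieldFullC k M`,
  `k = A / 𝔪_A`, `A` a valuation ring of `ℚ̄` over `ℓ ∤ M` (generator `t̃ = tq k n e`,
  `SpecialGen25`).
-/
import Mathlib
import Fermat.Agent.ES.RED.PlacePIR13
import Fermat.Agent.ES.RED.ModelInstGen4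
import Fermat.Agent.ES.RED.SpecialGen25

set_option autoImplicit false

noncomputable section

open AlgebraicCurve IntermediateField ModularCurve

namespace Fermat.Agent.ES.RED.PIRInst13

open Fermat.Agent.X0.FF Fermat.Agent.ES.RED.Contract8 Fermat.Agent.ES.RED.ModelInstGen4
open Fermat.Agent.RED.Interface4 Fermat.Agent.RED.BASE

section Generic

variable {L : Type*} [Field L] [IsAlgClosed L] {A : ValuationSubring L}
variable {Ft : Type*} [Field Ft] [Algebra (kA A) Ft]

/-- **(PIR)** for a function field `Ft / k` with a separating generator. -/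
theorem pirHyp_of_isGen {xt : Ft} (hxt : IsGen (kA A) xt) [Algebra.IsSeparable (kA A)⟮xt⟯ Ft] :
    PIRHyp A Ft :=
  fun O hK hO => PlacePIR13.isPrincipalIdealRing_of_algebraMap_mem hxt O hK hO

end Generic

section Concrete

variable (n e M : ℕ) [NeZero n] [NeZero M] (ℓ : ℕ) [Fact ℓ.Prime] (hℓM : ¬ ℓ ∣ M)
  (hmem : Interface12.TMem n e M) (hgen : Interface12.TGenBase n e)
  (A : ValuationSubring Qbar) (hA : A.LiesOverPrime ℓ)

include hℓM hmem hgen hA in
/-- **(PIR) for the special fibre** `F̃ = k·F̃_M`, `k = A / 𝔪_A`. -/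
theorem pirHyp_fullC : PIRHyp A ↥(modularFunctionFieldFullC (kA A) M) := by
  have := SpecialGen25.isSeparable_tRes n e M ℓ hℓM hmem hgen A hA
  exact pirHyp_of_isGen (SpecialGen25.isGen_tRes n e M ℓ hℓM hmem hgen A hA)

end Concrete

end Fermat.Agent.ES.RED.PIRInst13
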