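/-
Program I (S37), chapter ES/RED, helper25 — leaf T1g: the generator / separability / degree facts
for BOTH coordinates `t` and `t⁻¹`, upstairs (`Fbar M` over `Qbar`) and on the special fibre
(`F̃ = modularFunctionFieldFullC k M` over `k = ResidueField A`), in the literal shapes consumed by
`X0.FFSum.sum_ord_fibre` / `SumOrdSep15.sum_ord_fibre_sep`, together with the resulting fundamental
identities with ONE common degree `degT`  (fields `fi`, `fit`, `fint`, `red_x_ne` of
`R2Abstract14.ChartHyp`, field `tr0` of `TwoCharts8.TwoCharts`).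

Also: the formal inverse `tqInv R n e` of the Hauptmodul `tq R n e` over any commutative ring, so that
`t⁻¹` has the `A`-integral expansion `tqInv ↥A n e`, reducing to `t̃⁻¹`.
-/
import Mathlib
import Fermat.Agent.ES.RED.SpecialGen25
import Fermat.Agent.ES.RED.SumOrdSep15
import Fermat.Agent.X0.FFSum
import Fermat.Agent.RED.BASE.TGen19

set_option autoImplicit false
set_option linter.style.haveILetI false

noncomputable section

open HahnSeries ModularCurve IntermediateField AlgebraicCurve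

namespace Fermat.Agent.ES.RED.SpecialInv25

open Fermat.Agent.X0 Fermat.Agent.RED.Interface4 Fermat.Agent.RED.BASE
  Fermat.Agent.RED.BASE.EtaQuot12 Fermat.Agent.ES.RED.SpecialGen25
  Fermat.Agent.ES.RED.SumOrdSep15

/-! ### the formal inverse of the Hauptmodul -/

section Formal

variable (R : Type*) [CommRing R]

/-- the formal inverse `q (η(q^n)/η(q))^e` of `tq R n e`. -/
def tqInv (n e : ℕ) [NeZero n] : LaurentSeries R :=
  HahnSeries.single (1 : ℤ) 1 * etaqInv R ^ e * qExpand R n (etaq R) ^ e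

theorem tq_mul_tqInv (n e : ℕ) [NeZero n] : tq R n e * tqInv R n e = 1 := by
  have h1 : (HahnSeries.single (-1 : ℤ) (1 : R)) * HahnSeries.single (1 : ℤ) 1 = 1 := by
    rw [HahnSeries.single_mul_single]
    simp
  have h2 : etaq R ^ e * etaqInv R ^ e = 1 := by
    rw [← mul_pow, etaq_mul_etaqInv, one_pow]
  have h3 : qExpand R n (etaqInv R) ^ e * qExpand R n (etaq R) ^ e = 1 := by
    rw [← mul_pow, ← map_mul, mul_comm, etaq_mul_etaqInv, map_one, one_pow]
  calc tq R n e * tqInv R n e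
      = (HahnSeries.single (-1 : ℤ) (1 : R) * HahnSeries.single (1 : ℤ) 1)
          * (etaq R ^ e * etaqInv R ^ e)
          * (qExpand R n (etaqInv R) ^ e * qExpand R n (etaq R) ^ e) := by
        rw [tq, tqInv]; ring
    _ = 1 := by rw [h1, h2, h3, one_mul, one_mul]

theorem coeffMap_tqInv {S : Type*} [CommRing S] (φ : R →+* S) (n e : ℕ) [NeZero n] :
    coeffMap φ (tqInv R n e) = tqInv S n e := by
  rw [tqInv, tqInv, map_mul, map_mul, map_pow, map_pow, coeffMap_single,
    ModularCurve.coeffMap_qExpand, coeffMap_etaq, coeffMap_etaqInv, map_one]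

end Formal

theorem tqInv_eq_inv (K : Type*) [Field K] (n e : ℕ) [NeZero n] :
    tqInv K n e = (tq K n e)⁻¹ :=
  eq_inv_of_mul_eq_one_right (tq_mul_tqInv K n e)

/-! ### upstairs: `Fbar M / Qbar` -/

section Upstairs

variable (n e M : ℕ) [NeZero n] [NeZero M] (hmem : Interface12.TMem n e M)

/-- the common degree `[Fbar M : Qbar(t)]`. -/
def degT : ℕ :=
  Module.finrank ↥(Qbar⟮Interface12.tF M hmem⟯ : IntermediateField Qbar (X0.FF M)) (X0.FF M)

theorem isGen_tF : FF.IsGen Qbar (Interface12.tF M hmem) := TGen19.isGen_tF n e M hmem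

theorem isGen_tF_inv : FF.IsGen Qbar (Interface12.tF M hmem)⁻¹ := (isGen_tF n e M hmem).inv

theorem finrank_tF_inv :
    Module.finrank ↥(Qbar⟮(Interface12.tF M hmem)⁻¹⟯ : IntermediateField Qbar (X0.FF M)) (X0.FF M)
      = degT n e M hmem := by
  rw [FF.adjoin_inv]
  rfl

/-- `fi` for the coordinate `t`. -/
theorem sum_ord_fibre_tF (a : Qbar) :
    ∑ᶠ (P : Place Qbar (X0.FF M))
        (_ : 0 < P.ord (Interface12.tF M hmem - algebraMap Qbar (X0.FF M) a)),
      P.ord (Interface12.tF M hmem - algebraMap Qbar (X0.FF M) a) = (degT n e M hmem : ℤ) :=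
  FF.sum_ord_fibre (isGen_tF n e M hmem) a

/-- `fi` for the coordinate `t⁻¹`. -/
theorem sum_ord_fibre_tF_inv (a : Qbar) :
    ∑ᶠ (P : Place Qbar (X0.FF M))
        (_ : 0 < P.ord ((Interface12.tF M hmem)⁻¹ - algebraMap Qbar (X0.FF M) a)),
      P.ord ((Interface12.tF M hmem)⁻¹ - algebraMap Qbar (X0.FF M) a) = (degT n e M hmem : ℤ) := by
  rw [FF.sum_ord_fibre (isGen_tF_inv n e M hmem) a, finrank_tF_inv]

/-- the `q`-expansion of `t` is `A`-integral: it is `coeffMap A.subtype (tq ↥A n e)`. -/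
theorem coe_tF (A : ValuationSubring Qbar) :
    ((Interface12.tF M hmem : X0.FF M) : LaurentSeries Qbar) = coeffMap A.subtype (tq ↥A n e) := by
  rw [coeffMap_tq]
  rfl

/-- the `q`-expansion of `t⁻¹` is `A`-integral: it is `coeffMap A.subtype (tqInv ↥A n e)`. -/
theorem coe_tF_inv (A : ValuationSubring Qbar) :
    (((Interface12.tF M hmem)⁻¹ : X0.FF M) : LaurentSeries Qbar)
      = coeffMap A.subtype (tqInv ↥A n e) := by
  rw [coeffMap_tqInv, tqInv_eq_inv]
  rfl

end Upstairs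

/-! ### the special fibre -/

section Special

variable (n e M : ℕ) [NeZero n] [NeZero M] (ℓ : ℕ) [Fact ℓ.Prime] (hℓM : ¬ ℓ ∣ M)
  (hmem : Interface12.TMem n e M) (hgen : Interface12.TGenBase n e)
  (A : ValuationSubring Qbar) (hA : A.LiesOverPrime ℓ)

/-- `tr0`: `t̃` is transcendental over `k`. -/
theorem transcendental_tRes : Transcendental (IsLocalRing.ResidueField ↥A) (tRes n e M ℓ hℓM hmem hgen A hA) :=
  (isGen_tRes n e M ℓ hℓM hmem hgen A hA).transcendental

/-- `red_x_ne`: `t̃` is not a constant. -/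
theorem tRes_ne_algebraMap (c : (IsLocalRing.ResidueField ↥A)) : (tRes n e M ℓ hℓM hmem hgen A hA) ≠ algebraMap (IsLocalRing.ResidueField ↥A) ↥(modularFunctionFieldFullC (IsLocalRing.ResidueField ↥A) M) c := by
  intro h
  exact (isGen_tRes n e M ℓ hℓM hmem hgen A hA).sub_algebraMap_ne_zero c (by rw [h, sub_self])

theorem isGen_tRes_inv : FF.IsGen (IsLocalRing.ResidueField ↥A) (tRes n e M ℓ hℓM hmem hgen A hA)⁻¹ := (isGen_tRes n e M ℓ hℓM hmem hgen A hA).inv

theorem tRes_inv_ne_algebraMap (c : (IsLocalRing.ResidueField ↥A)) : (tRes n e M ℓ hℓM hmem hgen A hA)⁻¹ ≠ algebraMap (IsLocalRing.ResidueField ↥A) ↥(modularFunctionFieldFullC (IsLocalRing.ResidueField ↥A) M) c := by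
  intro h
  exact (isGen_tRes_inv n e M ℓ hℓM hmem hgen A hA).sub_algebraMap_ne_zero c (by rw [h, sub_self])

theorem isSeparable_tRes_inv :
    Algebra.IsSeparable ↥((IsLocalRing.ResidueField ↥A)⟮(tRes n e M ℓ hℓM hmem hgen A hA)⁻¹⟯ : IntermediateField (IsLocalRing.ResidueField ↥A) ↥(modularFunctionFieldFullC (IsLocalRing.ResidueField ↥A) M)) ↥(modularFunctionFieldFullC (IsLocalRing.ResidueField ↥A) M) := by
  haveI := isSeparable_tRes n e M ℓ hℓM hmem hgen A hA
  exact isSeparable_inv (K := (IsLocalRing.ResidueField ↥A)) (tRes n e M ℓ hℓM hmem hgen A hA)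

/-- `[F̃ : k(t̃)] = degT`. -/
theorem finrank_tRes_eq_degT :
    Module.finrank ↥((IsLocalRing.ResidueField ↥A)⟮(tRes n e M ℓ hℓM hmem hgen A hA)⟯ : IntermediateField (IsLocalRing.ResidueField ↥A) ↥(modularFunctionFieldFullC (IsLocalRing.ResidueField ↥A) M)) ↥(modularFunctionFieldFullC (IsLocalRing.ResidueField ↥A) M) = degT n e M hmem :=
  finrank_tRes n e M ℓ hℓM hmem hgen A hA

/-- `[F̃ : k(t̃⁻¹)] = degT`. -/
theorem finrank_tRes_inv :
    Module.finrank ↥((IsLocalRing.ResidueField ↥A)⟮(tRes n e M ℓ hℓM hmem hgen A hA)⁻¹⟯ : IntermediateField (IsLocalRing.ResidueField ↥A) ↥(modularFunctionFieldFullC (IsLocalRing.ResidueField ↥A) M)) ↥(modularFunctionFieldFullC (IsLocalRing.ResidueField ↥A) M) = degT n e M hmem := by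
  rw [FF.adjoin_inv]
  exact finrank_tRes n e M ℓ hℓM hmem hgen A hA

/-- `[F̃ : k(t̃⁻¹)] = [Fbar M : Qbar(t⁻¹)]`. -/
theorem finrank_tRes_inv_eq :
    Module.finrank ↥((IsLocalRing.ResidueField ↥A)⟮(tRes n e M ℓ hℓM hmem hgen A hA)⁻¹⟯ : IntermediateField (IsLocalRing.ResidueField ↥A) ↥(modularFunctionFieldFullC (IsLocalRing.ResidueField ↥A) M)) ↥(modularFunctionFieldFullC (IsLocalRing.ResidueField ↥A) M) =
      Module.finrank ↥(Qbar⟮(Interface12.tF M hmem)⁻¹⟯ : IntermediateField Qbar (X0.FF M))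
        (X0.FF M) := by
  rw [finrank_tRes_inv, finrank_tF_inv]

theorem isAlgClosed_kk : IsAlgClosed (IsLocalRing.ResidueField ↥A) :=
  Fermat.Agent.ES.KRON.KronInst10.isAlgClosed_residueField A

/-- `fit` for the coordinate `t̃`. -/
theorem sum_ord_fibre_tRes (c : (IsLocalRing.ResidueField ↥A)) :
    ∑ᶠ (Q : Place (IsLocalRing.ResidueField ↥A) ↥(modularFunctionFieldFullC (IsLocalRing.ResidueField ↥A) M)) (_ : 0 < Q.ord ((tRes n e M ℓ hℓM hmem hgen A hA) - algebraMap (IsLocalRing.ResidueField ↥A) ↥(modularFunctionFieldFullC (IsLocalRing.ResidueField ↥A) M) c)),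
      Q.ord ((tRes n e M ℓ hℓM hmem hgen A hA) - algebraMap (IsLocalRing.ResidueField ↥A) ↥(modularFunctionFieldFullC (IsLocalRing.ResidueField ↥A) M) c) = (degT n e M hmem : ℤ) := by
  haveI := isAlgClosed_kk A
  haveI := isSeparable_tRes n e M ℓ hℓM hmem hgen A hA
  rw [sum_ord_fibre_sep (isGen_tRes n e M ℓ hℓM hmem hgen A hA) c, finrank_tRes_eq_degT]

/-- `fit` for the coordinate `t̃⁻¹`. -/
theorem sum_ord_fibre_tRes_inv (c : (IsLocalRing.ResidueField ↥A)) :
    ∑ᶠ (Q : Place (IsLocalRing.ResidueField ↥A) ↥(modularFunctionFieldFullC (IsLocalRing.ResidueField ↥A) M)) (_ : 0 < Q.ord ((tRes n e M ℓ hℓM hmem hgen A hA)⁻¹ - algebraMap (IsLocalRing.ResidueField ↥A) ↥(modularFunctionFieldFullC (IsLocalRing.ResidueField ↥A) M) c)),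
      Q.ord ((tRes n e M ℓ hℓM hmem hgen A hA)⁻¹ - algebraMap (IsLocalRing.ResidueField ↥A) ↥(modularFunctionFieldFullC (IsLocalRing.ResidueField ↥A) M) c) = (degT n e M hmem : ℤ) := by
  haveI := isAlgClosed_kk A
  haveI := isSeparable_tRes_inv n e M ℓ hℓM hmem hgen A hA
  rw [sum_ord_fibre_sep (isGen_tRes_inv n e M ℓ hℓM hmem hgen A hA) c, finrank_tRes_inv]

/-- `fint` for `t̃`. -/
theorem finite_fibre_tRes (c : (IsLocalRing.ResidueField ↥A)) :
    {Q : Place (IsLocalRing.ResidueField ↥A) ↥(modularFunctionFieldFullC (IsLocalRing.ResidueField ↥A) M) | 0 < Q.ord ((tRes n e M ℓ hℓM hmem hgen A hA) - algebraMap (IsLocalRing.ResidueField ↥A) ↥(modularFunctionFieldFullC (IsLocalRing.ResidueField ↥A) M) c)}.Finite := by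
  haveI := isAlgClosed_kk A
  haveI := isSeparable_tRes n e M ℓ hℓM hmem hgen A hA
  exact finite_fibre_sep (isGen_tRes n e M ℓ hℓM hmem hgen A hA) c

/-- `fint` for `t̃⁻¹`. -/
theorem finite_fibre_tRes_inv (c : (IsLocalRing.ResidueField ↥A)) :
    {Q : Place (IsLocalRing.ResidueField ↥A) ↥(modularFunctionFieldFullC (IsLocalRing.ResidueField ↥A) M) | 0 < Q.ord ((tRes n e M ℓ hℓM hmem hgen A hA)⁻¹ - algebraMap (IsLocalRing.ResidueField ↥A) ↥(modularFunctionFieldFullC (IsLocalRing.ResidueField ↥A) M) c)}.Finite := by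
  haveI := isAlgClosed_kk A
  haveI := isSeparable_tRes_inv n e M ℓ hℓM hmem hgen A hA
  exact finite_fibre_sep (isGen_tRes_inv n e M ℓ hℓM hmem hgen A hA) c

/-- the reduction of the `A`-expansion `tq ↥A n e` of `t` is `t̃`. -/
theorem coe_tRes_eq :
    (((tRes n e M ℓ hℓM hmem hgen A hA) : ↥(modularFunctionFieldFullC (IsLocalRing.ResidueField ↥A) M)) : LaurentSeries (IsLocalRing.ResidueField ↥A)) = coeffMap (IsLocalRing.residue ↥A) (tq ↥A n e) := by
  rw [coeffMap_tq]
  rfl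

/-- the reduction of the `A`-expansion `tqInv ↥A n e` of `t⁻¹` is `t̃⁻¹`. -/
theorem coe_tRes_inv :
    (((tRes n e M ℓ hℓM hmem hgen A hA)⁻¹ : ↥(modularFunctionFieldFullC (IsLocalRing.ResidueField ↥A) M)) : LaurentSeries (IsLocalRing.ResidueField ↥A)) = coeffMap (IsLocalRing.residue ↥A) (tqInv ↥A n e) := by
  rw [coeffMap_tqInv, tqInv_eq_inv]
  rfl

end Special

end Fermat.Agent.ES.RED.SpecialInv25
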