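/-
Program I (S37), chapter ES/RED — helper4 (B1 integrator).  **The concrete two-chart structure over
`A ≤ ℚ̄`** for the Hauptmodul `t = tF M hmem` of level `n ∣ M`, `ℓ ∤ M`.

Inputs still taken as hypotheses in this file (owners: helper16 `LevelSat16`, helper26 `LevelsInst26`):
* `hsat0 : LevelSat A M t`, `hsat1 : LevelSat A M t⁻¹`  (level-`K` saturation of the charts);
* `hlev0 : HasLevels S0`, `hlev1 : HasLevels S1`           (level systems at every place).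

Outputs:
* `S0`, `S1` : the two `Contract8.ChartSpec`s (`.s = t`, `.s = t⁻¹` by `rfl`), `coeffChart0/1`,
  `compat0/1`, `coe_red_s0` (`red₀ t = t̃`), `tr0`;
* `twoCharts … : TwoCharts A hx F̃` with `.S0 = S0`, `.S1 = S1` (`rfl`);  `peelA0`, `peelA1`.
-/
import Mathlib
import Fermat.Agent.ES.RED.ChartInstGen4
import Fermat.Agent.ES.RED.ModelInstGen4
import Fermat.Agent.ES.RED.Overlap23
import Fermat.Agent.ES.RED.PIRInst13
import Fermat.Agent.ES.RED.Tr0Inst18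
import Fermat.Agent.ES.RED.SpecialInv25

set_option autoImplicit false
set_option linter.unusedSectionVars false

open HahnSeries ModularCurve AlgebraicCurve

noncomputable section

namespace Fermat.Agent.ES.RED.ModelInst4

open Fermat.Agent.RED.Interface4 Fermat.Agent.RED.PUR.ChartGeneric22
  Fermat.Agent.RED.BASE.Interface12 Fermat.Agent.RED.BASE.EtaQuot12
  Fermat.Agent.ES.RED.ChartIntegralA1 Fermat.Agent.ES.RED.Contract8
  Fermat.Agent.ES.RED.TwoCharts8 Fermat.Agent.ES.RED.ModelInstGen4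
  Fermat.Agent.ES.RED.ChartInstGen4 Fermat.Agent.ES.RED.SpecialInv25 Fermat.Agent.X0.FF

variable (n e M : ℕ) [NeZero n] [NeZero M] (ℓ : ℕ) [Fact ℓ.Prime] (hℓM : ¬ ℓ ∣ M)
  (hmem : TMem n e M) (hgen : TGenBase n e) (A : ValuationSubring Qbar) (hA : A.LiesOverPrime ℓ)

/-- the special-fibre function field `F̃ = k·F̃_M`. -/
abbrev Ft : Type := ↥(modularFunctionFieldFullC (Contract8.kA A) M)

/-- `t` has the `A`-integral expansion `tq A n e`. -/
theorem tF_mem_intF : tF M hmem ∈ intF A M :=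
  (mem_intF_iff A M).mpr ⟨tq ↥A n e, coeffMap_tq ↥A A.subtype n e⟩

/-- `t⁻¹` has the `A`-integral expansion `tqInv A n e`. -/
theorem tF_inv_mem_intF : (tF M hmem)⁻¹ ∈ intF A M := by
  refine (mem_intF_iff A M).mpr ⟨tqInv ↥A n e, ?_⟩
  rw [coeffMap_tqInv, tqInv_eq_inv]
  rfl

variable (hsat0 : LevelSat A M (tF M hmem)) (hsat1 : LevelSat A M (tF M hmem)⁻¹)

/-- **Chart 0**: coordinate `t`. -/
def S0 : ChartSpec A (isGen_tF n e M hmem) (Ft M A) :=
  chartSpecA A M ℓ hA hℓM (isGen_tF n e M hmem) (tF M hmem) (tF_mem_intF n e M hmem A)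
    (isGen_tF n e M hmem) hsat0

/-- **Chart 1**: coordinate `t⁻¹`. -/
def S1 : ChartSpec A (isGen_tF n e M hmem) (Ft M A) :=
  chartSpecA A M ℓ hA hℓM (isGen_tF n e M hmem) (tF M hmem)⁻¹ (tF_inv_mem_intF n e M hmem A)
    (isGen_tF_inv n e M hmem) hsat1

@[simp] theorem S0_s : (S0 n e M ℓ hℓM hmem A hA hsat0).s = tF M hmem := rfl

@[simp] theorem S1_s : (S1 n e M ℓ hℓM hmem A hA hsat1).s = (tF M hmem)⁻¹ := rfl

theorem S0_B : (S0 n e M ℓ hℓM hmem A hA hsat0).B = (chart ↥A (tF M hmem)).toSubring := rfl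

theorem S1_B : (S1 n e M ℓ hℓM hmem A hA hsat1).B = (chart ↥A (tF M hmem)⁻¹).toSubring := rfl

/-- the coordinates have rational coefficients. -/
theorem coeffMap_sigma_tF (σ : Qbar ≃ₐ[ℚ] Qbar) :
    coeffMap ((σ : Qbar ≃+* Qbar) : Qbar →+* Qbar)
      ((tF M hmem : ↥(Fbar M)) : LaurentSeries Qbar) = ((tF M hmem : ↥(Fbar M)) : LaurentSeries Qbar) :=
  coeffMap_tq Qbar ((σ : Qbar ≃+* Qbar) : Qbar →+* Qbar) n e

theorem coeffMap_sigma_tF_inv (σ : Qbar ≃ₐ[ℚ] Qbar) :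
    coeffMap ((σ : Qbar ≃+* Qbar) : Qbar →+* Qbar)
      (((tF M hmem)⁻¹ : ↥(Fbar M)) : LaurentSeries Qbar) =
        (((tF M hmem)⁻¹ : ↥(Fbar M)) : LaurentSeries Qbar) := by
  have h : (((tF M hmem)⁻¹ : ↥(Fbar M)) : LaurentSeries Qbar) = (tq Qbar n e)⁻¹ := rfl
  rw [h, map_inv₀, coeffMap_tq]

/-- (R3) interface, chart 0. -/
theorem coeffChart0 :
    GaloisInst21.CoeffChart (F₀ := modularFunctionFieldFull M) (S0 n e M ℓ hℓM hmem A hA hsat0) :=
  coeffChart_chartSpecA A M ℓ hA hℓM (isGen_tF n e M hmem) (tF M hmem)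
    (tF_mem_intF n e M hmem A) (isGen_tF n e M hmem) hsat0 (coeffMap_sigma_tF n e M hmem)

/-- (R3) interface, chart 1. -/
theorem coeffChart1 :
    GaloisInst21.CoeffChart (F₀ := modularFunctionFieldFull M) (S1 n e M ℓ hℓM hmem A hA hsat1) :=
  coeffChart_chartSpecA A M ℓ hA hℓM (isGen_tF n e M hmem) (tF M hmem)⁻¹
    (tF_inv_mem_intF n e M hmem A) (isGen_tF_inv n e M hmem) hsat1
    (coeffMap_sigma_tF_inv n e M hmem)

/-- RED-Z interface. -/
theorem compat0 : RedCharts15.Compat A M (S0 n e M ℓ hℓM hmem A hA hsat0) :=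
  compat_chartSpecA A M ℓ hA hℓM (isGen_tF n e M hmem) (tF M hmem)
    (tF_mem_intF n e M hmem A) (isGen_tF n e M hmem) hsat0

theorem compat1 : RedCharts15.Compat A M (S1 n e M ℓ hℓM hmem A hA hsat1) :=
  compat_chartSpecA A M ℓ hA hℓM (isGen_tF n e M hmem) (tF M hmem)⁻¹
    (tF_inv_mem_intF n e M hmem A) (isGen_tF_inv n e M hmem) hsat1

/-- **`red₀ t = t̃`**, on expansions. -/
theorem coe_red_s0 :
    (((S0 n e M ℓ hℓM hmem A hA hsat0).red (S0 n e M ℓ hℓM hmem A hA hsat0).sB : Ft M A) :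
      LaurentSeries (Contract8.kA A)) = tq (Contract8.kA A) n e := by
  have h := red_eq_chartSpecA A M ℓ hA hℓM (isGen_tF n e M hmem) (tF M hmem)
    (tF_mem_intF n e M hmem A) (isGen_tF n e M hmem) hsat0
    (S0 n e M ℓ hℓM hmem A hA hsat0).sB (tq ↥A n e) (coeffMap_tq ↥A A.subtype n e)
  exact h.trans (coeffMap_tq ↥A (resA A) n e)

/-- **`red₁ t⁻¹ = t̃⁻¹`**, on expansions. -/
theorem coe_red_s1 :
    (((S1 n e M ℓ hℓM hmem A hA hsat1).red (S1 n e M ℓ hℓM hmem A hA hsat1).sB : Ft M A) :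
      LaurentSeries (Contract8.kA A)) = (tq (Contract8.kA A) n e)⁻¹ := by
  have h : coeffMap A.subtype (tqInv ↥A n e) =
      ((((S1 n e M ℓ hℓM hmem A hA hsat1).sB : ↥(S1 n e M ℓ hℓM hmem A hA hsat1).B) :
        ↥(Fbar M)) : LaurentSeries Qbar) := by
    rw [coeffMap_tqInv, tqInv_eq_inv]
    rfl
  have h2 := red_eq_chartSpecA A M ℓ hA hℓM (isGen_tF n e M hmem) (tF M hmem)⁻¹
    (tF_inv_mem_intF n e M hmem A) (isGen_tF_inv n e M hmem) hsat1
    (S1 n e M ℓ hℓM hmem A hA hsat1).sB (tqInv ↥A n e) h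
  refine h2.trans ?_
  rw [coeffMap_tqInv, tqInv_eq_inv]

/-- **`tr0`**. -/
theorem tr0 : Transcendental (Contract8.kA A)
    ((S0 n e M ℓ hℓM hmem A hA hsat0).red (S0 n e M ℓ hℓM hmem A hA hsat0).sB) :=
  Tr0Inst18.tr0_of_coe M n e _ (coe_red_s0 n e M ℓ hℓM hmem A hA hsat0)

/-- `red₀ t = t̃` as elements of `F̃`. -/
theorem red_s0_eq_tRes :
    (S0 n e M ℓ hℓM hmem A hA hsat0).red (S0 n e M ℓ hℓM hmem A hA hsat0).sB =
      SpecialGen25.tRes n e M ℓ hℓM hmem hgen A hA :=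
  Subtype.ext (coe_red_s0 n e M ℓ hℓM hmem A hA hsat0)

/-- the overlap: `red₀ t · red₁ t⁻¹ = 1`. -/
theorem red_s_mul :
    (S0 n e M ℓ hℓM hmem A hA hsat0).red (S0 n e M ℓ hℓM hmem A hA hsat0).sB *
      (S1 n e M ℓ hℓM hmem A hA hsat1).red (S1 n e M ℓ hℓM hmem A hA hsat1).sB = 1 :=
  Overlap23.red_s_mul_of_series A (Fbar M) (modularFunctionFieldFullC (Contract8.kA A) M)
    (tF M hmem) _ _
    (fun b hb => exists_series_chartSpecA A M ℓ hA hℓM (isGen_tF n e M hmem) (tF M hmem)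
      (tF_mem_intF n e M hmem A) (isGen_tF n e M hmem) hsat0 ⟨b, hb⟩)
    (fun b hb => exists_series_chartSpecA A M ℓ hA hℓM (isGen_tF n e M hmem) (tF M hmem)⁻¹
      (tF_inv_mem_intF n e M hmem A) (isGen_tF_inv n e M hmem) hsat1 ⟨b, hb⟩)
    (fun b Y hY => red_eq_chartSpecA A M ℓ hA hℓM (isGen_tF n e M hmem) (tF M hmem)
      (tF_mem_intF n e M hmem A) (isGen_tF n e M hmem) hsat0 b Y hY)
    (fun b Y hY => red_eq_chartSpecA A M ℓ hA hℓM (isGen_tF n e M hmem) (tF M hmem)⁻¹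
      (tF_inv_mem_intF n e M hmem A) (isGen_tF_inv n e M hmem) hsat1 b Y hY)
    (isGen_tF n e M hmem).ne_zero

/-- the overlap: `B₁ ⊆ B₀[1/t]`, compatibly with the reductions. -/
theorem ov0 (b : ↥(S1 n e M ℓ hℓM hmem A hA hsat1).B) :
    ∃ (m : ℕ) (b0 : ↥(S0 n e M ℓ hℓM hmem A hA hsat0).B),
      (b0 : ↥(Fbar M)) = (S0 n e M ℓ hℓM hmem A hA hsat0).s ^ m * (b : ↥(Fbar M)) ∧
      (S0 n e M ℓ hℓM hmem A hA hsat0).red b0 =
        (S0 n e M ℓ hℓM hmem A hA hsat0).red (S0 n e M ℓ hℓM hmem A hA hsat0).sB ^ m *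
          (S1 n e M ℓ hℓM hmem A hA hsat1).red b :=
  Overlap23.ov0_of_series A (Fbar M) (modularFunctionFieldFullC (Contract8.kA A) M)
    (tF M hmem) _ _
    (fun b hb => exists_series_chartSpecA A M ℓ hA hℓM (isGen_tF n e M hmem) (tF M hmem)
      (tF_mem_intF n e M hmem A) (isGen_tF n e M hmem) hsat0 ⟨b, hb⟩)
    (fun b hb => exists_series_chartSpecA A M ℓ hA hℓM (isGen_tF n e M hmem) (tF M hmem)⁻¹
      (tF_inv_mem_intF n e M hmem A) (isGen_tF_inv n e M hmem) hsat1 ⟨b, hb⟩)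
    (fun b Y hY => red_eq_chartSpecA A M ℓ hA hℓM (isGen_tF n e M hmem) (tF M hmem)
      (tF_mem_intF n e M hmem A) (isGen_tF n e M hmem) hsat0 b Y hY)
    (fun b Y hY => red_eq_chartSpecA A M ℓ hA hℓM (isGen_tF n e M hmem) (tF M hmem)⁻¹
      (tF_inv_mem_intF n e M hmem A) (isGen_tF_inv n e M hmem) hsat1 b Y hY)
    (isGen_tF n e M hmem).ne_zero b

variable (hlev0 : HasLevels (S0 n e M ℓ hℓM hmem A hA hsat0))
  (hlev1 : HasLevels (S1 n e M ℓ hℓM hmem A hA hsat1))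

/-- **The two-chart structure over `A`.** -/
def twoCharts : TwoCharts A (isGen_tF n e M hmem) (Ft M A) :=
  twoChartsOf (S0 n e M ℓ hℓM hmem A hA hsat0) (S1 n e M ℓ hℓM hmem A hA hsat1)
    (isGen_tF n e M hmem).ne_zero rfl
    (red_s_mul n e M ℓ hℓM hmem A hA hsat0 hsat1)
    (ov0 n e M ℓ hℓM hmem A hA hsat0 hsat1) hlev0 hlev1
    (tr0 n e M ℓ hℓM hmem A hA hsat0)
    (PIRInst13.pirHyp_fullC n e M ℓ hℓM hmem hgen A hA)

@[simp] theorem twoCharts_S0 :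
    (twoCharts n e M ℓ hℓM hmem hgen A hA hsat0 hsat1 hlev0 hlev1).S0 =
      S0 n e M ℓ hℓM hmem A hA hsat0 := rfl

@[simp] theorem twoCharts_S1 :
    (twoCharts n e M ℓ hℓM hmem hgen A hA hsat0 hsat1 hlev0 hlev1).S1 =
      S1 n e M ℓ hℓM hmem A hA hsat1 := rfl

include hgen hlev0 in
/-- **(PEEL-a)** on chart 0. -/
theorem peelA0 (P : Place Qbar ↥(Fbar M)) (hP : (S0 n e M ℓ hℓM hmem A hA hsat0).InChart P) :
    (S0 n e M ℓ hℓM hmem A hA hsat0).PeelA P hP :=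
  peelA_of_levels hlev0 (tr0 n e M ℓ hℓM hmem A hA hsat0)
    (PIRInst13.pirHyp_fullC n e M ℓ hℓM hmem hgen A hA) P hP

include hgen hsat0 hlev1 in
/-- **(PEEL-a)** on chart 1. -/
theorem peelA1 (P : Place Qbar ↥(Fbar M)) (hP : (S1 n e M ℓ hℓM hmem A hA hsat1).InChart P) :
    (S1 n e M ℓ hℓM hmem A hA hsat1).PeelA P hP :=
  peelA_of_levels hlev1
    (transcendental_of_mul_eq_one (tr0 n e M ℓ hℓM hmem A hA hsat0)
      (red_s_mul n e M ℓ hℓM hmem A hA hsat0 hsat1))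
    (PIRInst13.pirHyp_fullC n e M ℓ hℓM hmem hgen A hA) P hP

end Fermat.Agent.ES.RED.ModelInst4
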