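/-
Program I (S37), chapter ES/RED, A1/RED-2 (helper9): the ADAPTER from the abstract RED contract
`Contract8.ChartSpec` to the order-only hypothesis bundle `R2Peel14.ChartHypA` of helper14's
abstract (R2).

* `peel_pow`      : iterating (PEEL-a): `z * d = u ^ j * w` with `d`, `w` units at `P`;
* `sep_of_peelA`  : (SEP) — the chart ring separates the chart places — from (PEEL-a) + `frac` + `ev`;
* `chartHypA_of_chartSpec` : **the adapter**.  Inputs besides `S : ChartSpec A hx Ft`: a Gauss ring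
  `G ⊇ S.B` with `red : G →+* Ft` extending `S.red`; `IsGen` of the coordinate upstairs and
  downstairs (+ separability downstairs); the place map `r` with `O_{r P} = S.rSubring P` on the
  chart and the tube condition `red s ∈ O_{r P} ↔ P` in the chart; (PEEL-a); integrality of the
  reductions over `k[red s]`; the norm property; equality of the degrees.
* `r2_chart_of_chartSpec`  : the resulting (R2) on the chart, `Finsupp.mapDomain` form.
-/
import Mathlib
import Fermat.Agent.ES.RED.Contract8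
import Fermat.Agent.ES.RED.R2Peel14
import Fermat.Agent.ES.RED.SumOrdSep15
import Fermat.Agent.ES.RED.ChartFacts9

set_option autoImplicit false
set_option linter.unusedSectionVars false
set_option linter.style.haveILetI false

namespace Fermat.Agent.ES.RED.R2Adapter9

open AlgebraicCurve Polynomial IntermediateField
open Fermat.Agent.X0.FF Fermat.Agent.ES.RED.PlaceValue13 Fermat.Agent.ES.RED.Contract8
open Fermat.Agent.ES.RED.R2Abstract14 Fermat.Agent.ES.RED.R2Peel14

section Abstract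

variable {L : Type*} [Field L] [IsAlgClosed L] {A : ValuationSubring L}
variable {F : Type*} [Field F] [Algebra L F] {x : F} {hx : IsGen L x}
variable {Ft : Type*} [Field Ft] [Algebra (kA A) Ft] (S : ChartSpec A hx Ft)

/-! ### orders on the chart ring at a chart place -/

theorem ord_nonneg (P : Place L F) (hP : S.InChart P) (b : ↥S.B) : 0 ≤ P.ord (b : F) :=
  (ffp_mem_iff_ord_nonneg P).1 (S.mem_place P hP b b.2)

theorem coe_ne_zero {b : ↥S.B} (hb : b ≠ 0) : (b : F) ≠ 0 := fun h => hb (Subtype.ext h)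

theorem ord_pos_of_ev_eq_zero (P : Place L F) (hP : S.InChart P) {b : ↥S.B} (hb : b ≠ 0)
    (h : S.ev P hP b = 0) : 0 < P.ord (b : F) :=
  ((S.ev_eq_zero_iff P hP b).1 h).resolve_left (coe_ne_zero S hb)

theorem ord_eq_zero_of_ev_ne_zero (P : Place L F) (hP : S.InChart P) {b : ↥S.B}
    (h : S.ev P hP b ≠ 0) : P.ord (b : F) = 0 := by
  have h1 := ord_nonneg S P hP b
  by_contra hne
  exact h ((S.ev_eq_zero_iff P hP b).2 (Or.inr (lt_of_le_of_ne h1 (Ne.symm hne))))

theorem ev_ne_zero_of_chi_ne_zero (P : Place L F) (hP : S.InChart P) {d : ↥S.B}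
    (h : S.chi P hP d ≠ 0) : S.ev P hP d ≠ 0 := by
  intro h0
  apply h
  rw [S.chi_apply, h0, map_zero]

theorem ne_zero_of_ev_ne_zero (P : Place L F) (hP : S.InChart P) {d : ↥S.B}
    (h : S.ev P hP d ≠ 0) : d ≠ 0 := by
  rintro rfl
  exact h (map_zero _)

/-! ### iterated peeling -/

/-- Iterating (PEEL-a): every nonzero `z ∈ B` is `u ^ j * w / d` with `w, d` units at `P`. -/
theorem peel_pow (P : Place L F) (hP : S.InChart P) (u : ↥S.B) (hu : S.ev P hP u = 0)
    (hpeel : ∀ z : ↥S.B, S.ev P hP z = 0 → ∃ d z' : ↥S.B, S.chi P hP d ≠ 0 ∧ z * d = u * z')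
    (z : ↥S.B) (hz : z ≠ 0) :
    ∃ (j : ℕ) (d w : ↥S.B), S.chi P hP d ≠ 0 ∧ S.ev P hP w ≠ 0 ∧ z * d = u ^ j * w := by
  obtain ⟨n, hn⟩ : ∃ n : ℕ, P.ord (z : F) = n := Int.eq_ofNat_of_zero_le (ord_nonneg S P hP z)
  induction n using Nat.strong_induction_on generalizing z with
  | _ n ih =>
    by_cases hev : S.ev P hP z = 0
    · obtain ⟨d₁, z', hd₁, e⟩ := hpeel z hev
      have hd₁0 : d₁ ≠ 0 := ne_zero_of_ev_ne_zero S P hP (ev_ne_zero_of_chi_ne_zero S P hP hd₁)
      have hzd : z * d₁ ≠ 0 := mul_ne_zero hz hd₁0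
      have hu0 : u ≠ 0 := by
        rintro rfl
        rw [zero_mul] at e
        exact hzd e
      have hz'0 : z' ≠ 0 := by
        rintro rfl
        rw [mul_zero] at e
        exact hzd e
      have hord : P.ord (z : F) + P.ord (d₁ : F) = P.ord (u : F) + P.ord (z' : F) := by
        rw [← P.ord_mul (coe_ne_zero S hz) (coe_ne_zero S hd₁0),
          ← P.ord_mul (coe_ne_zero S hu0) (coe_ne_zero S hz'0)]
        exact congrArg (fun b : ↥S.B => P.ord (b : F)) e
      have hd₁ord := ord_eq_zero_of_ev_ne_zero S P hP (ev_ne_zero_of_chi_ne_zero S P hP hd₁)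
      have huord := ord_pos_of_ev_eq_zero S P hP hu0 hu
      obtain ⟨m, hm⟩ : ∃ m : ℕ, P.ord (z' : F) = m :=
        Int.eq_ofNat_of_zero_le (ord_nonneg S P hP z')
      have hmn : m < n := by omega
      obtain ⟨j, d₂, w, hd₂, hw, e₂⟩ := ih m hmn z' hz'0 hm
      refine ⟨j + 1, d₁ * d₂, w, ?_, hw, ?_⟩
      · rw [map_mul]
        exact mul_ne_zero hd₁ hd₂
      · rw [← mul_assoc, e, mul_assoc, e₂, pow_succ]
        ring
    · exact ⟨0, 1, z, by rw [map_one]; exact one_ne_zero, hev, by rw [pow_zero, mul_one, one_mul]⟩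


/-! ### separation of the chart places by the chart ring, from (PEEL-a) -/

/-- **(SEP)** from (PEEL-a): if every element of `B` vanishing at `P` vanishes at `P'`
(`P`, `P'` in the chart), then `P = P'`. -/
theorem sep_of_peelA (P P' : Place L F) (hP : S.InChart P) (hP' : S.InChart P')
    (hpeel : S.PeelA P hP)
    (h : ∀ z ∈ S.B, 0 < P.ord z → 0 < P'.ord z) : P = P' := by
  obtain ⟨u, hu, hdiv⟩ := hpeel
  -- Step A
  have hA : ∀ z : ↥S.B, S.ev P hP z = 0 → S.ev P' hP' z = 0 := by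
    intro z hz
    rw [S.ev_eq_zero_iff] at hz ⊢
    rcases hz with hz | hz
    · exact Or.inl hz
    · exact Or.inr (h _ z.2 hz)
  -- Step B
  have hB : ∀ z : ↥S.B, S.ev P' hP' z = S.ev P hP z := by
    intro z
    have := hA _ (S.ev_sub_const P hP z)
    rwa [map_sub, S.ev_const, sub_eq_zero] at this
  have hBne : ∀ z : ↥S.B, S.ev P hP z ≠ 0 → P'.ord (z : F) = 0 := fun z hz =>
    ord_eq_zero_of_ev_ne_zero S P' hP' (by rw [hB]; exact hz)
  -- Step C
  have hle : P.toValuationSubring ≤ P'.toValuationSubring := by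
    intro f hf
    rcases eq_or_ne f 0 with rfl | hf0
    · exact zero_mem _
    obtain ⟨a, b, hb0, hfab⟩ := S.frac f
    have hbF : (b : F) ≠ 0 := coe_ne_zero S hb0
    have haF : (a : F) ≠ 0 := by rw [← hfab]; exact mul_ne_zero hf0 hbF
    have ha0 : a ≠ 0 := fun h0 => haF (by rw [h0]; rfl)
    obtain ⟨j, d₁, w₁, hd₁, hw₁, e₁⟩ := peel_pow S P hP u hu hdiv a ha0
    obtain ⟨k, d₂, w₂, hd₂, hw₂, e₂⟩ := peel_pow S P hP u hu hdiv b hb0
    have hd₁e := ev_ne_zero_of_chi_ne_zero S P hP hd₁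
    have hd₂e := ev_ne_zero_of_chi_ne_zero S P hP hd₂
    have hd₁0 := ne_zero_of_ev_ne_zero S P hP hd₁e
    have hd₂0 := ne_zero_of_ev_ne_zero S P hP hd₂e
    have hw₁0 := ne_zero_of_ev_ne_zero S P hP hw₁
    have hw₂0 := ne_zero_of_ev_ne_zero S P hP hw₂
    have e₁F : (a : F) * (d₁ : F) = (u : F) ^ j * (w₁ : F) :=
      congrArg (fun z : ↥S.B => (z : F)) e₁
    have e₂F : (b : F) * (d₂ : F) = (u : F) ^ k * (w₂ : F) :=
      congrArg (fun z : ↥S.B => (z : F)) e₂
    have hujF : (u : F) ^ j ≠ 0 := by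
      intro h0
      rw [h0, zero_mul] at e₁F
      exact mul_ne_zero haF (coe_ne_zero S hd₁0) e₁F
    have hukF : (u : F) ^ k ≠ 0 := by
      intro h0
      rw [h0, zero_mul] at e₂F
      exact mul_ne_zero hbF (coe_ne_zero S hd₂0) e₂F
    -- orders at a chart place `R` at which `d_i, w_i` are units
    have key : ∀ R : Place L F, R.ord (d₁ : F) = 0 → R.ord (d₂ : F) = 0 → R.ord (w₁ : F) = 0 →
        R.ord (w₂ : F) = 0 → R.ord f + R.ord ((u : F) ^ k) = R.ord ((u : F) ^ j) := by
      intro R h1 h2 h3 h4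
      have ha : R.ord (a : F) + R.ord (d₁ : F) = R.ord ((u : F) ^ j) + R.ord (w₁ : F) := by
        rw [← R.ord_mul haF (coe_ne_zero S hd₁0), ← R.ord_mul hujF (coe_ne_zero S hw₁0), e₁F]
      have hb : R.ord (b : F) + R.ord (d₂ : F) = R.ord ((u : F) ^ k) + R.ord (w₂ : F) := by
        rw [← R.ord_mul hbF (coe_ne_zero S hd₂0), ← R.ord_mul hukF (coe_ne_zero S hw₂0), e₂F]
      have hf' : R.ord f + R.ord (b : F) = R.ord (a : F) := by
        rw [← R.ord_mul hf0 hbF, hfab]
      omega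
    have hpow : ∀ (R : Place L F) (n : ℕ), R.ord ((u : F) ^ n) = n * R.ord (u : F) := by
      intro R n
      have := R.ord_zpow (u : F) (n : ℤ)
      rwa [zpow_natCast] at this
    have keyP := key P (ord_eq_zero_of_ev_ne_zero S P hP hd₁e)
      (ord_eq_zero_of_ev_ne_zero S P hP hd₂e) (ord_eq_zero_of_ev_ne_zero S P hP hw₁)
      (ord_eq_zero_of_ev_ne_zero S P hP hw₂)
    have keyP' := key P' (hBne _ hd₁e) (hBne _ hd₂e) (hBne _ hw₁) (hBne _ hw₂)
    rw [hpow, hpow] at keyP keyP'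
    have hfP : 0 ≤ P.ord f := (ffp_mem_iff_ord_nonneg P).1 hf
    rw [ffp_mem_iff_ord_nonneg]
    by_cases hu0 : u = 0
    · -- then `j = k = 0`
      have hj : j = 0 := by
        by_contra hj
        apply hujF
        rw [hu0]
        exact zero_pow hj
      have hk : k = 0 := by
        by_contra hk
        apply hukF
        rw [hu0]
        exact zero_pow hk
      rw [hj, hk] at keyP'
      simp only [Nat.cast_zero, zero_mul, add_zero] at keyP'
      omega
    · have huP : 0 < P.ord (u : F) := ord_pos_of_ev_eq_zero S P hP hu0 hu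
      have huP' : 0 ≤ P'.ord (u : F) := ord_nonneg S P' hP' u
      have hjk : (k : ℤ) ≤ j := by
        by_contra hlt
        rw [not_le] at hlt
        have : (j : ℤ) * P.ord (u : F) < k * P.ord (u : F) := mul_lt_mul_of_pos_right hlt huP
        omega
      have : (k : ℤ) * P'.ord (u : F) ≤ j * P'.ord (u : F) :=
        mul_le_mul_of_nonneg_right hjk huP'
      omega
  exact (Place.ext
    (Fermat.Agent.ES.HECKE.FundIdentity19.valuationSubring_eq_of_le P P'.toValuationSubring hle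
      P'.ne_top')).symm

end Abstract

/-! ### the adapter -/

section Adapter

variable {L : Type*} [Field L] [IsAlgClosed L] [CharZero L] {A : ValuationSubring L}
variable {F : Type*} [Field F] [Algebra L F] {x : F} {hx : IsGen L x}
variable {Ft : Type*} [Field Ft] [Algebra (kA A) Ft] [IsAlgClosed (kA A)]
variable (S : ChartSpec A hx Ft)

/-- (R1) in value form at a place `Q` whose valuation ring is `O_{rP}`: order consequences. -/
theorem ord_red_pos_of_ev_eq_zero (hst : IsGen (kA A) (S.red S.sB)) (P : Place L F)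
    (hP : S.InChart P) (Q : Place (kA A) Ft)
    (hQ : ∀ y : Ft, y ∈ Q.toValuationSubring ↔ y ∈ S.rSubring P hP) (b : ↥S.B)
    (hb : S.ev P hP b = 0) (hred : S.red b ≠ 0) : 0 < Q.ord (S.red b) := by
  have h1 := S.valueHom_red_of_eq hst P hP Q hQ b
  rw [S.chi_apply, hb, map_zero, valueHom_eq_zero_iff_ord] at h1
  exact h1.resolve_left hred

theorem ord_red_eq_zero_of_chi_ne_zero (hst : IsGen (kA A) (S.red S.sB)) (P : Place L F)
    (hP : S.InChart P) (Q : Place (kA A) Ft)
    (hQ : ∀ y : Ft, y ∈ Q.toValuationSubring ↔ y ∈ S.rSubring P hP) (d : ↥S.B)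
    (hd : S.chi P hP d ≠ 0) : Q.ord (S.red d) = 0 := by
  have h1 := S.valueHom_red_of_eq hst P hP Q hQ d
  have h2 : valueHom hst Q ⟨S.red d, (hQ _).mpr (S.red_mem_rSubring P hP d)⟩ ≠ 0 := by
    rw [h1]; exact hd
  rw [valueHom_ne_zero_iff] at h2
  exact ffp_ord_eq_zero_of_isUnit Q h2

/-- **The adapter**: a chart `S : ChartSpec A hx Ft`, with a reduction map `r` on places which on
the chart has valuation ring `O_{rP}` and satisfies the tube condition `hrmem`, (PEEL-a) at all
chart places, integrality of reductions, the norm property and equality of degrees, satisfies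
helper14's `ChartHypA` — for any ring `G ⊇ B` with a reduction map extending `S.red`. -/
theorem chartHypA_of_chartSpec (G : Subring F) (red : G →+* Ft) (hBG : S.B ≤ G)
    (hred : ∀ b : ↥S.B, red ⟨(b : F), hBG b.2⟩ = S.red b)
    (hs : IsGen L S.s) (hst : IsGen (kA A) (S.red S.sB))
    [Algebra.IsSeparable (kA A)⟮S.red S.sB⟯ Ft]
    (r : Place L F → Place (kA A) Ft)
    (hr : ∀ (P : Place L F) (hP : S.InChart P) (y : Ft),
      y ∈ (r P).toValuationSubring ↔ y ∈ S.rSubring P hP)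
    (hrmem : ∀ P : Place L F, 0 ≤ (r P).ord (S.red S.sB) ↔ S.InChart P)
    (hpeel : ∀ (P : Place L F) (hP : S.InChart P), S.PeelA P hP)
    (hint : ∀ b : ↥S.B, IsIntegral (Algebra.adjoin (kA A) {S.red S.sB}) (S.red b))
    (hnorm : ∀ z : ↥S.B, z ≠ 0 → ∃ z' : ↥S.B, z' ≠ 0 ∧ ∃ p : L[X],
      (z : F) * (z' : F) = aeval S.s p)
    (hdeg : Module.finrank L⟮S.s⟯ F = Module.finrank (kA A)⟮S.red S.sB⟯ Ft) :
    ChartHypA A (resA A) G red r S.B (⟨S.s, hBG S.s_mem⟩ : G) (Module.finrank L⟮S.s⟯ F)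
      {P | S.InChart P} {Q | 0 ≤ Q.ord (S.red S.sB)} := by
  have hredx : red (⟨S.s, hBG S.s_mem⟩ : G) = S.red S.sB := hred S.sB
  have hredG : ∀ (b : G) (hb : (b : F) ∈ S.B), red b = S.red ⟨(b : F), hb⟩ := fun b hb =>
    hred ⟨(b : F), hb⟩
  refine
    { res_nonunit := ?_
      const_mem := S.const_mem
      B_le := hBG
      red_const := ?_
      x_mem := S.s_mem
      red_x_ne := ?_
      r_mem := ?_
      ord_nonneg := ?_
      ord_red_nonneg := ?_
      r1 := ?_
      peelA := ?_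
      sep := ?_
      exists_zero := ?_
      sat := ?_
      fi := ?_
      fit := ?_
      fint := ?_
      zeros_mem := ?_
      zeros_memt := ?_
      norm := ?_
      frac := ?_ }
  · -- res_nonunit
    intro a ha
    rw [IsLocalRing.residue_eq_zero_iff, IsLocalRing.mem_maximalIdeal]
    exact ha
  · -- red_const
    intro a
    have := hred (S.const a)
    rw [S.red_const'] at this
    exact this
  · -- red_x_ne
    intro c hc
    rw [hredx] at hc
    apply hst.transcendental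
    rw [hc]
    exact isAlgebraic_algebraMap c
  · -- r_mem
    intro P
    exact hrmem P
  · -- ord_nonneg
    intro P hP b hb
    exact ord_nonneg S P hP ⟨b, hb⟩
  · -- ord_red_nonneg
    intro Q hQ b hb
    rw [hredG b hb, ← ffp_mem_iff_ord_nonneg]
    exact ChartFacts9.mem_of_isIntegral_adjoin Q (R := kA A) Q.algebraMap_mem'
      ((ffp_mem_iff_ord_nonneg Q).2 hQ) (hint _)
  · -- r1
    intro P hP b hb hpos hbred
    rw [hredG b hb] at hbred ⊢
    exact ord_red_pos_of_ev_eq_zero S hst P hP (r P) (hr P hP) _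
      ((S.ev_eq_zero_iff P hP _).2 (Or.inr hpos)) hbred
  · -- peelA
    intro P hP
    obtain ⟨u, hu, hdiv⟩ := hpeel P hP
    refine ⟨⟨(u : F), hBG u.2⟩, u.2, (S.ev_eq_zero_iff P hP u).1 hu, ?_⟩
    intro z hzB hzpos
    obtain ⟨d, z', hd, e⟩ := hdiv ⟨(z : F), hzB⟩ ((S.ev_eq_zero_iff P hP _).2 (Or.inr hzpos))
    refine ⟨⟨(d : F), hBG d.2⟩, ⟨(z' : F), hBG z'.2⟩, d.2, z'.2, ?_, ?_, ?_⟩
    · rw [hred d]
      exact fun h0 => hd (S.chi_eq_zero_of_red_eq_zero P hP h0)
    · rw [hred d]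
      exact ord_red_eq_zero_of_chi_ne_zero S hst P hP (r P) (hr P hP) d hd
    · apply Subtype.ext
      exact congrArg (fun b : ↥S.B => (b : F)) e
  · -- sep
    intro P hP P' hP' h
    exact sep_of_peelA S P P' hP hP' (hpeel P hP) h
  · -- exists_zero
    intro P hP
    refine ⟨S.ev P hP S.sB, ?_⟩
    have h1 := S.ev_sub_const P hP S.sB
    rw [S.ev_eq_zero_iff] at h1
    rcases h1 with h1 | h1
    · exfalso
      exact hs.sub_algebraMap_ne_zero _ h1
    · exact h1
  · -- sat
    intro b hb hb0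
    have hb0' : (⟨(b : F), hb⟩ : ↥S.B) ≠ 0 := by
      intro h0
      apply hb0
      apply Subtype.ext
      exact congrArg (fun z : ↥S.B => (z : F)) h0
    obtain ⟨c, b', e, hb'⟩ := S.sat ⟨(b : F), hb⟩ hb0'
    refine ⟨c, ?_, ⟨(b' : F), hBG b'.2⟩, b'.2, e, ?_⟩
    · rintro rfl
      apply hb0
      apply Subtype.ext
      change (b : F) = 0
      have e' : (b : F) = algebraMap L F ((0 : ↥A) : L) * (b' : F) := e
      rw [e']
      simp
    · rw [hred b']
      exact hb'
  · -- fi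
    intro a
    exact sum_ord_fibre hs (a : L)
  · -- fit
    intro c
    rw [hredx, hdeg]
    exact SumOrdSep15.sum_ord_fibre_sep hst c
  · -- fint
    intro c
    rw [hredx]
    exact SumOrdSep15.finite_fibre_sep hst c
  · -- zeros_mem
    intro a P hpos
    have hsP : S.s ∈ P.toValuationSubring :=
      (ffp_mem_iff_ord_nonneg P).2 (ChartFacts9.ord_nonneg_of_zero_sub_const P (a : L) hpos)
    refine ⟨hsP, ?_⟩
    have : valueHom hx P ⟨S.s, hsP⟩ = (a : L) := (valueHom_eq_iff hx P _ _).2 (Or.inr hpos)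
    rw [this]
    exact a.2
  · -- zeros_memt
    intro c Q hpos
    rw [hredx] at hpos
    exact ChartFacts9.ord_nonneg_of_zero_sub_const Q c hpos
  · -- norm
    intro z hzB hz0
    have hz0' : (⟨(z : F), hzB⟩ : ↥S.B) ≠ 0 := by
      intro h0
      apply hz0
      apply Subtype.ext
      exact congrArg (fun b : ↥S.B => (b : F)) h0
    obtain ⟨z', hz'0, p, e⟩ := hnorm ⟨(z : F), hzB⟩ hz0'
    refine ⟨⟨(z' : F), hBG z'.2⟩, z'.2, ?_, p, e⟩
    intro h0
    apply hz'0
    apply Subtype.ext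
    exact congrArg (fun b : G => (b : F)) h0
  · -- frac
    intro y
    obtain ⟨a, b, hb0, e⟩ := S.frac y
    refine ⟨⟨(a : F), hBG a.2⟩, ⟨(b : F), hBG b.2⟩, a.2, b.2, ?_, e⟩
    intro h0
    apply hb0
    apply Subtype.ext
    exact congrArg (fun z : G => (z : F)) h0

/-- The adapter with `G := S.B`, `red := S.red` (the shape consumed by `RedAssembly15` /
`ChangeG15`). -/
theorem chartHypA_of_chartSpec_self
    (hs : IsGen L S.s) (hst : IsGen (kA A) (S.red S.sB))
    [Algebra.IsSeparable (kA A)⟮S.red S.sB⟯ Ft]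
    (r : Place L F → Place (kA A) Ft)
    (hr : ∀ (P : Place L F) (hP : S.InChart P) (y : Ft),
      y ∈ (r P).toValuationSubring ↔ y ∈ S.rSubring P hP)
    (hrmem : ∀ P : Place L F, 0 ≤ (r P).ord (S.red S.sB) ↔ S.InChart P)
    (hpeel : ∀ (P : Place L F) (hP : S.InChart P), S.PeelA P hP)
    (hint : ∀ b : ↥S.B, IsIntegral (Algebra.adjoin (kA A) {S.red S.sB}) (S.red b))
    (hnorm : ∀ z : ↥S.B, z ≠ 0 → ∃ z' : ↥S.B, z' ≠ 0 ∧ ∃ p : L[X],
      (z : F) * (z' : F) = aeval S.s p)
    (hdeg : Module.finrank L⟮S.s⟯ F = Module.finrank (kA A)⟮S.red S.sB⟯ Ft) :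
    ChartHypA A (resA A) S.B S.red r S.B S.sB (Module.finrank L⟮S.s⟯ F)
      {P | S.InChart P} {Q | 0 ≤ Q.ord (S.red S.sB)} :=
  chartHypA_of_chartSpec S S.B S.red le_rfl (fun _ => rfl) hs hst r hr hrmem hpeel hint hnorm hdeg

/-- **(R2) on one chart of the contract**: for every `y ∈ G` with nonzero reduction and every
place `Q` of the special fibre with `red s ∈ O_Q`: `(r_* div y)(Q) = ord_Q (red y)`. -/
theorem r2_chart_of_chartSpec (G : Subring F) (red : G →+* Ft) (hBG : S.B ≤ G)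
    (hred : ∀ b : ↥S.B, red ⟨(b : F), hBG b.2⟩ = S.red b)
    (hs : IsGen L S.s) (hst : IsGen (kA A) (S.red S.sB))
    [Algebra.IsSeparable (kA A)⟮S.red S.sB⟯ Ft]
    (r : Place L F → Place (kA A) Ft)
    (hr : ∀ (P : Place L F) (hP : S.InChart P) (y : Ft),
      y ∈ (r P).toValuationSubring ↔ y ∈ S.rSubring P hP)
    (hrmem : ∀ P : Place L F, 0 ≤ (r P).ord (S.red S.sB) ↔ S.InChart P)
    (hpeel : ∀ (P : Place L F) (hP : S.InChart P), S.PeelA P hP)
    (hint : ∀ b : ↥S.B, IsIntegral (Algebra.adjoin (kA A) {S.red S.sB}) (S.red b))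
    (hnorm : ∀ z : ↥S.B, z ≠ 0 → ∃ z' : ↥S.B, z' ≠ 0 ∧ ∃ p : L[X],
      (z : F) * (z' : F) = aeval S.s p)
    (hdeg : Module.finrank L⟮S.s⟯ F = Module.finrank (kA A)⟮S.red S.sB⟯ Ft)
    (hfin : FinDiv L F) (Q : Place (kA A) Ft) (hQ : 0 ≤ Q.ord (S.red S.sB))
    (y : G) (hy : red y ≠ 0) (D : Place L F →₀ ℤ) (hD : ∀ P, D P = P.ord (y : F)) :
    Finsupp.mapDomain r D Q = Q.ord (red y) :=
  (chartHypA_of_chartSpec S G red hBG hred hs hst r hr hrmem hpeel hint hnorm hdeg).r2_chart_mapDomain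
    hfin hQ y hy D hD

end Adapter

end Fermat.Agent.ES.RED.R2Adapter9
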