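/-
Program I (S37), chapter ES/RED, leaf RED-Z (helper15): THE ASSEMBLY
`IsPlaceReductionAlong A (residue A) N T.r` for the global reduction map `T.r` of
`TwoCharts8.TwoCharts`.

Per chart `S ∈ {T.S0, T.S1}` the analytic inputs are bundled in `ChartInputs A N S`:
compatibility with `q`-expansions (`RedCharts15.Compat`), generators upstairs/downstairs,
separability downstairs, (PEEL-a), integrality of reductions, the norm property and the equality of
degrees.  The chart consistency `hr`/`hrmem` of the adapter `R2Adapter9` is PROVED here from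
`TwoCharts8` (`r_eq0`, `r_eq1`, tube closure `inChart_i_of_red_mem`).

* `isPlaceReductionAlong_twoCharts` (generic `L`), `reductionInputsModL_twoCharts` (at `ℚbar`,
  with degrees, finiteness of divisors and `(Rgen)` discharged).
-/
import Mathlib
import Fermat.Agent.ES.RED.RedCharts15
import Fermat.Agent.ES.RED.R2Adapter9
import Fermat.Agent.ES.RED.TwoCharts8

set_option autoImplicit false

open AlgebraicCurve ModularCurve HahnSeries Polynomial IntermediateField

noncomputable section

namespace Fermat.Agent.ES.RED.RedMain15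

open Fermat.Agent.ES.RED.R2Abstract14 Fermat.Agent.ES.RED.R2Peel14
open Fermat.Agent.ES.RED.RedAssembly15 Fermat.Agent.ES.RED.GaussRing15
open Fermat.Agent.ES.RED.Contract8 Fermat.Agent.ES.RED.RedCharts15
open Fermat.Agent.ES.RED.TwoCharts8 Fermat.Agent.ES.RED.R2Adapter9
open Fermat.Agent.RED.TOP Fermat.Agent.X0 Fermat.Agent.X0.FF

section Generic

variable {L : Type*} [Field L] [Algebra ℚ L] [IsAlgClosed L] (A : ValuationSubring L) (N : ℕ)
variable {x : ↥(laurentBaseChange L (modularFunctionFieldFull N))} {hx : IsGen L x}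

/-- The analytic inputs on one chart. -/
structure ChartInputs (S : ChartSpec A hx ↥(modularFunctionFieldFullC (kA A) N)) : Prop where
  compat : Compat A N S
  gen : IsGen L S.s
  gent : IsGen (kA A) (S.red S.sB)
  sep : Algebra.IsSeparable (kA A)⟮S.red S.sB⟯ ↥(modularFunctionFieldFullC (kA A) N)
  peel : ∀ (P : Place L ↥(laurentBaseChange L (modularFunctionFieldFull N)))
    (hP : S.InChart P), S.PeelA P hP
  int : ∀ b : ↥S.B, IsIntegral (Algebra.adjoin (kA A) {S.red S.sB}) (S.red b)
  norm : ∀ z : ↥S.B, z ≠ 0 → ∃ z' : ↥S.B, z' ≠ 0 ∧ ∃ p : L[X],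
    ((z : ↥(laurentBaseChange L (modularFunctionFieldFull N))) *
      (z' : ↥(laurentBaseChange L (modularFunctionFieldFull N)))) = aeval S.s p
  deg : Module.finrank L⟮S.s⟯ ↥(laurentBaseChange L (modularFunctionFieldFull N)) =
    Module.finrank (kA A)⟮S.red S.sB⟯ ↥(modularFunctionFieldFullC (kA A) N)

variable {A N}
variable (T : TwoCharts A hx ↥(modularFunctionFieldFullC (kA A) N))

/-- chart consistency in chart 0: `r P` has valuation ring `O_{rP}`. -/
theorem hr0 (P : Place L ↥(laurentBaseChange L (modularFunctionFieldFull N)))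
    (hP : T.S0.InChart P) (y : ↥(modularFunctionFieldFullC (kA A) N)) :
    y ∈ (T.r P).toValuationSubring ↔ y ∈ T.S0.rSubring P hP := by
  rw [T.r_eq0 P hP]
  exact Iff.rfl

/-- chart consistency in chart 1. -/
theorem hr1 [IsAlgClosed (kA A)] {xt : ↥(modularFunctionFieldFullC (kA A) N)}
    (hxt : IsGen (kA A) xt)
    (P : Place L ↥(laurentBaseChange L (modularFunctionFieldFull N)))
    (hP : T.S1.InChart P) (y : ↥(modularFunctionFieldFullC (kA A) N)) :
    y ∈ (T.r P).toValuationSubring ↔ y ∈ T.S1.rSubring P hP := by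
  rw [T.r_eq1 hxt P hP]
  exact Iff.rfl

/-- tube condition in chart 0. -/
theorem hrmem0 [IsAlgClosed (kA A)] {xt : ↥(modularFunctionFieldFullC (kA A) N)}
    (hxt : IsGen (kA A) xt)
    (P : Place L ↥(laurentBaseChange L (modularFunctionFieldFull N))) :
    0 ≤ (T.r P).ord (T.S0.red T.S0.sB) ↔ T.S0.InChart P := by
  constructor
  · intro h
    exact T.inChart0_of_red_mem hxt P (FF.mem_of_ord_nonneg _ h)
  · intro hP
    apply FF.ord_nonneg_of_mem
    rw [T.r_eq0 P hP]
    exact red_mem_rAt T.places0 T.tr0 P hP _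

/-- tube condition in chart 1. -/
theorem hrmem1 [IsAlgClosed (kA A)] {xt : ↥(modularFunctionFieldFullC (kA A) N)}
    (hxt : IsGen (kA A) xt)
    (P : Place L ↥(laurentBaseChange L (modularFunctionFieldFull N))) :
    0 ≤ (T.r P).ord (T.S1.red T.S1.sB) ↔ T.S1.InChart P := by
  constructor
  · intro h
    exact T.inChart1_of_red_mem hxt P (FF.mem_of_ord_nonneg _ h)
  · intro hP
    apply FF.ord_nonneg_of_mem
    rw [T.r_eq1 hxt P hP]
    exact red_mem_rAt T.places1 T.tr1 P hP _

/-- **RED-Z**: the global reduction map of two charts satisfying the analytic inputs is a place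
reduction in the sense of the Prelude. -/
theorem isPlaceReductionAlong_twoCharts [CharZero L] [IsAlgClosed (kA A)]
    (h0 : ChartInputs A N T.S0) (h1 : ChartInputs A N T.S1)
    (hfin : FinDiv L ↥(laurentBaseChange L (modularFunctionFieldFull N)))
    (hdeg : ∀ P, (T.r P).deg = P.deg) :
    IsPlaceReductionAlong A (resA A) N T.r := by
  have := h0.sep
  have := h1.sep
  have c0 := chartHypA_of_chartSpec_self T.S0 h0.gen h0.gent T.r (hr0 T)
    (hrmem0 T h0.gent) h0.peel h0.int h0.norm h0.deg
  have c1 := chartHypA_of_chartSpec_self T.S1 h1.gen h1.gent T.r (hr1 T h0.gent)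
    (hrmem1 T h0.gent) h1.peel h1.int h1.norm h1.deg
  exact isPlaceReductionAlong_of_chartSpecs T.r h0.compat h1.compat c0 c1 T.red_s1_eq hfin hdeg

end Generic

section Qbar

variable {A : ValuationSubring Qb} {M : ℕ} [NeZero M]
variable {x : ↥(modularFunctionFieldBar M)} {hx : IsGen Qb x}
variable (T : TwoCharts A hx ↥(modularFunctionFieldFullC (kA A) M))

/-- **RED-Z at `ℚbar`**. -/
theorem isPlaceReductionModL_twoCharts
    (h0 : ChartInputs A M T.S0) (h1 : ChartInputs A M T.S1) :
    IsPlaceReductionModL A M T.r := by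
  have : IsAlgClosed (kA A) := Fermat.Agent.ES.KRON.KronInst10.isAlgClosed_residueField A
  have := FbarFacts20.hasPrincipalDivisors_bar M
  have hdeg : ∀ P, (T.r P).deg = P.deg := fun P => by
    rw [FF.deg_eq_one h0.gent (T.r P), FbarFacts20.deg_eq_one_bar M P]
  exact isPlaceReductionAlong_twoCharts T h0 h1 finDiv_of_hasPrincipalDivisors hdeg

/-- **RED-Z at `ℚbar`**, packaged: the Prelude's `ReductionInputsModL A M` (`A` over `ℓ ∤ M`). -/
theorem reductionInputsModL_twoCharts (ℓ : ℕ) [Fact ℓ.Prime] (hA : A.LiesOverPrime ℓ)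
    (hℓM : ¬ ℓ ∣ M) (h0 : ChartInputs A M T.S0) (h1 : ChartInputs A M T.S1) :
    ReductionInputsModL A M :=
  ⟨T.r, isPlaceReductionModL_twoCharts T h0 h1,
    Fermat.Agent.ES.RED.GaussUnit25.principalGeneratedByIntegral A ℓ hA M hℓM⟩

end Qbar

end Fermat.Agent.ES.RED.RedMain15
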