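/-
Program I (S37), chapter RED, leaf RED-T part 1 (helper12): the S18 top argument with the place
reduction map `r` EXPLICIT.  Same proof as `RED/TOP/S18TopAt20.s18_of_CLAt` (helper20), with
`(r, hr : IsPlaceReductionAlong A (residue A) N r, hgen)` given instead of `h.choose`:
`reductionPic0Along r hr hgen` is injective on prime-to-`ℓ` torsion of `JZero N`, given the core
lemma `CLAt N ℓ A` / `Interface4.CLBar ℓ N A`.
-/
import Mathlib
import Fermat.Agent.RED.TOP.S18TopAt20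

set_option autoImplicit false
set_option synthInstance.maxHeartbeats 400000
set_option linter.unusedSectionVars false

noncomputable section

open HahnSeries IntermediateField AlgebraicCurve ModularCurve

namespace Fermat.Agent.ES.RED.RedInj12

open Fermat.Agent.X0.FF Fermat.Agent.RED.TOP.ConstViaR20 Fermat.Agent.RED.TOP.S18Top20
  Fermat.Agent.RED.TOP.S18TopAt20

section Main

variable (N : ℕ) [NeZero N]

local notation "Qbar" => AlgebraicClosure ℚ
local notation "Fbar" => modularFunctionFieldBar N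

/-- **(Φ3), reduction half**: for an EXPLICIT place reduction map `r`, `reductionPic0Along r hr hgen`
is injective on the `m`-torsion of `JZero N`, `ℓ ∤ m`, given the core lemma at `A`. -/
theorem red_injective_of_CLAt {ℓ : ℕ} [Fact ℓ.Prime]
    (A : ValuationSubring (AlgebraicClosure ℚ)) (hCL : CLAt N ℓ A)
    (r : Place (AlgebraicClosure ℚ) (modularFunctionFieldBar N) →
      Place (IsLocalRing.ResidueField A)
        (modularFunctionFieldFullC (IsLocalRing.ResidueField A) N))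
    (hr : IsPlaceReductionAlong A (IsLocalRing.residue A) N r)
    (hgen : PrincipalGeneratedByIntegral A (IsLocalRing.residue A) N)
    (m : ℕ) (hm : ¬ ℓ ∣ m) (z : ModularCurve.JZero N)
    (hmz : m • z = 0) (hz : reductionPic0Along r hr hgen z = 0) :
    z = 0 := by
  classical
  have hdiv := Fermat.Agent.RED.TOP.FbarFacts20.hasPrincipalDivisors_bar N
  have hdeg1 := Fermat.Agent.RED.TOP.FbarFacts20.deg_eq_one_bar N
  have hne := Fermat.Agent.RED.TOP.FbarFacts20.nonempty_place_bar N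
  -- `z = [D₀]`
  obtain ⟨⟨D₀, hD₀⟩, rfl⟩ := Pic0.mk_surjective z
  -- `m • D₀` is principal
  have hmD₀ : m • D₀ ∈ Divisor.principal (K := Qbar) (F := Fbar) := by
    have h1 : Pic0.mk (m • (⟨D₀, hD₀⟩ : Divisor.degZero (K := Qbar) (F := Fbar))) = 0 := by
      rw [← hmz]; rfl
    have h2 := (QuotientAddGroup.eq_zero_iff _).mp h1
    rw [AddSubgroup.mem_addSubgroupOf] at h2
    simpa using h2
  -- `r_* D₀` is principal
  have hrD₀ : Finsupp.mapDomain r D₀ ∈
      Divisor.principal (K := IsLocalRing.ResidueField A)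
        (F := modularFunctionFieldFullC (IsLocalRing.ResidueField A) N) := by
    rw [reductionPic0Along_mk] at hz
    have h2 := (QuotientAddGroup.eq_zero_iff _).mp hz
    rw [AddSubgroup.mem_addSubgroupOf] at h2
    exact h2
  -- integral representation of `m • D₀`
  obtain ⟨Y₁, Y₂, hY₁, hY₂, hYk₁, hYk₂, hY0₁, hY0₂, hYord⟩ :=
    goodRep_of_mem_closure (hgen hmD₀)
  -- `g~` with `div g~ = r_* D₀`, and its lift
  obtain ⟨g, hg0, hgord⟩ := hrD₀
  obtain ⟨G₁, G₂, hG₁, hG₂, hGk₁, hGk₂, hG0₁, hG0₂, hgG⟩ :=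
    Fermat.Agent.RED.TOP.LiftRatio2.exists_lift_ratio_modL A N (g : LaurentSeries (IsLocalRing.ResidueField A)) g.2
      (fun h0 => hg0 (Subtype.ext h0))
  obtain ⟨DG₁, hDG₁, -⟩ := hdiv.exists_divisor _ (bar_ne_zero hG₁ hG0₁)
  obtain ⟨DG₂, hDG₂, -⟩ := hdiv.exists_divisor _ (bar_ne_zero hG₂ hG0₂)
  -- the new divisor and functions
  set D : Divisor Qbar Fbar := D₀ - (DG₁ - DG₂) with hD
  have hP : coeffMap A.subtype (Y₁ * G₂ ^ m) ∈ Fbar := by
    rw [map_mul]; exact mul_mem hY₁ (pow_mem_bar N hG₂ m)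
  have hQ : coeffMap A.subtype (Y₂ * G₁ ^ m) ∈ Fbar := by
    rw [map_mul]; exact mul_mem hY₂ (pow_mem_bar N hG₁ m)
  have hPk : coeffMap (IsLocalRing.residue A) (Y₁ * G₂ ^ m) ∈
      modularFunctionFieldFullC (IsLocalRing.ResidueField A) N := by
    rw [map_mul, map_pow]; exact mul_mem hYk₁ (pow_mem hGk₂ m)
  have hQk : coeffMap (IsLocalRing.residue A) (Y₂ * G₁ ^ m) ∈
      modularFunctionFieldFullC (IsLocalRing.ResidueField A) N := by
    rw [map_mul, map_pow]; exact mul_mem hYk₂ (pow_mem hGk₁ m)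
  have hP0 : coeffMap (IsLocalRing.residue A) (Y₁ * G₂ ^ m) ≠ 0 := by
    rw [map_mul, map_pow]; exact mul_ne_zero hY0₁ (pow_ne_zero m hG0₂)
  have hQ0 : coeffMap (IsLocalRing.residue A) (Y₂ * G₁ ^ m) ≠ 0 := by
    rw [map_mul, map_pow]; exact mul_ne_zero hY0₂ (pow_ne_zero m hG0₁)
  have hGm0₁ : coeffMap (IsLocalRing.residue A) (G₁ ^ m) ≠ 0 := by
    rw [map_pow]; exact pow_ne_zero m hG0₁
  have hGm0₂ : coeffMap (IsLocalRing.residue A) (G₂ ^ m) ≠ 0 := by
    rw [map_pow]; exact pow_ne_zero m hG0₂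
  -- orders upstairs: `m·D = div P - div Q`
  have hDord : ∀ w : Place Qbar Fbar, (m : ℤ) * D w =
      w.ord (⟨_, hP⟩ : Fbar) - w.ord (⟨_, hQ⟩ : Fbar) := by
    intro w
    rw [ord_bar_mul w hY₁ (pow_mem_bar N hG₂ m) hP hY0₁ hGm0₂,
      ord_bar_mul w hY₂ (pow_mem_bar N hG₁ m) hQ hY0₂ hGm0₁,
      ord_bar_pow N w hG₂ m, ord_bar_pow N w hG₁ m, hD, Finsupp.sub_apply, Finsupp.sub_apply,
      hDG₁ w, hDG₂ w]
    have := hYord w
    rw [Finsupp.smul_apply, nsmul_eq_mul] at this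
    linarith
  -- divisors of `P`, `Q` upstairs and their push-forwards
  obtain ⟨DP, hDP, -⟩ := hdiv.exists_divisor _ (bar_ne_zero hP hP0)
  obtain ⟨DQ, hDQ, -⟩ := hdiv.exists_divisor _ (bar_ne_zero hQ hQ0)
  have hDPQ : DP - DQ = m • D := by
    ext w
    rw [Finsupp.sub_apply, Finsupp.smul_apply, nsmul_eq_mul, hDP w, hDQ w, hDord w]
  have hrP := hr.2 _ hP hPk hP0 DP hDP
  have hrQ := hr.2 _ hQ hQk hQ0 DQ hDQ
  have hrG₁ := hr.2 _ hG₁ hGk₁ hG0₁ DG₁ hDG₁
  have hrG₂ := hr.2 _ hG₂ hGk₂ hG0₂ DG₂ hDG₂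
  -- `g = G₁~/G₂~` in `F~`
  have hgF : g = (⟨_, hGk₁⟩ : modularFunctionFieldFullC (IsLocalRing.ResidueField A) N) /
      ⟨_, hGk₂⟩ := Subtype.ext hgG
  have hGk0₁ : (⟨_, hGk₁⟩ : modularFunctionFieldFullC (IsLocalRing.ResidueField A) N) ≠ 0 :=
    fun h0 => hG0₁ (congrArg Subtype.val h0)
  have hGk0₂ : (⟨_, hGk₂⟩ : modularFunctionFieldFullC (IsLocalRing.ResidueField A) N) ≠ 0 :=
    fun h0 => hG0₂ (congrArg Subtype.val h0)
  -- `r_* D = 0`
  have hrD : ∀ Q' : Place (IsLocalRing.ResidueField A)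
      (modularFunctionFieldFullC (IsLocalRing.ResidueField A) N),
      Finsupp.mapDomain r D Q' = 0 := by
    intro Q'
    rw [hD, Finsupp.mapDomain_sub, Finsupp.mapDomain_sub, Finsupp.sub_apply, Finsupp.sub_apply,
      hgord Q', hrG₁ Q', hrG₂ Q', hgF, div_eq_mul_inv, Q'.ord_mul hGk0₁ (inv_ne_zero hGk0₂),
      Q'.ord_inv]
    ring
  -- hence `P~`, `Q~` have the same orders everywhere
  have hordPQ : ∀ Q' : Place (IsLocalRing.ResidueField A)
      (modularFunctionFieldFullC (IsLocalRing.ResidueField A) N),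
      Q'.ord (⟨_, hPk⟩ : modularFunctionFieldFullC (IsLocalRing.ResidueField A) N) =
        Q'.ord (⟨_, hQk⟩ : modularFunctionFieldFullC (IsLocalRing.ResidueField A) N) := by
    intro Q'
    have h1 : Finsupp.mapDomain r (DP - DQ) Q' = 0 := by
      rw [hDPQ, Finsupp.mapDomain_smul, Finsupp.smul_apply, hrD Q', smul_zero]
    rw [Finsupp.mapDomain_sub, Finsupp.sub_apply, hrP Q', hrQ Q'] at h1
    linarith
  -- constant
  obtain ⟨c, hc⟩ := exists_const_of_ord_eq IsLocalRing.residue_surjective hdiv hdeg1 hne hr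
    (Y₁ * G₂ ^ m) (Y₂ * G₁ ^ m) hP hQ hPk hQk hQ0 hordPQ
  -- `c ≠ 0`
  have hc0 : (c : Qbar) ≠ 0 := by
    intro h0
    have : c = 0 := Subtype.ext h0
    rw [this, map_zero, zero_mul, map_zero] at hc
    exact hP0 hc
  -- apply (CL) to `P` and `c Q`
  have hQ' : coeffMap A.subtype (HahnSeries.C c * (Y₂ * G₁ ^ m)) ∈ Fbar := by
    rw [map_mul, coeffMap_C]; exact mul_mem (C_mem_bar _) hQ
  have hQ'k : coeffMap (IsLocalRing.residue A) (HahnSeries.C c * (Y₂ * G₁ ^ m)) ∈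
      modularFunctionFieldFullC (IsLocalRing.ResidueField A) N := by
    rw [← hc]; exact hPk
  have hQ'0 : coeffMap (IsLocalRing.residue A) (HahnSeries.C c * (Y₂ * G₁ ^ m)) ≠ 0 := by
    rw [← hc]; exact hP0
  have hDprin : D ∈ Divisor.principal (K := Qbar) (F := Fbar) := by
    refine hCL (Y₁ * G₂ ^ m) (HahnSeries.C c * (Y₂ * G₁ ^ m)) hP hQ' hc hQ'0 hQ'k m hm D ?_
    intro w
    have hQ'eq : (⟨_, hQ'⟩ : Fbar) = algebraMap Qbar Fbar (c : Qbar) * (⟨_, hQ⟩ : Fbar) := by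
      apply Subtype.ext
      show coeffMap A.subtype (HahnSeries.C c * (Y₂ * G₁ ^ m)) =
        algebraMap Qbar (LaurentSeries Qbar) (c : Qbar) * coeffMap A.subtype (Y₂ * G₁ ^ m)
      rw [map_mul, coeffMap_C, algebraMap_laurentSeries_eq_single, HahnSeries.C_apply]
      rfl
    have hcF : algebraMap Qbar Fbar (c : Qbar) ≠ 0 := by
      rw [Ne, map_eq_zero_iff _ (algebraMap Qbar Fbar).injective]
      exact hc0
    rw [hDord w, div_eq_mul_inv, w.ord_mul (bar_ne_zero hP hP0)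
      (inv_ne_zero (hQ'eq ▸ mul_ne_zero hcF (bar_ne_zero hQ hQ0))), w.ord_inv, hQ'eq,
      w.ord_mul hcF (bar_ne_zero hQ hQ0), ffp_ord_algebraMap]
    ring
  -- conclude
  have hD₀prin : D₀ ∈ Divisor.principal (K := Qbar) (F := Fbar) := by
    have h1 : D₀ = D + (DG₁ - DG₂) := by rw [hD]; abel
    rw [h1]
    refine AddSubgroup.add_mem _ hDprin (AddSubgroup.sub_mem _ ?_ ?_)
    · exact ⟨_, bar_ne_zero hG₁ hG0₁, hDG₁⟩
    · exact ⟨_, bar_ne_zero hG₂ hG0₂, hDG₂⟩
  show Pic0.mk (⟨D₀, hD₀⟩ : Divisor.degZero (K := Qbar) (F := Fbar)) = 0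
  rw [Pic0.mk, QuotientAddGroup.eq_zero_iff, AddSubgroup.mem_addSubgroupOf]
  exact hD₀prin

/-- The same from helper4's contract `Interface4.CLBar ℓ N A`. -/
theorem red_injective_of_CLBar {ℓ : ℕ} [Fact ℓ.Prime]
    (A : ValuationSubring (AlgebraicClosure ℚ)) (hCL : Fermat.Agent.RED.Interface4.CLBar ℓ N A)
    (r : Place (AlgebraicClosure ℚ) (modularFunctionFieldBar N) →
      Place (IsLocalRing.ResidueField A)
        (modularFunctionFieldFullC (IsLocalRing.ResidueField A) N))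
    (hr : IsPlaceReductionAlong A (IsLocalRing.residue A) N r)
    (hgen : PrincipalGeneratedByIntegral A (IsLocalRing.residue A) N)
    (m : ℕ) (hm : ¬ ℓ ∣ m) (z : ModularCurve.JZero N)
    (hmz : m • z = 0) (hz : reductionPic0Along r hr hgen z = 0) :
    z = 0 :=
  red_injective_of_CLAt N A (clAt_of_clFieldAt (clFieldAt_of_clBar N hCL)) r hr hgen m hm z hmz hz

end Main

end Fermat.Agent.ES.RED.RedInj12
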