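/-
Program I (S37), chapter RED, leaf RED-T assembly (helper12): **(Φ3)** for `Φ := red ∘ π^*`,
`red := reductionPic0Along r hr hgen` at level `M` (explicit `r`), `π^* := levelPullback h`:
`m • x = 0`, `ℓ ∤ m`, `Φ x = 0` ⇒ `x = 0`.
-/
import Mathlib
import Fermat.Agent.ES.RED.RedInj12
import Fermat.Agent.ES.RED.PullbackInj12

set_option autoImplicit false
set_option synthInstance.maxHeartbeats 400000

noncomputable section

open AlgebraicCurve ModularCurve IntermediateField

namespace Fermat.Agent.ES.RED.PhiThree12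

open Fermat.Agent.ES.HECKE.LevelPullback12 Fermat.Agent.RED.Interface4
  Fermat.Agent.RED.BASE.Interface12 Fermat.Agent.RED.LVL

/-- **(Φ3), general level**: root descent `M → N` + core lemma at level `M`. -/
theorem phi_three_of {ℓ : ℕ} [Fact ℓ.Prime] {N M : ℕ} [NeZero N] [NeZero M] (h : N ∣ M)
    (hrd : LevelStepAbs2.RootDescent N M (fbar_mono h))
    (A : ValuationSubring (AlgebraicClosure ℚ)) (hCL : CLBar ℓ M A)
    (r : Place (AlgebraicClosure ℚ) (modularFunctionFieldBar M) →
      Place (IsLocalRing.ResidueField A)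
        (modularFunctionFieldFullC (IsLocalRing.ResidueField A) M))
    (hr : IsPlaceReductionAlong A (IsLocalRing.residue A) M r)
    (hgen : PrincipalGeneratedByIntegral A (IsLocalRing.residue A) M)
    (m : ℕ) (hm : ¬ ℓ ∣ m) (x : JZero N) (hmx : m • x = 0)
    (hx : reductionPic0Along r hr hgen (levelPullback h x) = 0) : x = 0 := by
  have hm0 : 0 < m := Nat.pos_of_ne_zero (fun h0 => hm (h0 ▸ dvd_zero ℓ))
  have hz : levelPullback h x = 0 := by
    refine RedInj12.red_injective_of_CLBar M A hCL r hr hgen m hm (levelPullback h x) ?_ hx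
    rw [← map_nsmul, hmx, map_zero]
  exact PullbackInj12.levelPullback_eq_zero_of_rootDescent h hrd m hm0 x hmx hz

/-- **(Φ3)** at the auxiliary level `M = auxLevel ℓ N`. -/
theorem phi_three {ℓ : ℕ} [Fact ℓ.Prime] {N : ℕ} [NeZero N]
    (A : ValuationSubring (AlgebraicClosure ℚ))
    (hCL : CLBar ℓ (auxLevel ℓ N) A)
    (r : Place (AlgebraicClosure ℚ) (modularFunctionFieldBar (auxLevel ℓ N)) →
      Place (IsLocalRing.ResidueField A)
        (modularFunctionFieldFullC (IsLocalRing.ResidueField A) (auxLevel ℓ N)))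
    (hr : IsPlaceReductionAlong A (IsLocalRing.residue A) (auxLevel ℓ N) r)
    (hgen : PrincipalGeneratedByIntegral A (IsLocalRing.residue A) (auxLevel ℓ N))
    (m : ℕ) (hm : ¬ ℓ ∣ m) (x : JZero N) (hmx : m • x = 0)
    (hx : haveI := LevelDegree17.neZero_auxLevel ℓ N
      reductionPic0Along r hr hgen (levelPullback (dvd_auxLevel ℓ N) x) = 0) : x = 0 := by
  haveI := LevelDegree17.neZero_auxLevel ℓ N
  have hm0 : 0 < m := Nat.pos_of_ne_zero (fun h0 => hm (h0 ▸ dvd_zero ℓ))
  have hz : levelPullback (dvd_auxLevel ℓ N) x = 0 := by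
    refine RedInj12.red_injective_of_CLBar (auxLevel ℓ N) A hCL r hr hgen m hm
      (levelPullback (dvd_auxLevel ℓ N) x) ?_ hx
    rw [← map_nsmul, hmx, map_zero]
  exact PullbackInj12.levelPullback_auxLevel_eq_zero ℓ N m hm0 x hmx hz

end Fermat.Agent.ES.RED.PhiThree12
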