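/-
Program I (S37), chapter ES/RED, leaf RED-Z (helper15): `RedMain15.ChartInputs` for a
COEFFICIENTWISE chart.

For `S : ChartSpec A hx F~` with `GaloisInst21.CoeffChart S` (chart ring = integral closure of `A[s]`,
every element has an `A`-integral `q`-expansion, `red` = coefficientwise reduction) the fields
`compat`, `int`, `norm` of `ChartInputs` are automatic; what remains are the generators / separability /
degree facts (`SpecialGen25`) and (PEEL-a).
-/
import Mathlib
import Fermat.Agent.ES.RED.RedMain15
import Fermat.Agent.ES.RED.GaloisInst21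
import Fermat.Agent.ES.RED.ChartFacts9
import Fermat.Agent.ES.RED.NormFrac18

set_option autoImplicit false
set_option linter.unusedSectionVars false

open AlgebraicCurve ModularCurve HahnSeries Polynomial IntermediateField

noncomputable section

namespace Fermat.Agent.ES.RED.ChartInputsOf15

open Fermat.Agent.ES.RED.Contract8 Fermat.Agent.ES.RED.RedCharts15 Fermat.Agent.ES.RED.RedMain15
open Fermat.Agent.ES.RED.GaloisInst21 Fermat.Agent.ES.RED.ChartFacts9
open Fermat.Agent.RED.PUR.ChartGeneric22 Fermat.Agent.X0.FF

variable {L : Type*} [Field L] [Algebra ℚ L] [IsAlgClosed L] {A : ValuationSubring L} {M : ℕ}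
  [NeZero M]
variable {x : ↥(laurentBaseChange L (modularFunctionFieldFull M))} {hx : IsGen L x}
variable {S : ChartSpec A hx ↥(modularFunctionFieldFullC (kA A) M)}

/-- compatibility with `q`-expansions from a `CoeffChart`. -/
theorem compat_of_coeffChart (hS : CoeffChart (F₀ := modularFunctionFieldFull M) S) :
    Compat A M S := by
  intro b
  obtain ⟨Y, hY⟩ := hS.exists_series b
  exact ⟨Y, hY, hS.red_eq b Y hY⟩

/-- integrality of the reductions from a `CoeffChart`. -/
theorem int_of_coeffChart (hS : CoeffChart (F₀ := modularFunctionFieldFull M) S) (b : ↥S.B) :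
    IsIntegral (Algebra.adjoin (kA A) {S.red S.sB}) (S.red b) :=
  isIntegral_red_of_mem_chart A (resA A) S.B S.red S.sB
    (fun c hc => (hS.mem_iff c).mpr (adjoin_le_chart S.s hc))
    (fun a _ => S.red_const a) b ((hS.mem_iff b).mp b.2)

/-- the norm property from a `CoeffChart`. -/
theorem norm_of_coeffChart (hS : CoeffChart (F₀ := modularFunctionFieldFull M) S)
    (hs : IsGen L S.s) (z : ↥S.B) (hz : z ≠ 0) :
    ∃ z' : ↥S.B, z' ≠ 0 ∧ ∃ p : L[X],
      ((z : ↥(laurentBaseChange L (modularFunctionFieldFull M))) *
        (z' : ↥(laurentBaseChange L (modularFunctionFieldFull M)))) = aeval S.s p := by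
  have hzF : (z : ↥(laurentBaseChange L (modularFunctionFieldFull M))) ≠ 0 :=
    fun h0 => hz (Subtype.ext h0)
  obtain ⟨z', hz', hz'0, p, e⟩ :=
    NormFrac18.norm_chart A hs.transcendental ((hS.mem_iff z).mp z.2) hzF
  exact ⟨⟨z', (hS.mem_iff z').mpr hz'⟩, fun h0 => hz'0 (congrArg Subtype.val h0), p, e⟩

/-- **`ChartInputs` for a coefficientwise chart.** -/
theorem chartInputs_of_coeffChart (hS : CoeffChart (F₀ := modularFunctionFieldFull M) S)
    (gen : IsGen L S.s) (gent : IsGen (kA A) (S.red S.sB))
    (sep : Algebra.IsSeparable (kA A)⟮S.red S.sB⟯ ↥(modularFunctionFieldFullC (kA A) M))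
    (peel : ∀ (P : Place L ↥(laurentBaseChange L (modularFunctionFieldFull M)))
      (hP : S.InChart P), S.PeelA P hP)
    (deg : Module.finrank L⟮S.s⟯ ↥(laurentBaseChange L (modularFunctionFieldFull M)) =
      Module.finrank (kA A)⟮S.red S.sB⟯ ↥(modularFunctionFieldFullC (kA A) M)) :
    ChartInputs A M S where
  compat := compat_of_coeffChart hS
  gen := gen
  gent := gent
  sep := sep
  peel := peel
  int := int_of_coeffChart hS
  norm := norm_of_coeffChart hS gen
  deg := deg

end Fermat.Agent.ES.RED.ChartInputsOf15
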