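/-
Program I (S37), chapter ES/RED, leaf RED-Z (helper15): the CONCRETE `ChartInputs` at level `M`
(`n ∣ M`, `(n,e)` a Hauptmodul datum, `ℓ ∤ M`, `A` over `ℓ`) and the resulting

  `IsPlaceReductionModL A M T.r`,  `ReductionInputsModL A M`

for any `T : TwoCharts8.TwoCharts A hx F~` whose two charts are coefficientwise
(`GaloisInst21.CoeffChart`) with coordinates `T.S0.s = tF M hmem` (hence `T.S1.s = (tF M hmem)⁻¹`)
and satisfy (PEEL-a).  Everything else is discharged from `SpecialInv25` / `SpecialGen25`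
(generators, separability, degrees for `t^{±1}` and `t̃^{±1}`).
-/
import Mathlib
import Fermat.Agent.ES.RED.ChartInputsOf15
import Fermat.Agent.ES.RED.SpecialInv25

set_option autoImplicit false
set_option linter.unusedSectionVars false

open AlgebraicCurve ModularCurve HahnSeries Polynomial IntermediateField

noncomputable section

namespace Fermat.Agent.ES.RED.RedInst15

open Fermat.Agent.ES.RED.Contract8 Fermat.Agent.ES.RED.RedCharts15 Fermat.Agent.ES.RED.RedMain15
open Fermat.Agent.ES.RED.GaloisInst21 Fermat.Agent.ES.RED.ChartInputsOf15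
open Fermat.Agent.ES.RED.TwoCharts8 Fermat.Agent.ES.RED.SpecialGen25
open Fermat.Agent.ES.RED.SpecialInv25
open Fermat.Agent.X0 Fermat.Agent.X0.FF Fermat.Agent.RED.Interface4 Fermat.Agent.RED.BASE

variable (n e M : ℕ) [NeZero n] [NeZero M] (ℓ : ℕ) [Fact ℓ.Prime] (hℓM : ¬ ℓ ∣ M)
  (hmem : Interface12.TMem n e M) (hgen : Interface12.TGenBase n e)
  (A : ValuationSubring Qbar) (hA : A.LiesOverPrime ℓ)
variable {x : X0.FF M} {hx : IsGen Qbar x}

include hℓM hgen hA

/-- In a coefficientwise chart with coordinate `t`, the reduced coordinate is `t̃`. -/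
theorem red_sB_eq_tRes (S : ChartSpec A hx ↥(modularFunctionFieldFullC (kA A) M))
    (hS : CoeffChart (F₀ := modularFunctionFieldFull M) S) (hs : S.s = Interface12.tF M hmem) :
    S.red S.sB = tRes n e M ℓ hℓM hmem hgen A hA := by
  apply Subtype.ext
  have hY : coeffMap A.subtype (EtaQuot12.tq ↥A n e) =
      (((S.sB : ↥S.B) : X0.FF M) : LaurentSeries Qbar) := by
    rw [← coe_tF n e M hmem A, ← hs]
    rfl
  rw [hS.red_eq S.sB _ hY, coe_tRes_eq]

/-- In a coefficientwise chart with coordinate `t⁻¹`, the reduced coordinate is `t̃⁻¹`. -/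
theorem red_sB_eq_tRes_inv (S : ChartSpec A hx ↥(modularFunctionFieldFullC (kA A) M))
    (hS : CoeffChart (F₀ := modularFunctionFieldFull M) S)
    (hs : S.s = (Interface12.tF M hmem)⁻¹) :
    S.red S.sB = (tRes n e M ℓ hℓM hmem hgen A hA)⁻¹ := by
  apply Subtype.ext
  have hY : coeffMap A.subtype (tqInv ↥A n e) =
      (((S.sB : ↥S.B) : X0.FF M) : LaurentSeries Qbar) := by
    rw [← coe_tF_inv n e M hmem A, ← hs]
    rfl
  rw [hS.red_eq S.sB _ hY, coe_tRes_inv]

/-- **`ChartInputs` for the chart with coordinate `t`.** -/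
theorem chartInputs_t (S : ChartSpec A hx ↥(modularFunctionFieldFullC (kA A) M))
    (hS : CoeffChart (F₀ := modularFunctionFieldFull M) S) (hs : S.s = Interface12.tF M hmem)
    (peel : ∀ (P : Place Qbar (X0.FF M)) (hP : S.InChart P), S.PeelA P hP) :
    ChartInputs A M S := by
  have hred := red_sB_eq_tRes n e M ℓ hℓM hmem hgen A hA S hS hs
  refine chartInputs_of_coeffChart hS ?_ ?_ ?_ peel ?_
  · rw [hs]; exact isGen_tF n e M hmem
  · rw [hred]; exact isGen_tRes n e M ℓ hℓM hmem hgen A hA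
  · rw [hred]; exact isSeparable_tRes n e M ℓ hℓM hmem hgen A hA
  · rw [hred, hs, finrank_tRes_eq_degT]
    rfl

/-- **`ChartInputs` for the chart with coordinate `t⁻¹`.** -/
theorem chartInputs_t_inv (S : ChartSpec A hx ↥(modularFunctionFieldFullC (kA A) M))
    (hS : CoeffChart (F₀ := modularFunctionFieldFull M) S)
    (hs : S.s = (Interface12.tF M hmem)⁻¹)
    (peel : ∀ (P : Place Qbar (X0.FF M)) (hP : S.InChart P), S.PeelA P hP) :
    ChartInputs A M S := by
  have hred := red_sB_eq_tRes_inv n e M ℓ hℓM hmem hgen A hA S hS hs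
  refine chartInputs_of_coeffChart hS ?_ ?_ ?_ peel ?_
  · rw [hs]; exact isGen_tF_inv n e M hmem
  · rw [hred]; exact isGen_tRes_inv n e M ℓ hℓM hmem hgen A hA
  · rw [hred]; exact isSeparable_tRes_inv n e M ℓ hℓM hmem hgen A hA
  · rw [hred, hs, finrank_tRes_inv, finrank_tF_inv]

variable (T : TwoCharts A hx ↥(modularFunctionFieldFullC (kA A) M))

/-- Both `ChartInputs` for a concrete `TwoCharts`. -/
theorem chartInputs_both
    (hS0 : CoeffChart (F₀ := modularFunctionFieldFull M) T.S0)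
    (hS1 : CoeffChart (F₀ := modularFunctionFieldFull M) T.S1)
    (hs0 : T.S0.s = Interface12.tF M hmem)
    (peel0 : ∀ (P : Place Qbar (X0.FF M)) (hP : T.S0.InChart P), T.S0.PeelA P hP)
    (peel1 : ∀ (P : Place Qbar (X0.FF M)) (hP : T.S1.InChart P), T.S1.PeelA P hP) :
    ChartInputs A M T.S0 ∧ ChartInputs A M T.S1 :=
  ⟨chartInputs_t n e M ℓ hℓM hmem hgen A hA T.S0 hS0 hs0 peel0,
    chartInputs_t_inv n e M ℓ hℓM hmem hgen A hA T.S1 hS1 (by rw [T.s_inv, hs0]) peel1⟩

/-- **RED-Z, concrete**: the global reduction map of the two-chart model at level `M` is a place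
reduction in the sense of the Prelude. -/
theorem isPlaceReductionModL_main
    (hS0 : CoeffChart (F₀ := modularFunctionFieldFull M) T.S0)
    (hS1 : CoeffChart (F₀ := modularFunctionFieldFull M) T.S1)
    (hs0 : T.S0.s = Interface12.tF M hmem)
    (peel0 : ∀ (P : Place Qbar (X0.FF M)) (hP : T.S0.InChart P), T.S0.PeelA P hP)
    (peel1 : ∀ (P : Place Qbar (X0.FF M)) (hP : T.S1.InChart P), T.S1.PeelA P hP) :
    IsPlaceReductionModL A M T.r :=
  isPlaceReductionModL_twoCharts T
    (chartInputs_both n e M ℓ hℓM hmem hgen A hA T hS0 hS1 hs0 peel0 peel1).1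
    (chartInputs_both n e M ℓ hℓM hmem hgen A hA T hS0 hS1 hs0 peel0 peel1).2

/-- **RED-Z, concrete**, packaged as the Prelude's `ReductionInputsModL A M`. -/
theorem reductionInputsModL_main
    (hS0 : CoeffChart (F₀ := modularFunctionFieldFull M) T.S0)
    (hS1 : CoeffChart (F₀ := modularFunctionFieldFull M) T.S1)
    (hs0 : T.S0.s = Interface12.tF M hmem)
    (peel0 : ∀ (P : Place Qbar (X0.FF M)) (hP : T.S0.InChart P), T.S0.PeelA P hP)
    (peel1 : ∀ (P : Place Qbar (X0.FF M)) (hP : T.S1.InChart P), T.S1.PeelA P hP) :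
    ReductionInputsModL A M :=
  reductionInputsModL_twoCharts T ℓ hA hℓM
    (chartInputs_both n e M ℓ hℓM hmem hgen A hA T hS0 hS1 hs0 peel0 peel1).1
    (chartInputs_both n e M ℓ hℓM hmem hgen A hA T hS0 hS1 hs0 peel0 peel1).2

end Fermat.Agent.ES.RED.RedInst15
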