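/-
Program I (S37), chapter RED — helper13.  **RED-P (RP)**: the places of a function field `F / K`
(`K` algebraically closed of ANY characteristic, `x` a separating generator) through the two affine
charts `B₀ = intRing K x` (integral closure of `K[x]`) and `B₁ = intRing K x⁻¹`, and the action of
semilinear automorphisms / the Frobenius.  To be used with `K := k`, `F := F~ =
modularFunctionFieldFullC k M`, `x := t~`.

* `not_isField_intRing`, and (with `[Algebra.IsSeparable K⟮x⟯ F]`) the Dedekind dictionary of
  `PlaceValue13` for `B = intRing K x`: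
  `chartPoint hx v hv : intRing K x →ₐ[K] K` (`b ↦ b(v)`) for a place with `x ∈ O_v`,
  `chartPlace hx χ : Place K F` for a `K`-point `χ`, round trips, `x ∈ O_{chartPlace χ}`;
* `mem_or_inv_mem`: every place lies in chart `x` or chart `x⁻¹`; `isGen_inv`;
* `eq_of_chart_values_eq` **(R1u-shape)**: two places in the chart with the same values on
  `intRing K x` coincide;
* semilinear automorphisms `g` with `g • x = x`: `smul_mem_intRing`, `chartPoint_smul`
  (`(g • b)(g • v) = σ_g (b(v))`);
* the modular special fibre: `valueHom_frobPlace` — `(cφ f)(Fr Q) = (f(Q)) ^ l`.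
-/
import Mathlib
import Fermat.Agent.ES.RED.PlaceValue13
import Fermat.Agent.ES.RED.SumOrdSep15
import Fermat.Agent.ES.KRON.FrobPlace13

set_option autoImplicit false
set_option linter.unusedSectionVars false
set_option linter.style.haveILetI false

noncomputable section

namespace Fermat.Agent.ES.RED.SpecialFibre13

open AlgebraicCurve IsLocalRing IsDedekindDomain IntermediateField
open Fermat.Agent.X0.FF Fermat.Agent.X0.FFDedekind
open Fermat.Agent.ES.RED.PlaceValue13 Fermat.Agent.ES.RED.SumOrdSep15

variable {K F : Type*} [Field K] [Field F] [Algebra K F] {x : F}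

/-! ### the chart ring is not a field -/

theorem not_isField_polyRing (hx : Transcendental K x) : ¬ IsField (polyRing K x) := by
  intro h
  have e := Polynomial.algEquivOfTranscendental K x hx
  exact Polynomial.not_isField K (MulEquiv.isField h e.toRingEquiv.toMulEquiv)

theorem not_isField_intRing (hx : IsGen K x) : ¬ IsField (intRing K x) := by
  intro h
  apply not_isField_polyRing hx.transcendental
  have hint : Algebra.IsIntegral (polyRing K x) (intRing K x) :=
    inferInstanceAs (Algebra.IsIntegral (polyRing K x) (integralClosure (polyRing K x) F))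
  have hinj : Function.Injective (algebraMap (polyRing K x) (intRing K x)) := by
    intro a b hab
    have h' := congrArg (fun z : intRing K x => (z : F)) hab
    exact Subtype.ext h'
  exact isField_of_isIntegral_of_isField hinj h

/-- `x`, as an element of the chart ring. -/
def genB (K : Type*) {F : Type*} [Field K] [Field F] [Algebra K F] (x : F) : intRing K x :=
  ⟨x, isIntegral_algebraMap (x := genA K x)⟩

@[simp] theorem coe_genB : ((genB K x : intRing K x) : F) = x := rfl

/-! ### every place lies in one of the two charts -/

theorem mem_or_inv_mem (v : Place K F) :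
    x ∈ v.toValuationSubring ∨ x⁻¹ ∈ v.toValuationSubring :=
  v.toValuationSubring.mem_or_inv_mem x

theorem isGen_inv (hx : IsGen K x) : IsGen K x⁻¹ := by
  apply hx.of_transcendental
  intro h
  exact hx.transcendental (by simpa using h.inv)

/-! ### the dictionary for the chart `intRing K x` -/

section Chart

variable [IsAlgClosed K] (hx : IsGen K x)

/-- the `K`-point of the chart under a place with `x ∈ O_v`. -/
def chartPoint (v : Place K F) (hv : x ∈ v.toValuationSubring) : intRing K x →ₐ[K] K :=
  homOfPlace hx v (intRing_le_of_mem v hv)

theorem chartPoint_apply (v : Place K F) (hv : x ∈ v.toValuationSubring) (b : intRing K x) :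
    chartPoint hx v hv b = valueHom hx v ⟨(b : F), intRing_le_of_mem v hv b⟩ := rfl

theorem chartPoint_eq_iff (v : Place K F) (hv : x ∈ v.toValuationSubring) (b : intRing K x)
    (c : K) :
    chartPoint hx v hv b = c ↔
      ((b : F) = algebraMap K F c ∨ 0 < v.ord ((b : F) - algebraMap K F c)) := by
  rw [chartPoint_apply, valueHom_eq_iff]

variable [Algebra.IsSeparable K⟮x⟯ F]

/-- the place of a `K`-point of the chart. -/
def chartPlace (χ : intRing K x →ₐ[K] K) : Place K F :=
  haveI := isDedekindDomain_intRing_sep hx
  haveI := isFractionRing_intRing hx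
  placeOfHom F (not_isField_intRing hx) χ

theorem intRing_le_chartPlace (χ : intRing K x →ₐ[K] K) (b : intRing K x) :
    (b : F) ∈ (chartPlace hx χ).toValuationSubring := by
  haveI := isDedekindDomain_intRing_sep hx
  haveI := isFractionRing_intRing hx
  exact algebraMap_mem_placeOfHom (F := F) (not_isField_intRing hx) χ b

theorem mem_chartPlace (χ : intRing K x →ₐ[K] K) : x ∈ (chartPlace hx χ).toValuationSubring :=
  intRing_le_chartPlace hx χ (genB K x)

/-- round trip 1. -/
theorem chartPoint_chartPlace (χ : intRing K x →ₐ[K] K) :
    chartPoint hx (chartPlace hx χ) (mem_chartPlace hx χ) = χ := by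
  haveI := isDedekindDomain_intRing_sep hx
  haveI := isFractionRing_intRing hx
  exact homOfPlace_placeOfHom (F := F) hx (not_isField_intRing hx) χ

/-- round trip 2. -/
theorem chartPlace_chartPoint (v : Place K F) (hv : x ∈ v.toValuationSubring) :
    chartPlace hx (chartPoint hx v hv) = v := by
  haveI := isDedekindDomain_intRing_sep hx
  haveI := isFractionRing_intRing hx
  exact placeOfHom_homOfPlace hx (not_isField_intRing hx) v (intRing_le_of_mem v hv)

/-- **(R1u-shape)**: two places in the chart with the same values on the chart ring coincide. -/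
theorem eq_of_chart_values_eq (v w : Place K F) (hv : x ∈ v.toValuationSubring)
    (hw : x ∈ w.toValuationSubring)
    (h : ∀ b : intRing K x, chartPoint hx v hv b = chartPoint hx w hw b) : v = w := by
  rw [← chartPlace_chartPoint hx v hv, ← chartPlace_chartPoint hx w hw, AlgHom.ext h]

/-- the places in the chart are exactly the `chartPlace χ`. -/
theorem exists_chartPlace_eq (v : Place K F) (hv : x ∈ v.toValuationSubring) :
    ∃ χ : intRing K x →ₐ[K] K, chartPlace hx χ = v :=
  ⟨chartPoint hx v hv, chartPlace_chartPoint hx v hv⟩

theorem chartPlace_injective :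
    Function.Injective (fun χ : intRing K x →ₐ[K] K => chartPlace hx χ) := by
  intro χ χ' h
  simp only at h
  rw [← chartPoint_chartPlace hx χ, ← chartPoint_chartPlace hx χ']
  congr 1

end Chart

/-! ### semilinear automorphisms fixing `x` -/

section Semilinear

variable (g : SemilinearAut K F) (hgx : g • x = x)

include hgx in
theorem smul_mem_polyRing {a : F} (ha : a ∈ polyRing K x) : g • a ∈ polyRing K x := by
  induction ha using Algebra.adjoin_induction with
  | mem y hy =>
    rw [Set.mem_singleton_iff] at hy
    rw [hy, hgx]
    exact Algebra.self_mem_adjoin_singleton K x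
  | algebraMap c =>
    rw [SemilinearAut.smul_algebraMap]
    exact Subalgebra.algebraMap_mem _ _
  | add a b _ _ ha hb => rw [smul_add]; exact add_mem ha hb
  | mul a b _ _ ha hb => rw [smul_mul']; exact mul_mem ha hb

include hgx in
/-- a semilinear automorphism fixing `x` preserves the chart ring. -/
theorem smul_mem_intRing {b : F} (hb : b ∈ intRing K x) : g • b ∈ intRing K x := by
  obtain ⟨p, hmonic, hp⟩ := hb
  -- transport the monic equation along `g`
  let φ : polyRing K x →+* polyRing K x :=
    { toFun := fun a => ⟨g • (a : F), smul_mem_polyRing g hgx a.2⟩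
      map_one' := Subtype.ext (smul_one g)
      map_mul' := fun a b => Subtype.ext (smul_mul' g (a : F) (b : F))
      map_zero' := Subtype.ext (smul_zero g)
      map_add' := fun a b => Subtype.ext (smul_add g (a : F) (b : F)) }
  refine ⟨p.map φ, hmonic.map φ, ?_⟩
  have h1 : ∀ q : Polynomial (polyRing K x),
      Polynomial.eval₂ (algebraMap (polyRing K x) F) (g • b) (q.map φ) =
        g • Polynomial.eval₂ (algebraMap (polyRing K x) F) b q := by
    intro q
    induction q using Polynomial.induction_on' with
    | add q r hq hr =>
      rw [Polynomial.map_add, Polynomial.eval₂_add, Polynomial.eval₂_add, hq, hr, smul_add]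
    | monomial n a =>
      rw [Polynomial.map_monomial, Polynomial.eval₂_monomial, Polynomial.eval₂_monomial,
        smul_mul', smul_pow']
      rfl
  rw [h1, hp, smul_zero]

variable [IsAlgClosed K] (hx : IsGen K x)

include hgx in
theorem smul_mem_smul_of_mem (v : Place K F) (hv : x ∈ v.toValuationSubring) :
    x ∈ (g • v).toValuationSubring := by
  have := PlaceValue13.smul_mem_smul g v hv
  rwa [hgx] at this

/-- **value rule on the chart**: `(g • b)(g • v) = σ_g (b(v))`. -/
theorem chartPoint_smul (v : Place K F) (hv : x ∈ v.toValuationSubring) (b : intRing K x) :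
    chartPoint hx (g • v) (smul_mem_smul_of_mem g hgx v hv)
        ⟨g • (b : F), smul_mem_intRing g hgx b.2⟩ =
      SemilinearAut.baseAut g (chartPoint hx v hv b) := by
  rw [chartPoint_apply, chartPoint_apply]
  exact valueHom_smul' hx g v (intRing_le_of_mem v hv b)

end Semilinear

/-! ### the modular special fibre: Frobenius value rule -/

section Frobenius

open ModularCurve Fermat.Agent.ES.KRON.FrobPlace13

variable (k : Type*) [Field k] [IsAlgClosed k] (l : ℕ) [ExpChar k l] (M : ℕ) [NeZero M]

/-- **`(cφ f)(Fr Q) = (f(Q)) ^ l`** for `f ∈ O_Q`. -/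
theorem valueHom_frobPlace {t : ↥(modularFunctionFieldFullC k M)} (ht : IsGen k t)
    (Q : Place k ↥(modularFunctionFieldFullC k M)) {f : ↥(modularFunctionFieldFullC k M)}
    (hf : f ∈ Q.toValuationSubring) :
    valueHom ht (frobPlace k l M Q)
        ⟨frobSemi k l M • f, PlaceValue13.smul_mem_smul (frobSemi k l M) Q hf⟩ =
      (valueHom ht Q ⟨f, hf⟩) ^ l :=
  valueHom_smul' ht (frobSemi k l M) Q hf

/-- `cφ` fixes every element of `F~` with coefficients fixed by the Frobenius (e.g. `t~`). -/
theorem frobSemi_smul_eq_self {t : ↥(modularFunctionFieldFullC k M)}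
    (ht : ∀ n : ℤ, ((t : LaurentSeries k).coeff n) ^ l = (t : LaurentSeries k).coeff n) :
    frobSemi k l M • t = t := by
  apply Subtype.ext
  ext n
  rw [coeff_frobSemi_smul, ht]

end Frobenius

end Fermat.Agent.ES.RED.SpecialFibre13
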