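/-
Program I (S37), chapter ES/RED — helper17.  **(S2) at finite level: the reduction of a smooth chart
is integrally closed in the residue field of the Gauss valuation.**

Setting of `G1Package8` / `ModelAsm4`: `O ⊂ K` a DVR (uniformiser `π`, residue field `κ`),
`E ≤ fracField O ⊂ K((q))`, `t : E` with `t ∈ gaussRing O`, `t̃` transcendental over `κ`, `(DEG)+(IRR)`
for `n = [E : K(t)]`, and the chart `chart O t` (integral closure of `O[t]` in `E`).

* `chartRed hπ hE t ht : chart O t →+* κ((q))` — the reduction map on the chart;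
  `chartRed_algebraMap`, `chartRed_self`, `chartRed_pi`, `chartRed_mem_resField`;
* `chartRed_eq_zero_iff` : `ker (chartRed) = π · chart` (saturation);  `isPrime_span_pi`;
* `isDedekindDomain_quotient` : `chart / π` is a Dedekind domain if the chart is smooth
  (`ModelAsm4.SmoothChart`);
* `exists_aeval_mul_mem_chart` : every element of the Gauss valuation ring of `E` is `b / h(t)`, `b` in the
  chart, `h ∈ O[X]`, `h̃ ≠ 0`;
* `isIntegral_chartRed` (easy inclusion): `chartRed b` is integral over `κ[t̃]`;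
* **`exists_chartRed_eq`** (S2): every `y ∈ resField O E` integral over `κ[t̃]` is `chartRed b` for some
  `b` in the chart;  `exists_chartRed_inv_eq` : the same for the chart `chart O t⁻¹`.

Pure algebra (Mathlib only): `exists_mul_isIntegral` (common denominators), `mem_range_of_isIntegral`,
`exists_map_eq_of_isIntegral`.
-/
import Mathlib
import Fermat.Agent.RED.ModelAsm4
import Fermat.Agent.RED.PUR.GaussBridge10
import Fermat.Agent.RED.PUR.Interface26

set_option autoImplicit false
set_option linter.unusedSectionVars false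

noncomputable section

open HahnSeries ModularCurve Polynomial IntermediateField

namespace Fermat.Agent.ES.RED.FibreSurj17

open Fermat.Agent.RED.PUR.GaussGen8 Fermat.Agent.RED.PUR.KtGauss8 Fermat.Agent.RED.PUR.G1Package8
  Fermat.Agent.RED.PUR.GaussBridge10 Fermat.Agent.RED.PUR.ChartGeneric22 Fermat.Agent.RED.ModelAsm4

/-! ### Part A: pure algebra -/

section Algebra

/-- **Common denominators.**  `S` a subalgebra of the field `F`, `O'` a subring all of whose
elements become elements of `S` after multiplication by an element of the submonoid `D ⊂ S`.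
Then every `x` integral over `O'` has a multiple `h * x`, `h ∈ D`, integral over `S`. -/
theorem exists_mul_isIntegral {R F : Type*} [CommRing R] [Field F] [Algebra R F]
    (S : Subalgebra R F) (O' : Subring F) (D : Submonoid F) (hDS : ∀ h ∈ D, h ∈ S)
    (hD : ∀ c ∈ O', ∃ h ∈ D, c * h ∈ S) {x : F} (hx : IsIntegral O' x) :
    ∃ h ∈ D, IsIntegral S (h * x) := by
  classical
  obtain ⟨p, hp, hpx⟩ := hx
  have hch : ∀ i : ℕ, ∃ h ∈ D, ((p.coeff i : O') : F) * h ∈ S := fun i => hD _ (p.coeff i).2
  choose hh hhD hhS using hch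
  set d := p.natDegree with hd
  set h : F := ∏ i ∈ Finset.range d, hh i with hh_def
  have hhmem : h ∈ D := Submonoid.prod_mem D fun i _ => hhD i
  have hcoeff : ∀ i < d, ((p.coeff i : O') : F) * h ∈ S := by
    intro i hi
    have hi' : i ∈ Finset.range d := Finset.mem_range.mpr hi
    rw [hh_def, ← Finset.mul_prod_erase _ _ hi', ← mul_assoc]
    exact S.mul_mem (hhS i) (hDS _ (Submonoid.prod_mem D fun j _ => hhD j))
  set P : F[X] := p.map (algebraMap O' F) with hP
  have hPm : P.Monic := hp.map _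
  have hPd : P.natDegree = d := hp.natDegree_map _
  have hPx : P.eval x = 0 := by
    rw [hP, eval_map]; exact hpx
  refine ⟨h, hhmem, (isIntegral_subalgebra_iff S (h * x)).mpr
    ⟨scaleRoots P h, (monic_scaleRoots_iff h).mpr hPm, ?_, ?_⟩⟩
  · intro i
    rw [coeff_scaleRoots, hPd]
    rcases lt_trichotomy i d with hi | hi | hi
    · have h1 : P.coeff i = ((p.coeff i : O') : F) := by
        rw [hP, coeff_map]; rfl
      have h2 : h ^ (d - i) = h * h ^ (d - i - 1) := by
        rw [← pow_succ']
        congr 1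
        omega
      rw [h1, h2, ← mul_assoc]
      exact S.mul_mem (hcoeff i hi) (S.pow_mem (hDS _ hhmem) _)
    · subst hi
      have : P.coeff d = 1 := by rw [← hPd]; exact hPm.coeff_natDegree
      rw [this, Nat.sub_self, pow_zero, mul_one]
      exact S.one_mem
    · rw [coeff_eq_zero_of_natDegree_lt (by omega), zero_mul]
      exact S.zero_mem
  · have := scaleRoots_eval₂_eq_zero (p := P) (RingHom.id F) (r := x) (s := h)
      (by rwa [eval₂_id])
    rwa [eval₂_id, RingHom.id_apply] at this

/-- **An integrally closed domain inside a field.**  `D` integrally closed, `ι : D → Ω` an injective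
ring hom into a field.  An element `y = ι a / ι b` which is integral over `ι(D)` lies in `ι(D)`. -/
theorem mem_range_of_isIntegral {D Ω : Type*} [CommRing D] [IsDomain D] [IsIntegrallyClosed D]
    [Field Ω] (ι : D →+* Ω) (hι : Function.Injective ι) {y : Ω} {a b : D} (hb : b ≠ 0)
    (hy : y * ι b = ι a) (hint : IsIntegral ι.range y) : y ∈ ι.range := by
  obtain ⟨p, hp, hpy⟩ := hint
  have hlift : p ∈ lifts ι.rangeRestrict := by
    rw [lifts_iff_coeff_lifts]
    intro n
    exact ι.rangeRestrict_surjective _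
  obtain ⟨q, hq, -, hqm⟩ := lifts_and_degree_eq_and_monic hlift hp
  have hqy : q.eval₂ ι y = 0 := by
    have h1 : ι = (ι.range.subtype).comp ι.rangeRestrict := by
      ext d; rfl
    rw [h1, ← eval₂_map, hq]
    exact hpy
  let φ : FractionRing D →+* Ω := IsFractionRing.lift hι
  have hφ : ∀ d : D, φ (algebraMap D (FractionRing D) d) = ι d := fun d =>
    IsFractionRing.lift_algebraMap hι d
  have hb' : algebraMap D (FractionRing D) b ≠ 0 := by
    rw [Ne, IsFractionRing.to_map_eq_zero_iff]; exact hb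
  set z : FractionRing D := algebraMap D (FractionRing D) a / algebraMap D (FractionRing D) b
    with hz
  have hιb : ι b ≠ 0 := fun h0 => hb (hι (by rw [h0, map_zero]))
  have hφz : φ z = y := by
    rw [hz, map_div₀, hφ, hφ, ← hy, mul_div_cancel_right₀ _ hιb]
  have hzint : IsIntegral D z := by
    refine ⟨q, hqm, φ.injective ?_⟩
    rw [map_zero, hom_eval₂, hφz]
    have : φ.comp (algebraMap D (FractionRing D)) = ι := RingHom.ext hφ
    rw [this]
    exact hqy
  obtain ⟨d, hd⟩ := IsIntegrallyClosed.isIntegral_iff.mp hzint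
  exact ⟨d, by rw [← hφz, ← hd, hφ]⟩


/-- **Lifting integral elements through a quotient.**  `ρ : B → Ω` a ring hom into a field with
kernel `I`, `B ⧸ I` an integrally closed domain.  An element `y = ρ a / ρ b` of `Ω` which is
integral over `ρ(B)` lies in `ρ(B)`. -/
theorem exists_map_eq_of_isIntegral {B Ω : Type*} [CommRing B] [Field Ω] (ρ : B →+* Ω)
    (I : Ideal B) (hker : ∀ b, ρ b = 0 ↔ b ∈ I) [IsDomain (B ⧸ I)] [IsIntegrallyClosed (B ⧸ I)]
    {y : Ω} {a b : B} (hb : ρ b ≠ 0) (hy : y * ρ b = ρ a) (hint : IsIntegral ρ.range y) :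
    ∃ c : B, ρ c = y := by
  let ι : B ⧸ I →+* Ω := Ideal.Quotient.lift I ρ (fun a ha => (hker a).mpr ha)
  have hιmk : ∀ a : B, ι (Ideal.Quotient.mk I a) = ρ a := fun a => Ideal.Quotient.lift_mk _ _ _
  have hι : Function.Injective ι := by
    rw [injective_iff_map_eq_zero]
    intro a ha
    obtain ⟨a, rfl⟩ := Ideal.Quotient.mk_surjective a
    rw [hιmk] at ha
    exact Ideal.Quotient.eq_zero_iff_mem.mpr ((hker a).mp ha)
  have hle : ρ.range ≤ ι.range := by
    rintro _ ⟨c, rfl⟩
    exact ⟨Ideal.Quotient.mk I c, hιmk c⟩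
  have hint' : IsIntegral ι.range y := by
    have := hint.map_of_comp_eq (Subring.inclusion hle) (RingHom.id Ω) (by ext; rfl)
    simpa using this
  obtain ⟨d, hd⟩ := mem_range_of_isIntegral ι hι (y := y)
    (a := Ideal.Quotient.mk I a) (b := Ideal.Quotient.mk I b)
    (by
      intro h0
      apply hb
      rw [← hιmk, h0, map_zero])
    (by rw [hιmk, hιmk, hy])
    hint'
  obtain ⟨c, rfl⟩ := Ideal.Quotient.mk_surjective d
  exact ⟨c, by rw [← hιmk]; exact hd⟩

end Algebra

/-! ### Part B: the reduction map on a chart -/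

section Gauss

variable {K : Type*} [Field K] {O : ValuationSubring K} [IsDiscreteValuationRing ↥O]
  {π : ↥O} (hπ : Irreducible π)
  {E : IntermediateField K (LaurentSeries K)} (hE : E ≤ fracField O)
  (t : ↥E) (ht : (t : LaurentSeries K) ∈ gaussRing O)

include hπ hE ht in
theorem coe_mem_gaussRing (b : ↥(chart ↥O t)) : ((b : ↥E) : LaurentSeries K) ∈ gaussRing O :=
  (mem_OvE_iff O hπ E hE _).mp (mem_OvE_of_isIntegral hπ hE t ht b.2)

/-- The chart as a subring of the Gauss ring. -/
def chartToGauss : ↥(chart ↥O t) →+* ↥(gaussRing O) where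
  toFun b := ⟨((b : ↥E) : LaurentSeries K), coe_mem_gaussRing hπ hE t ht b⟩
  map_one' := rfl
  map_mul' _ _ := rfl
  map_zero' := rfl
  map_add' _ _ := rfl

/-- **The reduction map on the chart** `chart O t → κ((q))`. -/
def chartRed : ↥(chart ↥O t) →+* LaurentSeries (Res O) :=
  (gaussRed O).comp (chartToGauss hπ hE t ht)

theorem chartRed_apply (b : ↥(chart ↥O t)) :
    chartRed hπ hE t ht b =
      gaussRed O ⟨((b : ↥E) : LaurentSeries K), coe_mem_gaussRing hπ hE t ht b⟩ := rfl

theorem chartRed_eq (b : ↥(chart ↥O t)) (hb : ((b : ↥E) : LaurentSeries K) ∈ gaussRing O) :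
    chartRed hπ hE t ht b = gaussRed O ⟨((b : ↥E) : LaurentSeries K), hb⟩ := rfl

theorem chartRed_algebraMap (c : ↥O) :
    chartRed hπ hE t ht (algebraMap ↥O ↥(chart ↥O t) c) = HahnSeries.C (res0 O c) := by
  rw [chartRed_apply, ← gaussRed_constG]
  congr 1
  apply Subtype.ext
  show algebraMap K (LaurentSeries K) (c : K) = _
  rw [Fermat.Agent.RED.PUR.GaussGen8.algebraMap_eq_C]
  rfl

theorem chartRed_self :
    chartRed hπ hE t ht ⟨t, self_mem_chart t⟩ = gaussRed O ⟨(t : LaurentSeries K), ht⟩ := rfl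

end Gauss

section Kernel

variable {K : Type*} [Field K] {O : ValuationSubring K} [IsDiscreteValuationRing ↥O]
  {π : ↥O} (hπ : Irreducible π)
  {E : IntermediateField K (LaurentSeries K)} (hE : E ≤ fracField O)
  (t : ↥E) (ht : (t : LaurentSeries K) ∈ gaussRing O)
  (htr : Transcendental (Res O) (gaussRed O ⟨(t : LaurentSeries K), ht⟩))
  {n : ℕ} (hdeg : DegLe O E ⟨(t : LaurentSeries K), ht⟩ n)
  (hirr : Irr O E ⟨(t : LaurentSeries K), ht⟩ n)

theorem chartRed_pi : chartRed hπ hE t ht (algebraMap ↥O ↥(chart ↥O t) π) = 0 := by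
  rw [chartRed_algebraMap, res0_unif (isUnif_of_irreducible O hπ), map_zero]

include htr hdeg hirr in
/-- **The kernel of the reduction map on the chart is `π · chart`** (saturation). -/
theorem chartRed_eq_zero_iff (b : ↥(chart ↥O t)) :
    chartRed hπ hE t ht b = 0 ↔ b ∈ Ideal.span {algebraMap ↥O ↥(chart ↥O t) π} := by
  constructor
  · intro h0
    rw [chartRed_apply, gaussRed_eq_zero_iff (isUnif_of_irreducible O hπ)] at h0
    obtain ⟨g, hg⟩ := h0
    have hg' : ((b : ↥E) : LaurentSeries K) = piK π * (g : LaurentSeries K) :=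
      congrArg (fun z : ↥(gaussRing O) => (z : LaurentSeries K)) hg
    have hπ0 : piK π ≠ 0 := piK_ne_zero (isUnif_of_irreducible O hπ)
    have hπE : piK π ∈ E := by
      rw [← coe_algebraMap_pi (E := E)]
      exact (algebraMap ↥O ↥E π).2
    have hgE : (g : LaurentSeries K) ∈ E := by
      have : (g : LaurentSeries K) = (piK π)⁻¹ * ((b : ↥E) : LaurentSeries K) := by
        rw [hg', ← mul_assoc, inv_mul_cancel₀ hπ0, one_mul]
      rw [this]
      exact mul_mem (inv_mem hπE) (b : ↥E).2
    set c : ↥E := ⟨(g : LaurentSeries K), hgE⟩ with hc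
    have hcOv : c ∈ OvE O hπ E hE := (mem_OvE_iff O hπ E hE c).mpr g.2
    have hbc : (b : ↥E) = algebraMap ↥O ↥E π * c := by
      apply Subtype.ext
      rw [MulMemClass.coe_mul, coe_algebraMap_pi]
      exact hg'
    have hcint : IsIntegral ↥(Algebra.adjoin ↥O {t}) c :=
      isIntegral_of_mul hπ hE t ht htr hdeg hirr hcOv (hbc ▸ b.2)
    rw [Ideal.mem_span_singleton']
    exact ⟨⟨c, hcint⟩, Subtype.ext (by rw [mul_comm]; exact hbc.symm)⟩
  · intro hb
    obtain ⟨c, rfl⟩ := Ideal.mem_span_singleton'.mp hb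
    rw [map_mul, chartRed_pi, mul_zero]

include hπ hE htr hdeg hirr in
/-- `π` generates a prime ideal of the chart. -/
theorem isPrime_span_pi :
    (Ideal.span {algebraMap ↥O ↥(chart ↥O t) π} : Ideal ↥(chart ↥O t)).IsPrime := by
  have hker : Ideal.span {algebraMap ↥O ↥(chart ↥O t) π} = RingHom.ker (chartRed hπ hE t ht) := by
    ext b
    rw [RingHom.mem_ker]
    exact (chartRed_eq_zero_iff hπ hE t ht htr hdeg hirr b).symm
  rw [hker]
  exact RingHom.ker_isPrime _

end Kernel

section Main

variable {K : Type*} [Field K] [CharZero K] {O : ValuationSubring K} [IsDiscreteValuationRing ↥O]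
  {π : ↥O} (hπ : Irreducible π)
  {E : IntermediateField K (LaurentSeries K)} (hE : E ≤ fracField O)
  (t : ↥E) (ht : (t : LaurentSeries K) ∈ gaussRing O)
  (htr : Transcendental (Res O) (gaussRed O ⟨(t : LaurentSeries K), ht⟩))
  {n : ℕ} (hn : relfinrank (Kt O ⟨(t : LaurentSeries K), ht⟩) E ≠ 0)
  (hdeg : DegLe O E ⟨(t : LaurentSeries K), ht⟩ n)
  (hirr : Irr O E ⟨(t : LaurentSeries K), ht⟩ n)

include hπ ht htr hn in
theorem isNoetherianRing_chart' : IsNoetherianRing ↥(chart ↥O t) := by
  have : IsScalarTower ↥O K ↥E := Fermat.Agent.RED.NumInst4.isScalarTower_OE O E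
  have : FiniteDimensional ↥(IntermediateField.adjoin K {t}) ↥E := finiteDimensional_adjoin t hn
  have htrK : Transcendental K t :=
    transcendental_of_coe t (transcendental_t (tG := ⟨(t : LaurentSeries K), ht⟩) hπ htr)
  exact (chart_facts (R := ↥O) (IntermediateField.adjoin K {t})
    (IntermediateField.mem_adjoin_simple_self K t) le_rfl htrK).1

include hπ hE ht htr hn hdeg hirr in
/-- **(G2)**: the special fibre `chart / π` of a smooth chart is a Dedekind domain. -/
theorem isDedekindDomain_quotient (hsm : SmoothChart O E π t) :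
    IsDedekindDomain (↥(chart ↥O t) ⧸
      (Ideal.span {algebraMap ↥O ↥(chart ↥O t) π} : Ideal ↥(chart ↥O t))) := by
  have := isNoetherianRing_chart' hπ t ht htr hn
  have := isPrime_span_pi hπ hE t ht htr hdeg hirr
  exact Fermat.Agent.RED.PUR.Interface26.isDedekindDomain_quotient_of_locPrin _
    (fun x hx hπx => hsm x hx hπx)

/-- The submonoid of the denominators `h(t)`, `h ∈ O[X]` with `h̃ ≠ 0`. -/
def denoms : Submonoid ↥E where
  carrier := {z | ∃ h : (↥O)[X], h.map (res0 O) ≠ 0 ∧ aeval t h = z}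
  mul_mem' := by
    rintro _ _ ⟨h₁, hh₁, rfl⟩ ⟨h₂, hh₂, rfl⟩
    exact ⟨h₁ * h₂, by rw [Polynomial.map_mul]; exact mul_ne_zero hh₁ hh₂, map_mul _ _ _⟩
  one_mem' := ⟨1, by rw [Polynomial.map_one]; exact one_ne_zero, map_one _⟩

include hπ hE ht htr hdeg hirr in
/-- **Fractions**: every element of the Gauss valuation ring of `E` is `b / h(t)` with `b` in the
chart and `h̃ ≠ 0`. -/
theorem exists_aeval_mul_mem_chart {x : ↥E} (hx : x ∈ OvE O hπ E hE) :
    ∃ h : (↥O)[X], h.map (res0 O) ≠ 0 ∧ aeval t h * x ∈ chart ↥O t := by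
  have hint : IsIntegral ↥(Ov0 O E ⟨(t : LaurentSeries K), ht⟩) x :=
    span hπ hE htr t.2 hdeg hirr x hx
  obtain ⟨z, ⟨h, hh, rfl⟩, hz⟩ := exists_mul_isIntegral (Algebra.adjoin ↥O {t})
    (Ov0 O E ⟨(t : LaurentSeries K), ht⟩) (denoms (O := O) t)
    (by
      rintro _ ⟨h, -, rfl⟩
      exact Polynomial.aeval_mem_adjoin_singleton _ _)
    (by
      intro c hc
      obtain ⟨f, h, hh, hrel⟩ := Ov0_rep hπ t ht htr c hc
      exact ⟨aeval t h, ⟨h, hh, rfl⟩, hrel ▸ Polynomial.aeval_mem_adjoin_singleton _ _⟩)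
    hint
  exact ⟨h, hh, hz⟩


include hπ hE ht htr hn hdeg hirr in
/-- **(S2) at finite level.**  If the chart `chart O t` is smooth along the special fibre, its
reduction is integrally closed in the residue field of the Gauss valuation of `E`: every
`y ∈ resField O E` which is integral over `κ[t̃]` is the reduction of an element of the chart. -/
theorem exists_chartRed_eq (hsm : SmoothChart O E π t) {y : LaurentSeries (Res O)}
    (hy : y ∈ resField O E)
    (hint : IsIntegral ↥(Algebra.adjoin (Res O) {gaussRed O ⟨(t : LaurentSeries K), ht⟩}) y) :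
    ∃ b : ↥(chart ↥O t), chartRed hπ hE t ht b = y := by
  obtain ⟨f, hf, hfE, rfl⟩ := hy
  set x : ↥E := ⟨f, hfE⟩ with hxdef
  have hx : x ∈ OvE O hπ E hE := (mem_OvE_iff O hπ E hE x).mpr hf
  obtain ⟨h, hh, hb⟩ := exists_aeval_mul_mem_chart hπ hE t ht htr hdeg hirr hx
  have hD := isDedekindDomain_quotient hπ hE t ht htr hn hdeg hirr hsm
  have hprime := isPrime_span_pi hπ hE t ht htr hdeg hirr
  have hdom : IsDomain (↥(chart ↥O t) ⧸
      (Ideal.span {algebraMap ↥O ↥(chart ↥O t) π} : Ideal ↥(chart ↥O t))) :=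
    Ideal.Quotient.isDomain _
  have hic : IsIntegrallyClosed (↥(chart ↥O t) ⧸
      (Ideal.span {algebraMap ↥O ↥(chart ↥O t) π} : Ideal ↥(chart ↥O t))) :=
    inferInstance
  -- numerator and denominator
  let bd : ↥(chart ↥O t) :=
    ⟨aeval t h, adjoin_le_chart t (Polynomial.aeval_mem_adjoin_singleton _ _)⟩
  let bn : ↥(chart ↥O t) := ⟨aeval t h * x, hb⟩
  have hred_bd : chartRed hπ hE t ht bd = gaussRed O (polyG O ⟨(t : LaurentSeries K), ht⟩ h) := by
    rw [chartRed_apply]
    congr 1
    apply Subtype.ext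
    rw [coe_polyG]
    exact coe_aeval t h
  have hred_bn : chartRed hπ hE t ht bn = chartRed hπ hE t ht bd * gaussRed O ⟨f, hf⟩ := by
    rw [chartRed_apply, chartRed_apply, ← map_mul]
    rfl
  have hbd0 : chartRed hπ hE t ht bd ≠ 0 := by
    rw [hred_bd]
    exact gaussRed_polyG_ne_zero htr hh
  -- `κ[t̃]` lies in the image
  have hrange : ∀ z ∈ Algebra.adjoin (Res O) {gaussRed O ⟨(t : LaurentSeries K), ht⟩},
      z ∈ (chartRed hπ hE t ht).range := by
    intro z hz
    induction hz using Algebra.adjoin_induction with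
    | mem z hz =>
      rw [Set.mem_singleton_iff] at hz
      subst hz
      exact ⟨⟨t, self_mem_chart t⟩, rfl⟩
    | algebraMap c =>
      obtain ⟨c', rfl⟩ := IsLocalRing.residue_surjective c
      refine ⟨algebraMap ↥O ↥(chart ↥O t) c', ?_⟩
      rw [chartRed_algebraMap, Fermat.Agent.RED.PUR.GaussGen8.algebraMap_eq_C]
    | add z w _ _ hz hw => exact add_mem hz hw
    | mul z w _ _ hz hw => exact mul_mem hz hw
  let φ : ↥(Algebra.adjoin (Res O) {gaussRed O ⟨(t : LaurentSeries K), ht⟩}) →+*
      ↥(chartRed hπ hE t ht).range :=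
    { toFun := fun z => ⟨z, hrange z z.2⟩
      map_one' := rfl
      map_mul' := fun _ _ => rfl
      map_zero' := rfl
      map_add' := fun _ _ => rfl }
  have hint' : IsIntegral ↥(chartRed hπ hE t ht).range (gaussRed O ⟨f, hf⟩) := by
    have := hint.map_of_comp_eq φ (RingHom.id (LaurentSeries (Res O))) (by ext; rfl)
    simpa using this
  exact exists_map_eq_of_isIntegral (chartRed hπ hE t ht) _
    (chartRed_eq_zero_iff hπ hE t ht htr hdeg hirr) (a := bn) (b := bd) hbd0
    (by rw [hred_bn, mul_comm]) hint'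


include hπ hE ht htr hn hdeg hirr in
/-- **(S2) at finite level, chart at infinity.** -/
theorem exists_chartRed_inv_eq (hsm : SmoothChart O E π t⁻¹) {y : LaurentSeries (Res O)}
    (hy : y ∈ resField O E)
    (hint : IsIntegral
      ↥(Algebra.adjoin (Res O) {(gaussRed O ⟨(t : LaurentSeries K), ht⟩)⁻¹}) y) :
    ∃ b : ↥(chart ↥O t⁻¹), chartRed hπ hE t⁻¹ (tinv_mem_gaussRing t ht htr) b = y := by
  have hn' : relfinrank (Kt O ⟨((t⁻¹ : ↥E) : LaurentSeries K), tinv_mem_gaussRing t ht htr⟩) E
      ≠ 0 := by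
    rw [Kt_inv t ht htr]
    exact hn
  refine exists_chartRed_eq hπ hE t⁻¹ (tinv_mem_gaussRing t ht htr) (transcendental_inv t ht htr)
    hn' (degLe_inv t ht htr hdeg) (irr_inv t ht htr hirr) hsm hy ?_
  rw [gaussRed_inv' t ht htr]
  exact hint

end Main

section Easy

variable {K : Type*} [Field K] {O : ValuationSubring K} [IsDiscreteValuationRing ↥O]
  {π : ↥O} (hπ : Irreducible π)
  {E : IntermediateField K (LaurentSeries K)} (hE : E ≤ fracField O)
  (t : ↥E) (ht : (t : LaurentSeries K) ∈ gaussRing O)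

/-- The reduction of a chart element lies in the residue field of the Gauss valuation. -/
theorem chartRed_mem_resField (b : ↥(chart ↥O t)) : chartRed hπ hE t ht b ∈ resField O E :=
  ⟨((b : ↥E) : LaurentSeries K), coe_mem_gaussRing hπ hE t ht b, (b : ↥E).2, rfl⟩

/-- The reduction map sends `O[t]` into `κ[t̃]`. -/
theorem chartRed_mem_adjoin (c : ↥(chart ↥O t)) (hc : (c : ↥E) ∈ Algebra.adjoin ↥O {t}) :
    chartRed hπ hE t ht c ∈ Algebra.adjoin (Res O) {gaussRed O ⟨(t : LaurentSeries K), ht⟩} := by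
  rw [Algebra.adjoin_singleton_eq_range_aeval] at hc
  obtain ⟨P, hP⟩ := hc
  have h1 : c = aeval (⟨t, self_mem_chart t⟩ : ↥(chart ↥O t)) P := by
    apply Subtype.ext
    rw [← hP]
    exact (Subalgebra.aeval_coe (chart ↥O t) ⟨t, self_mem_chart t⟩ P)
  rw [h1, aeval_def, hom_eval₂, chartRed_self]
  have h2 : (chartRed hπ hE t ht).comp (algebraMap ↥O ↥(chart ↥O t)) =
      (algebraMap (Res O) (LaurentSeries (Res O))).comp (res0 O) := by
    ext c'
    rw [RingHom.comp_apply, chartRed_algebraMap, RingHom.comp_apply,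
      Fermat.Agent.RED.PUR.GaussGen8.algebraMap_eq_C]
  rw [h2, ← eval₂_map, ← aeval_def]
  exact Polynomial.aeval_mem_adjoin_singleton _ _

/-- **(S2), easy inclusion**: the reduction of a chart element is integral over `κ[t̃]`. -/
theorem isIntegral_chartRed (b : ↥(chart ↥O t)) :
    IsIntegral ↥(Algebra.adjoin (Res O) {gaussRed O ⟨(t : LaurentSeries K), ht⟩})
      (chartRed hπ hE t ht b) := by
  obtain ⟨p, hp, hpb⟩ := b.2
  -- the inclusion `O[t] → chart`
  let incl : ↥(Algebra.adjoin ↥O {t}) →+* ↥(chart ↥O t) :=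
    { toFun := fun c => ⟨(c : ↥E), adjoin_le_chart t c.2⟩
      map_one' := rfl
      map_mul' := fun _ _ => rfl
      map_zero' := rfl
      map_add' := fun _ _ => rfl }
  have hroot : (p.map incl).eval b = 0 := by
    apply Subtype.ext
    have h1 := Polynomial.hom_eval₂ p incl (chart ↥O t).val.toRingHom b
    rw [eval_map]
    refine (h1.trans ?_)
    exact hpb
  rw [isIntegral_subalgebra_iff]
  refine ⟨(p.map incl).map (chartRed hπ hE t ht), (hp.map _).map _, fun i => ?_, ?_⟩
  · rw [coeff_map, coeff_map]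
    exact chartRed_mem_adjoin hπ hE t ht _ (p.coeff i).2
  · rw [eval_map, eval₂_at_apply, hroot, map_zero]

end Easy

end Fermat.Agent.ES.RED.FibreSurj17
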