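/-
Program I (S37), chapter ES/RED, leaf RED-Z (helper15): ASSEMBLY of the Prelude predicate
`ModularCurve.IsPlaceReductionAlong A π N r` (and `ReductionInputsAlong`) from the abstract
one-chart theorem `R2Abstract14.r2_chart_mapDomain` on TWO charts covering the special fibre.

* `isPlaceReductionAlong_of_charts` : two `ChartHyp`s (chart rings `B₀`, `B₁`, coordinates `x₀`, `x₁`)
  over the same Gauss ring `G` with reduction `red : G →+* F~`, whose target chart sets `St₀`, `St₁`
  cover all places of `F~`, plus `deg (r P) = deg P` and the bridge "every `A`-integral `q`-expansion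
  of `F` with reduction in `F~` is an element of `G` with that reduction"
  ⇒ `IsPlaceReductionAlong A π N r`.
* `reductionInputsAlong_of_charts` : with `PrincipalGeneratedByIntegral` ⇒ `ReductionInputsAlong`.
-/
import Mathlib
import Fermat.Prelude.Def_ModularCurve_ReductionModL
import Fermat.Agent.ES.RED.R2Abstract14

set_option autoImplicit false

open AlgebraicCurve ModularCurve HahnSeries

noncomputable section

namespace Fermat.Agent.ES.RED.RedAssembly15

open Fermat.Agent.ES.RED.R2Abstract14

section Abstract

variable {L : Type*} [Field L] [Algebra ℚ L] (A : ValuationSubring L)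
variable {k : Type*} [Field k] (π : A →+* k) (N : ℕ)

/-- The bridge between the Prelude's `A`-integral `q`-expansions and the Gauss ring `G` with its
reduction `red`. -/
def GaussBridge (G : Subring ↥(laurentBaseChange L (modularFunctionFieldFull N))) (red : G →+* ↥(modularFunctionFieldFullC k N)) : Prop :=
  ∀ (y : LaurentSeries A)
    (hy : coeffMap A.subtype y ∈ laurentBaseChange L (modularFunctionFieldFull N))
    (hyk : coeffMap π y ∈ modularFunctionFieldFullC k N),
    ∃ g : G, (g : ↥(laurentBaseChange L (modularFunctionFieldFull N))) = ⟨coeffMap A.subtype y, hy⟩ ∧ red g = ⟨coeffMap π y, hyk⟩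

variable {A π N}

/-- **RED-Z, abstract form**: two charts covering the special fibre give the Prelude's
`IsPlaceReductionAlong`. -/
theorem isPlaceReductionAlong_of_charts [IsAlgClosed L]
    (r : Place L ↥(laurentBaseChange L (modularFunctionFieldFull N)) → Place k ↥(modularFunctionFieldFullC k N)) (G : Subring ↥(laurentBaseChange L (modularFunctionFieldFull N))) (red : G →+* ↥(modularFunctionFieldFullC k N))
    (hbridge : GaussBridge A π N G red) (hfin : FinDiv L ↥(laurentBaseChange L (modularFunctionFieldFull N)))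
    (hdeg : ∀ P, (r P).deg = P.deg)
    {B₀ B₁ : Subring ↥(laurentBaseChange L (modularFunctionFieldFull N))} {x₀ x₁ : G} {n₀ n₁ : ℕ} {S₀ S₁ : Set (Place L ↥(laurentBaseChange L (modularFunctionFieldFull N)))}
    {St₀ St₁ : Set (Place k ↥(modularFunctionFieldFullC k N))}
    (h₀ : ChartHyp A π G red r B₀ x₀ n₀ S₀ St₀) (h₁ : ChartHyp A π G red r B₁ x₁ n₁ S₁ St₁)
    (hcov : ∀ Q : Place k ↥(modularFunctionFieldFullC k N), Q ∈ St₀ ∨ Q ∈ St₁) :
    IsPlaceReductionAlong A π N r := by
  refine ⟨hdeg, ?_⟩
  intro y hy hyk hne D hD Q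
  obtain ⟨g, hg, hred⟩ := hbridge y hy hyk
  have hredne : red g ≠ 0 := by
    rw [hred]
    intro h0
    exact hne (congrArg Subtype.val h0)
  have hD' : ∀ P, D P = P.ord (g : ↥(laurentBaseChange L (modularFunctionFieldFull N))) := by
    intro P
    rw [hD P, hg]
  rw [← hred]
  rcases hcov Q with hQ | hQ
  · exact r2_chart_mapDomain h₀ hfin hQ g hredne D hD'
  · exact r2_chart_mapDomain h₁ hfin hQ g hredne D hD'

/-- **RED-Z, abstract form**, packaged as the Prelude's `ReductionInputsAlong`. -/
theorem reductionInputsAlong_of_charts [IsAlgClosed L]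
    (r : Place L ↥(laurentBaseChange L (modularFunctionFieldFull N)) → Place k ↥(modularFunctionFieldFullC k N)) (G : Subring ↥(laurentBaseChange L (modularFunctionFieldFull N))) (red : G →+* ↥(modularFunctionFieldFullC k N))
    (hbridge : GaussBridge A π N G red) (hfin : FinDiv L ↥(laurentBaseChange L (modularFunctionFieldFull N)))
    (hdeg : ∀ P, (r P).deg = P.deg)
    {B₀ B₁ : Subring ↥(laurentBaseChange L (modularFunctionFieldFull N))} {x₀ x₁ : G} {n₀ n₁ : ℕ} {S₀ S₁ : Set (Place L ↥(laurentBaseChange L (modularFunctionFieldFull N)))}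
    {St₀ St₁ : Set (Place k ↥(modularFunctionFieldFullC k N))}
    (h₀ : ChartHyp A π G red r B₀ x₀ n₀ S₀ St₀) (h₁ : ChartHyp A π G red r B₁ x₁ n₁ S₁ St₁)
    (hcov : ∀ Q : Place k ↥(modularFunctionFieldFullC k N), Q ∈ St₀ ∨ Q ∈ St₁)
    (hgen : PrincipalGeneratedByIntegral A π N) :
    ReductionInputsAlong A π N :=
  ⟨r, isPlaceReductionAlong_of_charts r G red hbridge hfin hdeg h₀ h₁ hcov, hgen⟩

/-- `FinDiv` from principal divisors. -/
theorem finDiv_of_hasPrincipalDivisors {K E : Type*} [Field K] [Field E] [Algebra K E]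
    [HasPrincipalDivisors K E] : FinDiv K E := by
  intro f
  rcases eq_or_ne f 0 with rfl | hf
  · simp
  obtain ⟨D, hD, -⟩ := HasPrincipalDivisors.exists_divisor (K := K) f hf
  refine D.support.finite_toSet.subset fun P hP => ?_
  simp only [Finset.mem_coe, Finsupp.mem_support_iff, hD P]
  exact hP

end Abstract

end Fermat.Agent.ES.RED.RedAssembly15
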