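/-
Program I (S37), chapter ES/RED, leaf RED-Z (helper15): THE common Gauss ring `G` and its reduction
`red : G →+* F~` for the two charts of `R2Abstract14.ChartHyp` / `R2Peel14.ChartHypA`, in the
Prelude's own terms (so that `RedAssembly15.GaussBridge` holds by construction).

For `E ≤ L((q))`, `Et ≤ k((q))`, `A : ValuationSubring L`, `π : A →+* k`:
* `gaussRing A π E Et : Subring E` = elements `f` of `E` of the form `coeffMap A.subtype Y` with
  `Y : A((q))` and `coeffMap π Y ∈ Et`;
* `gaussRed A π E Et : gaussRing →+* Et`, `f ↦ coeffMap π Y`;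
* `gaussRed_eq`, `mem_gaussRing_of_coeffMap`, constants, `gaussBridge`.
-/
import Mathlib
import Fermat.Agent.ES.RED.RedAssembly15

set_option autoImplicit false

open AlgebraicCurve ModularCurve HahnSeries

noncomputable section

namespace Fermat.Agent.ES.RED.GaussRing15

open Fermat.Agent.ES.RED.RedAssembly15

section Generic

variable {L : Type*} [Field L] (A : ValuationSubring L) {k : Type*} [Field k] (π : ↥A →+* k)
variable (E : IntermediateField L (LaurentSeries L)) (Et : IntermediateField k (LaurentSeries k))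

theorem coeffMap_injective {R S : Type*} [CommRing R] [CommRing S] (φ : R →+* S)
    (hφ : Function.Injective φ) : Function.Injective (coeffMap φ) := by
  intro x y h
  ext n
  apply hφ
  have := congrArg (fun z : LaurentSeries S => z.coeff n) h
  simpa using this

theorem coeffMap_subtype_injective : Function.Injective (coeffMap A.subtype) :=
  coeffMap_injective _ Subtype.val_injective

/-- constants of `A` as `A`-integral series. -/
theorem coeffMap_subtype_C (a : ↥A) :
    coeffMap A.subtype (HahnSeries.single 0 a) = algebraMap L (LaurentSeries L) (a : L) := by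
  rw [coeffMap_single, algebraMap_laurentSeries_eq_single]
  rfl

theorem coeffMap_C (a : ↥A) :
    coeffMap π (HahnSeries.single 0 a) = algebraMap k (LaurentSeries k) (π a) := by
  rw [coeffMap_single, algebraMap_laurentSeries_eq_single]

/-- **The Gauss ring** of `E` relative to `Et`: elements with an `A`-integral `q`-expansion whose
reduction lies in `Et`. -/
def gaussRing : Subring ↥E where
  carrier := {f | ∃ Y : LaurentSeries ↥A,
    coeffMap A.subtype Y = (f : LaurentSeries L) ∧ coeffMap π Y ∈ Et}
  mul_mem' := by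
    rintro f g ⟨Y, hY, hYt⟩ ⟨Z, hZ, hZt⟩
    exact ⟨Y * Z, by rw [map_mul, hY, hZ]; rfl, by rw [map_mul]; exact mul_mem hYt hZt⟩
  one_mem' := ⟨1, by rw [map_one]; rfl, by rw [map_one]; exact one_mem _⟩
  add_mem' := by
    rintro f g ⟨Y, hY, hYt⟩ ⟨Z, hZ, hZt⟩
    exact ⟨Y + Z, by rw [map_add, hY, hZ]; rfl, by rw [map_add]; exact add_mem hYt hZt⟩
  zero_mem' := ⟨0, by rw [map_zero]; rfl, by rw [map_zero]; exact zero_mem _⟩
  neg_mem' := by
    rintro f ⟨Y, hY, hYt⟩
    exact ⟨-Y, by rw [map_neg, hY]; rfl, by rw [map_neg]; exact neg_mem hYt⟩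

theorem mem_gaussRing_iff (f : ↥E) :
    f ∈ gaussRing A π E Et ↔ ∃ Y : LaurentSeries ↥A,
      coeffMap A.subtype Y = (f : LaurentSeries L) ∧ coeffMap π Y ∈ Et := Iff.rfl

/-- the `A`-integral expansion of an element of the Gauss ring. -/
def gaussLift (f : ↥(gaussRing A π E Et)) : LaurentSeries ↥A := Classical.choose f.2

theorem coeffMap_gaussLift (f : ↥(gaussRing A π E Et)) :
    coeffMap A.subtype (gaussLift A π E Et f) = ((f : ↥E) : LaurentSeries L) :=
  (Classical.choose_spec f.2).1

theorem coeffMap_gaussLift_mem (f : ↥(gaussRing A π E Et)) :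
    coeffMap π (gaussLift A π E Et f) ∈ Et :=
  (Classical.choose_spec f.2).2

theorem gaussLift_eq (f : ↥(gaussRing A π E Et)) {Y : LaurentSeries ↥A}
    (hY : coeffMap A.subtype Y = ((f : ↥E) : LaurentSeries L)) : gaussLift A π E Et f = Y :=
  coeffMap_subtype_injective A ((coeffMap_gaussLift A π E Et f).trans hY.symm)

/-- **The reduction homomorphism** of the Gauss ring. -/
def gaussRed : ↥(gaussRing A π E Et) →+* ↥Et where
  toFun f := ⟨coeffMap π (gaussLift A π E Et f), coeffMap_gaussLift_mem A π E Et f⟩
  map_one' := by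
    apply Subtype.ext
    have : gaussLift A π E Et 1 = 1 := gaussLift_eq A π E Et 1 (by rw [map_one]; rfl)
    show coeffMap π (gaussLift A π E Et 1) = 1
    rw [this, map_one]
  map_mul' f g := by
    apply Subtype.ext
    have : gaussLift A π E Et (f * g) = gaussLift A π E Et f * gaussLift A π E Et g :=
      gaussLift_eq A π E Et (f * g)
        (by rw [map_mul, coeffMap_gaussLift, coeffMap_gaussLift]; rfl)
    show coeffMap π (gaussLift A π E Et (f * g)) =
      coeffMap π (gaussLift A π E Et f) * coeffMap π (gaussLift A π E Et g)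
    rw [this, map_mul]
  map_zero' := by
    apply Subtype.ext
    have : gaussLift A π E Et 0 = 0 := gaussLift_eq A π E Et 0 (by rw [map_zero]; rfl)
    show coeffMap π (gaussLift A π E Et 0) = 0
    rw [this, map_zero]
  map_add' f g := by
    apply Subtype.ext
    have : gaussLift A π E Et (f + g) = gaussLift A π E Et f + gaussLift A π E Et g :=
      gaussLift_eq A π E Et (f + g)
        (by rw [map_add, coeffMap_gaussLift, coeffMap_gaussLift]; rfl)
    show coeffMap π (gaussLift A π E Et (f + g)) =
      coeffMap π (gaussLift A π E Et f) + coeffMap π (gaussLift A π E Et g)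
    rw [this, map_add]

theorem coe_gaussRed (f : ↥(gaussRing A π E Et)) :
    ((gaussRed A π E Et f : ↥Et) : LaurentSeries k) = coeffMap π (gaussLift A π E Et f) := rfl

/-- The reduction is computed by ANY `A`-integral expansion. -/
theorem gaussRed_eq (f : ↥(gaussRing A π E Et)) {Y : LaurentSeries ↥A}
    (hY : coeffMap A.subtype Y = ((f : ↥E) : LaurentSeries L)) :
    ((gaussRed A π E Et f : ↥Et) : LaurentSeries k) = coeffMap π Y := by
  rw [coe_gaussRed, gaussLift_eq A π E Et f hY]

/-- Membership from an integral expansion. -/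
theorem mem_gaussRing_of_coeffMap (Y : LaurentSeries ↥A) (hY : coeffMap A.subtype Y ∈ E)
    (hYt : coeffMap π Y ∈ Et) : (⟨coeffMap A.subtype Y, hY⟩ : ↥E) ∈ gaussRing A π E Et :=
  ⟨Y, rfl, hYt⟩

theorem gaussRed_mk (Y : LaurentSeries ↥A) (hY : coeffMap A.subtype Y ∈ E)
    (hYt : coeffMap π Y ∈ Et) :
    gaussRed A π E Et ⟨⟨coeffMap A.subtype Y, hY⟩, mem_gaussRing_of_coeffMap A π E Et Y hY hYt⟩
      = ⟨coeffMap π Y, hYt⟩ :=
  Subtype.ext (gaussRed_eq A π E Et _ rfl)

/-- constants of `A` lie in the Gauss ring … -/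
theorem algebraMap_mem_gaussRing (a : ↥A) : algebraMap L ↥E (a : L) ∈ gaussRing A π E Et :=
  ⟨HahnSeries.single 0 a, coeffMap_subtype_C A a, by
    rw [coeffMap_C]; exact Et.algebraMap_mem _⟩

/-- … and reduce to constants. -/
theorem gaussRed_algebraMap (a : ↥A) :
    gaussRed A π E Et ⟨algebraMap L ↥E (a : L), algebraMap_mem_gaussRing A π E Et a⟩
      = algebraMap k ↥Et (π a) := by
  apply Subtype.ext
  rw [gaussRed_eq A π E Et _ (Y := HahnSeries.single 0 a) (coeffMap_subtype_C A a), coeffMap_C]
  rfl

/-- `red f = 0` iff the integral expansion reduces to `0`. -/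
theorem gaussRed_eq_zero_iff (f : ↥(gaussRing A π E Et)) {Y : LaurentSeries ↥A}
    (hY : coeffMap A.subtype Y = ((f : ↥E) : LaurentSeries L)) :
    gaussRed A π E Et f = 0 ↔ coeffMap π Y = 0 := by
  rw [← gaussRed_eq A π E Et f hY]
  exact ⟨fun h => by rw [h]; rfl, fun h => Subtype.ext h⟩

/-- A subring `B ≤ E` all of whose elements have integral expansions reducing into `Et`
is contained in the Gauss ring. -/
theorem le_gaussRing_of_forall (B : Subring ↥E)
    (h : ∀ b ∈ B, ∃ Y : LaurentSeries ↥A,
      coeffMap A.subtype Y = ((b : ↥E) : LaurentSeries L) ∧ coeffMap π Y ∈ Et) :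
    B ≤ gaussRing A π E Et := fun b hb => h b hb

end Generic

section Prelude

variable {L : Type*} [Field L] [Algebra ℚ L] (A : ValuationSubring L) {k : Type*} [Field k]
  (π : ↥A →+* k) (N : ℕ)

/-- The Gauss ring of `F = L · F_N` relative to `F~ = modularFunctionFieldFullC k N`. -/
abbrev gaussRingN : Subring ↥(laurentBaseChange L (modularFunctionFieldFull N)) :=
  gaussRing A π (laurentBaseChange L (modularFunctionFieldFull N)) (modularFunctionFieldFullC k N)

/-- Its reduction. -/
abbrev gaussRedN : ↥(gaussRingN A π N) →+* ↥(modularFunctionFieldFullC k N) :=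
  gaussRed A π (laurentBaseChange L (modularFunctionFieldFull N)) (modularFunctionFieldFullC k N)

/-- The bridge to the Prelude's `IsPlaceReductionAlong` holds by construction. -/
theorem gaussBridge : GaussBridge A π N (gaussRingN A π N) (gaussRedN A π N) := by
  intro y hy hyk
  exact ⟨⟨⟨coeffMap A.subtype y, hy⟩, mem_gaussRing_of_coeffMap A π _ _ y hy hyk⟩, rfl,
    gaussRed_mk A π _ _ y hy hyk⟩

end Prelude

end Fermat.Agent.ES.RED.GaussRing15
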