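/-
Program I (ES/RED, leaf B2 = (MA4) final shape; helper16).

For `A` a valuation subring of `ℚ̄` over `ℓ ∤ M`, `k := ResidueField A`,
`F̃ := ↥(modularFunctionFieldFullC k M)`, `x̃ := tq k n e ∈ F̃`:

* `FF.IsGen k x̃`,
* `Algebra.IsSeparable k⟮x̃⟯ F̃`,
* `[F̃ : k(x̃)] = [ℚ̄·F_M : ℚ̄(t)]`   (`Module.finrank` inside the subtypes),

all for the intermediate field `k⟮x̃⟯ : IntermediateField k F̃` INSIDE the subtype `F̃` (the shape consumed
by `SumOrdSep15`, `PlaceValue13`, `SpecialFibre13`).  Inputs: `SpecialDegree25` (degrees and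
separability inside `k((q))`), converted by generic lemmas (`section Generic`, any `k`,
`E ≤ k((q))`, `x ∈ E`).
-/
import Fermat.Agent.ES.RED.SpecialDegree25
import Fermat.Agent.ES.KRON.KronInst10
import Fermat.Agent.RED.CUSP.RankConcrete16
import Fermat.Agent.RED.BASE.TGen19
import Fermat.Agent.X0.FFDefs

set_option autoImplicit false
set_option linter.unusedSectionVars false
set_option linter.style.haveILetI false

noncomputable section

namespace Fermat.Agent.ES.RED.SpecialGen16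

open ModularCurve HahnSeries IntermediateField
open Fermat.Agent.X0 Fermat.Agent.RED.Interface4
open Fermat.Agent.RED.BASE.Interface12 Fermat.Agent.RED.BASE.EtaQuot12
open Fermat.Agent.RED.CUSP.RankConcrete16

section Generic

variable {k : Type*} [Field k] (E : IntermediateField k (LaurentSeries k)) (x : ↥E)

/-- `x` is transcendental in `E` if it is so in `k((q))`. -/
theorem transcendental_coe (h : Transcendental k (x : LaurentSeries k)) : Transcendental k x := by
  intro halg
  exact h (halg.algHom E.val)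

/-- `k(x)` inside `k((q))` and inside `E`. -/
def adjoinEquiv : ↥(k⟮(x : LaurentSeries k)⟯) ≃+* ↥(k⟮x⟯) where
  toFun y := ⟨⟨(y : LaurentSeries k),
    (adjoin_simple_le_iff.mpr x.2 : k⟮(x : LaurentSeries k)⟯ ≤ E) y.2⟩,
    (mem_adjoin_iff_coe E x _).mpr y.2⟩
  invFun z := ⟨((z : ↥E) : LaurentSeries k), (mem_adjoin_iff_coe E x (z : ↥E)).mp z.2⟩
  left_inv _ := rfl
  right_inv _ := rfl
  map_mul' _ _ := rfl
  map_add' _ _ := rfl

/-- `E` as an extension of `k(x)` inside `k((q))`, and `E` itself. -/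
def extendEquiv (h : k⟮(x : LaurentSeries k)⟯ ≤ E) : ↥(extendScalars h) ≃+* ↥E where
  toFun y := ⟨(y : LaurentSeries k), (mem_extendScalars h).mp y.2⟩
  invFun z := ⟨(z : LaurentSeries k), (mem_extendScalars h).mpr z.2⟩
  left_inv _ := rfl
  right_inv _ := rfl
  map_mul' _ _ := rfl
  map_add' _ _ := rfl

/-- Separability of `E / k(x)`, transported from `k((q))` to the subtype `E`. -/
theorem isSeparable_adjoin (h : k⟮(x : LaurentSeries k)⟯ ≤ E)
    [Algebra.IsSeparable ↥(k⟮(x : LaurentSeries k)⟯) ↥(extendScalars h)] :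
    Algebra.IsSeparable ↥(k⟮x⟯) ↥E := by
  refine Algebra.IsSeparable.of_equiv_equiv (adjoinEquiv E x) (extendEquiv E x h) ?_
  ext y
  rfl

/-- `E / k(x)` is finite as soon as the relative rank inside `k((q))` is nonzero. -/
theorem finiteDimensional_adjoin (hn : relfinrank k⟮(x : LaurentSeries k)⟯ E ≠ 0) :
    FiniteDimensional ↥(k⟮x⟯) ↥E := by
  rw [← finrank_adjoin_eq_relfinrank'] at hn
  exact FiniteDimensional.of_finrank_pos (Nat.pos_of_ne_zero hn)

/-- `x` is a transcendental generator of `E` (subtype form). -/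
theorem isGen_of_relfinrank (htr : Transcendental k (x : LaurentSeries k))
    (hn : relfinrank k⟮(x : LaurentSeries k)⟯ E ≠ 0) : FF.IsGen k x :=
  ⟨transcendental_coe E x htr, finiteDimensional_adjoin E x hn⟩

end Generic

section Concrete

/-- **(MA4), final shape.**  For `A` over `ℓ ∤ M`, `k = ResidueField A`, `x̃ = tq k n e`:
`x̃ ∈ F̃ := modularFunctionFieldFullC k M`, `x̃` is a transcendental generator of `F̃ / k`,
`F̃ / k(x̃)` is separable and `[F̃ : k(x̃)] = [ℚ̄·F_M : ℚ̄(t)]`. -/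
theorem special_gen (n e M : ℕ) [NeZero n] [NeZero M] (ℓ : ℕ) [Fact ℓ.Prime]
    (hℓM : ¬ ℓ ∣ M) (hmem : TMem n e M) (hgen : TGenBase n e)
    (A : ValuationSubring Qbar) (hA : A.LiesOverPrime ℓ) :
    ∃ hx : tq (IsLocalRing.ResidueField ↥A) n e ∈
        modularFunctionFieldFullC (IsLocalRing.ResidueField ↥A) M,
      FF.IsGen (IsLocalRing.ResidueField ↥A)
        (⟨tq (IsLocalRing.ResidueField ↥A) n e, hx⟩ :
          ↥(modularFunctionFieldFullC (IsLocalRing.ResidueField ↥A) M)) ∧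
      Algebra.IsSeparable
        ↥((IsLocalRing.ResidueField ↥A)⟮(⟨tq (IsLocalRing.ResidueField ↥A) n e, hx⟩ :
          ↥(modularFunctionFieldFullC (IsLocalRing.ResidueField ↥A) M))⟯)
        ↥(modularFunctionFieldFullC (IsLocalRing.ResidueField ↥A) M) ∧
      Module.finrank
        ↥((IsLocalRing.ResidueField ↥A)⟮(⟨tq (IsLocalRing.ResidueField ↥A) n e, hx⟩ :
          ↥(modularFunctionFieldFullC (IsLocalRing.ResidueField ↥A) M))⟯)
        ↥(modularFunctionFieldFullC (IsLocalRing.ResidueField ↥A) M) =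
      Module.finrank ↥(Kbar⟮tF M hmem⟯) (FF M) := by
  have hℓ : ℓ.Prime := Fact.out
  haveI : CharP (IsLocalRing.ResidueField ↥A) ℓ :=
    Fermat.Agent.ES.KRON.KronInst10.charP_residueField A hℓ hA
  haveI : IsAlgClosed (IsLocalRing.ResidueField ↥A) :=
    Fermat.Agent.ES.KRON.KronInst10.isAlgClosed_residueField A
  obtain ⟨hx, -, hdeg, -⟩ :=
    SpecialDegree25.relfinrank_tq_residueField n e M ℓ hℓM hmem hgen A hA
  -- the degree over `ℚ̄`, inside the subtype
  have hQ : Module.finrank ↥(Kbar⟮tF M hmem⟯) (FF M) =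
      relfinrank Qbar⟮tq Qbar n e⟯ (Fbar M) :=
    finrank_adjoin_eq_relfinrank' (Fbar M) (tF M hmem)
  have hQ0 : relfinrank Qbar⟮tq Qbar n e⟯ (Fbar M) ≠ 0 := by
    rw [← hQ]
    haveI : FiniteDimensional ↥(Kbar⟮tF M hmem⟯) (FF M) :=
      (Fermat.Agent.RED.BASE.TGen19.isGen_tF n e M hmem).finite
    exact Module.finrank_pos.ne'
  have hk0 : relfinrank (IsLocalRing.ResidueField ↥A)⟮tq (IsLocalRing.ResidueField ↥A) n e⟯
      (modularFunctionFieldFullC (IsLocalRing.ResidueField ↥A) M) ≠ 0 := by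
    rw [hdeg]; exact hQ0
  have hle : (IsLocalRing.ResidueField ↥A)⟮tq (IsLocalRing.ResidueField ↥A) n e⟯ ≤
      modularFunctionFieldFullC (IsLocalRing.ResidueField ↥A) M :=
    adjoin_simple_le_iff.mpr hx
  obtain ⟨-, hsep⟩ := SpecialDegree25.finite_separable_fullC_over_tq
    (k := IsLocalRing.ResidueField ↥A) ℓ n e M hle hk0
  refine ⟨hx, ?_, ?_, ?_⟩
  · exact isGen_of_relfinrank _ ⟨_, hx⟩
      (Fermat.Agent.RED.BASE.TBridge15.transcendental_tq _ n e) hk0
  · haveI := hsep
    exact isSeparable_adjoin _ ⟨_, hx⟩ hle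
  · rw [finrank_adjoin_eq_relfinrank', hQ]
    exact hdeg

end Concrete

end Fermat.Agent.ES.RED.SpecialGen16
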