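/-
Program I (S37) / chapter ES/RED / helper18: the field `tr0` of `TwoCharts8.TwoCharts` for the
concrete charts (sub-leaf of B1, helper4's conventions).

For any field `k`, an element `y` of `F~ := modularFunctionFieldFullC k M` whose `q`-expansion is
the Hauptmodul series `tq k n e` is transcendental over `k`; hence
`Transcendental (kA A) (S0.red S0.sB)` as soon as `red₀ s = tRes` (coercion `= tq k n e`).
-/
import Mathlib
import Fermat.Agent.ES.RED.TwoCharts8
import Fermat.Agent.ES.RED.SpecialGen16
import Fermat.Agent.ES.RED.SpecialGen25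

set_option autoImplicit false

open ModularCurve

noncomputable section

namespace Fermat.Agent.ES.RED.Tr0Inst18

open Fermat.Agent.ES.RED.Contract8

/-- An element of an intermediate field of `k((q))` whose expansion is `tq k n e` (resp. its
inverse) is transcendental over `k`. -/
theorem transcendental_of_coe_eq_tq {k : Type*} [Field k] (n e : ℕ) [NeZero n]
    (E : IntermediateField k (LaurentSeries k)) (y : ↥E)
    (hy : (y : LaurentSeries k) = Fermat.Agent.RED.BASE.EtaQuot12.tq k n e) :
    Transcendental k y :=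
  SpecialGen16.transcendental_coe E y
    (hy ▸ Fermat.Agent.RED.BASE.TBridge15.transcendental_tq k n e)

/-- **`tr0`** for a chart into `F~ = modularFunctionFieldFullC k M` whose reduced coordinate has
the Hauptmodul expansion. -/
theorem tr0_of_coe {L : Type*} [Field L] [IsAlgClosed L] {A : ValuationSubring L}
    {F : Type*} [Field F] [Algebra L F] {x : F} {hx : Fermat.Agent.X0.FF.IsGen L x}
    (M n e : ℕ) [NeZero n]
    (S0 : ChartSpec A hx ↥(modularFunctionFieldFullC (kA A) M))
    (h : ((S0.red S0.sB : ↥(modularFunctionFieldFullC (kA A) M)) : LaurentSeries (kA A)) =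
      Fermat.Agent.RED.BASE.EtaQuot12.tq (kA A) n e) :
    Transcendental (kA A) (S0.red S0.sB) :=
  transcendental_of_coe_eq_tq n e _ _ h

/-- `tr0` when the reduced coordinate is `SpecialGen25.tRes`. -/
theorem tr0_of_eq_tRes {F : Type*} [Field F] [Algebra (AlgebraicClosure ℚ) F] {x : F}
    {hx : Fermat.Agent.X0.FF.IsGen (AlgebraicClosure ℚ) x}
    (n e M : ℕ) [NeZero n] [NeZero M] (ℓ : ℕ) [Fact ℓ.Prime] (hℓM : ¬ ℓ ∣ M)
    (hmem : Fermat.Agent.RED.BASE.Interface12.TMem n e M)
    (hgen : Fermat.Agent.RED.BASE.Interface12.TGenBase n e)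
    (A : ValuationSubring (AlgebraicClosure ℚ)) (hA : A.LiesOverPrime ℓ)
    (S0 : ChartSpec A hx ↥(modularFunctionFieldFullC (kA A) M))
    (h : S0.red S0.sB = SpecialGen25.tRes n e M ℓ hℓM hmem hgen A hA) :
    Transcendental (kA A) (S0.red S0.sB) := by
  rw [h]
  exact (SpecialGen25.isGen_tRes n e M ℓ hℓM hmem hgen A hA).transcendental

end Fermat.Agent.ES.RED.Tr0Inst18
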