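import Mathlib
import Fermat.Agent.RED.BASE.MainCusp12

set_option autoImplicit false

open scoped MatrixGroups

namespace Fermat.Agent.ES.RED.BaseCases3

open Fermat.Agent.RED.BASE.Hauptmodul12 Fermat.Agent.RED.BASE.MainCusp12 Fermat.Agent.X0

/-- `BaseHyp n e` forces `(n, e) = (4, 8)` or `(9, 3)`. -/
theorem baseHyp_cases {n e : ℕ} (hb : BaseHyp n e) : (n = 4 ∧ e = 8) ∨ (n = 9 ∧ e = 3) := by
  have h1 := hb.exp
  have h2 := hb.two_le
  have hdvd : n - 1 ∣ 24 := ⟨e, by rw [← h1, mul_comm]⟩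
  have hle : n - 1 ≤ 24 := Nat.le_of_dvd (by norm_num) hdvd
  have hn : n ≤ 25 := by omega
  have h49 := hb.four_or_nine
  interval_cases n <;> first | omega | (exfalso; revert hdvd; decide) | skip
  all_goals first | (left; omega) | (right; omega)

/-- the cusp exports exist for every base. -/
theorem exists_cuspExports {n e : ℕ} [NeZero n] (hb : BaseHyp n e) (M : ℕ) [NeZero M]
    (hnM : n ∣ M) : ∃ cv : SL(2, ℤ) → Option Kbar, CuspExports n e M cv := by
  rcases baseHyp_cases hb with ⟨rfl, rfl⟩ | ⟨rfl, rfl⟩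
  · exact ⟨_, cuspExports_four M hnM⟩
  · exact ⟨_, cuspExports_nine M hnM⟩

end Fermat.Agent.ES.RED.BaseCases3
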