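/-
Program I (S37), RED-2 (helper14), fourth file: (R2) for the GLOBAL reduction map `TwoCharts8.TwoCharts.r`.

From `T : TwoCharts A hx Ft` (helper8), (PEEL-a) on both charts, integrality downstairs, the weak
norm property, `IsGen`/separability/degree equality for the coordinate of chart 0, we get
* `chartHypA0`, `chartHypA1` : the order-only chart hypotheses `R2Peel14.ChartHypA` for both charts,
  relative to any subring `G ⊇ B_i` with a reduction `redG` extending `red_i`;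
* `r2` : `T.R2` (helper8's shape of (R2), fraction form);
* `cover` : every place of `Ft` lies in chart 0 or chart 1.
-/
import Mathlib
import Fermat.Agent.ES.RED.TwoCharts8
import Fermat.Agent.ES.RED.R2Adapter14

set_option autoImplicit false
set_option linter.unusedSectionVars false

namespace Fermat.Agent.ES.RED.R2Global14

open AlgebraicCurve Polynomial IntermediateField
open Fermat.Agent.X0.FF Fermat.Agent.ES.RED.PlaceValue13 Fermat.Agent.ES.RED.Contract8
open Fermat.Agent.ES.RED.TwoCharts8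
open Fermat.Agent.ES.RED.R2Abstract14 Fermat.Agent.ES.RED.R2Peel14 Fermat.Agent.ES.RED.R2Adapter14

noncomputable section

variable {L : Type*} [Field L] [IsAlgClosed L] {A : ValuationSubring L}
variable {F : Type*} [Field F] [Algebra L F] {x : F} {hx : IsGen L x}
variable {Ft : Type*} [Field Ft] [Algebra (kA A) Ft]
variable (T : TwoCharts A hx Ft)

theorem finrank_congr {K E : Type*} [Field K] [Field E] [Algebra K E]
    {E₁ E₂ : IntermediateField K E} (h : E₁ = E₂) :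
    Module.finrank ↥E₁ E = Module.finrank ↥E₂ E := by
  subst h
  rfl

section Consistency

variable [IsAlgClosed (kA A)] {xt : Ft} (hxt : IsGen (kA A) xt)

include hxt in
/-- chart consistency, chart 0. -/
theorem red_mem_r_iff0 (P : Place L F) :
    T.S0.red T.S0.sB ∈ (T.r P).toValuationSubring ↔ T.S0.InChart P := by
  constructor
  · exact T.inChart0_of_red_mem hxt P
  · intro h0
    rw [T.r_eq0 P h0]
    exact red_mem_rAt T.places0 T.tr0 P h0 _

include hxt in
/-- chart consistency, chart 1. -/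
theorem red_mem_r_iff1 (P : Place L F) :
    T.S1.red T.S1.sB ∈ (T.r P).toValuationSubring ↔ T.S1.InChart P := by
  constructor
  · exact T.inChart1_of_red_mem hxt P
  · intro h1
    rw [T.r_eq1 hxt P h1]
    exact red_mem_rAt T.places1 T.tr1 P h1 _

/-- (R1) for the global map, chart 0. -/
theorem valueHom_r0 (P : Place L F) (hP : T.S0.InChart P) (b : ↥T.S0.B) :
    ∃ hmem : T.S0.red b ∈ (T.r P).toValuationSubring,
      valueHom hxt (T.r P) ⟨T.S0.red b, hmem⟩ = T.S0.chi P hP b := by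
  have key : ∀ Q : Place (kA A) Ft, Q = rAt T.places0 T.tr0 P hP →
      ∃ hmem : T.S0.red b ∈ Q.toValuationSubring,
        valueHom hxt Q ⟨T.S0.red b, hmem⟩ = T.S0.chi P hP b := by
    rintro _ rfl
    exact ⟨red_mem_rAt T.places0 T.tr0 P hP b, valueHom_rAt hxt T.places0 T.tr0 P hP b⟩
  exact key _ (T.r_eq0 P hP)

/-- (R1) for the global map, chart 1. -/
theorem valueHom_r1 (P : Place L F) (hP : T.S1.InChart P) (b : ↥T.S1.B) :
    ∃ hmem : T.S1.red b ∈ (T.r P).toValuationSubring,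
      valueHom hxt (T.r P) ⟨T.S1.red b, hmem⟩ = T.S1.chi P hP b := by
  have key : ∀ Q : Place (kA A) Ft, Q = rAt T.places1 T.tr1 P hP →
      ∃ hmem : T.S1.red b ∈ Q.toValuationSubring,
        valueHom hxt Q ⟨T.S1.red b, hmem⟩ = T.S1.chi P hP b := by
    rintro _ rfl
    exact ⟨red_mem_rAt T.places1 T.tr1 P hP b, valueHom_rAt hxt T.places1 T.tr1 P hP b⟩
  exact key _ (T.r_eq1 hxt P hP)

end Consistency

/-- every place of the special fibre lies in one of the two charts. -/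
theorem cover (Q : Place (kA A) Ft) :
    T.S0.red T.S0.sB ∈ Q.toValuationSubring ∨ T.S1.red T.S1.sB ∈ Q.toValuationSubring := by
  rw [T.red_s1_eq]
  exact Q.toValuationSubring.mem_or_inv_mem _

section Main

variable [CharZero L] [IsAlgClosed (kA A)]
variable (hs : IsGen L T.S0.s) (hxt : IsGen (kA A) (T.S0.red T.S0.sB))
variable [Algebra.IsSeparable ↥((kA A)⟮T.S0.red T.S0.sB⟯) Ft]
variable (hdeg : Module.finrank ↥(L⟮T.S0.s⟯) F = Module.finrank ↥((kA A)⟮T.S0.red T.S0.sB⟯) Ft)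
variable (hpeel0 : ∀ (P : Place L F) (hP : T.S0.InChart P), T.S0.PeelA P hP)
variable (hpeel1 : ∀ (P : Place L F) (hP : T.S1.InChart P), T.S1.PeelA P hP)
variable (hredint0 : ∀ Q : Place (kA A) Ft, T.S0.red T.S0.sB ∈ Q.toValuationSubring →
  ∀ b : ↥T.S0.B, T.S0.red b ∈ Q.toValuationSubring)
variable (hredint1 : ∀ Q : Place (kA A) Ft, T.S1.red T.S1.sB ∈ Q.toValuationSubring →
  ∀ b : ↥T.S1.B, T.S1.red b ∈ Q.toValuationSubring)
variable (hnorm0 : ∀ z : ↥T.S0.B, z ≠ 0 → ∃ z' : ↥T.S0.B, z' ≠ 0 ∧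
  ∃ p : L[X], (z : F) * (z' : F) = aeval T.S0.s p)
variable (hnorm1 : ∀ z : ↥T.S1.B, z ≠ 0 → ∃ z' : ↥T.S1.B, z' ≠ 0 ∧
  ∃ p : L[X], (z : F) * (z' : F) = aeval T.S1.s p)

include hs in
theorem isGen_s1 : IsGen L T.S1.s := by
  rw [T.s_inv]
  exact hs.inv

include hxt in
theorem isGen_red_s1 : IsGen (kA A) (T.S1.red T.S1.sB) := by
  rw [T.red_s1_eq]
  exact hxt.inv

theorem adjoin_s1 : L⟮T.S1.s⟯ = L⟮T.S0.s⟯ := by
  rw [T.s_inv, adjoin_inv]

theorem adjoin_red_s1 : (kA A)⟮T.S1.red T.S1.sB⟯ = (kA A)⟮T.S0.red T.S0.sB⟯ := by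
  rw [T.red_s1_eq, adjoin_inv]

theorem isSeparable_red_s1 : Algebra.IsSeparable ↥((kA A)⟮T.S1.red T.S1.sB⟯) Ft :=
  SumOrdSep15.isSeparable_of_eq (adjoin_red_s1 T)

include hdeg in
theorem finrank_s1 :
    Module.finrank ↥(L⟮T.S1.s⟯) F = Module.finrank ↥((kA A)⟮T.S1.red T.S1.sB⟯) Ft := by
  rw [finrank_congr (adjoin_s1 T), finrank_congr (adjoin_red_s1 T), hdeg]

variable (G : Subring F) (redG : ↥G →+* Ft)

include hs hxt hdeg hpeel0 hredint0 hnorm0 in
/-- the order-only chart hypotheses on chart 0, for the global map. -/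
theorem chartHypA0 (hBG : T.S0.B ≤ G)
    (hredG : ∀ (b : F) (hb : b ∈ T.S0.B), redG ⟨b, hBG hb⟩ = T.S0.red ⟨b, hb⟩) :
    ChartHypA A (resA A) G redG T.r T.S0.B ⟨T.S0.s, hBG T.S0.s_mem⟩
      (Module.finrank ↥(L⟮T.S0.s⟯) F) {P | T.S0.InChart P}
      {Q | T.S0.red T.S0.sB ∈ Q.toValuationSubring} :=
  chartHypA T.S0 hs hxt hdeg G hBG redG hredG T.r (red_mem_r_iff0 T hxt) (valueHom_r0 T hxt)
    hpeel0 hredint0 hnorm0

include hs hxt hdeg hpeel1 hredint1 hnorm1 in
/-- the order-only chart hypotheses on chart 1, for the global map. -/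
theorem chartHypA1 (hBG : T.S1.B ≤ G)
    (hredG : ∀ (b : F) (hb : b ∈ T.S1.B), redG ⟨b, hBG hb⟩ = T.S1.red ⟨b, hb⟩) :
    ChartHypA A (resA A) G redG T.r T.S1.B ⟨T.S1.s, hBG T.S1.s_mem⟩
      (Module.finrank ↥(L⟮T.S1.s⟯) F) {P | T.S1.InChart P}
      {Q | T.S1.red T.S1.sB ∈ Q.toValuationSubring} :=
  haveI := isSeparable_red_s1 T
  chartHypA T.S1 (isGen_s1 T hs) (isGen_red_s1 T hxt) (finrank_s1 T hdeg) G hBG redG hredG T.r
    (red_mem_r_iff1 T (isGen_red_s1 T hxt)) (valueHom_r1 T (isGen_red_s1 T hxt))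
    hpeel1 hredint1 hnorm1

include hs hxt hdeg hpeel0 hpeel1 hredint0 hredint1 hnorm0 hnorm1 in
/-- **(R2) for the global reduction map**, in helper8's shape `TwoCharts.R2`. -/
theorem r2 (hfin : FinDiv L F) : T.R2 := by
  constructor
  · intro a b ha hb D hD Q hQ
    exact r2_chart_frac T.S0 hs hxt hdeg T.r (red_mem_r_iff0 T hxt) (valueHom_r0 T hxt)
      hpeel0 hredint0 hnorm0 hfin hQ a b ha hb D hD
  · intro a b ha hb D hD Q hQ
    have := isSeparable_red_s1 T
    exact r2_chart_frac T.S1 (isGen_s1 T hs) (isGen_red_s1 T hxt) (finrank_s1 T hdeg) T.r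
      (red_mem_r_iff1 T (isGen_red_s1 T hxt)) (valueHom_r1 T (isGen_red_s1 T hxt))
      hpeel1 hredint1 hnorm1 hfin hQ a b ha hb D hD

include hs hxt hdeg hpeel0 hpeel1 hredint0 hredint1 hnorm0 hnorm1 in
/-- **(R2) for the global reduction map on a common ring `G ⊇ B₀, B₁`** (e.g. the Gauss ring):
literally the second component of Prelude `IsPlaceReductionAlong`. -/
theorem r2_common (hfin : FinDiv L F) (hBG0 : T.S0.B ≤ G) (hBG1 : T.S1.B ≤ G)
    (hredG0 : ∀ (b : F) (hb : b ∈ T.S0.B), redG ⟨b, hBG0 hb⟩ = T.S0.red ⟨b, hb⟩)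
    (hredG1 : ∀ (b : F) (hb : b ∈ T.S1.B), redG ⟨b, hBG1 hb⟩ = T.S1.red ⟨b, hb⟩)
    (y : ↥G) (hy : redG y ≠ 0) (D : Place L F →₀ ℤ) (hD : ∀ P, D P = P.ord (y : F))
    (Q : Place (kA A) Ft) : Finsupp.mapDomain T.r D Q = Q.ord (redG y) := by
  rcases cover T Q with hQ | hQ
  · exact (chartHypA0 T hs hxt hdeg hpeel0 hredint0 hnorm0 G redG hBG0 hredG0).r2_chart_mapDomain
      hfin (Q := Q) hQ y hy D hD
  · exact (chartHypA1 T hs hxt hdeg hpeel1 hredint1 hnorm1 G redG hBG1 hredG1).r2_chart_mapDomain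
      hfin (Q := Q) hQ y hy D hD

end Main

end

end Fermat.Agent.ES.RED.R2Global14
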