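/-
Program I (S37), chapter ES/RED (helper14): `RedMain15.ChartInputs` of chart 1 of a `TwoCharts` from
those of chart 0.  The facts about the coordinate (`IsGen` upstairs and downstairs, separability
downstairs, equality of degrees) follow from `s₁ = s₀⁻¹`, `red s₁ = (red s₀)⁻¹`; only compatibility
with `q`-expansions, (PEEL-a), integrality of reductions and the norm property have to be supplied on
chart 1 (for `chartSpecOfChart` the last two are `ChartSpecInt9.hint` / `ChartSpecInt9.hnorm`).
So `SpecialGen25` is needed for `t` only, never for `t⁻¹`.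
-/
import Mathlib
import Fermat.Agent.ES.RED.RedMain15
import Fermat.Agent.ES.RED.R2Global14

set_option autoImplicit false
set_option linter.unusedSectionVars false

open AlgebraicCurve ModularCurve HahnSeries Polynomial IntermediateField

noncomputable section

namespace Fermat.Agent.ES.RED.ChartInputsGen14

open Fermat.Agent.ES.RED.Contract8 Fermat.Agent.ES.RED.RedCharts15
open Fermat.Agent.ES.RED.TwoCharts8 Fermat.Agent.ES.RED.RedMain15
open Fermat.Agent.X0 Fermat.Agent.X0.FF

variable {L : Type*} [Field L] [Algebra ℚ L] [IsAlgClosed L] [CharZero L]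
  {A : ValuationSubring L} [IsAlgClosed (kA A)] {N : ℕ}
variable {x : ↥(laurentBaseChange L (modularFunctionFieldFull N))} {hx : IsGen L x}

/-- the analytic inputs of chart 1, from those of chart 0. -/
theorem chartInputs1 (T : TwoCharts A hx ↥(modularFunctionFieldFullC (kA A) N))
    (h0 : ChartInputs A N T.S0) (c1 : Compat A N T.S1)
    (hpeel1 : ∀ (P : Place L ↥(laurentBaseChange L (modularFunctionFieldFull N)))
      (hP : T.S1.InChart P), T.S1.PeelA P hP)
    (hint1 : ∀ b : ↥T.S1.B,
      IsIntegral (Algebra.adjoin (kA A) {T.S1.red T.S1.sB}) (T.S1.red b))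
    (hnorm1 : ∀ z : ↥T.S1.B, z ≠ 0 → ∃ z' : ↥T.S1.B, z' ≠ 0 ∧ ∃ p : L[X],
      ((z : ↥(laurentBaseChange L (modularFunctionFieldFull N))) *
        (z' : ↥(laurentBaseChange L (modularFunctionFieldFull N)))) = aeval T.S1.s p) :
    ChartInputs A N T.S1 := by
  have := h0.sep
  exact
    { compat := c1
      gen := R2Global14.isGen_s1 T h0.gen
      gent := by
        rw [T.red_s1_eq]
        exact h0.gent.inv
      sep := R2Global14.isSeparable_red_s1 T
      peel := hpeel1
      int := hint1
      norm := hnorm1
      deg := R2Global14.finrank_s1 T h0.deg }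

end Fermat.Agent.ES.RED.ChartInputsGen14
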