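/-
Program I (S37), chapter ES/RED (helper9): small glue for the concrete instantiation.

* chart-1 facts from chart-0 facts for `T : TwoCharts8.TwoCharts A hx Ft`
  (`s₁ = s₀⁻¹`, `red s₁ = (red s₀)⁻¹`): `isGen_s1`, `isGen_red_s1`, `isSeparable_red_s1`,
  `finrank_s1`, `finrank_red_s1`, `hdeg1` — the fields `gen/gent/sep/deg` of
  `RedMain15.ChartInputs A N T.S1` from those of `T.S0`;
* `hintU` : for a chart of the form `ChartSpecOfChart18.chartSpecOfChart`, every place `P` of `F / L`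
  with `s ∈ O_P` contains the chart ring (input `hintU_i` of `EsDivMain24.es_div_main`).
-/
import Mathlib
import Fermat.Agent.ES.RED.TwoCharts8
import Fermat.Agent.ES.RED.SumOrdSep15
import Fermat.Agent.ES.RED.ChartSpecOfChart18

set_option autoImplicit false
set_option linter.unusedSectionVars false

namespace Fermat.Agent.ES.RED.ChartInputsInv9

open AlgebraicCurve IntermediateField
open Fermat.Agent.X0.FF Fermat.Agent.ES.RED.PlaceValue13 Fermat.Agent.ES.RED.Contract8
open Fermat.Agent.ES.RED.TwoCharts8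

section Inv

variable {L : Type*} [Field L] [IsAlgClosed L] {A : ValuationSubring L}
variable {F : Type*} [Field F] [Algebra L F] {x : F} {hx : IsGen L x}
variable {Ft : Type*} [Field Ft] [Algebra (kA A) Ft]
variable (T : TwoCharts A hx Ft)

theorem isGen_s1 (hs0 : IsGen L T.S0.s) : IsGen L T.S1.s := by
  rw [T.s_inv]
  exact hs0.inv

theorem isGen_red_s1 (hst0 : IsGen (kA A) (T.S0.red T.S0.sB)) :
    IsGen (kA A) (T.S1.red T.S1.sB) := by
  rw [T.red_s1_eq]
  exact hst0.inv

theorem adjoin_s1 : L⟮T.S1.s⟯ = L⟮T.S0.s⟯ := by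
  rw [T.s_inv, adjoin_inv]

theorem adjoin_red_s1 : (kA A)⟮T.S1.red T.S1.sB⟯ = (kA A)⟮T.S0.red T.S0.sB⟯ := by
  rw [T.red_s1_eq, adjoin_inv]

theorem isSeparable_red_s1 [Algebra.IsSeparable (kA A)⟮T.S0.red T.S0.sB⟯ Ft] :
    Algebra.IsSeparable (kA A)⟮T.S1.red T.S1.sB⟯ Ft :=
  SumOrdSep15.isSeparable_of_eq (adjoin_red_s1 T)

theorem finrank_s1 : Module.finrank L⟮T.S1.s⟯ F = Module.finrank L⟮T.S0.s⟯ F := by
  rw [adjoin_s1]

theorem finrank_red_s1 :
    Module.finrank (kA A)⟮T.S1.red T.S1.sB⟯ Ft = Module.finrank (kA A)⟮T.S0.red T.S0.sB⟯ Ft := by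
  rw [adjoin_red_s1]

/-- the degree equality of chart 1 from that of chart 0. -/
theorem hdeg1
    (hdeg0 : Module.finrank L⟮T.S0.s⟯ F = Module.finrank (kA A)⟮T.S0.red T.S0.sB⟯ Ft) :
    Module.finrank L⟮T.S1.s⟯ F = Module.finrank (kA A)⟮T.S1.red T.S1.sB⟯ Ft := by
  rw [finrank_s1, finrank_red_s1]
  exact hdeg0

end Inv

section IntU

open Fermat.Agent.RED.PUR.ChartGeneric22 Fermat.Agent.ES.RED.ChartFacts9
  Fermat.Agent.ES.RED.ChartSpecOfChart18

variable {L : Type*} [Field L] [IsAlgClosed L] (A : ValuationSubring L)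
variable {F : Type*} [Field F] [Algebra L F] {x : F} (hx : IsGen L x)
variable {Ft : Type*} [Field Ft] [Algebra (kA A) Ft]
variable (s : F) (hs : IsGen L s) (red : ↥(chart ↥A s).toSubring →+* Ft)
  (red_const : ∀ a : ↥A, red ⟨algebraMap L F (a : L), const_mem_chart A s a⟩ =
    algebraMap (kA A) Ft (resA A a))
  (sat : ∀ b : ↥(chart ↥A s).toSubring, b ≠ 0 →
    ∃ (c : ↥A) (b' : ↥(chart ↥A s).toSubring),
      (b : F) = algebraMap L F (c : L) * (b' : F) ∧ red b' ≠ 0)

/-- **`hintU`**: a place of `F / L` at which `s` is regular contains the chart ring. -/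
theorem hintU (P : Place L F)
    (hP : (chartSpecOfChart A hx s hs red red_const sat).s ∈ P.toValuationSubring)
    (b : F) (hb : b ∈ (chartSpecOfChart A hx s hs red red_const sat).B) :
    b ∈ P.toValuationSubring :=
  mem_place_of_mem_chart A P ((ffp_mem_iff_ord_nonneg P).1 hP) hb

end IntU

end Fermat.Agent.ES.RED.ChartInputsInv9
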