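/-
Program I (S37), chapter ES/RED, leaf B1.1 (helper1): **the two concrete charts over `A`**.

Setting (helper4's conventions): `n e` with `[NeZero n]`, `M` with `[NeZero M]`, `hmem : TMem n e M`
(the Hauptmodul `t = tF M hmem ∈ ℚ̄·F_M`), `ℓ` prime, `ℓ ∤ M`, `A ≤ ℚ̄` over `ℓ`,
`F := ↥(Fbar M)`, `k := kA A`, `Ft := ↥(modularFunctionFieldFullC k M)`.

* `tqi R n e`: the inverse of the formal Hauptmodul, over any ring; `tF_mem_intF`,
  `tF_inv_mem_intF`: `t` and `t⁻¹` have `A`-integral `q`-expansions;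
* `ModelAt n e M A`: the two-chart models over all large number fields (conclusion of
  `ModelExplicit26.explicitModelStep_of_targets`); `levelSat_tF`, `levelSat_tF_inv`;
* `S0`, `S1 : Contract8.ChartSpec A hx Ft`: the charts `chart A t`, `chart A t⁻¹` with the
  coefficientwise reduction; `S0_red_eq`, `S0_exists_series`, … (inputs of `CoeffChart`, `Compat`).
-/
import Mathlib
import Fermat.Agent.ES.RED.ChartIntegralA1
import Fermat.Agent.ES.RED.ChartSpecOfChart18
import Fermat.Agent.ES.RED.ModelExplicit26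

set_option autoImplicit false
set_option linter.unusedSectionVars false

open HahnSeries ModularCurve Polynomial

noncomputable section

namespace Fermat.Agent.ES.RED.ChartInst1

open Fermat.Agent.RED.Interface4 Fermat.Agent.RED.DESC.PlaceExtend27
  Fermat.Agent.RED.DESC Fermat.Agent.RED.PUR.ChartGeneric22 Fermat.Agent.RED.NumInst4
  Fermat.Agent.RED.PUR.GaussGen8 Fermat.Agent.RED.DESC.NumberFieldDVR27
  Fermat.Agent.RED.BASE.EtaQuot12 Fermat.Agent.RED.BASE.Interface12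
  Fermat.Agent.ES.RED.ChartIntegralA1 Fermat.Agent.RED.CORE.CoreIface24
  Fermat.Agent.RED.PUR.GaussBridge10

/-! ### the inverse of the formal Hauptmodul -/

section Formal

variable (R : Type*) [CommRing R]

/-- the formal inverse `q (η(q^n)/η(q))^e` of `tq R n e`. -/
def tqi (n e : ℕ) [NeZero n] : LaurentSeries R :=
  HahnSeries.single (1 : ℤ) 1 * etaqInv R ^ e * qExpand R n (etaq R) ^ e

theorem tq_mul_tqi (n e : ℕ) [NeZero n] : tq R n e * tqi R n e = 1 := by
  have hexp : qExpand R n (etaqInv R) * qExpand R n (etaq R) = 1 := by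
    rw [← map_mul, mul_comm, etaq_mul_etaqInv, map_one]
  have hs : (HahnSeries.single (-1 : ℤ) (1 : R)) * HahnSeries.single (1 : ℤ) (1 : R) = 1 := by
    rw [HahnSeries.single_mul_single]
    simp
  calc tq R n e * tqi R n e
      = (HahnSeries.single (-1 : ℤ) (1 : R) * HahnSeries.single (1 : ℤ) (1 : R)) *
          (etaq R * etaqInv R) ^ e * (qExpand R n (etaqInv R) * qExpand R n (etaq R)) ^ e := by
        rw [tq, tqi]; ring
    _ = 1 := by rw [hs, etaq_mul_etaqInv, hexp]; simp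

theorem coeffMap_tqi {S : Type*} [CommRing S] (φ : R →+* S) (n e : ℕ) [NeZero n] :
    coeffMap φ (tqi R n e) = tqi S n e := by
  rw [tqi, tqi, map_mul, map_mul, map_pow, map_pow, coeffMap_single, ModularCurve.coeffMap_qExpand,
    coeffMap_etaq, coeffMap_etaqInv, map_one]

theorem tqi_eq_inv (K : Type*) [Field K] (n e : ℕ) [NeZero n] : tqi K n e = (tq K n e)⁻¹ :=
  eq_inv_of_mul_eq_one_right (tq_mul_tqi K n e)

end Formal

/-! ### `t` and `t⁻¹` are `A`-integral -/

section Integral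

variable (A : ValuationSubring Qbar) {n e : ℕ} [NeZero n] (M : ℕ) [NeZero M] (hmem : TMem n e M)

theorem coe_tF : ((tF M hmem : Fbar M) : LaurentSeries Qbar) = tq Qbar n e := rfl

theorem tF_mem_intF : tF M hmem ∈ intF A M :=
  ⟨tq ↥A n e, coeffMap_tq _ _ n e⟩

theorem tF_inv_mem_intF : (tF M hmem)⁻¹ ∈ intF A M := by
  refine ⟨tqi ↥A n e, ?_⟩
  rw [coeffMap_tqi, tqi_eq_inv]
  rfl

end Integral

/-! ### level-`K` saturation from the two-chart models -/

section Sat

variable (A : ValuationSubring Qbar) (n e : ℕ) [NeZero n] (M : ℕ) [NeZero M]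

/-- **The two-chart models over all large number fields** (literally the conclusion of
`ModelExplicit26.explicitModelStep_of_targets`). -/
def ModelAt : Prop :=
  ∃ K₀ : IntermediateField ℚ Qbar, FiniteDimensional ℚ K₀ ∧
    ∀ K : IntermediateField ℚ Qbar, FiniteDimensional ℚ K → K₀ ≤ K →
      IsDiscreteValuationRing ↥(AK A K) ∧
      ∀ (ϖ : ↥(AK A K)) (_ : Irreducible ϖ) (hu : IsUnif (AK A K) ϖ) (t : ↥(FK M K)),
        (t : LaurentSeries K) = tq K n e →
        TwoChartModel ↥(AK A K) K ↥(FK M K) ϖ t (chart ↥(AK A K) t) (chart ↥(AK A K) t⁻¹)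
          (OvK A K M hu)

variable {A n e M}

theorem coe_eq_tq_of_baseChangeHom (hmem : TMem n e M) (K : IntermediateField ℚ Qbar)
    (tK : FK M K) (h : baseChangeHom M K tK = tF M hmem) :
    ((tK : FK M K) : LaurentSeries K) = tq K n e := by
  apply CoeffDescent1.coeffMap_injective (algebraMap K Qbar)
  rw [coeffMap_tq, ← coe_baseChangeHom, h]
  rfl

theorem levelSat_tF (hmem : TMem n e M) (hmodel : ModelAt A n e M) :
    LevelSat A M (tF M hmem) := by
  obtain ⟨K₀, hfin, H⟩ := hmodel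
  refine ⟨K₀, hfin, fun K hK hle ϖ hϖ hu tK htK => ?_⟩
  have hm := (H K hK hle).2 ϖ hϖ hu tK (coe_eq_tq_of_baseChangeHom hmem K tK htK)
  exact hm.sat0

theorem levelSat_tF_inv (hmem : TMem n e M) (hmodel : ModelAt A n e M) :
    LevelSat A M (tF M hmem)⁻¹ := by
  obtain ⟨K₀, hfin, H⟩ := hmodel
  refine ⟨K₀, hfin, fun K hK hle ϖ hϖ hu tK htK => ?_⟩
  have h1 : baseChangeHom M K tK⁻¹ = tF M hmem := by
    rw [map_inv₀, htK, inv_inv]
  have hm := (H K hK hle).2 ϖ hϖ hu tK⁻¹ (coe_eq_tq_of_baseChangeHom hmem K tK⁻¹ h1)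
  have h2 := hm.sat1
  rw [inv_inv] at h2
  exact h2

end Sat

/-! ### the two charts -/

section Charts

open Fermat.Agent.X0.FF Fermat.Agent.ES.RED.ChartSpecOfChart18

variable {n e : ℕ} [NeZero n] (M : ℕ) [NeZero M] (ℓ : ℕ) [Fact ℓ.Prime] (hℓM : ¬ ℓ ∣ M)
  (A : ValuationSubring Qbar) (hA : A.LiesOverPrime ℓ) (hmem : TMem n e M)
  (hx : IsGen Qbar (tF M hmem)) (hmodel : ModelAt A n e M)

/-- the reduction of the chart `chart A t`. -/
def red0 : ↥(chart ↥A (tF M hmem)).toSubring →+* ↥(modularFunctionFieldFullC (kA A) M) :=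
  redChart A M ℓ hA hℓM (tF_mem_intF A M hmem)

/-- the reduction of the chart `chart A t⁻¹`. -/
def red1 : ↥(chart ↥A (tF M hmem)⁻¹).toSubring →+* ↥(modularFunctionFieldFullC (kA A) M) :=
  redChart A M ℓ hA hℓM (tF_inv_mem_intF A M hmem)

theorem red0_eq (b : ↥(chart ↥A (tF M hmem)).toSubring) (Y : LaurentSeries ↥A)
    (h : coeffMap A.subtype Y = ((b : Fbar M) : LaurentSeries Qbar)) :
    ((red0 M ℓ hℓM A hA hmem b : ↥(modularFunctionFieldFullC (kA A) M)) : LaurentSeries (kA A)) =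
      coeffMap (IsLocalRing.residue ↥A) Y :=
  coe_redChart_eq_of A M ℓ hA hℓM (tF_mem_intF A M hmem) b h

theorem red1_eq (b : ↥(chart ↥A (tF M hmem)⁻¹).toSubring) (Y : LaurentSeries ↥A)
    (h : coeffMap A.subtype Y = ((b : Fbar M) : LaurentSeries Qbar)) :
    ((red1 M ℓ hℓM A hA hmem b : ↥(modularFunctionFieldFullC (kA A) M)) : LaurentSeries (kA A)) =
      coeffMap (IsLocalRing.residue ↥A) Y :=
  coe_redChart_eq_of A M ℓ hA hℓM (tF_inv_mem_intF A M hmem) b h

include hA in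
theorem exists_series0 (b : ↥(chart ↥A (tF M hmem)).toSubring) :
    ∃ Y : LaurentSeries ↥A, coeffMap A.subtype Y = ((b : Fbar M) : LaurentSeries Qbar) :=
  chart_le_intF A M ℓ hA (tF_mem_intF A M hmem) b.2

include hA in
theorem exists_series1 (b : ↥(chart ↥A (tF M hmem)⁻¹).toSubring) :
    ∃ Y : LaurentSeries ↥A, coeffMap A.subtype Y = ((b : Fbar M) : LaurentSeries Qbar) :=
  chart_le_intF A M ℓ hA (tF_inv_mem_intF A M hmem) b.2

theorem red0_const (a : ↥A) :
    red0 M ℓ hℓM A hA hmem ⟨algebraMap Qbar ↥(Fbar M) (a : Qbar),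
      Fermat.Agent.ES.RED.ChartFacts9.const_mem_chart A (tF M hmem) a⟩ =
      algebraMap (kA A) ↥(modularFunctionFieldFullC (kA A) M) (IsLocalRing.residue ↥A a) :=
  redF_algebraMap A M ℓ hA hℓM a

theorem red1_const (a : ↥A) :
    red1 M ℓ hℓM A hA hmem ⟨algebraMap Qbar ↥(Fbar M) (a : Qbar),
      Fermat.Agent.ES.RED.ChartFacts9.const_mem_chart A (tF M hmem)⁻¹ a⟩ =
      algebraMap (kA A) ↥(modularFunctionFieldFullC (kA A) M) (IsLocalRing.residue ↥A a) :=
  redF_algebraMap A M ℓ hA hℓM a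

/-- **The chart `S0`**: `B = chart A t`, `s = t`, coefficientwise reduction. -/
def S0 : Contract8.ChartSpec A hx ↥(modularFunctionFieldFullC (kA A) M) :=
  chartSpecOfChart A hx (tF M hmem) hx (red0 M ℓ hℓM A hA hmem) (red0_const M ℓ hℓM A hA hmem)
    (exists_content A M ℓ hA hℓM (tF_mem_intF A M hmem) (levelSat_tF hmem hmodel))

/-- **The chart `S1`**: `B = chart A t⁻¹`, `s = t⁻¹`, coefficientwise reduction. -/
def S1 : Contract8.ChartSpec A hx ↥(modularFunctionFieldFullC (kA A) M) :=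
  chartSpecOfChart A hx (tF M hmem)⁻¹ (IsGen.inv hx) (red1 M ℓ hℓM A hA hmem)
    (red1_const M ℓ hℓM A hA hmem)
    (exists_content A M ℓ hA hℓM (tF_inv_mem_intF A M hmem) (levelSat_tF_inv hmem hmodel))

@[simp] theorem S0_s : (S0 M ℓ hℓM A hA hmem hx hmodel).s = tF M hmem := rfl
@[simp] theorem S1_s : (S1 M ℓ hℓM A hA hmem hx hmodel).s = (tF M hmem)⁻¹ := rfl
@[simp] theorem S0_B : (S0 M ℓ hℓM A hA hmem hx hmodel).B = (chart ↥A (tF M hmem)).toSubring := rfl
@[simp] theorem S1_B :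
    (S1 M ℓ hℓM A hA hmem hx hmodel).B = (chart ↥A (tF M hmem)⁻¹).toSubring := rfl
@[simp] theorem S0_red : (S0 M ℓ hℓM A hA hmem hx hmodel).red = red0 M ℓ hℓM A hA hmem := rfl
@[simp] theorem S1_red : (S1 M ℓ hℓM A hA hmem hx hmodel).red = red1 M ℓ hℓM A hA hmem := rfl

theorem S0_mem_iff (b : Fbar M) :
    b ∈ (S0 M ℓ hℓM A hA hmem hx hmodel).B ↔ b ∈ chart ↥A (S0 M ℓ hℓM A hA hmem hx hmodel).s :=
  Iff.rfl

theorem S1_mem_iff (b : Fbar M) :
    b ∈ (S1 M ℓ hℓM A hA hmem hx hmodel).B ↔ b ∈ chart ↥A (S1 M ℓ hℓM A hA hmem hx hmodel).s :=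
  Iff.rfl

theorem S0_exists_series (b : ↥(S0 M ℓ hℓM A hA hmem hx hmodel).B) :
    ∃ Y : LaurentSeries ↥A, coeffMap A.subtype Y = ((b : Fbar M) : LaurentSeries Qbar) :=
  exists_series0 M ℓ A hA hmem b

theorem S1_exists_series (b : ↥(S1 M ℓ hℓM A hA hmem hx hmodel).B) :
    ∃ Y : LaurentSeries ↥A, coeffMap A.subtype Y = ((b : Fbar M) : LaurentSeries Qbar) :=
  exists_series1 M ℓ A hA hmem b

theorem S0_red_eq (b : ↥(S0 M ℓ hℓM A hA hmem hx hmodel).B) (Y : LaurentSeries ↥A)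
    (h : coeffMap A.subtype Y = ((b : Fbar M) : LaurentSeries Qbar)) :
    (((S0 M ℓ hℓM A hA hmem hx hmodel).red b : ↥(modularFunctionFieldFullC (kA A) M)) :
      LaurentSeries (kA A)) = coeffMap (IsLocalRing.residue ↥A) Y :=
  red0_eq M ℓ hℓM A hA hmem b Y h

theorem S1_red_eq (b : ↥(S1 M ℓ hℓM A hA hmem hx hmodel).B) (Y : LaurentSeries ↥A)
    (h : coeffMap A.subtype Y = ((b : Fbar M) : LaurentSeries Qbar)) :
    (((S1 M ℓ hℓM A hA hmem hx hmodel).red b : ↥(modularFunctionFieldFullC (kA A) M)) :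
      LaurentSeries (kA A)) = coeffMap (IsLocalRing.residue ↥A) Y :=
  red1_eq M ℓ hℓM A hA hmem b Y h

end Charts

end Fermat.Agent.ES.RED.ChartInst1
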