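/-
Program I (S37), chapter ES/RED, leaf B1.1 (helper1): **consumer facts for the concrete charts**
`ChartInst1.S0`, `ChartInst1.S1`:
* `coeffChart_S0`, `coeffChart_S1` : `GaloisInst21.CoeffChart` (the four elementary facts for (R3));
* `compat_S0`, `compat_S1` : `RedCharts15.Compat`;
* `red_baseChangeHom` : the level bridge — for `x ∈ chart (AK A K) tK` with integral expansion `Y₀`,
  the reduction of `baseChangeHom x` is `coeffMap (resMap A K) (redL Y₀)`.
-/
import Mathlib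
import Fermat.Agent.ES.RED.ChartInst1
import Fermat.Agent.ES.RED.GaloisInst21
import Fermat.Agent.ES.RED.RedCharts15

set_option autoImplicit false
set_option linter.unusedSectionVars false

open HahnSeries ModularCurve Polynomial

noncomputable section

namespace Fermat.Agent.ES.RED.ChartInstCompat1

open Fermat.Agent.RED.Interface4 Fermat.Agent.RED.DESC.PlaceExtend27
  Fermat.Agent.RED.DESC Fermat.Agent.RED.PUR.ChartGeneric22 Fermat.Agent.RED.NumInst4
  Fermat.Agent.RED.PUR.GaussGen8 Fermat.Agent.RED.DESC.NumberFieldDVR27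
  Fermat.Agent.RED.BASE.EtaQuot12 Fermat.Agent.RED.BASE.Interface12
  Fermat.Agent.ES.RED.ChartIntegralA1 Fermat.Agent.ES.RED.ChartInst1 Fermat.Agent.X0.FF

variable {n e : ℕ} [NeZero n] (M : ℕ) [NeZero M] (ℓ : ℕ) [Fact ℓ.Prime] (hℓM : ¬ ℓ ∣ M)
  (A : ValuationSubring Qbar) (hA : A.LiesOverPrime ℓ) (hmem : TMem n e M)
  (hx : IsGen Qbar (tF M hmem)) (hmodel : ModelAt A n e M)

/-- the Hauptmodul has rational coefficients. -/
theorem coeffMap_sigma_tF (σ : Qbar ≃ₐ[ℚ] Qbar) :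
    coeffMap ((σ : Qbar ≃+* Qbar) : Qbar →+* Qbar) ((tF M hmem : Fbar M) : LaurentSeries Qbar) =
      ((tF M hmem : Fbar M) : LaurentSeries Qbar) :=
  coeffMap_tq _ _ n e

theorem coeffMap_sigma_tF_inv (σ : Qbar ≃ₐ[ℚ] Qbar) :
    coeffMap ((σ : Qbar ≃+* Qbar) : Qbar →+* Qbar)
      (((tF M hmem)⁻¹ : Fbar M) : LaurentSeries Qbar) =
      (((tF M hmem)⁻¹ : Fbar M) : LaurentSeries Qbar) := by
  have h1 : (((tF M hmem)⁻¹ : Fbar M) : LaurentSeries Qbar) = tqi Qbar n e := by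
    rw [tqi_eq_inv]
    rfl
  rw [h1]
  exact coeffMap_tqi _ _ n e

/-- **`CoeffChart S0`.** -/
theorem coeffChart_S0 :
    Fermat.Agent.ES.RED.GaloisInst21.CoeffChart (F₀ := modularFunctionFieldFull M)
      (S0 M ℓ hℓM A hA hmem hx hmodel) where
  mem_iff _ := Iff.rfl
  smul_s σ := Subtype.ext (coeffMap_sigma_tF M hmem σ)
  exists_series b := S0_exists_series M ℓ hℓM A hA hmem hx hmodel b
  red_eq b Y hY := S0_red_eq M ℓ hℓM A hA hmem hx hmodel b Y hY

/-- **`CoeffChart S1`.** -/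
theorem coeffChart_S1 :
    Fermat.Agent.ES.RED.GaloisInst21.CoeffChart (F₀ := modularFunctionFieldFull M)
      (S1 M ℓ hℓM A hA hmem hx hmodel) where
  mem_iff _ := Iff.rfl
  smul_s σ := Subtype.ext (coeffMap_sigma_tF_inv M hmem σ)
  exists_series b := S1_exists_series M ℓ hℓM A hA hmem hx hmodel b
  red_eq b Y hY := S1_red_eq M ℓ hℓM A hA hmem hx hmodel b Y hY

/-- **`Compat S0`.** -/
theorem compat_S0 :
    Fermat.Agent.ES.RED.RedCharts15.Compat A M (S0 M ℓ hℓM A hA hmem hx hmodel) := by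
  intro b
  obtain ⟨Y, hY⟩ := S0_exists_series M ℓ hℓM A hA hmem hx hmodel b
  exact ⟨Y, hY, S0_red_eq M ℓ hℓM A hA hmem hx hmodel b Y hY⟩

/-- **`Compat S1`.** -/
theorem compat_S1 :
    Fermat.Agent.ES.RED.RedCharts15.Compat A M (S1 M ℓ hℓM A hA hmem hx hmodel) := by
  intro b
  obtain ⟨Y, hY⟩ := S1_exists_series M ℓ hℓM A hA hmem hx hmodel b
  exact ⟨Y, hY, S1_red_eq M ℓ hℓM A hA hmem hx hmodel b Y hY⟩

/-! ### the level bridge -/

/-- **Level bridge** (generic coordinate): the reduction of `baseChangeHom x`, `x` with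
`(A ∩ K)`-integral expansion `Y₀`, is the base change of the level-`K` reduction `redL Y₀`
(`= gaussRed ⟨x, _⟩`). -/
theorem coe_redChart_baseChangeHom {t : Fbar M} (ht : t ∈ intF A M)
    (K : IntermediateField ℚ Qbar) (x : FK M K)
    (hxc : baseChangeHom M K x ∈ chartRing A M t) (Y₀ : LaurentSeries ↥(AK A K))
    (hY₀ : embK (AK A K) Y₀ = ((x : FK M K) : LaurentSeries K)) :
    ((redChart A M ℓ hA hℓM ht ⟨baseChangeHom M K x, hxc⟩ :
      ↥(modularFunctionFieldFullC (kA A) M)) : LaurentSeries (kA A)) =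
      coeffMap (resMap A K) (redL (AK A K) Y₀) := by
  have hser : coeffMap A.subtype (coeffMap (incl A K) Y₀) =
      ((baseChangeHom M K x : Fbar M) : LaurentSeries Qbar) := by
    rw [Fermat.Agent.ES.RED.GaussUnit25.coeffMap_subtype_incl, hY₀, coe_baseChangeHom]
  rw [coe_redChart_eq_of A M ℓ hA hℓM ht ⟨baseChangeHom M K x, hxc⟩ hser,
    Fermat.Agent.ES.RED.GaussUnit25.coeffMap_residue_incl]

/-- level bridge for `S0`. -/
theorem S0_red_baseChangeHom (K : IntermediateField ℚ Qbar) (x : FK M K)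
    (hxc : baseChangeHom M K x ∈ (S0 M ℓ hℓM A hA hmem hx hmodel).B)
    (Y₀ : LaurentSeries ↥(AK A K))
    (hY₀ : embK (AK A K) Y₀ = ((x : FK M K) : LaurentSeries K)) :
    (((S0 M ℓ hℓM A hA hmem hx hmodel).red ⟨baseChangeHom M K x, hxc⟩ :
      ↥(modularFunctionFieldFullC (kA A) M)) : LaurentSeries (kA A)) =
      coeffMap (resMap A K) (redL (AK A K) Y₀) :=
  coe_redChart_baseChangeHom M ℓ hℓM A hA (tF_mem_intF A M hmem) K x hxc Y₀ hY₀

/-- level bridge for `S1`. -/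
theorem S1_red_baseChangeHom (K : IntermediateField ℚ Qbar) (x : FK M K)
    (hxc : baseChangeHom M K x ∈ (S1 M ℓ hℓM A hA hmem hx hmodel).B)
    (Y₀ : LaurentSeries ↥(AK A K))
    (hY₀ : embK (AK A K) Y₀ = ((x : FK M K) : LaurentSeries K)) :
    (((S1 M ℓ hℓM A hA hmem hx hmodel).red ⟨baseChangeHom M K x, hxc⟩ :
      ↥(modularFunctionFieldFullC (kA A) M)) : LaurentSeries (kA A)) =
      coeffMap (resMap A K) (redL (AK A K) Y₀) :=
  coe_redChart_baseChangeHom M ℓ hℓM A hA (tF_inv_mem_intF A M hmem) K x hxc Y₀ hY₀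

/-- The reductions of the coordinates: `red0 t = t̃ = tq k n e`, `red1 t⁻¹ = t̃⁻¹`. -/
theorem coe_S0_red_sB :
    (((S0 M ℓ hℓM A hA hmem hx hmodel).red (S0 M ℓ hℓM A hA hmem hx hmodel).sB :
      ↥(modularFunctionFieldFullC (kA A) M)) : LaurentSeries (kA A)) = tq (kA A) n e := by
  rw [S0_red_eq M ℓ hℓM A hA hmem hx hmodel _ (tq ↥A n e) (coeffMap_tq _ _ n e), coeffMap_tq]

theorem coe_S1_red_sB :
    (((S1 M ℓ hℓM A hA hmem hx hmodel).red (S1 M ℓ hℓM A hA hmem hx hmodel).sB :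
      ↥(modularFunctionFieldFullC (kA A) M)) : LaurentSeries (kA A)) = (tq (kA A) n e)⁻¹ := by
  have h1 : coeffMap A.subtype (tqi ↥A n e) =
      ((((S1 M ℓ hℓM A hA hmem hx hmodel).sB : ↥(S1 M ℓ hℓM A hA hmem hx hmodel).B) : Fbar M) :
        LaurentSeries Qbar) := by
    rw [coeffMap_tqi, tqi_eq_inv]
    rfl
  rw [S1_red_eq M ℓ hℓM A hA hmem hx hmodel _ (tqi ↥A n e) h1, coeffMap_tqi, tqi_eq_inv]

end Fermat.Agent.ES.RED.ChartInstCompat1
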