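/-
Program I (S37), chapter ES/RED — helper21.  **The coefficientwise chart over `A`** (definitional
part of B1.1): for `F ≤ L((q))`, `Ft ≤ k((q))` (`k = κ_A`), a coordinate `s ∈ F`, given
* `hG`  : the chart ring `chart ↥A s` (integral closure of `A[s]` in `F`) consists of series with
          coefficients in `A` (`Setup8.gaussA`)                                  [(MA1)/T1a],
* `hFt` : the coefficientwise reductions of chart elements lie in `Ft`          [T1f],
we define the reduction `chartRed : chart ↥A s →+* Ft`, prove `red_const`, and — given strong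
saturation `sat` [T1c] — build the `Contract8.ChartSpec` `coeffChartSpec` and show that it is a
`GaloisInst21.CoeffChart` (so that (R3) applies).
-/
import Mathlib
import Fermat.Agent.ES.RED.Setup8
import Fermat.Agent.ES.RED.ChartSpecOfChart18
import Fermat.Agent.ES.RED.GaloisInst21

set_option autoImplicit false
set_option linter.unusedSectionVars false

noncomputable section

open AlgebraicCurve ModularCurve HahnSeries

namespace Fermat.Agent.ES.RED.ChartRed21

open Fermat.Agent.X0.FF Fermat.Agent.ES.RED.Contract8 Fermat.Agent.ES.RED.ChartSpecOfChart18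
  Fermat.Agent.ES.RED.ChartFacts9 Fermat.Agent.RED.PUR.ChartGeneric22

section Def

variable {L : Type*} [Field L] (A : ValuationSubring L)
  (F : IntermediateField L (LaurentSeries L))
  (Ft : IntermediateField (kA A) (LaurentSeries (kA A)))
  (s : ↥F)
  (hG : ∀ b : ↥F, b ∈ chart ↥A s → b ∈ Setup8.gaussA A F)
  (hFt : ∀ (b : ↥F) (hb : b ∈ chart ↥A s), Setup8.redA A F ⟨b, hG b hb⟩ ∈ Ft)

/-- the inclusion of the chart ring into the Gauss ring over `A`. -/
def chartToGauss : ↥(chart ↥A s).toSubring →+* ↥(Setup8.gaussA A F) :=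
  Subring.inclusion (S := (chart ↥A s).toSubring) (T := Setup8.gaussA A F) (fun b hb => hG b hb)

/-- **the coefficientwise reduction on the chart ring**, with values in `Ft`. -/
def chartRed : ↥(chart ↥A s).toSubring →+* ↥Ft :=
  ((Setup8.redA A F).comp (chartToGauss A F s hG)).codRestrict Ft.toSubring
    (fun b => hFt b b.2)

theorem coe_chartRed (b : ↥(chart ↥A s).toSubring) :
    ((chartRed A F Ft s hG hFt b : ↥Ft) : LaurentSeries (kA A)) =
      Setup8.redA A F ⟨(b : ↥F), hG b b.2⟩ := rfl

/-- `red b` is the coefficientwise reduction of any `A`-series of `b`. -/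
theorem chartRed_eq_coeffMap (b : ↥(chart ↥A s).toSubring) (Y : LaurentSeries ↥A)
    (hY : coeffMap A.subtype Y = ((b : ↥F) : LaurentSeries L)) :
    ((chartRed A F Ft s hG hFt b : ↥Ft) : LaurentSeries (kA A)) = coeffMap (resA A) Y := by
  rw [coe_chartRed]
  exact Setup8.redA_eq A F ⟨(b : ↥F), hG b b.2⟩ hY

include hG in
theorem exists_series (b : ↥(chart ↥A s).toSubring) :
    ∃ Y : LaurentSeries ↥A, coeffMap A.subtype Y = ((b : ↥F) : LaurentSeries L) :=
  hG b b.2

/-- `red_const` in the literal shape of `chartSpecOfChart`. -/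
theorem chartRed_const (a : ↥A) :
    chartRed A F Ft s hG hFt ⟨algebraMap L ↥F (a : L), const_mem_chart A s a⟩ =
      algebraMap (kA A) ↥Ft (resA A a) := by
  apply Subtype.ext
  rw [coe_chartRed]
  exact Setup8.redA_algebraMap A F a

end Def

section Spec

variable {L : Type*} [Field L] [Algebra ℚ L] [IsAlgClosed L] (A : ValuationSubring L)
  {M : ℕ} [NeZero M]
  {x : ↥(laurentBaseChange L (modularFunctionFieldFull M))} (hx : IsGen L x)
  (s : ↥(laurentBaseChange L (modularFunctionFieldFull M))) (hs : IsGen L s)
  (hG : ∀ b : ↥(laurentBaseChange L (modularFunctionFieldFull M)),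
    b ∈ chart ↥A s → b ∈ Setup8.gaussA A (laurentBaseChange L (modularFunctionFieldFull M)))
  (hFt : ∀ (b : ↥(laurentBaseChange L (modularFunctionFieldFull M))) (hb : b ∈ chart ↥A s),
    Setup8.redA A (laurentBaseChange L (modularFunctionFieldFull M)) ⟨b, hG b hb⟩ ∈
      modularFunctionFieldFullC (kA A) M)
  (sat : ∀ b : ↥(chart ↥A s).toSubring, b ≠ 0 →
    ∃ (c : ↥A) (b' : ↥(chart ↥A s).toSubring),
      (b : ↥(laurentBaseChange L (modularFunctionFieldFull M))) =
        algebraMap L ↥(laurentBaseChange L (modularFunctionFieldFull M)) (c : L) * (b' : _) ∧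
      chartRed A (laurentBaseChange L (modularFunctionFieldFull M))
        (modularFunctionFieldFullC (kA A) M) s hG hFt b' ≠ 0)

/-- **the coefficientwise chart** as a `Contract8.ChartSpec`. -/
def coeffChartSpec :
    ChartSpec A hx ↥(modularFunctionFieldFullC (kA A) M) :=
  chartSpecOfChart A hx s hs
    (chartRed A (laurentBaseChange L (modularFunctionFieldFull M))
      (modularFunctionFieldFullC (kA A) M) s hG hFt)
    (chartRed_const A _ _ s hG hFt) sat

@[simp] theorem coeffChartSpec_s : (coeffChartSpec A hx s hs hG hFt sat).s = s := rfl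

@[simp] theorem coeffChartSpec_B :
    (coeffChartSpec A hx s hs hG hFt sat).B = (chart ↥A s).toSubring := rfl

@[simp] theorem coeffChartSpec_red :
    (coeffChartSpec A hx s hs hG hFt sat).red =
      chartRed A (laurentBaseChange L (modularFunctionFieldFull M))
        (modularFunctionFieldFullC (kA A) M) s hG hFt := rfl

/-- **(R3) applies to the coefficientwise chart** as soon as the coordinate has rational
coefficients. -/
theorem coeffChart_coeffChartSpec
    (hsσ : ∀ σ : L ≃ₐ[ℚ] L, coeffMap ((σ : L ≃+* L) : L →+* L)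
      ((s : ↥(laurentBaseChange L (modularFunctionFieldFull M))) : LaurentSeries L) =
        ((s : ↥(laurentBaseChange L (modularFunctionFieldFull M))) : LaurentSeries L)) :
    GaloisInst21.CoeffChart (F₀ := modularFunctionFieldFull M)
      (coeffChartSpec A hx s hs hG hFt sat) where
  mem_iff _ := Iff.rfl
  smul_s σ := Subtype.ext (hsσ σ)
  exists_series b := hG b b.2
  red_eq b Y hY := chartRed_eq_coeffMap A _ _ s hG hFt b Y hY

end Spec

end Fermat.Agent.ES.RED.ChartRed21
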