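/-
Program I (S37), chapter ES/RED (helper9): the remaining GENERIC inputs of the (R2) adapters
(`R2Adapter9.chartHypA_of_chartSpec`, `R2Adapter14`) for the chart
`S := ChartSpecOfChart18.chartSpecOfChart A hx s hs red red_const sat`
(`B = (ChartGeneric22.chart ↥A s).toSubring`), in the literal shapes of the adapters:

* `hint`     : `∀ b : ↥S.B, IsIntegral (Algebra.adjoin (kA A) {S.red S.sB}) (S.red b)`;
* `hredint`  : `∀ Q, S.red S.sB ∈ O_Q → ∀ b : ↥S.B, S.red b ∈ O_Q`;
* `hnorm`    : `∀ z : ↥S.B, z ≠ 0 → ∃ z' : ↥S.B, z' ≠ 0 ∧ ∃ p : L[X], z * z' = aeval S.s p`;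
and the adapter specialised to such a chart (`chartHypA_of_chart`).
-/
import Mathlib
import Fermat.Agent.ES.RED.ChartSpecOfChart18
import Fermat.Agent.ES.RED.R2Adapter9

set_option autoImplicit false
set_option linter.unusedSectionVars false

namespace Fermat.Agent.ES.RED.ChartSpecInt9

open AlgebraicCurve Polynomial IntermediateField
open Fermat.Agent.RED.PUR.ChartGeneric22 Fermat.Agent.X0.FF Fermat.Agent.ES.RED.PlaceValue13
  Fermat.Agent.ES.RED.Contract8 Fermat.Agent.ES.RED.ChartFacts9
  Fermat.Agent.ES.RED.ChartSpecOfChart18 Fermat.Agent.ES.RED.R2Abstract14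
  Fermat.Agent.ES.RED.R2Peel14

variable {L : Type*} [Field L] [IsAlgClosed L] (A : ValuationSubring L)
variable {F : Type*} [Field F] [Algebra L F] {x : F} (hx : IsGen L x)
variable {Ft : Type*} [Field Ft] [Algebra (kA A) Ft]
variable (s : F) (hs : IsGen L s) (red : ↥(chart ↥A s).toSubring →+* Ft)
  (red_const : ∀ a : ↥A, red ⟨algebraMap L F (a : L), const_mem_chart A s a⟩ =
    algebraMap (kA A) Ft (resA A a))
  (sat : ∀ b : ↥(chart ↥A s).toSubring, b ≠ 0 →
    ∃ (c : ↥A) (b' : ↥(chart ↥A s).toSubring),
      (b : F) = algebraMap L F (c : L) * (b' : F) ∧ red b' ≠ 0)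

/-- **`hint`**: reductions of chart elements are integral over `k[red s]`. -/
theorem hint (b : ↥(chartSpecOfChart A hx s hs red red_const sat).B) :
    IsIntegral (Algebra.adjoin (kA A)
      {(chartSpecOfChart A hx s hs red red_const sat).red
        (chartSpecOfChart A hx s hs red red_const sat).sB})
      ((chartSpecOfChart A hx s hs red red_const sat).red b) :=
  isIntegral_red_of_mem_chart A (resA A) (chart ↥A s).toSubring red
    ⟨s, self_mem_chart s⟩ (fun _ hc => adjoin_le_chart s hc) (fun a _ => red_const a) b b.2

/-- **`hredint`**: reductions of chart elements lie in the valuation ring of every place of the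
special fibre containing `red s`. -/
theorem hredint (Q : Place (kA A) Ft)
    (hQ : (chartSpecOfChart A hx s hs red red_const sat).red
      (chartSpecOfChart A hx s hs red red_const sat).sB ∈ Q.toValuationSubring)
    (b : ↥(chartSpecOfChart A hx s hs red red_const sat).B) :
    (chartSpecOfChart A hx s hs red red_const sat).red b ∈ Q.toValuationSubring :=
  mem_of_isIntegral_adjoin Q (R := kA A) Q.algebraMap_mem' hQ
    (hint A hx s hs red red_const sat b)

/-- **`hnorm`**: the (weak) norm property of the chart ring. -/
theorem hnorm (z : ↥(chartSpecOfChart A hx s hs red red_const sat).B) (hz : z ≠ 0) :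
    ∃ z' : ↥(chartSpecOfChart A hx s hs red red_const sat).B, z' ≠ 0 ∧ ∃ p : L[X],
      (z : F) * (z' : F) = aeval (chartSpecOfChart A hx s hs red red_const sat).s p := by
  have hzF : (z : F) ≠ 0 := fun h0 => hz (Subtype.ext h0)
  obtain ⟨z', hz', hz'0, p, e⟩ := NormFrac18.norm_chart A hs.transcendental z.2 hzF
  exact ⟨⟨z', hz'⟩, fun h0 => hz'0 (congrArg Subtype.val h0), p, e⟩

/-- **The adapter for a chart of the form `chartSpecOfChart`**: only the place map `r` (with
`O_{rP} = rSubring` and the tube condition), (PEEL-a), `IsGen`/separability downstairs and the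
equality of degrees remain as inputs. -/
theorem chartHypA_of_chart [CharZero L] [IsAlgClosed (kA A)]
    (hst : IsGen (kA A) ((chartSpecOfChart A hx s hs red red_const sat).red
      (chartSpecOfChart A hx s hs red red_const sat).sB))
    [Algebra.IsSeparable (kA A)⟮(chartSpecOfChart A hx s hs red red_const sat).red
      (chartSpecOfChart A hx s hs red red_const sat).sB⟯ Ft]
    (r : Place L F → Place (kA A) Ft)
    (hr : ∀ (P : Place L F) (hP : (chartSpecOfChart A hx s hs red red_const sat).InChart P)
      (y : Ft), y ∈ (r P).toValuationSubring ↔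
        y ∈ (chartSpecOfChart A hx s hs red red_const sat).rSubring P hP)
    (hrmem : ∀ P : Place L F,
      0 ≤ (r P).ord ((chartSpecOfChart A hx s hs red red_const sat).red
        (chartSpecOfChart A hx s hs red red_const sat).sB) ↔
      (chartSpecOfChart A hx s hs red red_const sat).InChart P)
    (hpeel : ∀ (P : Place L F)
      (hP : (chartSpecOfChart A hx s hs red red_const sat).InChart P),
      (chartSpecOfChart A hx s hs red red_const sat).PeelA P hP)
    (hdeg : Module.finrank L⟮s⟯ F = Module.finrank
      (kA A)⟮(chartSpecOfChart A hx s hs red red_const sat).red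
        (chartSpecOfChart A hx s hs red red_const sat).sB⟯ Ft) :
    ChartHypA A (resA A) (chartSpecOfChart A hx s hs red red_const sat).B
      (chartSpecOfChart A hx s hs red red_const sat).red r
      (chartSpecOfChart A hx s hs red red_const sat).B
      (chartSpecOfChart A hx s hs red red_const sat).sB (Module.finrank L⟮s⟯ F)
      {P | (chartSpecOfChart A hx s hs red red_const sat).InChart P}
      {Q | 0 ≤ Q.ord ((chartSpecOfChart A hx s hs red red_const sat).red
        (chartSpecOfChart A hx s hs red red_const sat).sB)} :=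
  R2Adapter9.chartHypA_of_chartSpec_self (chartSpecOfChart A hx s hs red red_const sat) hs hst r hr
    hrmem hpeel (hint A hx s hs red red_const sat) (hnorm A hx s hs red red_const sat) hdeg

end Fermat.Agent.ES.RED.ChartSpecInt9
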