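/-
Program I (S37), chapter ES/RED (helper25): **generic constructor of `Contract8.ChartSpec`** from
the chart ring `ChartGeneric22.chart ↥A s` (integral closure of `A[s]` in `F`).

`L` algebraically closed, `A : ValuationSubring L`, `F / L` a function field with generator `x`,
`s : F` transcendental over `L`.  For `B := chart ↥A s`:
* `mem_place_chart` : a place `P` with `s ∈ O_P` contains `B`;
* `val_mem_chart`   : if moreover `s(P) ∈ A`, then `b(P) ∈ A` for all `b ∈ B`;
* `frac_chart`      : `F = Frac B`, elementwise;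
* `chartSpecOf`     : the `ChartSpec` with `B := chart ↥A s`, from a reduction map `red` with
  `red_const` and strong saturation `sat`.
Then, for `F = ↥E ⊆ L((q))`, `Ft = ↥Et ⊆ k((q))`:
* `redOfLaurent`    : the reduction map of a subring `B ⊆ E` all of whose elements have
  `A`-integral `q`-expansions reducing into `Et`;
* `exists_quotient_of_integral` : the Gauss bridge — an `A`-integral `y` with nonzero reduction is
  a quotient `z₁ / z₂` of chart elements with nonzero reductions, compatibly with reduction.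
-/
import Mathlib
import Fermat.Agent.ES.RED.Contract8
import Fermat.Agent.RED.PUR.ChartGeneric22
import Fermat.Agent.X0.FFExchange
import Fermat.Prelude.Def_ModularCurve_LaurentCoeff

set_option autoImplicit false
set_option linter.style.haveILetI false

noncomputable section

open AlgebraicCurve Polynomial IntermediateField

namespace Fermat.Agent.ES.RED.ChartSpecOf25

open Fermat.Agent.X0.FF Fermat.Agent.ES.RED.PlaceValue13 Fermat.Agent.RED.PUR.ChartGeneric22
  Fermat.Agent.ES.RED.Contract8

section Generic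

variable {L : Type*} [Field L] [IsAlgClosed L] (A : ValuationSubring L)
variable {F : Type*} [Field F] [Algebra L F] {x : F} (hx : IsGen L x)

omit [IsAlgClosed L] in
/-- A place `P` with `s ∈ O_P` contains the chart ring of `s`. -/
theorem mem_place_chart (P : Place L F) {s : F} (hs : s ∈ P.toValuationSubring) {b : F}
    (hb : b ∈ chart ↥A s) : b ∈ P.toValuationSubring :=
  chart_le_valuationSubring (R := ↥A) P.toValuationSubring
    (fun r => P.algebraMap_mem' (r : L)) hs b hb

/-- Elements of `A[s]` are regular at `P` with values in `A`, when `s(P) ∈ A`. -/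
theorem adjoin_value_mem (P : Place L F) {s : F} (hs : s ∈ P.toValuationSubring)
    (hv : valueHom hx P ⟨s, hs⟩ ∈ A) {c : F} (hc : c ∈ Algebra.adjoin ↥A {s}) :
    ∃ h : c ∈ P.toValuationSubring, valueHom hx P ⟨c, h⟩ ∈ A := by
  induction hc using Algebra.adjoin_induction with
  | mem y hy =>
      rw [Set.mem_singleton_iff] at hy
      subst hy
      exact ⟨hs, hv⟩
  | algebraMap a =>
      refine ⟨P.algebraMap_mem' (a : L), ?_⟩
      have h1 : valueHom hx P ⟨algebraMap L F (a : L), P.algebraMap_mem' (a : L)⟩ = (a : L) :=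
        (valueHom hx P).commutes (a : L)
      have h2 : (⟨algebraMap ↥A F a, P.algebraMap_mem' (a : L)⟩ : ↥P.toValuationSubring)
          = ⟨algebraMap L F (a : L), P.algebraMap_mem' (a : L)⟩ := rfl
      rw [h2, h1]
      exact a.2
  | add y z _ _ hy hz =>
      obtain ⟨h1, h1'⟩ := hy
      obtain ⟨h2, h2'⟩ := hz
      refine ⟨add_mem h1 h2, ?_⟩
      have h3 : (⟨y + z, add_mem h1 h2⟩ : ↥P.toValuationSubring) = ⟨y, h1⟩ + ⟨z, h2⟩ := rfl
      rw [h3, map_add]
      exact A.add_mem _ _ h1' h2'
  | mul y z _ _ hy hz =>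
      obtain ⟨h1, h1'⟩ := hy
      obtain ⟨h2, h2'⟩ := hz
      refine ⟨mul_mem h1 h2, ?_⟩
      have h3 : (⟨y * z, mul_mem h1 h2⟩ : ↥P.toValuationSubring) = ⟨y, h1⟩ * ⟨z, h2⟩ := rfl
      rw [h3, map_mul]
      exact A.mul_mem _ _ h1' h2'

/-- The values of the chart ring at a place `P` with `s(P) ∈ A` lie in `A`. -/
theorem val_mem_chart (P : Place L F) {s : F} (hs : s ∈ P.toValuationSubring)
    (hv : valueHom hx P ⟨s, hs⟩ ∈ A) {b : F} (hb : b ∈ chart ↥A s) :
    valueHom hx P ⟨b, mem_place_chart A P hs hb⟩ ∈ A := by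
  have hb' := hb
  rw [mem_chart_iff, isIntegral_subalgebra_iff] at hb'
  obtain ⟨p, hp, hcoeff, hpb⟩ := hb'
  -- lift `p` to the valuation ring of `P`
  have hl : p ∈ lifts (algebraMap ↥P.toValuationSubring F) := by
    rw [lifts_iff_coeff_lifts]
    intro n
    exact ⟨⟨p.coeff n, (adjoin_value_mem A hx P hs hv (hcoeff n)).1⟩, rfl⟩
  obtain ⟨q, hq, -, hqm⟩ := lifts_and_natDegree_eq_and_monic hl hp
  set b' : ↥P.toValuationSubring := ⟨b, mem_place_chart A P hs hb⟩ with hb'def
  have hqb : q.eval b' = 0 := by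
    have hinj : Function.Injective (algebraMap ↥P.toValuationSubring F) :=
      fun _ _ h => Subtype.ext h
    apply hinj
    rw [map_zero, ← hpb, ← hq, eval_map, ← eval₂_at_apply]
    rfl
  -- map by the value homomorphism
  set v : ↥P.toValuationSubring →+* L := (valueHom hx P : ↥P.toValuationSubring →+* L) with hvdef
  have h1 : (q.map v).eval (v b') = 0 := by
    rw [eval_map, eval₂_at_apply, hqb, map_zero]
  have hl2 : q.map v ∈ lifts (algebraMap ↥A L) := by
    rw [lifts_iff_coeff_lifts]
    intro n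
    rw [coeff_map]
    obtain ⟨h, h'⟩ := adjoin_value_mem A hx P hs hv (hcoeff n)
    have h2 : q.coeff n = ⟨p.coeff n, h⟩ := by
      apply Subtype.ext
      have h3 := congrArg (fun r : F[X] => r.coeff n) hq
      simp only [coeff_map] at h3
      exact h3
    rw [h2]
    exact ⟨⟨_, h'⟩, rfl⟩
  obtain ⟨q2, hq2, -, hq2m⟩ := lifts_and_natDegree_eq_and_monic hl2 (hqm.map v)
  have hint : IsIntegral ↥A (v b') := ⟨q2, hq2m, by rw [← eval_map, hq2, h1]⟩
  obtain ⟨y, hy⟩ := IsIntegrallyClosed.isIntegral_iff.1 hint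
  have h3 : valueHom hx P ⟨b, mem_place_chart A P hs hb⟩ = v b' := rfl
  rw [h3, ← hy]
  exact y.2

omit [IsAlgClosed L] in
include hx in
/-- `F = Frac (chart ↥A s)`, elementwise, for `s` transcendental over `L`. -/
theorem frac_chart {s : F} (hs : Transcendental L s) (y : F) :
    ∃ a ∈ chart ↥A s, ∃ b ∈ chart ↥A s, b ≠ 0 ∧ y * b = a := by
  haveI := hx.finite
  have halg : Algebra.IsAlgebraic L⟮x⟯ F := Algebra.IsAlgebraic.of_finite _ _
  have halg' : Algebra.IsAlgebraic L⟮s⟯ F := ffx_isAlgebraic_of_transcendental x s halg hs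
  have hsE : s ∈ L⟮s⟯ := mem_adjoin_simple_self L s
  letI : Algebra (Algebra.adjoin ↥A {s}) ↥L⟮s⟯ := (adjoinToField (R := ↥A) L⟮s⟯ hsE).toAlgebra
  haveI : IsFractionRing (Algebra.adjoin ↥A {s}) ↥L⟮s⟯ := isFractionRing_adjoin L⟮s⟯ hsE le_rfl
  haveI : IsScalarTower (Algebra.adjoin ↥A {s}) ↥L⟮s⟯ F :=
    IsScalarTower.of_algebraMap_eq (fun _ => rfl)
  have hy : IsAlgebraic (Algebra.adjoin ↥A {s}) y :=
    (IsFractionRing.isAlgebraic_iff (Algebra.adjoin ↥A {s}) ↥L⟮s⟯ F).2 (halg'.isAlgebraic y)
  obtain ⟨c, hc0, hc⟩ := hy.exists_integral_multiple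
  refine ⟨c • y, hc, (c : F), adjoin_le_chart s c.2, ?_, ?_⟩
  · intro h
    exact hc0 (Subtype.ext h)
  · rw [mul_comm]; rfl

/-- the chart ring as a subring of `F`. -/
def chartRing (s : F) : Subring F := (chart ↥A s).toSubring

omit [IsAlgClosed L] in
theorem mem_chartRing_iff {s b : F} : b ∈ chartRing A s ↔ b ∈ chart ↥A s := Iff.rfl

omit [IsAlgClosed L] in
theorem const_mem_chartRing (s : F) (a : ↥A) : algebraMap L F (a : L) ∈ chartRing A s :=
  (chart ↥A s).algebraMap_mem a

/-- **The `ChartSpec` of the chart ring `chart ↥A s`**: everything except the reduction map, its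
value on constants and strong saturation is generic. -/
def chartSpecOf {Ft : Type*} [Field Ft] [Algebra (kA A) Ft] (s : F) (hs : Transcendental L s)
    (red : ↥(chartRing A s) →+* Ft)
    (red_const : ∀ a : ↥A, red ⟨algebraMap L F (a : L), const_mem_chartRing A s a⟩
      = algebraMap (kA A) Ft (resA A a))
    (sat : ∀ b : ↥(chartRing A s), b ≠ 0 → ∃ (c : ↥A) (b' : ↥(chartRing A s)),
      (b : F) = algebraMap L F (c : L) * (b' : F) ∧ red b' ≠ 0) :
    ChartSpec A hx Ft where
  B := chartRing A s
  red := red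
  s := s
  s_mem := self_mem_chart s
  const_mem := const_mem_chartRing A s
  red_const := red_const
  mem_place P h b hb := by
    obtain ⟨hs', -⟩ := h
    exact mem_place_chart A P hs' hb
  val_mem P h b hb := by
    obtain ⟨hs', hv⟩ := h
    exact val_mem_chart A hx P hs' hv hb
  sat := sat
  frac y := by
    obtain ⟨a, ha, b, hb, hb0, h⟩ := frac_chart A hx hs y
    exact ⟨⟨a, ha⟩, ⟨b, hb⟩, fun h0 => hb0 (congrArg Subtype.val h0), h⟩

end Generic

section Laurent

open ModularCurve HahnSeries

variable {L : Type*} [Field L] (A : ValuationSubring L)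

/-- `A((q)) → L((q))` is injective. -/
theorem coeffMap_subtype_injective : Function.Injective (coeffMap A.subtype) := by
  intro Y Y' h
  ext n
  have h1 := congrArg (fun z : LaurentSeries L => z.coeff n) h
  simp only [coeffMap_coeff] at h1
  exact h1

theorem coeffMap_C {R S : Type*} [CommRing R] [CommRing S] (f : R →+* S) (r : R) :
    coeffMap f (HahnSeries.C r : LaurentSeries R) = HahnSeries.C (f r) := by
  rw [HahnSeries.C_apply, HahnSeries.C_apply, coeffMap_single]

theorem algebraMap_eq_C {K : Type*} [Field K] (c : K) :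
    algebraMap K (LaurentSeries K) c = HahnSeries.C c := by
  rw [algebraMap_laurentSeries_eq_single, HahnSeries.C_apply]

theorem coeffMap_subtype_C (a : ↥A) :
    coeffMap A.subtype (HahnSeries.C a : LaurentSeries ↥A)
      = algebraMap L (LaurentSeries L) (a : L) := by
  rw [coeffMap_C, algebraMap_eq_C]
  rfl

theorem coeffMap_res_C (a : ↥A) :
    coeffMap (resA A) (HahnSeries.C a : LaurentSeries ↥A)
      = algebraMap (kA A) (LaurentSeries (kA A)) (resA A a) := by
  rw [coeffMap_C, algebraMap_eq_C]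

variable (E : IntermediateField L (LaurentSeries L))
variable (Et : IntermediateField (kA A) (LaurentSeries (kA A)))

/-- Every element of the subring `B ⊆ E` has an `A`-integral `q`-expansion whose reduction lies in
`Et`  (= (MA1) for the chart rings). -/
def HasIntegralExpansions (B : Subring ↥E) : Prop :=
  ∀ b : ↥B, ∃ Y : LaurentSeries ↥A,
    coeffMap A.subtype Y = ((b : ↥E) : LaurentSeries L) ∧ coeffMap (resA A) Y ∈ Et

variable {A E Et} {B : Subring ↥E} (hInt : HasIntegralExpansions A E Et B)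

/-- the `A`-integral expansion of `b ∈ B`. -/
def expansion (b : ↥B) : LaurentSeries ↥A := Classical.choose (hInt b)

theorem coeffMap_expansion (b : ↥B) :
    coeffMap A.subtype (expansion hInt b) = ((b : ↥E) : LaurentSeries L) :=
  (Classical.choose_spec (hInt b)).1

theorem coeffMap_res_expansion_mem (b : ↥B) : coeffMap (resA A) (expansion hInt b) ∈ Et :=
  (Classical.choose_spec (hInt b)).2

theorem expansion_eq {b : ↥B} {Y : LaurentSeries ↥A}
    (h : coeffMap A.subtype Y = ((b : ↥E) : LaurentSeries L)) : expansion hInt b = Y :=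
  coeffMap_subtype_injective A ((coeffMap_expansion hInt b).trans h.symm)

/-- **the reduction map** of a subring with integral expansions. -/
def redOfLaurent : ↥B →+* ↥Et where
  toFun b := ⟨coeffMap (resA A) (expansion hInt b), coeffMap_res_expansion_mem hInt b⟩
  map_one' := by
    apply Subtype.ext
    show coeffMap (resA A) (expansion hInt 1) = 1
    rw [expansion_eq hInt (b := 1) (Y := 1) (by rw [map_one]; rfl), map_one]
  map_mul' a b := by
    apply Subtype.ext
    show coeffMap (resA A) (expansion hInt (a * b))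
      = coeffMap (resA A) (expansion hInt a) * coeffMap (resA A) (expansion hInt b)
    rw [expansion_eq hInt (b := a * b) (Y := expansion hInt a * expansion hInt b)
      (by rw [map_mul, coeffMap_expansion, coeffMap_expansion]; rfl), map_mul]
  map_zero' := by
    apply Subtype.ext
    show coeffMap (resA A) (expansion hInt 0) = 0
    rw [expansion_eq hInt (b := 0) (Y := 0) (by rw [map_zero]; rfl), map_zero]
  map_add' a b := by
    apply Subtype.ext
    show coeffMap (resA A) (expansion hInt (a + b))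
      = coeffMap (resA A) (expansion hInt a) + coeffMap (resA A) (expansion hInt b)
    rw [expansion_eq hInt (b := a + b) (Y := expansion hInt a + expansion hInt b)
      (by rw [map_add, coeffMap_expansion, coeffMap_expansion]; rfl), map_add]

theorem coe_redOfLaurent (b : ↥B) :
    ((redOfLaurent hInt b : ↥Et) : LaurentSeries (kA A)) = coeffMap (resA A) (expansion hInt b) :=
  rfl

/-- `red b` is the reduction of ANY `A`-integral expansion of `b`. -/
theorem redOfLaurent_eq {b : ↥B} {Y : LaurentSeries ↥A}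
    (h : coeffMap A.subtype Y = ((b : ↥E) : LaurentSeries L)) :
    ((redOfLaurent hInt b : ↥Et) : LaurentSeries (kA A)) = coeffMap (resA A) Y := by
  rw [coe_redOfLaurent, expansion_eq hInt h]

/-- the hypothesis of the Gauss bridge below holds for `redOfLaurent`. -/
theorem redOfLaurent_spec (b : ↥B) : ∃ Y : LaurentSeries ↥A,
    coeffMap A.subtype Y = ((b : ↥E) : LaurentSeries L) ∧
      ((redOfLaurent hInt b : ↥Et) : LaurentSeries (kA A)) = coeffMap (resA A) Y :=
  ⟨expansion hInt b, coeffMap_expansion hInt b, rfl⟩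

/-- value of `redOfLaurent` on the constants of `A`. -/
theorem redOfLaurent_const (a : ↥A) (ha : algebraMap L ↥E (a : L) ∈ B) :
    redOfLaurent hInt ⟨algebraMap L ↥E (a : L), ha⟩ = algebraMap (kA A) ↥Et (resA A a) := by
  apply Subtype.ext
  rw [redOfLaurent_eq hInt (b := ⟨algebraMap L ↥E (a : L), ha⟩) (Y := HahnSeries.C a)
    (by rw [coeffMap_subtype_C]; rfl), coeffMap_res_C]
  rfl

/-- `red b ≠ 0` iff the expansion of `b` does not reduce to zero. -/
theorem redOfLaurent_ne_zero_iff {b : ↥B} {Y : LaurentSeries ↥A}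
    (h : coeffMap A.subtype Y = ((b : ↥E) : LaurentSeries L)) :
    redOfLaurent hInt b ≠ 0 ↔ coeffMap (resA A) Y ≠ 0 := by
  rw [← redOfLaurent_eq hInt h]
  exact ⟨fun h0 h1 => h0 (Subtype.ext h1), fun h0 h1 => h0 (by rw [h1]; rfl)⟩

end Laurent

section Bridge

open ModularCurve HahnSeries

variable {L : Type*} [Field L] [IsAlgClosed L] {A : ValuationSubring L}
variable {E : IntermediateField L (LaurentSeries L)}
variable {Et : IntermediateField (kA A) (LaurentSeries (kA A))}
variable {x : ↥E} {hx : IsGen L x} (S : ChartSpec A hx ↥Et)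

/-- **Gauss bridge**: if the reduction map of the chart `S` is the coefficientwise reduction of
`A`-integral `q`-expansions, then every `A`-integral `y` (with `y ∈ E`, reduction in `Et`) whose
reduction is nonzero is a quotient `z₁ / z₂` of chart elements with `red z₁, red z₂ ≠ 0`, and
`red y * red z₂ = red z₁`. -/
theorem exists_quotient_of_integral
    (hred : ∀ b : ↥S.B, ∃ Y : LaurentSeries ↥A,
      coeffMap A.subtype Y = (((b : ↥E)) : LaurentSeries L) ∧
        ((S.red b : ↥Et) : LaurentSeries (kA A)) = coeffMap (resA A) Y)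
    (y : LaurentSeries ↥A) (hy : coeffMap A.subtype y ∈ E)
    (hyk : coeffMap (resA A) y ∈ Et) (hne : coeffMap (resA A) y ≠ 0) :
    ∃ z₁ z₂ : ↥S.B, S.red z₁ ≠ 0 ∧ S.red z₂ ≠ 0 ∧
      (⟨coeffMap A.subtype y, hy⟩ : ↥E) * ((z₂ : ↥S.B) : ↥E) = ((z₁ : ↥S.B) : ↥E) ∧
      (⟨coeffMap (resA A) y, hyk⟩ : ↥Et) * S.red z₂ = S.red z₁ := by
  set f : ↥E := ⟨coeffMap A.subtype y, hy⟩ with hf
  have hy0 : y ≠ 0 := by
    rintro rfl
    exact hne (map_zero _)
  have hf0 : f ≠ 0 := by
    intro h
    apply hy0
    apply coeffMap_subtype_injective A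
    rw [map_zero]
    exact congrArg (Subtype.val) h
  obtain ⟨b₁, b₂, hb₂, hfb⟩ := S.frac f
  have hb₁ : b₁ ≠ 0 := by
    rintro rfl
    have h2 : ((b₂ : ↥S.B) : ↥E) ≠ 0 := fun h => hb₂ (Subtype.ext h)
    rcases mul_eq_zero.mp hfb with h | h
    · exact hf0 h
    · exact h2 h
  obtain ⟨c₁, b₁', h1, hr1⟩ := S.sat b₁ hb₁
  obtain ⟨c₂, b₂', h2, hr2⟩ := S.sat b₂ hb₂
  obtain ⟨Y₁, hY₁, hY₁r⟩ := hred b₁'
  obtain ⟨Y₂, hY₂, hY₂r⟩ := hred b₂'
  have hc₁ : c₁ ≠ 0 := by
    rintro rfl
    apply hb₁
    apply Subtype.ext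
    rw [h1]
    simp
  have hc₂ : c₂ ≠ 0 := by
    rintro rfl
    apply hb₂
    apply Subtype.ext
    rw [h2]
    simp
  have hc₁L : algebraMap L ↥E (c₁ : L) ≠ 0 := by
    rw [Ne, map_eq_zero]
    exact fun h => hc₁ (Subtype.ext h)
  have hc₂L : algebraMap L ↥E (c₂ : L) ≠ 0 := by
    rw [Ne, map_eq_zero]
    exact fun h => hc₂ (Subtype.ext h)
  -- the basic identity in `A((q))`
  have hbasic : y * (HahnSeries.C c₂ * Y₂) = HahnSeries.C c₁ * Y₁ := by
    apply coeffMap_subtype_injective A
    rw [map_mul, map_mul, map_mul, coeffMap_subtype_C, coeffMap_subtype_C, hY₁, hY₂]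
    have h3 := congrArg (fun z : ↥E => (z : LaurentSeries L)) hfb
    simp only [h1, h2] at h3
    exact h3
  have hCne : ∀ c : ↥A, c ≠ 0 → (HahnSeries.C c : LaurentSeries ↥A) ≠ 0 := by
    intro c hc h
    apply hc
    have := congrArg (fun z : LaurentSeries ↥A => z.coeff 0) h
    simpa [HahnSeries.C_apply] using this
  -- value-level equality `f * (d • b₂') = b₁'` etc.
  rcases ValuationRing.dvd_total c₁ c₂ with ⟨d, hd⟩ | ⟨d, hd⟩
  · -- `c₂ = c₁ * d`
    have hY : y * (HahnSeries.C d * Y₂) = Y₁ := by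
      have h3 : HahnSeries.C c₁ * (y * (HahnSeries.C d * Y₂)) = HahnSeries.C c₁ * Y₁ := by
        rw [← hbasic, hd, map_mul]
        ring
      exact mul_left_cancel₀ (hCne c₁ hc₁) h3
    have hYr : coeffMap (resA A) y * (algebraMap (kA A) (LaurentSeries (kA A)) (resA A d)
        * coeffMap (resA A) Y₂) = coeffMap (resA A) Y₁ := by
      rw [← hY, map_mul, map_mul, coeffMap_res_C]
    refine ⟨b₁', S.const d * b₂', hr1, ?_, ?_, ?_⟩
    · intro h0
      apply hr1
      apply Subtype.ext
      rw [hY₁r, ← hYr]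
      have h4 : ((S.red (S.const d * b₂') : ↥Et) : LaurentSeries (kA A)) = 0 := by
        rw [h0]; rfl
      rw [S.red_const_mul, MulMemClass.coe_mul, hY₂r] at h4
      have h5 : ((algebraMap (kA A) ↥Et (resA A d) : ↥Et) : LaurentSeries (kA A))
          = algebraMap (kA A) (LaurentSeries (kA A)) (resA A d) := rfl
      rw [h5] at h4
      rw [h4, mul_zero]
      rfl
    · have h3 : algebraMap L ↥E (c₁ : L) * (f * ((S.const d * b₂' : ↥S.B) : ↥E))
          = algebraMap L ↥E (c₁ : L) * ((b₁' : ↥S.B) : ↥E) := by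
        rw [← h1, ← hfb, h2, hd]
        simp only [ChartSpec.coe_const, MulMemClass.coe_mul, map_mul]
        ring
      exact mul_left_cancel₀ hc₁L h3
    · apply Subtype.ext
      rw [S.red_const_mul]
      simp only [MulMemClass.coe_mul, hY₁r, hY₂r]
      exact hYr
  · -- `c₁ = c₂ * d`
    have hY : y * Y₂ = HahnSeries.C d * Y₁ := by
      have h3 : HahnSeries.C c₂ * (y * Y₂) = HahnSeries.C c₂ * (HahnSeries.C d * Y₁) := by
        rw [← mul_assoc (HahnSeries.C c₂) (HahnSeries.C d), ← map_mul, ← hd, ← hbasic]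
        ring
      exact mul_left_cancel₀ (hCne c₂ hc₂) h3
    have hYr : coeffMap (resA A) y * coeffMap (resA A) Y₂
        = algebraMap (kA A) (LaurentSeries (kA A)) (resA A d) * coeffMap (resA A) Y₁ := by
      rw [← map_mul, hY, map_mul, coeffMap_res_C]
    have hY₂0 : coeffMap (resA A) Y₂ ≠ 0 := by
      rw [← hY₂r]
      exact fun h => hr2 (Subtype.ext h)
    refine ⟨S.const d * b₁', b₂', ?_, hr2, ?_, ?_⟩
    · intro h0
      have h4 : ((S.red (S.const d * b₁') : ↥Et) : LaurentSeries (kA A)) = 0 := by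
        rw [h0]; rfl
      rw [S.red_const_mul, MulMemClass.coe_mul, hY₁r] at h4
      have h5 : ((algebraMap (kA A) ↥Et (resA A d) : ↥Et) : LaurentSeries (kA A))
          = algebraMap (kA A) (LaurentSeries (kA A)) (resA A d) := rfl
      rw [h5, ← hYr] at h4
      exact mul_ne_zero hne hY₂0 h4
    · have h3 : algebraMap L ↥E (c₂ : L) * (f * ((b₂' : ↥S.B) : ↥E))
          = algebraMap L ↥E (c₂ : L) * ((S.const d * b₁' : ↥S.B) : ↥E) := by
        have h6 : algebraMap L ↥E (c₂ : L) * (f * ((b₂' : ↥S.B) : ↥E)) = ((b₁ : ↥S.B) : ↥E) := by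
          rw [← hfb, h2]
          ring
        rw [h6, h1, hd]
        simp only [ChartSpec.coe_const, MulMemClass.coe_mul, map_mul]
        ring
      exact mul_left_cancel₀ hc₂L h3
    · apply Subtype.ext
      rw [S.red_const_mul]
      simp only [MulMemClass.coe_mul, hY₁r, hY₂r]
      exact hYr

end Bridge

section Final

open ModularCurve HahnSeries

variable {L : Type*} [Field L] [IsAlgClosed L] (A : ValuationSubring L)
variable {E : IntermediateField L (LaurentSeries L)}
variable (Et : IntermediateField (kA A) (LaurentSeries (kA A)))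
variable {x : ↥E} (hx : IsGen L x)

/-- **The chart of `s ∈ E ⊆ L((q))` over `A`** from (MA1) (`hInt`: integral expansions reducing
into `Et`) and (R-4) (`hsat`: strong saturation, stated on expansions). -/
def chartSpecOfLaurent (s : ↥E) (hs : Transcendental L s)
    (hInt : HasIntegralExpansions A E Et (chartRing A s))
    (hsat : ∀ b : ↥(chartRing A s), b ≠ 0 →
      ∃ (c : ↥A) (b' : ↥(chartRing A s)) (Y : LaurentSeries ↥A),
        ((b : ↥(chartRing A s)) : ↥E) = algebraMap L ↥E (c : L) * ((b' : ↥(chartRing A s)) : ↥E) ∧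
        coeffMap A.subtype Y = (((b' : ↥(chartRing A s)) : ↥E) : LaurentSeries L) ∧
        coeffMap (resA A) Y ≠ 0) :
    ChartSpec A hx ↥Et :=
  chartSpecOf A hx s hs (redOfLaurent hInt)
    (fun a => redOfLaurent_const hInt a (const_mem_chartRing A s a))
    (fun b hb => by
      obtain ⟨c, b', Y, h1, h2, h3⟩ := hsat b hb
      exact ⟨c, b', h1, (redOfLaurent_ne_zero_iff hInt h2).2 h3⟩)

variable {A Et hx} {s : ↥E} {hs : Transcendental L s}
  {hInt : HasIntegralExpansions A E Et (chartRing A s)}
  {hsat : ∀ b : ↥(chartRing A s), b ≠ 0 →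
      ∃ (c : ↥A) (b' : ↥(chartRing A s)) (Y : LaurentSeries ↥A),
        ((b : ↥(chartRing A s)) : ↥E) = algebraMap L ↥E (c : L) * ((b' : ↥(chartRing A s)) : ↥E) ∧
        coeffMap A.subtype Y = (((b' : ↥(chartRing A s)) : ↥E) : LaurentSeries L) ∧
        coeffMap (resA A) Y ≠ 0}

@[simp] theorem chartSpecOfLaurent_B :
    (chartSpecOfLaurent A Et hx s hs hInt hsat).B = chartRing A s := rfl

@[simp] theorem chartSpecOfLaurent_s :
    (chartSpecOfLaurent A Et hx s hs hInt hsat).s = s := rfl

theorem chartSpecOfLaurent_red :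
    (chartSpecOfLaurent A Et hx s hs hInt hsat).red = redOfLaurent hInt := rfl

/-- the hypothesis `hred` of `exists_quotient_of_integral` holds for `chartSpecOfLaurent`. -/
theorem chartSpecOfLaurent_hred (b : ↥(chartSpecOfLaurent A Et hx s hs hInt hsat).B) :
    ∃ Y : LaurentSeries ↥A, coeffMap A.subtype Y = ((b : ↥E) : LaurentSeries L) ∧
      (((chartSpecOfLaurent A Et hx s hs hInt hsat).red b : ↥Et) : LaurentSeries (kA A))
        = coeffMap (resA A) Y :=
  redOfLaurent_spec hInt b

end Final

end Fermat.Agent.ES.RED.ChartSpecOf25
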