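/-
Program I (S37), chapter ES/RED — helper22: **`ModelInstGen4.HasLevels` for the two concrete charts**
`ModelInst4.S0`, `ModelInst4.S1` (coordinates `t = tF M hmem`, `t⁻¹`), from the two-chart models over
the number fields (`ModelExplicit26.explicitModelStep_of_targets` + `S18Exports4.targetsHyp`) and
`LevelsMain22.chartLevels`.

* `hasLevels_of_good` : generic: the hypotheses of `LevelsMain22.chartLevels` give `HasLevels S`;
* `eventuallyGood_tF` : good levels for `t` and `t⁻¹` over all large number fields;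
* `hasLevels0`, `hasLevels1` : the two inputs `hlev0`, `hlev1` of `ModelInst4.twoCharts`.
-/
import Mathlib
import Fermat.Agent.ES.RED.LevelsMain22
import Fermat.Agent.ES.RED.ModelInst4
import Fermat.Agent.ES.RED.L4Inst16
import Fermat.Agent.RED.S18Exports4
import Fermat.Agent.RED.CUSP.RankConcrete16

set_option autoImplicit false
set_option linter.unusedSectionVars false
set_option linter.style.haveILetI false

open HahnSeries ModularCurve AlgebraicCurve
open scoped MatrixGroups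

noncomputable section

namespace Fermat.Agent.ES.RED.HasLevels22

open Fermat.Agent.X0.FF Fermat.Agent.ES.RED.PlaceValue13 Fermat.Agent.ES.RED.Contract8
open Fermat.Agent.ES.RED.LevelContract22 Fermat.Agent.ES.RED.LevelsInst22
  Fermat.Agent.ES.RED.LevelsMain22 Fermat.Agent.ES.RED.ModelInstGen4
open Fermat.Agent.RED.Interface4 Fermat.Agent.RED.DESC.PlaceExtend27 Fermat.Agent.RED.DESC
  Fermat.Agent.RED.DESC.NumberFieldDVR27
  Fermat.Agent.RED.PUR.ChartGeneric22 Fermat.Agent.RED.NumInst4 Fermat.Agent.RED.PUR.GaussGen8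
  Fermat.Agent.RED.PUR.GaussBridge10 Fermat.Agent.RED.CORE.CoreIface24
  Fermat.Agent.RED.BASE.Interface12 Fermat.Agent.RED.BASE.EtaQuot12
  Fermat.Agent.RED.ModelTargets4 Fermat.Agent.RED.BASE.MainCusp12
  Fermat.Agent.RED.BASE.Hauptmodul12

attribute [local instance] algebraAKFK

section Generic

variable {A : ValuationSubring Qbar} {M : ℕ} [NeZero M]
variable {x : ↥(Fbar M)} {hx : IsGen Qbar x}
variable {S : ChartSpec A hx ↥(modularFunctionFieldFullC (kA A) M)}

/-- `HasLevels S` from the hypotheses of `LevelsMain22.chartLevels`. -/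
theorem hasLevels_of_good {ℓ : ℕ} (hℓ : ℓ ≠ 0) (hA : A.LiesOverPrime ℓ)
    (hB : ∀ b : ↥(Fbar M), b ∈ S.B ↔ b ∈ chart ↥A S.s) (hcompat : RedCompat S)
    (hL4 : ∀ y : ↥(modularFunctionFieldFullC (kA A) M),
      ∃ a b : ↥S.B, S.red b ≠ 0 ∧ y * S.red b = S.red a)
    (hgood : EventuallyGood A M S.s) : HasLevels S :=
  fun P hP => ⟨Levels S, Bk S, inferInstance, levelHom S (fun b h => (hB b).2 h), pik S,
    chartLevels hℓ hA hB hcompat hL4 hgood P hP⟩

end Generic

section Concrete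

open Fermat.Agent.X0

/-- **Good levels for `t` and `t⁻¹`** over all large number fields, from the five MODEL targets. -/
theorem eventuallyGood_of_targets {n e : ℕ} [NeZero n] (M : ℕ) [NeZero M] (ℓ : ℕ) [Fact ℓ.Prime]
    (hℓM : ¬ ℓ ∣ M) (hmem : TMem n e M) (hgen : TGenBase n e) (A : ValuationSubring Qbar)
    (hA : A.LiesOverPrime ℓ) (cv : SL(2, ℤ) → Option Kbar)
    (hoff : OffTarget n e M A cv) (hover : OverTarget n e M A cv) (hinf : InfTarget n e M A) :
    EventuallyGood A M (tF M hmem) ∧ EventuallyGood A M (tF M hmem)⁻¹ := by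
  obtain ⟨K₀, hfd₀, H⟩ := ModelExplicit26.explicitModelStep_of_targets hℓM hA cv
    (Fermat.Agent.RED.ModelFinal4.tTarget M hmem) (Fermat.Agent.RED.ModelFinal4.jTarget hgen)
    hoff hover hinf
  obtain ⟨K₁, hfd₁, HT⟩ := Fermat.Agent.RED.ModelFinal4.tTarget M hmem
  haveI := hfd₀
  haveI := hfd₁
  refine eventuallyGood_of_models A M (tF M hmem) ⟨K₀ ⊔ K₁, inferInstance, fun K hK hle => ?_⟩
  obtain ⟨hdvr, Hm⟩ := H K hK (le_sup_left.trans hle)
  haveI := hdvr
  obtain ⟨ϖ, hϖ⟩ := IsDiscreteValuationRing.exists_irreducible ↥(AK A K)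
  have hu := isUnif_of_irreducible (AK A K) hϖ
  have htE : tq K n e ∈ FK M K := HT K hK (le_sup_right.trans hle)
  refine ⟨ϖ, hu, ⟨tq K n e, htE⟩, ?_, Hm ϖ hϖ hu ⟨tq K n e, htE⟩ rfl⟩
  exact Fermat.Agent.RED.CUSP.RankConcrete16.baseChangeHom_eq_tF M K hmem ⟨tq K n e, htE⟩ rfl

/-- Good levels for `t` and `t⁻¹`, unconditionally (Program H's smoothness targets). -/
theorem eventuallyGood_tF {n e : ℕ} [NeZero n] (M : ℕ) [NeZero M] (ℓ : ℕ) [Fact ℓ.Prime]
    (hℓM : ¬ ℓ ∣ M) (hmem : TMem n e M) (hgen : TGenBase n e) (A : ValuationSubring Qbar)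
    (hA : A.LiesOverPrime ℓ) (hb : BaseHyp n e) (hnM : n ∣ M) (cv : SL(2, ℤ) → Option Kbar)
    (hcv : CuspExports n e M cv) :
    EventuallyGood A M (tF M hmem) ∧ EventuallyGood A M (tF M hmem)⁻¹ := by
  obtain ⟨hoff, hover, hinf⟩ :=
    Fermat.Agent.RED.S18Exports4.targetsHyp hb M hnM ℓ hℓM A hA cv hcv
  exact eventuallyGood_of_targets M ℓ hℓM hmem hgen A hA cv hoff hover hinf

/-- **`HasLevels` for chart 0** (coordinate `t`). -/
theorem hasLevels0 (n e M : ℕ) [NeZero n] [NeZero M] (ℓ : ℕ) [Fact ℓ.Prime]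
    (hℓM : ¬ ℓ ∣ M) (hmem : TMem n e M) (hgen : TGenBase n e) (A : ValuationSubring Qbar)
    (hA : A.LiesOverPrime ℓ) (hsat0 : ChartIntegralA1.LevelSat A M (tF M hmem))
    (hb : BaseHyp n e) (hnM : n ∣ M) (cv : SL(2, ℤ) → Option Kbar)
    (hcv : CuspExports n e M cv) :
    HasLevels (ModelInst4.S0 n e M ℓ hℓM hmem A hA hsat0) :=
  hasLevels_of_good (Fact.out : ℓ.Prime).ne_zero hA (fun _ => Iff.rfl)
    (ModelInst4.compat0 n e M ℓ hℓM hmem A hA hsat0)
    (L4Inst16.chartLevels_L4_of_coeffChart _ (ModelInst4.coeffChart0 n e M ℓ hℓM hmem A hA hsat0)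
      n e ℓ hℓM hmem hgen hA (Or.inl rfl))
    (eventuallyGood_tF M ℓ hℓM hmem hgen A hA hb hnM cv hcv).1

/-- **`HasLevels` for chart 1** (coordinate `t⁻¹`). -/
theorem hasLevels1 (n e M : ℕ) [NeZero n] [NeZero M] (ℓ : ℕ) [Fact ℓ.Prime]
    (hℓM : ¬ ℓ ∣ M) (hmem : TMem n e M) (hgen : TGenBase n e) (A : ValuationSubring Qbar)
    (hA : A.LiesOverPrime ℓ) (hsat1 : ChartIntegralA1.LevelSat A M (tF M hmem)⁻¹)
    (hb : BaseHyp n e) (hnM : n ∣ M) (cv : SL(2, ℤ) → Option Kbar)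
    (hcv : CuspExports n e M cv) :
    HasLevels (ModelInst4.S1 n e M ℓ hℓM hmem A hA hsat1) :=
  hasLevels_of_good (Fact.out : ℓ.Prime).ne_zero hA (fun _ => Iff.rfl)
    (ModelInst4.compat1 n e M ℓ hℓM hmem A hA hsat1)
    (L4Inst16.chartLevels_L4_of_coeffChart _ (ModelInst4.coeffChart1 n e M ℓ hℓM hmem A hA hsat1)
      n e ℓ hℓM hmem hgen hA (Or.inr rfl))
    (eventuallyGood_tF M ℓ hℓM hmem hgen A hA hb hnM cv hcv).2

end Concrete

end Fermat.Agent.ES.RED.HasLevels22
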