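/-
Program I (S37), chapter ES/RED, leaf B1.2 + B1.4 (helper26): **the level system of a chart of the
model over `A`**, i.e. the instance of `LevelContract22.ChartLevels`.

`A ≤ ℚ̄` over `ℓ`, `F = ℚ̄·F_M`, `Ft = k·F̃_M` (`k = A/𝔪_A`).  `S : ChartSpec A hx Ft` is a chart
whose ring is the integral closure of `A[s]` (`hB`) and whose reduction is the coefficientwise
reduction of `A`-integral `q`-expansions (`hred`).  The levels are indexed by the number fields
`K ⊇ K₀`: `B_K = chart (A ∩ K) s_K ⊂ K·F_M`, `ι_K` = base change, `π_K` = a uniformiser of `A ∩ K`.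

* generic part: `LevelAt` (the facts needed at one level), `chartLevels`;
* `hasPlaces`, `peelA` from a principal-ideal hypothesis on the valuation rings of `Ft`.
-/
import Mathlib
import Fermat.Agent.ES.RED.LevelContract22
import Fermat.Agent.ES.RED.TwoCharts8
import Fermat.Agent.ES.RED.ChartUnion1
import Fermat.Agent.ES.RED.GaussUnit25

set_option autoImplicit false
set_option linter.unusedSectionVars false

open HahnSeries ModularCurve Polynomial AlgebraicCurve

noncomputable section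

namespace Fermat.Agent.ES.RED.LevelsInst26

open Fermat.Agent.RED.Interface4 Fermat.Agent.RED.DESC.PlaceExtend27
  Fermat.Agent.RED.DESC Fermat.Agent.RED.PUR.ChartGeneric22 Fermat.Agent.RED.NumInst4
  Fermat.Agent.RED.DESC.NumberFieldDVR27 Fermat.Agent.RED.PUR.GaussGen8
open Fermat.Agent.X0.FF Fermat.Agent.ES.RED.PlaceValue13 Fermat.Agent.ES.RED.Contract8
  Fermat.Agent.ES.RED.LevelContract22 Fermat.Agent.ES.RED.TwoCharts8
  Fermat.Agent.ES.RED.ChartUnion1

/-! ### a ring hom into a locally finite field has a maximal kernel -/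

theorem ker_isMaximal_of_locallyFinite {B k : Type*} [CommRing B] [Field k] (φ : B →+* k)
    (hk : ∀ c : k, ∃ m : ℕ, 1 < m ∧ c ^ m = c) : (RingHom.ker φ).IsMaximal := by
  have hfield : IsField ↥φ.range := by
    refine ⟨⟨0, 1, zero_ne_one⟩, mul_comm, ?_⟩
    intro c hc
    obtain ⟨m, hm, hcm⟩ := hk (c : k)
    have hc0 : (c : k) ≠ 0 := fun h => hc (Subtype.ext h)
    refine ⟨c ^ (m - 2), ?_⟩
    apply Subtype.ext
    show (c : k) * (c : k) ^ (m - 2) = 1
    have h1 : (c : k) ^ (m - 1) = 1 := by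
      have h2 : (c : k) ^ (m - 1) * (c : k) = 1 * (c : k) := by
        rw [← pow_succ, one_mul]
        have : m - 1 + 1 = m := by omega
        rw [this, hcm]
      exact mul_right_cancel₀ hc0 h2
    rw [← pow_succ']
    have : m - 2 + 1 = m - 1 := by omega
    rw [this, h1]
  have h := (RingHom.quotientKerEquivRange φ).toMulEquiv.isField hfield
  exact Ideal.Quotient.maximal_of_isField _ h

/-! ### lists of chart elements descend to a common level -/

variable (A : ValuationSubring Qbar) {M : ℕ}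

theorem exists_level_list (K₀ : IntermediateField ℚ Qbar) [FiniteDimensional ℚ K₀]
    (t : Fbar M) (T : List (Fbar M)) (hT : ∀ y ∈ T, y ∈ chart ↥A t) :
    ∃ K₁ : IntermediateField ℚ Qbar, FiniteDimensional ℚ K₁ ∧ K₀ ≤ K₁ ∧
      ∀ K : IntermediateField ℚ Qbar, K₁ ≤ K → ∀ tK : FK M K, baseChangeHom M K tK = t →
        ∀ y ∈ T, ∃ x ∈ chart ↥(AK A K) tK, baseChangeHom M K x = y := by
  induction T with
  | nil => exact ⟨K₀, inferInstance, le_rfl, fun K _ tK _ y hy => absurd hy (List.not_mem_nil)⟩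
  | cons b T ih =>
    obtain ⟨K₁, hfin₁, hK₁, H₁⟩ := ih fun y hy => hT y (List.mem_cons_of_mem _ hy)
    obtain ⟨K₂, hfin₂, hK₂, H₂⟩ := exists_chart_descent A M K₀ t b (hT b List.mem_cons_self)
    have := hfin₁
    have := hfin₂
    refine ⟨K₁ ⊔ K₂, inferInstance, hK₁.trans le_sup_left, fun K hK tK htK y hy => ?_⟩
    rcases List.mem_cons.mp hy with rfl | hy
    · exact H₂ K (le_sup_right.trans hK) tK htK
    · exact H₁ K (le_sup_left.trans hK) tK htK y hy

/-! ### the level data and the level maps -/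

/-- the index type: number fields `K ⊇ K₀`. -/
def Idx (K₀ : IntermediateField ℚ Qbar) : Type :=
  {K : IntermediateField ℚ Qbar // FiniteDimensional ℚ K ∧ K₀ ≤ K}

/-- **What is needed of one level** `K`: `ϖ` is a uniformiser of `A ∩ K`, the chart
`chart (A ∩ K) s_K` is noetherian, consists of `(A ∩ K)`-integral `q`-expansions, is `ϖ`-saturated
and is smooth along `ϖ = 0`. -/
structure LevelAt (M : ℕ) (K : IntermediateField ℚ Qbar) (sK : ↥(FK M K)) (ϖ : ↥(AK A K)) :
    Prop where
  unif : IsUnif (AK A K) ϖ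
  noeth : IsNoetherianRing ↥(chart ↥(AK A K) sK)
  series : ∀ b ∈ chart ↥(AK A K) sK, ∃ Y : LaurentSeries ↥(AK A K),
    embK (AK A K) Y = ((b : ↥(FK M K)) : LaurentSeries K)
  sat : ∀ b ∈ chart ↥(AK A K) sK, ∀ Y' : LaurentSeries ↥(AK A K),
    ((b : ↥(FK M K)) : LaurentSeries K) = embK (AK A K) (HahnSeries.C ϖ * Y') →
      ∃ c ∈ chart ↥(AK A K) sK, b = algebraMap ↥(AK A K) ↥(FK M K) ϖ * c
  smooth : ∀ x : Ideal ↥(chart ↥(AK A K) sK), x.IsMaximal →
    algebraMap ↥(AK A K) ↥(chart ↥(AK A K) sK) ϖ ∈ x →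
      ∃ s ∈ x, ∀ y ∈ x, ∃ d : ↥(chart ↥(AK A K) sK), d ∉ x ∧
        d * y ∈ Ideal.span {algebraMap ↥(AK A K) ↥(chart ↥(AK A K) sK) ϖ, s}

variable {A}
variable {x : ↥(Fbar M)} {hx : IsGen Qbar x}
  (S : ChartSpec A hx ↥(modularFunctionFieldFullC (kA A) M))
  (hB : ∀ b : ↥(Fbar M), b ∈ chart ↥A S.s → b ∈ S.B)

/-- **the level map** `ι_K : chart (A ∩ K) s_K → S.B` (base change of coefficients). -/
def levelHom (K : IntermediateField ℚ Qbar) (sK : ↥(FK M K))
    (hsK : baseChangeHom M K sK = S.s) : ↥(chart ↥(AK A K) sK) →+* ↥S.B :=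
  ((baseChangeHom M K).comp (Subalgebra.val (chart ↥(AK A K) sK)).toRingHom).codRestrict S.B
    (fun b => hB _ (by
      rw [← hsK]
      exact baseChangeHom_mem_chart A M K sK (b : ↥(FK M K)) b.2))

@[simp] theorem coe_levelHom (K : IntermediateField ℚ Qbar) (sK : ↥(FK M K))
    (hsK : baseChangeHom M K sK = S.s) (b : ↥(chart ↥(AK A K) sK)) :
    ((levelHom S hB K sK hsK b : ↥S.B) : ↥(Fbar M)) = baseChangeHom M K (b : ↥(FK M K)) := rfl

theorem levelHom_injective (K : IntermediateField ℚ Qbar) (sK : ↥(FK M K))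
    (hsK : baseChangeHom M K sK = S.s) : Function.Injective (levelHom S hB K sK hsK) := by
  intro b b' h
  have h1 := congrArg (fun z : ↥S.B => (z : ↥(Fbar M))) h
  simp only [coe_levelHom] at h1
  exact Subtype.ext (baseChangeHom_injective M K h1)

theorem levelHom_algebraMap (K : IntermediateField ℚ Qbar) (sK : ↥(FK M K))
    (hsK : baseChangeHom M K sK = S.s) (a : ↥(AK A K)) :
    levelHom S hB K sK hsK (algebraMap ↥(AK A K) ↥(chart ↥(AK A K) sK) a) =
      S.const (incl A K a) := by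
  apply Subtype.ext
  rw [coe_levelHom, ChartSpec.coe_const]
  exact baseChangeHom_algebraMap_AK A M K a

end Fermat.Agent.ES.RED.LevelsInst26

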