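/-
Program I (S37), chapter ES/RED — helper17.  **`LevelsInst26.LevelAt` at one concrete level, from the
explicit two-chart model** (leaf B1.2, pieces (i),(ii) of helper26's split).

`K ⊂ ℚ̄` a number field with `A ∩ K` a DVR, `ϖ` a uniformiser, `t : K·F_M`, and the explicit model
`TwoChartModel (A ∩ K) K (K·F_M) ϖ t (chart t) (chart t⁻¹) (OvK A K M hu)` of
`ModelExplicit26.explicitModelStep_of_targets`:

* `levelAt_of_model0` : `LevelAt A M K t ϖ`     (needs an `(A ∩ K)`-integral `q`-expansion of `t`);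
* `levelAt_of_model1` : `LevelAt A M K t⁻¹ ϖ`   (needs an `(A ∩ K)`-integral `q`-expansion of `t⁻¹`);
* `levelAt_tq`, `levelAt_tq_inv` : the two cases `(t : K((q))) = tq K n e` (expansions `tq`, `tqi`).
-/
import Mathlib
import Fermat.Agent.ES.RED.LevelsInst26
import Fermat.Agent.ES.RED.IntegralQExp1
import Fermat.Agent.ES.RED.ChartInst1

set_option autoImplicit false
set_option linter.unusedSectionVars false

open HahnSeries ModularCurve Polynomial AlgebraicCurve

noncomputable section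

namespace Fermat.Agent.ES.RED.LevelAtInv17

open Fermat.Agent.RED.Interface4 Fermat.Agent.RED.DESC.PlaceExtend27
  Fermat.Agent.RED.DESC Fermat.Agent.RED.PUR.ChartGeneric22 Fermat.Agent.RED.NumInst4
  Fermat.Agent.RED.DESC.NumberFieldDVR27 Fermat.Agent.RED.PUR.GaussGen8
  Fermat.Agent.RED.PUR.GaussBridge10 Fermat.Agent.RED.PUR.G1Package8
  Fermat.Agent.RED.CORE.CoreIface24
open Fermat.Agent.ES.RED.LevelsInst26

/-- cached instance (typeclass search for it takes seconds at these concrete types). -/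
local instance (priority := 5000) algAKFK (A : ValuationSubring Qbar) (M : ℕ)
    (K : IntermediateField ℚ Qbar) : Algebra ↥(AK A K) ↥(FK M K) := inferInstance

variable (A : ValuationSubring Qbar) (M : ℕ) [NeZero M] (K : IntermediateField ℚ Qbar)
  [IsDiscreteValuationRing ↥(AK A K)] {ϖ : ↥(AK A K)} (hu : IsUnif (AK A K) ϖ)

include hu in
/-- **Saturation in series form** from the contract field `sat`: if `b` lies in the subalgebra `B`,
`B` is `ϖ`-saturated in the Gauss valuation ring, and `b = ϖ · Y'` as `q`-expansions, then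
`b = ϖ · c` with `c ∈ B`. -/
theorem sat_series (B : Subalgebra ↥(AK A K) ↥(FK M K))
    (hsat : ∀ b ∈ B, ∀ c ∈ OvK A K M hu, b = algebraMap ↥(AK A K) ↥(FK M K) ϖ * c → c ∈ B)
    (b : ↥(FK M K)) (hb : b ∈ B) (Y' : LaurentSeries ↥(AK A K))
    (hY' : ((b : ↥(FK M K)) : LaurentSeries K) = embK (AK A K) (HahnSeries.C ϖ * Y')) :
    ∃ c ∈ B, b = algebraMap ↥(AK A K) ↥(FK M K) ϖ * c := by
  have hπ0 : piK ϖ ≠ 0 := piK_ne_zero hu
  have hπE : piK ϖ ∈ FK M K := by
    rw [← coe_algebraMap_pi (E := FK M K)]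
    exact (algebraMap ↥(AK A K) ↥(FK M K) ϖ).2
  have hrel : ((b : ↥(FK M K)) : LaurentSeries K) = piK ϖ * embK (AK A K) Y' := by
    rw [hY', map_mul, embK_C]
  have hcE : embK (AK A K) Y' ∈ FK M K := by
    have : embK (AK A K) Y' = (piK ϖ)⁻¹ * ((b : ↥(FK M K)) : LaurentSeries K) := by
      rw [hrel, ← mul_assoc, inv_mul_cancel₀ hπ0, one_mul]
    rw [this]
    exact mul_mem (inv_mem hπE) b.2
  set c : ↥(FK M K) := ⟨embK (AK A K) Y', hcE⟩ with hc
  have hcOv : c ∈ OvK A K M hu := (mem_OvK_iff A K M hu c).mpr (embK_mem (AK A K) Y')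
  have hbc : b = algebraMap ↥(AK A K) ↥(FK M K) ϖ * c := by
    apply Subtype.ext
    rw [MulMemClass.coe_mul, coe_algebraMap_pi]
    exact hrel
  exact ⟨c, hsat b hb c hcOv hbc, hbc⟩

variable (t : ↥(FK M K))
  (hmod : TwoChartModel ↥(AK A K) K ↥(FK M K) ϖ t (chart ↥(AK A K) t) (chart ↥(AK A K) t⁻¹)
    (OvK A K M hu))

include hmod in
/-- **`LevelAt` for the chart `t`.** -/
theorem levelAt_of_model0
    (hT : ∃ T : LaurentSeries ↥(AK A K), embK (AK A K) T = ((t : ↥(FK M K)) : LaurentSeries K)) :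
    LevelAt A M K t ϖ where
  unif := hu
  noeth := hmod.noeth0
  series := fun _ hb =>
    Fermat.Agent.ES.RED.IntegralQExp1.exists_embK_of_mem_chart (AK A K) (FK M K)
      (FK_le_fracField A K M) hT hb
  sat := fun b hb Y' hY' => sat_series A M K hu (chart ↥(AK A K) t) hmod.sat0 b hb Y' hY'
  smooth := hmod.smooth0

include hmod in
/-- **`LevelAt` for the chart `t⁻¹`.** -/
theorem levelAt_of_model1
    (hT : ∃ T : LaurentSeries ↥(AK A K),
      embK (AK A K) T = ((t⁻¹ : ↥(FK M K)) : LaurentSeries K)) :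
    LevelAt A M K t⁻¹ ϖ where
  unif := hu
  noeth := hmod.noeth1
  series := fun _ hb =>
    Fermat.Agent.ES.RED.IntegralQExp1.exists_embK_of_mem_chart (AK A K) (FK M K)
      (FK_le_fracField A K M) hT hb
  sat := fun b hb Y' hY' => sat_series A M K hu (chart ↥(AK A K) t⁻¹) hmod.sat1 b hb Y' hY'
  smooth := hmod.smooth1

section Hauptmodul

open Fermat.Agent.RED.BASE.EtaQuot12 Fermat.Agent.ES.RED.ChartInst1

variable {n e : ℕ} [NeZero n] (htq : ((t : ↥(FK M K)) : LaurentSeries K) = tq K n e)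

include hmod htq in
/-- `LevelAt` at the Hauptmodul `t = tq K n e`. -/
theorem levelAt_tq : LevelAt A M K t ϖ :=
  levelAt_of_model0 A M K hu t hmod
    ⟨tq ↥(AK A K) n e, by rw [htq]; exact coeffMap_tq ↥(AK A K) (AK A K).subtype n e⟩

include hmod htq in
/-- `LevelAt` at the inverse of the Hauptmodul. -/
theorem levelAt_tq_inv : LevelAt A M K t⁻¹ ϖ :=
  levelAt_of_model1 A M K hu t hmod
    ⟨tqi ↥(AK A K) n e, by
      show coeffMap (AK A K).subtype (tqi ↥(AK A K) n e) = ((t : ↥(FK M K)) : LaurentSeries K)⁻¹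
      rw [coeffMap_tqi, tqi_eq_inv, htq]⟩

end Hauptmodul

end Fermat.Agent.ES.RED.LevelAtInv17
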