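/-
Program I (S37), chapter ES/RED, leaf B1.2 (helper1): **`LevelsInst26.LevelAt` at the concrete
levels**, from the two-chart model `CoreIface24.TwoChartModel` over a number field `K`.

* `levelAt_of_model`, `levelAt_inv_of_model`: one level, generic coordinate `t` with an
  `(A ∩ K)`-integral `q`-expansion (resp. `t⁻¹`);
* `levelAt_of_modelAt`: for the Hauptmodul, over all large number fields, from `ChartInst1.ModelAt`
  (= the conclusion of `ModelExplicit26.explicitModelStep_of_targets`).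
-/
import Mathlib
import Fermat.Agent.ES.RED.LevelsInst26
import Fermat.Agent.ES.RED.ChartInst1

set_option autoImplicit false
set_option linter.unusedSectionVars false

open HahnSeries ModularCurve Polynomial

noncomputable section

namespace Fermat.Agent.ES.RED.LevelAtModel1

open Fermat.Agent.RED.Interface4 Fermat.Agent.RED.DESC.PlaceExtend27
  Fermat.Agent.RED.DESC Fermat.Agent.RED.PUR.ChartGeneric22 Fermat.Agent.RED.NumInst4
  Fermat.Agent.RED.PUR.GaussGen8 Fermat.Agent.RED.DESC.NumberFieldDVR27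
  Fermat.Agent.RED.BASE.EtaQuot12 Fermat.Agent.RED.BASE.Interface12
  Fermat.Agent.ES.RED.ChartIntegralA1 Fermat.Agent.ES.RED.ChartInst1
  Fermat.Agent.RED.CORE.CoreIface24 Fermat.Agent.RED.PUR.GaussBridge10
  Fermat.Agent.ES.RED.LevelsInst26

variable (A : ValuationSubring Qbar) (M : ℕ) [NeZero M]

/-- shortcut instance (typeclass search takes 4 s to find it). -/
local instance (priority := high) algebraAKFK' (K : IntermediateField ℚ Qbar) :
    Algebra ↥(AK A K) ↥(FK M K) := inferInstance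

/-- the saturation field of `LevelAt` from `π`-saturation in the Gauss valuation ring. -/
theorem sat_of_sat (K : IntermediateField ℚ Qbar) {ϖ : ↥(AK A K)} (hu : IsUnif (AK A K) ϖ)
    (sK : FK M K)
    (hsat : ∀ b ∈ chart ↥(AK A K) sK, ∀ c ∈ OvK A K M hu,
      b = algebraMap ↥(AK A K) ↥(FK M K) ϖ * c → c ∈ chart ↥(AK A K) sK)
    (b : FK M K) (hb : b ∈ chart ↥(AK A K) sK) (Y' : LaurentSeries ↥(AK A K))
    (hY' : ((b : ↥(FK M K)) : LaurentSeries K) = embK (AK A K) (HahnSeries.C ϖ * Y')) :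
    ∃ c ∈ chart ↥(AK A K) sK, b = algebraMap ↥(AK A K) ↥(FK M K) ϖ * c := by
  set p : FK M K := algebraMap ↥(AK A K) ↥(FK M K) ϖ with hp
  have hcoe_p : ((p : FK M K) : LaurentSeries K) = embK (AK A K) (HahnSeries.C ϖ) := by
    rw [hp, coe_algebraMap_OE, embK_C]
  have hp0' : ((p : FK M K) : LaurentSeries K) ≠ 0 := by
    rw [hcoe_p]
    intro h0
    exact C_unif_ne_zero hu ((embK_eq_zero_iff (AK A K) _).mp h0)
  have hp0 : p ≠ 0 := fun h0 => hp0' (by rw [h0]; rfl)
  set c : FK M K := b * p⁻¹ with hc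
  have hbc : b = p * c := by
    rw [hc, mul_comm b, ← mul_assoc, mul_inv_cancel₀ hp0, one_mul]
  have hccoe : ((c : FK M K) : LaurentSeries K) = embK (AK A K) Y' := by
    have h1 : ((p : FK M K) : LaurentSeries K) * ((c : FK M K) : LaurentSeries K) =
        ((p : FK M K) : LaurentSeries K) * embK (AK A K) Y' := by
      have h2 := congrArg (fun z : FK M K => (z : LaurentSeries K)) hbc
      simp only [MulMemClass.coe_mul] at h2
      rw [← h2, hY', map_mul, hcoe_p]
    exact mul_left_cancel₀ hp0' h1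
  have hcOv : c ∈ OvK A K M hu := by
    rw [mem_OvK_iff, hccoe]
    exact embK_mem (AK A K) Y'
  exact ⟨c, hsat b hb c hcOv hbc, hbc⟩

/-- **`LevelAt` at the chart `chart (A ∩ K) t`** from the two-chart model. -/
theorem levelAt_of_model (K : IntermediateField ℚ Qbar) [IsDiscreteValuationRing ↥(AK A K)]
    {ϖ : ↥(AK A K)} (hu : IsUnif (AK A K) ϖ) (t : FK M K)
    (hT : ∃ T : LaurentSeries ↥(AK A K), embK (AK A K) T = ((t : FK M K) : LaurentSeries K))
    (hm : TwoChartModel ↥(AK A K) K ↥(FK M K) ϖ t (chart ↥(AK A K) t) (chart ↥(AK A K) t⁻¹)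
      (OvK A K M hu)) :
    LevelAt A M K t ϖ where
  unif := hu
  noeth := hm.noeth0
  series := fun _ hb => Fermat.Agent.ES.RED.IntegralQExp1.exists_embK_of_mem_chart (AK A K)
    (FK M K) (FK_le_fracField A K M) hT hb
  sat := sat_of_sat A M K hu t hm.sat0
  smooth := hm.smooth0

/-- **`LevelAt` at the chart `chart (A ∩ K) t⁻¹`** from the two-chart model. -/
theorem levelAt_inv_of_model (K : IntermediateField ℚ Qbar) [IsDiscreteValuationRing ↥(AK A K)]
    {ϖ : ↥(AK A K)} (hu : IsUnif (AK A K) ϖ) (t : FK M K)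
    (hT : ∃ T : LaurentSeries ↥(AK A K), embK (AK A K) T = ((t⁻¹ : FK M K) : LaurentSeries K))
    (hm : TwoChartModel ↥(AK A K) K ↥(FK M K) ϖ t (chart ↥(AK A K) t) (chart ↥(AK A K) t⁻¹)
      (OvK A K M hu)) :
    LevelAt A M K t⁻¹ ϖ where
  unif := hu
  noeth := hm.noeth1
  series := fun _ hb => Fermat.Agent.ES.RED.IntegralQExp1.exists_embK_of_mem_chart (AK A K)
    (FK M K) (FK_le_fracField A K M) hT hb
  sat := sat_of_sat A M K hu t⁻¹ hm.sat1
  smooth := hm.smooth1

/-- **`LevelAt` for the Hauptmodul and its inverse over all large number fields.** -/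
theorem levelAt_of_modelAt {n e : ℕ} [NeZero n] (hmodel : ModelAt A n e M) :
    ∃ K₀ : IntermediateField ℚ Qbar, FiniteDimensional ℚ K₀ ∧
      ∀ K : IntermediateField ℚ Qbar, FiniteDimensional ℚ K → K₀ ≤ K →
        ∀ (ϖ : ↥(AK A K)) (_ : Irreducible ϖ) (t : ↥(FK M K)),
          (t : LaurentSeries K) = tq K n e →
          LevelAt A M K t ϖ ∧ LevelAt A M K t⁻¹ ϖ := by
  obtain ⟨K₀, hfin, H⟩ := hmodel
  refine ⟨K₀, hfin, fun K hK hle ϖ hϖ t ht => ?_⟩
  obtain ⟨hdvr, Hm⟩ := H K hK hle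
  have hu : IsUnif (AK A K) ϖ := isUnif_of_irreducible (AK A K) hϖ
  have hm := Hm ϖ hϖ hu t ht
  have hT : ∃ T : LaurentSeries ↥(AK A K),
      embK (AK A K) T = ((t : FK M K) : LaurentSeries K) :=
    ⟨tq ↥(AK A K) n e, by rw [ht]; exact coeffMap_tq _ _ n e⟩
  have hT' : ∃ T : LaurentSeries ↥(AK A K),
      embK (AK A K) T = ((t⁻¹ : FK M K) : LaurentSeries K) := by
    refine ⟨tqi ↥(AK A K) n e, ?_⟩
    have h1 : ((t⁻¹ : FK M K) : LaurentSeries K) = (tq K n e)⁻¹ := by
      rw [← ht]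
      rfl
    rw [h1, ← tqi_eq_inv]
    exact coeffMap_tqi _ _ n e
  exact ⟨levelAt_of_model A M K hu t hT hm, levelAt_inv_of_model A M K hu t hT' hm⟩

end Fermat.Agent.ES.RED.LevelAtModel1
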