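/-
Program I (S37), chapter ES/RED — helper17.  **Two fields of the level system of a chart**
(`LevelContract22.ChartLevels`, leaf B1.2): `isMax` and `L3`.

* (i)  `ker_isMaximal_of_pow_eq_self` : a ring hom into a field all of whose elements satisfy `c ^ m = c`
       (`m > 1`) has a maximal kernel;
* (ii) `exists_pow_eq_self`, `ker_isMaximal` : the residue field of a valuation subring `A ≤ ℚ̄` over `ℓ`
       is such a field; so the centre `ker (χ_P ∘ ι_K)` of ANY level of ANY chart is a closed point;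
* (iii) `baseChangeHom_mem_gaussA`, `redA_baseChangeHom` : compatibility of the reductions
       `Setup8.redA (baseChangeHom b) = coeffMap (resMap A K) (gaussRed b)`;
       `baseChangeHom_chart_mem_gaussA`, `redA_baseChangeHom_chart` (on `chart (AK A K) tK`, with
       `FibreSurj17.chartRed`);  **(L3)** `redA_baseChangeHom_eq_zero_iff` :
       `redA (baseChangeHom b) = 0 ↔ ϖ ∣ b` in `chart (AK A K) tK`.
-/
import Mathlib
import Fermat.Agent.ES.RED.ResidueUnion1
import Fermat.Agent.ES.RED.FibreSurj17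
import Fermat.Agent.ES.RED.Setup8
import Fermat.Agent.ES.RED.GaussUnit25
import Fermat.Agent.ES.RED.IntegralQExp1

set_option autoImplicit false
set_option linter.unusedSectionVars false

noncomputable section

open HahnSeries ModularCurve Polynomial IntermediateField

namespace Fermat.Agent.ES.RED.LevelMax17

open Fermat.Agent.RED.Interface4 Fermat.Agent.RED.DESC Fermat.Agent.RED.DESC.NumberFieldDVR27
  Fermat.Agent.RED.DESC.PlaceExtend27
open Fermat.Agent.RED.PUR.GaussGen8 Fermat.Agent.RED.PUR.KtGauss8 Fermat.Agent.RED.PUR.G1Package8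
  Fermat.Agent.RED.PUR.GaussBridge10 Fermat.Agent.RED.PUR.ChartGeneric22
open Fermat.Agent.ES.RED.Setup8 Fermat.Agent.ES.RED.FibreSurj17

/-! ### (i) closed points: kernels of homomorphisms into a locally finite field -/

/-- **Closed points.**  A ring hom into a field all of whose elements satisfy `c ^ m = c` for some
`m > 1` (e.g. an algebraic extension of a finite field) has a MAXIMAL kernel: its image is a field. -/
theorem ker_isMaximal_of_pow_eq_self {B k : Type*} [CommRing B] [Field k] (φ : B →+* k)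
    (hk : ∀ c : k, ∃ m : ℕ, 1 < m ∧ c ^ m = c) : (RingHom.ker φ).IsMaximal := by
  rw [Ideal.isMaximal_iff]
  refine ⟨?_, fun J x hIJ hxI hxJ => ?_⟩
  · rw [RingHom.mem_ker, map_one]
    exact one_ne_zero
  · rw [RingHom.mem_ker] at hxI
    obtain ⟨m, hm, hpow⟩ := hk (φ x)
    have h1 : φ x ^ (m - 1) = 1 := by
      have h2 : φ x ^ (m - 1) * φ x = 1 * φ x := by
        rw [← pow_succ, Nat.sub_add_cancel (by omega), hpow, one_mul]
      exact mul_right_cancel₀ hxI h2
    have h3 : 1 - x ^ (m - 1) ∈ RingHom.ker φ := by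
      rw [RingHom.mem_ker, map_sub, map_one, map_pow, h1, sub_self]
    have h4 : x ^ (m - 1) ∈ J := by
      have : m - 1 = (m - 2) + 1 := by omega
      rw [this, pow_succ]
      exact J.mul_mem_left _ hxJ
    have := J.add_mem (hIJ h3) h4
    rwa [sub_add_cancel] at this

/-! ### (ii) the residue field of `A ≤ ℚ̄` over `ℓ` is locally finite -/

/-- Every element of the residue field of a valuation subring of `ℚ̄` over `ℓ` satisfies
`c ^ m = c` for some `m > 1`. -/
theorem exists_pow_eq_self {ℓ : ℕ} (hℓ : ℓ.Prime) (A : ValuationSubring Qbar)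
    (hA : A.LiesOverPrime ℓ) (c : IsLocalRing.ResidueField ↥A) :
    ∃ m : ℕ, 1 < m ∧ c ^ m = c := by
  obtain ⟨K, hK, -, H⟩ := ResidueUnion1.exists_residue_descent A ⊥ c
  obtain ⟨c₀, rfl⟩ := H K le_rfl
  have hfin : Finite (IsLocalRing.ResidueField ↥(AK A K)) :=
    NumberFieldDVR27.finite_residueField_AK A K hℓ.ne_zero hA
  have := Fintype.ofFinite (IsLocalRing.ResidueField ↥(AK A K))
  refine ⟨Fintype.card (IsLocalRing.ResidueField ↥(AK A K)), Fintype.one_lt_card, ?_⟩
  rw [← map_pow, FiniteField.pow_card]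

/-- **`isMax`**: for `A ≤ ℚ̄` over `ℓ`, every ring hom into the residue field of `A` has a maximal
kernel. -/
theorem ker_isMaximal {ℓ : ℕ} (hℓ : ℓ.Prime) (A : ValuationSubring Qbar)
    (hA : A.LiesOverPrime ℓ) {B : Type*} [CommRing B] (φ : B →+* IsLocalRing.ResidueField ↥A) :
    (RingHom.ker φ).IsMaximal :=
  ker_isMaximal_of_pow_eq_self φ (exists_pow_eq_self hℓ A hA)

/-! ### (iii) compatibility of the reductions and (L3) -/

section L3

variable (A : ValuationSubring Qbar) (M : ℕ) [NeZero M] (K : IntermediateField ℚ Qbar)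

/-- The base change of an `A_K`-integral series is `A`-integral. -/
theorem baseChangeHom_mem_gaussA (b : ↥(FK M K))
    (hY : ∃ Y : LaurentSeries ↥(AK A K), embK (AK A K) Y = (b : LaurentSeries K)) :
    baseChangeHom M K b ∈ gaussA A (Fbar M) := by
  obtain ⟨Y, hY⟩ := hY
  refine ⟨coeffMap (incl A K) Y, ?_⟩
  rw [Fermat.Agent.ES.RED.GaussUnit25.coeffMap_subtype_incl, hY]
  rfl

/-- **Compatibility of the reductions**: `redA (baseChange b) = coeffMap ρ_K (gaussRed b)`. -/
theorem redA_baseChangeHom (b : ↥(FK M K))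
    (hY : ∃ Y : LaurentSeries ↥(AK A K), embK (AK A K) Y = (b : LaurentSeries K))
    (hb : (b : LaurentSeries K) ∈ gaussRing (AK A K))
    (h : baseChangeHom M K b ∈ gaussA A (Fbar M)) :
    redA A (Fbar M) ⟨baseChangeHom M K b, h⟩ =
      coeffMap (resMap A K) (gaussRed (AK A K) ⟨(b : LaurentSeries K), hb⟩) := by
  obtain ⟨Y, hY⟩ := hY
  have h1 : coeffMap A.subtype (coeffMap (incl A K) Y) =
      ((baseChangeHom M K b : ↥(Fbar M)) : LaurentSeries Qbar) := by
    rw [Fermat.Agent.ES.RED.GaussUnit25.coeffMap_subtype_incl, hY]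
    rfl
  rw [redA_eq A (Fbar M) ⟨baseChangeHom M K b, h⟩ h1,
    Fermat.Agent.ES.RED.GaussUnit25.coeffMap_residue_incl]
  congr 1
  have h2 : (⟨(b : LaurentSeries K), hb⟩ : ↥(gaussRing (AK A K))) =
      ⟨embK (AK A K) Y, embK_mem (AK A K) Y⟩ := Subtype.ext hY.symm
  rw [h2, gaussRed_embK]

end L3

section L3chart

variable (A : ValuationSubring Qbar) (M : ℕ) [NeZero M] (K : IntermediateField ℚ Qbar)
  [IsDiscreteValuationRing ↥(AK A K)] {ϖ : ↥(AK A K)} (hϖ : Irreducible ϖ)
  (tK : ↥(FK M K)) (htK : (tK : LaurentSeries K) ∈ gaussRing (AK A K))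
  (hT : ∃ T : LaurentSeries ↥(AK A K), embK (AK A K) T = (tK : LaurentSeries K))

include hT in
/-- Elements of the level-`K` chart are `A`-integral after base change. -/
theorem baseChangeHom_chart_mem_gaussA (b : ↥(chart ↥(AK A K) tK)) :
    baseChangeHom M K (b : ↥(FK M K)) ∈ gaussA A (Fbar M) :=
  baseChangeHom_mem_gaussA A M K b
    (Fermat.Agent.ES.RED.IntegralQExp1.exists_embK_of_mem_chart (AK A K) (FK M K)
      (FK_le_fracField A K M) hT b.2)

include hT in
/-- `redA (baseChange b) = coeffMap ρ_K (chartRed b)` on the level-`K` chart. -/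
theorem redA_baseChangeHom_chart (b : ↥(chart ↥(AK A K) tK))
    (h : baseChangeHom M K (b : ↥(FK M K)) ∈ gaussA A (Fbar M)) :
    redA A (Fbar M) ⟨baseChangeHom M K (b : ↥(FK M K)), h⟩ =
      coeffMap (resMap A K) (chartRed hϖ (FK_le_fracField A K M) tK htK b) :=
  redA_baseChangeHom A M K b
    (Fermat.Agent.ES.RED.IntegralQExp1.exists_embK_of_mem_chart (AK A K) (FK M K)
      (FK_le_fracField A K M) hT b.2) _ h

variable (htr : Transcendental (Res (AK A K)) (gaussRed (AK A K) ⟨(tK : LaurentSeries K), htK⟩))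
  {n : ℕ} (hdeg : DegLe (AK A K) (FK M K) ⟨(tK : LaurentSeries K), htK⟩ n)
  (hirr : Irr (AK A K) (FK M K) ⟨(tK : LaurentSeries K), htK⟩ n)

include hϖ hT htr hdeg hirr in
/-- **(L3)** at level `K`: `ker (redA ∘ baseChange | chart_K) = ϖ · chart_K`. -/
theorem redA_baseChangeHom_eq_zero_iff (b : ↥(chart ↥(AK A K) tK))
    (h : baseChangeHom M K (b : ↥(FK M K)) ∈ gaussA A (Fbar M)) :
    redA A (Fbar M) ⟨baseChangeHom M K (b : ↥(FK M K)), h⟩ = 0 ↔
      algebraMap ↥(AK A K) ↥(chart ↥(AK A K) tK) ϖ ∣ b := by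
  rw [redA_baseChangeHom_chart A M K hϖ tK htK hT b h, ← Ideal.mem_span_singleton,
    ← chartRed_eq_zero_iff hϖ (FK_le_fracField A K M) tK htK htr hdeg hirr b]
  constructor
  · intro h0
    exact CoeffDescent1.coeffMap_injective_of_injective (resMap A K) (resMap_injective A K)
      (h0.trans (map_zero _).symm)
  · intro h0
    rw [h0, map_zero]

end L3chart

end Fermat.Agent.ES.RED.LevelMax17
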