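/-
Program I (S37), chapter ES/RED — helper17.  **Plumbing for the level system of a coefficientwise
chart** (leaf B1.2, fields of `LevelContract22.ChartLevels` in literal shape).

`S : ChartSpec A hx Ft` at `L = ℚ̄`, `F = Fbar M`, `Ft = modularFunctionFieldFullC κ_A M` with
`hS : GaloisInst21.CoeffChart S` (`red` = coefficientwise reduction of the `A`-expansion).

* `mem_gaussA`, `coe_red_eq_redA`, `red_eq_zero_iff` : `S.red` is the restriction of `Setup8.redA`;
* `levelHom S K tK hmem : chart (A ∩ K) t_K →+* S.B` (`b ↦ baseChangeHom b`), `coe_levelHom`,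
  `levelHom_injective` (`inj`), `levelHom_algebraMap` (constants);
* `ev_levelHom_pi` (`ev_pi`), `chi_levelHom_pi` (`chi_pi`) for `π_K := algebraMap ϖ`;
* `red_levelHom_eq_zero_iff` (**`L3`**): `S.red (ι_K b) = 0 ↔ ϖ ∣ b`;
* `centre_isMaximal` (**`isMax`**): for any level system.

Remark (build time): at these concrete types the typeclass searches `Algebra ↥(AK A K) ↥(FK M K)`,
`Algebra (kA A) ↥(modularFunctionFieldFullC (kA A) M)` take 2–3 s EACH time; the three
`local instance (priority := 5000) … := inferInstance` below cut the file from 190 s to 30 s.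
-/
import Mathlib
import Fermat.Agent.ES.RED.LevelMax17
import Fermat.Agent.ES.RED.GaloisInst21
import Fermat.Agent.ES.RED.LevelContract22
import Fermat.Agent.ES.RED.ChartUnion1

set_option autoImplicit false
set_option linter.unusedSectionVars false

noncomputable section

open HahnSeries ModularCurve Polynomial IntermediateField AlgebraicCurve

namespace Fermat.Agent.ES.RED.LevelL3Inst17

open Fermat.Agent.RED.Interface4 Fermat.Agent.RED.DESC Fermat.Agent.RED.DESC.NumberFieldDVR27
  Fermat.Agent.RED.DESC.PlaceExtend27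
open Fermat.Agent.RED.PUR.GaussGen8 Fermat.Agent.RED.PUR.KtGauss8 Fermat.Agent.RED.PUR.G1Package8
  Fermat.Agent.RED.PUR.GaussBridge10 Fermat.Agent.RED.PUR.ChartGeneric22
open Fermat.Agent.ES.RED.Setup8 Fermat.Agent.ES.RED.FibreSurj17 Fermat.Agent.ES.RED.LevelMax17
open Fermat.Agent.X0.FF Fermat.Agent.ES.RED.Contract8 Fermat.Agent.ES.RED.GaloisInst21
  Fermat.Agent.ES.RED.LevelContract22

/-- cached instance (typeclass search for it takes seconds at these concrete types). -/
local instance (priority := 5000) algkFt (A : ValuationSubring Qbar) (M : ℕ) :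
    Algebra (Contract8.kA A) ↥(modularFunctionFieldFullC (Contract8.kA A) M) := inferInstance

/-- cached instance. -/
local instance (priority := 5000) algResLS (A : ValuationSubring Qbar)
    (K : IntermediateField ℚ Qbar) :
    Algebra (Res (AK A K)) (LaurentSeries (Res (AK A K))) := inferInstance

variable {A : ValuationSubring Qbar} {M : ℕ} [NeZero M]
  {x : ↥(Fbar M)} {hx : IsGen Qbar x}
  (S : ChartSpec A hx ↥(modularFunctionFieldFullC (Contract8.kA A) M))
  (hS : CoeffChart (F₀ := modularFunctionFieldFull M) S)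

include hS in
/-- Elements of a coefficientwise chart are Gauss-integral. -/
theorem mem_gaussA (b : ↥S.B) : (b : ↥(Fbar M)) ∈ gaussA A (Fbar M) := hS.exists_series b

/-- `S.red` is the restriction of `Setup8.redA`. -/
theorem coe_red_eq_redA (b : ↥S.B) :
    ((S.red b : ↥(modularFunctionFieldFullC (Contract8.kA A) M)) : LaurentSeries (Contract8.kA A)) =
      redA A (Fbar M) ⟨(b : ↥(Fbar M)), mem_gaussA S hS b⟩ := by
  obtain ⟨Y, hY⟩ := hS.exists_series b
  rw [hS.red_eq b Y hY, redA_eq A (Fbar M) _ hY]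

theorem red_eq_zero_iff (b : ↥S.B) :
    S.red b = 0 ↔ redA A (Fbar M) ⟨(b : ↥(Fbar M)), mem_gaussA S hS b⟩ = 0 := by
  rw [← coe_red_eq_redA S hS b]
  constructor
  · intro h; rw [h]; rfl
  · intro h; exact Subtype.ext h


section Level

/-- cached instance (typeclass search for it takes seconds at these concrete types). -/
local instance (priority := 5000) algAKFK (A : ValuationSubring Qbar) (M : ℕ)
    (K : IntermediateField ℚ Qbar) : Algebra ↥(AK A K) ↥(FK M K) := inferInstance

variable (K : IntermediateField ℚ Qbar) [IsDiscreteValuationRing ↥(AK A K)]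
  {ϖ : ↥(AK A K)} (hϖ : Irreducible ϖ)
  (tK : ↥(FK M K)) (htK : (tK : LaurentSeries K) ∈ gaussRing (AK A K))
  (hT : ∃ T : LaurentSeries ↥(AK A K), embK (AK A K) T = (tK : LaurentSeries K))
  (hmem : ∀ b : ↥(FK M K), b ∈ chart ↥(AK A K) tK → baseChangeHom M K b ∈ S.B)

/-- **The level map** `ι_K : chart (A ∩ K) t_K → S.B`, `b ↦ baseChange b`. -/
def levelHom : ↥(chart ↥(AK A K) tK) →+* ↥S.B where
  toFun b := ⟨baseChangeHom M K (b : ↥(FK M K)), hmem b b.2⟩
  map_one' := Subtype.ext (map_one _)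
  map_mul' a b := Subtype.ext (map_mul _ _ _)
  map_zero' := Subtype.ext (map_zero _)
  map_add' a b := Subtype.ext (map_add _ _ _)

@[simp] theorem coe_levelHom (b : ↥(chart ↥(AK A K) tK)) :
    ((levelHom S K tK hmem b : ↥S.B) : ↥(Fbar M)) = baseChangeHom M K (b : ↥(FK M K)) := rfl

/-- `inj`. -/
theorem levelHom_injective : Function.Injective (levelHom S K tK hmem) := by
  intro a b h
  apply Subtype.ext
  apply baseChangeHom_injective M K
  exact congrArg (fun z : ↥S.B => (z : ↥(Fbar M))) h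

/-- constants: `ι_K (a) = const (incl a)`. -/
theorem levelHom_algebraMap (a : ↥(AK A K)) :
    levelHom S K tK hmem (algebraMap ↥(AK A K) ↥(chart ↥(AK A K) tK) a) = S.const (incl A K a) := by
  apply Subtype.ext
  rw [coe_levelHom]
  exact Fermat.Agent.ES.RED.ChartUnion1.baseChangeHom_algebraMap_AK A M K a

variable (P : Place Qbar ↥(Fbar M)) (hP : S.InChart P)

/-- `ev_pi`: `ϖ_K (P) ≠ 0`. -/
theorem ev_levelHom_pi (hϖ0 : ϖ ≠ 0) :
    S.ev P hP (levelHom S K tK hmem (algebraMap ↥(AK A K) ↥(chart ↥(AK A K) tK) ϖ)) ≠ 0 := by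
  rw [levelHom_algebraMap, S.ev_const P hP]
  intro h0
  exact hϖ0 (incl_injective A K (h0.trans (map_zero _).symm))

include hϖ in
/-- `chi_pi`: `χ_P ϖ_K = 0`. -/
theorem chi_levelHom_pi :
    S.chi P hP (levelHom S K tK hmem (algebraMap ↥(AK A K) ↥(chart ↥(AK A K) tK) ϖ)) = 0 := by
  rw [levelHom_algebraMap, S.chi_const P hP]
  show IsLocalRing.residue ↥A (incl A K ϖ) = 0
  rw [← resMap_residue]
  have h1 : IsLocalRing.residue ↥(AK A K) ϖ = 0 := by
    rw [IsLocalRing.residue_eq_zero_iff, IsLocalRing.mem_maximalIdeal, mem_nonunits_iff]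
    exact hϖ.not_isUnit
  rw [h1, map_zero]

variable (htr : Transcendental (Res (AK A K)) (gaussRed (AK A K) ⟨(tK : LaurentSeries K), htK⟩))
  {n : ℕ} (hdeg : DegLe (AK A K) (FK M K) ⟨(tK : LaurentSeries K), htK⟩ n)
  (hirr : Irr (AK A K) (FK M K) ⟨(tK : LaurentSeries K), htK⟩ n)

include hS hϖ hT htr hdeg hirr in
/-- **`L3`**: `ker (red ∘ ι_K) = ϖ_K · chart_K`. -/
theorem red_levelHom_eq_zero_iff (b : ↥(chart ↥(AK A K) tK)) :
    S.red (levelHom S K tK hmem b) = 0 ↔
      algebraMap ↥(AK A K) ↥(chart ↥(AK A K) tK) ϖ ∣ b := by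
  rw [red_eq_zero_iff S hS]
  exact redA_baseChangeHom_eq_zero_iff A M K hϖ tK htK hT htr hdeg hirr b _

end Level

section IsMax

variable {ℓ : ℕ} (hℓ : ℓ.Prime) (hA : A.LiesOverPrime ℓ)
  (P : Place Qbar ↥(Fbar M)) (hP : S.InChart P)
  {I : Type*} (Bk : I → Type*) [∀ K, CommRing (Bk K)] (ι : ∀ K, Bk K →+* ↥S.B)

include hℓ hA in
/-- **`isMax`**: the centre of `P` at every level of every level system is a closed point. -/
theorem centre_isMaximal (K : I) : (centre S P hP Bk ι K).IsMaximal :=
  ker_isMaximal hℓ A hA _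

end IsMax

end Fermat.Agent.ES.RED.LevelL3Inst17
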