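import Mathlib

/-!
# RED-LV, Lemma V (one level)

Let `Bk` be a noetherian domain, `x` a maximal ideal, `π, s ∈ x` such that `(π)` is prime and
`(π, s)` generates `x` locally at `x`.  Then the localisation of `Bk ⧸ (π)` at the image of `x`
is a valuation ring; concretely, for any `a b : Bk`, modulo `π` one of `b / a`, `a / b` can be
written `c / d` with `d ∉ x`.

Main statement: `lemmaV`.  Mathlib only.
-/

namespace Fermat.Agent.ES.RED.LevelV6

open IsLocalRing

/-- Abstract form: in a noetherian local domain whose maximal ideal is principal, any two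
elements are comparable for divisibility. -/
theorem dvd_total_of_maximalIdeal_isPrincipal {D : Type*} [CommRing D] [IsDomain D]
    [IsNoetherianRing D] [IsLocalRing D] (h : (maximalIdeal D).IsPrincipal) (a b : D) :
    ∃ c : D, a * c = b ∨ b * c = a := by
  have hV : ValuationRing D :=
    ((tfae_of_isNoetherianRing_of_isLocalRing_of_isDomain D).out 4 1).mp h
  exact ValuationRing.cond a b

section Quot

variable {Bk : Type*} [CommRing Bk] (x : Ideal Bk) (π : Bk)

/-- An element outside `x` stays outside the image of `x` modulo `π ∈ x`. -/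
theorem mk_notMem_map (hπx : π ∈ x) {d : Bk} (hd : d ∉ x) :
    Ideal.Quotient.mk (Ideal.span {π}) d ∉ x.map (Ideal.Quotient.mk (Ideal.span {π})) := by
  intro h
  obtain ⟨d', hd', hdd'⟩ :=
    (Ideal.mem_map_iff_of_surjective _ Ideal.Quotient.mk_surjective).mp h
  have h1 : d' - d ∈ Ideal.span {π} := (Ideal.Quotient.eq).mp hdd'
  have h2 : d' - d ∈ x := ((Ideal.span_singleton_le_iff_mem _).mpr hπx) h1
  apply hd
  have : d = d' - (d' - d) := by ring
  rw [this]
  exact x.sub_mem hd' h2

/-- The image of a prime `x ∋ π` in `Bk ⧸ (π)` is prime. -/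
theorem map_mk_isPrime [x.IsPrime] (hπx : π ∈ x) :
    (x.map (Ideal.Quotient.mk (Ideal.span {π}))).IsPrime := by
  apply Ideal.map_isPrime_of_surjective Ideal.Quotient.mk_surjective
  rw [Ideal.mk_ker]
  exact (Ideal.span_singleton_le_iff_mem _).mpr hπx

/-- The localisation of `Bk ⧸ (π)` at the image of `x` has principal maximal ideal
(generated by the class of `s`), as soon as `(π, s)` generates `x` locally at `x`. -/
theorem maximalIdeal_isPrincipal {π} {s : Bk} (hπx : π ∈ x) (hs : s ∈ x)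
    (hsm : ∀ y ∈ x, ∃ d : Bk, d ∉ x ∧ d * y ∈ Ideal.span {π, s})
    [hP : (x.map (Ideal.Quotient.mk (Ideal.span {π}))).IsPrime] :
    (maximalIdeal
      (Localization.AtPrime (x.map (Ideal.Quotient.mk (Ideal.span {π}))))).IsPrincipal := by
  set mk := Ideal.Quotient.mk (Ideal.span {π}) with hmk
  set xb : Ideal (Bk ⧸ Ideal.span {π}) := x.map mk with hxb
  set D := Localization.AtPrime xb with hD
  refine ⟨⟨algebraMap _ D (mk s), ?_⟩⟩
  rw [Ideal.submodule_span_eq]
  apply le_antisymm
  · rw [← Localization.AtPrime.map_eq_maximalIdeal, Ideal.map_le_iff_le_comap]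
    intro y hy
    obtain ⟨y₀, hy₀, rfl⟩ :=
      (Ideal.mem_map_iff_of_surjective _ Ideal.Quotient.mk_surjective).mp hy
    obtain ⟨d, hd, hdy⟩ := hsm y₀ hy₀
    obtain ⟨u, v, huv⟩ := Ideal.mem_span_pair.mp hdy
    have hπ0 : mk π = 0 :=
      Ideal.Quotient.eq_zero_iff_mem.mpr (Ideal.mem_span_singleton_self π)
    have h1 : mk d * mk y₀ = mk v * mk s := by
      rw [← map_mul, ← huv, map_add, map_mul, map_mul, hπ0, mul_zero, zero_add]
    have hunit : IsUnit (algebraMap _ D (mk d)) :=
      IsLocalization.map_units D (⟨mk d, mk_notMem_map x π hπx hd⟩ : xb.primeCompl)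
    rw [Ideal.mem_comap, ← Ideal.unit_mul_mem_iff_mem _ hunit, ← map_mul, h1, map_mul]
    exact Ideal.mul_mem_left _ _ (Ideal.mem_span_singleton_self _)
  · rw [Ideal.span_singleton_le_iff_mem, ← Localization.AtPrime.map_eq_maximalIdeal]
    exact Ideal.mem_map_of_mem _ (Ideal.mem_map_of_mem _ hs)

/-- Clearing denominators: a divisibility `ā ∣ b̄` in the localisation of `Bk ⧸ (π)` at the
image of `x` descends to `b d - a c ∈ (π)` with `d ∉ x`. -/
theorem descend_dvd [x.IsPrime] {π : Bk} (hπ : (Ideal.span {π} : Ideal Bk).IsPrime)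
    [hP : (x.map (Ideal.Quotient.mk (Ideal.span {π}))).IsPrime] (a b : Bk)
    (c : Localization.AtPrime (x.map (Ideal.Quotient.mk (Ideal.span {π}))))
    (h : algebraMap (Bk ⧸ Ideal.span {π}) _ (Ideal.Quotient.mk _ a) * c
      = algebraMap (Bk ⧸ Ideal.span {π}) _ (Ideal.Quotient.mk _ b)) :
    ∃ c' d' : Bk, d' ∉ x ∧ b * d' - a * c' ∈ Ideal.span {π} := by
  have : IsDomain (Bk ⧸ Ideal.span {π}) := Ideal.Quotient.isDomain _
  obtain ⟨c₁, d₁, rfl⟩ := IsLocalization.exists_mk'_eq
    (x.map (Ideal.Quotient.mk (Ideal.span {π}))).primeCompl c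
  obtain ⟨c', rfl⟩ := Ideal.Quotient.mk_surjective c₁
  obtain ⟨d', hd'⟩ := Ideal.Quotient.mk_surjective d₁.1
  have hinj : Function.Injective (algebraMap (Bk ⧸ Ideal.span {π})
      (Localization.AtPrime (x.map (Ideal.Quotient.mk (Ideal.span {π}))))) :=
    IsLocalization.injective _
      (Ideal.primeCompl_le_nonZeroDivisors (x.map (Ideal.Quotient.mk (Ideal.span {π}))))
  have h2 : Ideal.Quotient.mk (Ideal.span {π}) a * Ideal.Quotient.mk (Ideal.span {π}) c'
      = Ideal.Quotient.mk (Ideal.span {π}) b * Ideal.Quotient.mk (Ideal.span {π}) d' := by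
    apply hinj
    rw [map_mul, map_mul, ← h, hd', mul_assoc, IsLocalization.mk'_spec]
  refine ⟨c', d', ?_, ?_⟩
  · intro hd
    have : Ideal.Quotient.mk (Ideal.span {π}) d' ∈
        x.map (Ideal.Quotient.mk (Ideal.span {π})) := Ideal.mem_map_of_mem _ hd
    rw [hd'] at this
    exact d₁.2 this
  · rw [← Ideal.Quotient.eq_zero_iff_mem, map_sub, map_mul, map_mul, h2, sub_self]

end Quot

/-- **Lemma V (one level).**  Modulo `π`, one of `b / a`, `a / b` is of the form `c / d` with
`d ∉ x`: the reduction modulo `π` of the local ring of `Bk` at `x` is a valuation ring. -/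
theorem lemmaV {Bk : Type*} [CommRing Bk] [IsDomain Bk] [IsNoetherianRing Bk]
    (x : Ideal Bk) [x.IsMaximal] {π s : Bk} (hπx : π ∈ x) (hs : s ∈ x)
    (hsm : ∀ y ∈ x, ∃ d : Bk, d ∉ x ∧ d * y ∈ Ideal.span {π, s})
    (hπ : (Ideal.span {π} : Ideal Bk).IsPrime) (a b : Bk)
    (ha : a ∉ Ideal.span {π}) (hb : b ∉ Ideal.span {π}) :
    ∃ c d : Bk, d ∉ x ∧
      (b * d - a * c ∈ Ideal.span {π} ∨ a * d - b * c ∈ Ideal.span {π}) := by
  have _ := ha
  have _ := hb
  have : IsDomain (Bk ⧸ Ideal.span {π}) := Ideal.Quotient.isDomain _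
  have hP : (x.map (Ideal.Quotient.mk (Ideal.span {π}))).IsPrime := map_mk_isPrime x π hπx
  have : IsNoetherianRing (Localization.AtPrime (x.map (Ideal.Quotient.mk (Ideal.span {π})))) :=
    IsLocalization.isNoetherianRing (x.map (Ideal.Quotient.mk (Ideal.span {π}))).primeCompl _
      inferInstance
  obtain ⟨c, hc | hc⟩ := dvd_total_of_maximalIdeal_isPrincipal
    (maximalIdeal_isPrincipal x hπx hs hsm)
    (algebraMap (Bk ⧸ Ideal.span {π}) _ (Ideal.Quotient.mk _ a))
    (algebraMap (Bk ⧸ Ideal.span {π}) _ (Ideal.Quotient.mk _ b))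
  · obtain ⟨c', d', hd', h⟩ := descend_dvd x hπ a b c hc
    exact ⟨c', d', hd', Or.inl h⟩
  · obtain ⟨c', d', hd', h⟩ := descend_dvd x hπ b a c hc
    exact ⟨c', d', hd', Or.inr h⟩

end Fermat.Agent.ES.RED.LevelV6
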