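/-
Program I (S37), chapter ES/RED, leaf B1.2 + B1.4 (helper26): **the level systems of the two
charts `t`, `t⁻¹` of the model over `A`** (`t` the Hauptmodul `tF M hmem`), from the two-chart
models over the number fields (`ChartInst1.ModelAt` = conclusion of
`ModelExplicit26.explicitModelStep_of_targets`).

* `levelAt_of_model`, `levelAt_inv_of_model` : `LevelsInst26.LevelAt` from `TwoChartModel`;
* `hasLevels_t`, `hasLevels_t_inv` : `ModelInstGen4.HasLevels S` for a chart `S` with `S.s = t`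
  (resp. `t⁻¹`), chart ring the integral closure of `A[s]`, and coefficientwise reduction.
-/
import Mathlib
import Fermat.Agent.ES.RED.LevelsMain26
import Fermat.Agent.ES.RED.ModelInstGen4
import Fermat.Agent.ES.RED.LevelMax17
import Fermat.Agent.ES.RED.L4Inst16
import Fermat.Agent.ES.RED.ChartInst1

set_option autoImplicit false
set_option linter.unusedSectionVars false
set_option linter.style.haveILetI false

open HahnSeries ModularCurve Polynomial AlgebraicCurve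

noncomputable section

namespace Fermat.Agent.ES.RED.LevelsConcrete26

open Fermat.Agent.RED.Interface4 Fermat.Agent.RED.DESC.PlaceExtend27
  Fermat.Agent.RED.DESC Fermat.Agent.RED.PUR.ChartGeneric22 Fermat.Agent.RED.NumInst4
  Fermat.Agent.RED.DESC.NumberFieldDVR27 Fermat.Agent.RED.PUR.GaussGen8
  Fermat.Agent.RED.PUR.GaussBridge10 Fermat.Agent.RED.CORE.CoreIface24
  Fermat.Agent.RED.BASE.EtaQuot12 Fermat.Agent.RED.BASE.Interface12
open Fermat.Agent.X0.FF Fermat.Agent.ES.RED.PlaceValue13 Fermat.Agent.ES.RED.Contract8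
  Fermat.Agent.ES.RED.LevelContract22 Fermat.Agent.ES.RED.TwoCharts8
  Fermat.Agent.ES.RED.ChartUnion1 Fermat.Agent.ES.RED.LevelsInst26
  Fermat.Agent.ES.RED.LevelsMain26 Fermat.Agent.ES.RED.ModelInstGen4

variable {A : ValuationSubring Qbar} {M : ℕ} [NeZero M]

section OneLevel

variable (K : IntermediateField ℚ Qbar) {ϖ : ↥(AK A K)} (hu : IsUnif (AK A K) ϖ)

/-- saturation in the Gauss valuation ring, in series form. -/
theorem sat_series (B : Subalgebra ↥(AK A K) ↥(FK M K))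
    (hsat : ∀ b ∈ B, ∀ c ∈ OvK A K M hu,
      b = algebraMap ↥(AK A K) ↥(FK M K) ϖ * c → c ∈ B) :
    ∀ b ∈ B, ∀ Y' : LaurentSeries ↥(AK A K),
      ((b : ↥(FK M K)) : LaurentSeries K) = embK (AK A K) (HahnSeries.C ϖ * Y') →
        ∃ c ∈ B, b = algebraMap ↥(AK A K) ↥(FK M K) ϖ * c := by
  intro b hb Y' hbY
  have hπE : ((algebraMap ↥(AK A K) ↥(FK M K) ϖ : ↥(FK M K)) : LaurentSeries K) =
      HahnSeries.C ((ϖ : ↥(AK A K)) : K) := coe_algebraMap_OE (AK A K) (FK M K) ϖ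
  have hC : embK (AK A K) (HahnSeries.C ϖ) = HahnSeries.C ((ϖ : ↥(AK A K)) : K) :=
    embK_C (AK A K) ϖ
  have hπ0 : (HahnSeries.C ((ϖ : ↥(AK A K)) : K) : LaurentSeries K) ≠ 0 := by
    rw [← hC]
    intro h
    have h1 := (embK_eq_zero_iff (AK A K) _).mp h
    have h2 : ϖ = 0 := by
      have := congrArg (fun z : LaurentSeries ↥(AK A K) => z.coeff 0) h1
      simpa using this
    exact hu.ne_zero h2
  have hb' : ((b : ↥(FK M K)) : LaurentSeries K) =
      HahnSeries.C ((ϖ : ↥(AK A K)) : K) * embK (AK A K) Y' := by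
    rw [hbY, map_mul, hC]
  have hcE : embK (AK A K) Y' ∈ FK M K := by
    have h1 : embK (AK A K) Y' =
        (HahnSeries.C ((ϖ : ↥(AK A K)) : K))⁻¹ * ((b : ↥(FK M K)) : LaurentSeries K) := by
      rw [hb', ← mul_assoc, inv_mul_cancel₀ hπ0, one_mul]
    rw [h1, ← hπE]
    exact mul_mem (inv_mem (algebraMap ↥(AK A K) ↥(FK M K) ϖ).2) b.2
  have hcOv : (⟨embK (AK A K) Y', hcE⟩ : ↥(FK M K)) ∈ OvK A K M hu := by
    rw [mem_OvK_iff]
    exact embK_mem (AK A K) Y'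
  have hbc : b = algebraMap ↥(AK A K) ↥(FK M K) ϖ * ⟨embK (AK A K) Y', hcE⟩ := by
    apply Subtype.ext
    rw [MulMemClass.coe_mul, hπE]
    exact hb'
  exact ⟨_, hsat b hb _ hcOv hbc, hbc⟩

variable [IsDiscreteValuationRing ↥(AK A K)] (t : ↥(FK M K))
  (m : TwoChartModel ↥(AK A K) K ↥(FK M K) ϖ t (chart ↥(AK A K) t) (chart ↥(AK A K) t⁻¹)
    (OvK A K M hu))

include m in
/-- the level data of the chart `t` from the two-chart model. -/
theorem levelAt_of_model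
    (hT : ∃ T : LaurentSeries ↥(AK A K), embK (AK A K) T = ((t : ↥(FK M K)) : LaurentSeries K)) :
    LevelAt A M K t ϖ where
  unif := hu
  noeth := m.noeth0
  series := fun _ hb => Fermat.Agent.ES.RED.IntegralQExp1.exists_embK_of_mem_chart (AK A K)
    (FK M K) (FK_le_fracField A K M) hT hb
  sat := sat_series K hu (chart ↥(AK A K) t) m.sat0
  smooth := m.smooth0

include m in
/-- the level data of the chart `t⁻¹` from the two-chart model. -/
theorem levelAt_inv_of_model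
    (hT : ∃ T : LaurentSeries ↥(AK A K),
      embK (AK A K) T = ((t⁻¹ : ↥(FK M K)) : LaurentSeries K)) :
    LevelAt A M K t⁻¹ ϖ where
  unif := hu
  noeth := m.noeth1
  series := fun _ hb => Fermat.Agent.ES.RED.IntegralQExp1.exists_embK_of_mem_chart (AK A K)
    (FK M K) (FK_le_fracField A K M) hT hb
  sat := sat_series K hu (chart ↥(AK A K) t⁻¹) m.sat1
  smooth := m.smooth1

end OneLevel

section Main

variable {n e : ℕ} [NeZero n] {ℓ : ℕ} [Fact ℓ.Prime]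
variable {x : ↥(Fbar M)} {hx : IsGen Qbar x}
  (S : ChartSpec A hx ↥(modularFunctionFieldFullC (kA A) M))
  (hB : ∀ b : ↥(Fbar M), b ∈ chart ↥A S.s → b ∈ S.B)
  (hB' : ∀ b : ↥(Fbar M), b ∈ S.B → b ∈ chart ↥A S.s)
  (hred : ∀ (b : ↥S.B) (Y : LaurentSeries ↥A),
    coeffMap A.subtype Y = ((b : ↥(Fbar M)) : LaurentSeries Qbar) →
    ((S.red b : ↥(modularFunctionFieldFullC (kA A) M)) : LaurentSeries (kA A)) =
      coeffMap (resA A) Y)
  (hℓM : ¬ ℓ ∣ M) (hA : A.LiesOverPrime ℓ) (hmem : TMem n e M) (hgen : TGenBase n e)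
  (hmodel : Fermat.Agent.ES.RED.ChartInst1.ModelAt A n e M)

include hB hB' hred hℓM hA hgen hmodel in
/-- **Level systems at every place of the chart `t`.** -/
theorem hasLevels_t (hs : S.s = tF M hmem) : HasLevels S := by
  have hℓ : ℓ.Prime := Fact.out
  obtain ⟨K₀, hK₀, H⟩ := hmodel
  obtain ⟨K₁, hK₁, hT⟩ := Fermat.Agent.RED.BASE.TBridge15.exists_tq_mem n e M hmem
  haveI := hK₀
  haveI := hK₁
  have hdvr : ∀ K : Idx (K₀ ⊔ K₁), IsDiscreteValuationRing ↥(AK A K.1) :=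
    fun K => (H K.1 K.2.1 (le_sup_left.trans K.2.2)).1
  have hex : ∀ K : Idx (K₀ ⊔ K₁), ∃ ϖ : ↥(AK A K.1), Irreducible ϖ := fun K => by
    haveI := hdvr K
    exact IsDiscreteValuationRing.exists_irreducible _
  choose ϖ hϖ using hex
  have hu : ∀ K : Idx (K₀ ⊔ K₁), IsUnif (AK A K.1) (ϖ K) := fun K => by
    haveI := hdvr K
    exact isUnif_of_irreducible (AK A K.1) (hϖ K)
  let sK : ∀ K : Idx (K₀ ⊔ K₁), ↥(FK M K.1) :=
    fun K => ⟨tq ↥K.1 n e, hT K.1 (le_sup_right.trans K.2.2)⟩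
  have hsK : ∀ K : Idx (K₀ ⊔ K₁), baseChangeHom M K.1 (sK K) = S.s := fun K => by
    rw [hs]
    exact Fermat.Agent.RED.CUSP.RankConcrete16.baseChangeHom_eq_tF M K.1 hmem (sK K) rfl
  have hlev : ∀ K : Idx (K₀ ⊔ K₁), LevelAt A M K.1 (sK K) (ϖ K) := fun K => by
    haveI := hdvr K
    refine levelAt_of_model K.1 (hu K) (sK K)
      ((H K.1 K.2.1 (le_sup_left.trans K.2.2)).2 (ϖ K) (hϖ K) (hu K) (sK K) rfl) ?_
    exact ⟨tq ↥(AK A K.1) n e, coeffMap_tq ↥(AK A K.1) (AK A K.1).subtype n e⟩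
  have hL4 := Fermat.Agent.ES.RED.L4Inst16.chartLevels_L4 S hB hred n e ℓ hℓM hmem hgen hA
    (Or.inl hs)
  intro P hP
  exact ⟨Idx (K₀ ⊔ K₁), _, _, _, _, chartLevels S hB hB' hred (K₀ ⊔ K₁) sK hsK ϖ hlev
    (Fermat.Agent.ES.RED.LevelMax17.exists_pow_eq_self hℓ A hA) hL4 P hP⟩

include hB hB' hred hℓM hA hgen hmodel in
/-- **Level systems at every place of the chart `t⁻¹`.** -/
theorem hasLevels_t_inv (hs : S.s = (tF M hmem)⁻¹) : HasLevels S := by
  have hℓ : ℓ.Prime := Fact.out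
  obtain ⟨K₀, hK₀, H⟩ := hmodel
  obtain ⟨K₁, hK₁, hT⟩ := Fermat.Agent.RED.BASE.TBridge15.exists_tq_mem n e M hmem
  haveI := hK₀
  haveI := hK₁
  have hdvr : ∀ K : Idx (K₀ ⊔ K₁), IsDiscreteValuationRing ↥(AK A K.1) :=
    fun K => (H K.1 K.2.1 (le_sup_left.trans K.2.2)).1
  have hex : ∀ K : Idx (K₀ ⊔ K₁), ∃ ϖ : ↥(AK A K.1), Irreducible ϖ := fun K => by
    haveI := hdvr K
    exact IsDiscreteValuationRing.exists_irreducible _
  choose ϖ hϖ using hex
  have hu : ∀ K : Idx (K₀ ⊔ K₁), IsUnif (AK A K.1) (ϖ K) := fun K => by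
    haveI := hdvr K
    exact isUnif_of_irreducible (AK A K.1) (hϖ K)
  let tK : ∀ K : Idx (K₀ ⊔ K₁), ↥(FK M K.1) :=
    fun K => ⟨tq ↥K.1 n e, hT K.1 (le_sup_right.trans K.2.2)⟩
  have hsK : ∀ K : Idx (K₀ ⊔ K₁), baseChangeHom M K.1 (tK K)⁻¹ = S.s := fun K => by
    rw [hs, map_inv₀]
    congr 1
    exact Fermat.Agent.RED.CUSP.RankConcrete16.baseChangeHom_eq_tF M K.1 hmem (tK K) rfl
  have hlev : ∀ K : Idx (K₀ ⊔ K₁), LevelAt A M K.1 (tK K)⁻¹ (ϖ K) := fun K => by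
    haveI := hdvr K
    refine levelAt_inv_of_model K.1 (hu K) (tK K)
      ((H K.1 K.2.1 (le_sup_left.trans K.2.2)).2 (ϖ K) (hϖ K) (hu K) (tK K) rfl) ?_
    obtain ⟨T, hT'⟩ := Fermat.Agent.ES.RED.FracRed16.exists_tq_mul_eq_one ↥(AK A K.1) n e
    refine ⟨T, ?_⟩
    have h1 : tq ↥K.1 n e * embK (AK A K.1) T = 1 := by
      have := congrArg (embK (AK A K.1)) hT'
      rw [map_mul, map_one] at this
      rw [← this]
      congr 1
      exact (coeffMap_tq ↥(AK A K.1) (AK A K.1).subtype n e).symm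
    show embK (AK A K.1) T = (tq ↥K.1 n e)⁻¹
    exact eq_inv_of_mul_eq_one_right h1
  have hL4 := Fermat.Agent.ES.RED.L4Inst16.chartLevels_L4 S hB hred n e ℓ hℓM hmem hgen hA
    (Or.inr hs)
  intro P hP
  exact ⟨Idx (K₀ ⊔ K₁), _, _, _, _, chartLevels S hB hB' hred (K₀ ⊔ K₁) (fun K => (tK K)⁻¹) hsK ϖ
    hlev (Fermat.Agent.ES.RED.LevelMax17.exists_pow_eq_self hℓ A hA) hL4 P hP⟩

end Main

end Fermat.Agent.ES.RED.LevelsConcrete26

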