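/-
Program I (S37), chapter ES/RED — helper4 (B1 integrator).  **`HasLevels` for the two concrete
charts** `ModelInst4.S0`, `ModelInst4.S1` from helper26's generic level system
(`LevelsMain26.chartLevels`), the two-chart models over the number fields (`ChartInst1.ModelAt`)
and the per-level data `LevelsInst26.LevelAt` at `t`, `t⁻¹`:

* `LevelAtHyp n e M A` : "a two-chart model at level `K` gives `LevelAt` for `t` and for `t⁻¹`"
  (owner: helper26 `LevelsConcrete26`; deputies helper15, helper17);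
* `hasLevels_of_levelAt` : generic — `CoeffChart S`, `S.s = t ∨ S.s = t⁻¹` ⇒ `HasLevels S`;
* `hasLevels0`, `hasLevels1` : the two concrete charts;
* `modelAt` : `ChartInst1.ModelAt A n e M` from Program H's targets (`S18Exports4.targetsHyp`).
-/
import Mathlib
import Fermat.Agent.ES.RED.ModelInst4
import Fermat.Agent.ES.RED.LevelsMain26
import Fermat.Agent.ES.RED.LevelSat16
import Fermat.Agent.ES.RED.L4Inst16
import Fermat.Agent.ES.RED.LevelMax17
import Fermat.Agent.ES.RED.ChartInst1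
import Fermat.Agent.ES.RED.ModelExplicit26
import Fermat.Agent.RED.S18Exports4

set_option autoImplicit false
set_option linter.unusedSectionVars false
set_option linter.style.haveILetI false

open HahnSeries ModularCurve AlgebraicCurve
open scoped MatrixGroups

noncomputable section

namespace Fermat.Agent.ES.RED.ModelInstLevels4

open Fermat.Agent.RED.Interface4 Fermat.Agent.RED.PUR.ChartGeneric22
  Fermat.Agent.RED.BASE.Interface12 Fermat.Agent.RED.BASE.EtaQuot12
  Fermat.Agent.RED.DESC.PlaceExtend27 Fermat.Agent.RED.DESC.NumberFieldDVR27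
  Fermat.Agent.RED.PUR.GaussGen8 Fermat.Agent.RED.CORE.CoreIface24
  Fermat.Agent.ES.RED.ChartIntegralA1 Fermat.Agent.ES.RED.Contract8
  Fermat.Agent.ES.RED.TwoCharts8 Fermat.Agent.ES.RED.ModelInstGen4
  Fermat.Agent.ES.RED.ModelInst4 Fermat.Agent.ES.RED.LevelsInst26
  Fermat.Agent.ES.RED.SpecialInv25 Fermat.Agent.X0.FF

variable (n e M : ℕ) [NeZero n] [NeZero M] (ℓ : ℕ) [Fact ℓ.Prime] (hℓM : ¬ ℓ ∣ M)
  (hmem : TMem n e M) (hgen : TGenBase n e) (A : ValuationSubring Qbar) (hA : A.LiesOverPrime ℓ)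

/-- **The per-level input**: a two-chart model at the level `K` gives the level data of
`LevelsInst26.LevelAt` for the chart of `t` and for the chart of `t⁻¹`. -/
def LevelAtHyp : Prop :=
  ∀ (K : IntermediateField ℚ Qbar) (_ : FiniteDimensional ℚ K)
    (_ : IsDiscreteValuationRing ↥(AK A K)) (ϖ : ↥(AK A K)) (_ : Irreducible ϖ)
    (hu : IsUnif (AK A K) ϖ) (t : ↥(FK M K)), (t : LaurentSeries K) = tq K n e →
    TwoChartModel ↥(AK A K) K ↥(FK M K) ϖ t (chart ↥(AK A K) t) (chart ↥(AK A K) t⁻¹)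
      (Fermat.Agent.RED.PUR.GaussBridge10.OvK A K M hu) →
    LevelAt A M K t ϖ ∧ LevelAt A M K t⁻¹ ϖ

include hℓM hgen hA in
/-- **`HasLevels`, generic**: a coefficientwise chart with coordinate `t` or `t⁻¹`. -/
theorem hasLevels_of_levelAt {x : ↥(Fbar M)} {hx : IsGen Qbar x}
    (S : ChartSpec A hx ↥(modularFunctionFieldFullC (Contract8.kA A) M))
    (hS : GaloisInst21.CoeffChart (F₀ := modularFunctionFieldFull M) S)
    (hs : S.s = tF M hmem ∨ S.s = (tF M hmem)⁻¹)
    (hmodel : ChartInst1.ModelAt A n e M) (hLA : LevelAtHyp n e M A) : HasLevels S := by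
  have hℓ : ℓ.Prime := Fact.out
  obtain ⟨K₁, hK₁, H⟩ := hmodel
  obtain ⟨K₂, hK₂, hT⟩ := Fermat.Agent.RED.BASE.TBridge15.exists_tq_mem n e M hmem
  haveI := hK₁
  haveI := hK₂
  have hdvr : ∀ K : Idx (K₁ ⊔ K₂), IsDiscreteValuationRing ↥(AK A K.1) :=
    fun K => (H K.1 K.2.1 (le_sup_left.trans K.2.2)).1
  have hirr : ∀ K : Idx (K₁ ⊔ K₂), ∃ ϖ : ↥(AK A K.1), Irreducible ϖ := fun K => by
    haveI := hdvr K
    exact IsDiscreteValuationRing.exists_irreducible _
  choose ϖ hϖ using hirr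
  let tK : ∀ K : Idx (K₁ ⊔ K₂), ↥(FK M K.1) :=
    fun K => ⟨tq K.1 n e, hT K.1 (le_sup_right.trans K.2.2)⟩
  have htK : ∀ K : Idx (K₁ ⊔ K₂), baseChangeHom M K.1 (tK K) = tF M hmem := fun K =>
    Fermat.Agent.RED.CUSP.RankConcrete16.baseChangeHom_eq_tF M K.1 hmem (tK K) rfl
  have hboth : ∀ K : Idx (K₁ ⊔ K₂),
      LevelAt A M K.1 (tK K) (ϖ K) ∧ LevelAt A M K.1 (tK K)⁻¹ (ϖ K) := fun K => by
    haveI := hdvr K
    have hu : IsUnif (AK A K.1) (ϖ K) := isUnif_of_irreducible (AK A K.1) (hϖ K)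
    exact hLA K.1 K.2.1 (hdvr K) (ϖ K) (hϖ K) hu (tK K) rfl
      ((H K.1 K.2.1 (le_sup_left.trans K.2.2)).2 (ϖ K) (hϖ K) hu (tK K) rfl)
  have hk := Fermat.Agent.ES.RED.LevelMax17.exists_pow_eq_self hℓ A hA
  have hL4 := Fermat.Agent.ES.RED.L4Inst16.chartLevels_L4_of_coeffChart S hS n e ℓ hℓM hmem hgen
    hA hs
  intro P hP
  rcases hs with hs | hs
  · exact ⟨Idx (K₁ ⊔ K₂), _, _, _, _,
      Fermat.Agent.ES.RED.LevelsMain26.chartLevels S (fun b hb => (hS.mem_iff b).mpr hb)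
        (fun b hb => (hS.mem_iff b).mp hb) hS.red_eq (K₁ ⊔ K₂) tK
        (fun K => (htK K).trans hs.symm) ϖ (fun K => (hboth K).1) hk hL4 P hP⟩
  · exact ⟨Idx (K₁ ⊔ K₂), _, _, _, _,
      Fermat.Agent.ES.RED.LevelsMain26.chartLevels S (fun b hb => (hS.mem_iff b).mpr hb)
        (fun b hb => (hS.mem_iff b).mp hb) hS.red_eq (K₁ ⊔ K₂) (fun K => (tK K)⁻¹)
        (fun K => by rw [map_inv₀, htK K, hs]) ϖ (fun K => (hboth K).2) hk hL4 P hP⟩

variable (hsat0 : LevelSat A M (tF M hmem)) (hsat1 : LevelSat A M (tF M hmem)⁻¹)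

include hgen in
/-- **`HasLevels` for chart 0.** -/
theorem hasLevels0 (hmodel : ChartInst1.ModelAt A n e M) (hLA : LevelAtHyp n e M A) :
    HasLevels (S0 n e M ℓ hℓM hmem A hA hsat0) :=
  hasLevels_of_levelAt n e M ℓ hℓM hmem hgen A hA _ (coeffChart0 n e M ℓ hℓM hmem A hA hsat0)
    (Or.inl rfl) hmodel hLA

include hgen in
/-- **`HasLevels` for chart 1.** -/
theorem hasLevels1 (hmodel : ChartInst1.ModelAt A n e M) (hLA : LevelAtHyp n e M A) :
    HasLevels (S1 n e M ℓ hℓM hmem A hA hsat1) :=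
  hasLevels_of_levelAt n e M ℓ hℓM hmem hgen A hA _ (coeffChart1 n e M ℓ hℓM hmem A hA hsat1)
    (Or.inr rfl) hmodel hLA

include hℓM hmem hgen hA in
/-- **The two-chart models over the number fields**, from Program H's smoothness targets. -/
theorem modelAt (hb : Fermat.Agent.RED.BASE.Hauptmodul12.BaseHyp n e) (hnM : n ∣ M)
    (cv : SL(2, ℤ) → Option Fermat.Agent.X0.Kbar)
    (hcv : Fermat.Agent.RED.BASE.MainCusp12.CuspExports n e M cv) :
    ChartInst1.ModelAt A n e M := by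
  obtain ⟨hoff, hover, hinf⟩ :=
    Fermat.Agent.RED.S18Exports4.targetsHyp hb M hnM ℓ hℓM A hA cv hcv
  exact Fermat.Agent.ES.RED.ModelExplicit26.explicitModelStep_of_targets hℓM hA cv
    (Fermat.Agent.RED.ModelFinal4.tTarget M hmem) (Fermat.Agent.RED.ModelFinal4.jTarget hgen)
    hoff hover hinf

end Fermat.Agent.ES.RED.ModelInstLevels4
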