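/-
Program I (S37), chapter ES/RED — helper4 (B1 integrator).  **B1 CLOSED: the concrete two-chart
structure over `A ≤ ℚ̄`, with NO hypotheses left.**

For a Hauptmodul datum `(n, e)` (`BaseHyp n e`), a level `M` with `n ∣ M`, a prime `ℓ ∤ M` and a
valuation subring `A` of `ℚ̄` over `ℓ`:

* `levelAtHyp`  : the per-level data (`LevelAtInv17`, helper17 / `LevelAtModel1`, helper1);
* `hsat0/hsat1` : `LevelSat16.levelSat_t'`, `levelSat_inv'` (helper16);
* `hasLevels0/1`: `ModelInstLevels4` (helper26's `LevelsMain26.chartLevels`);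
* `twoCharts_final … : TwoCharts A (isGen_tF n e M hmem) F̃`, charts `S0f`, `S1f` with
  `S0f.s = tF M hmem` by `rfl`, `coeffChart0_final`, `coeffChart1_final`, `peelA0_final`,
  `peelA1_final`.
-/
import Mathlib
import Fermat.Agent.ES.RED.ModelInstLevels4
import Fermat.Agent.ES.RED.LevelAtInv17

set_option autoImplicit false
set_option linter.unusedSectionVars false
set_option linter.style.haveILetI false

open HahnSeries ModularCurve AlgebraicCurve
open scoped MatrixGroups

noncomputable section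

namespace Fermat.Agent.ES.RED.ModelInstFinal4

open Fermat.Agent.RED.Interface4 Fermat.Agent.RED.PUR.ChartGeneric22
  Fermat.Agent.RED.BASE.Interface12 Fermat.Agent.RED.BASE.EtaQuot12
  Fermat.Agent.ES.RED.ChartIntegralA1 Fermat.Agent.ES.RED.Contract8
  Fermat.Agent.ES.RED.TwoCharts8 Fermat.Agent.ES.RED.ModelInstGen4
  Fermat.Agent.ES.RED.ModelInst4 Fermat.Agent.ES.RED.ModelInstLevels4
  Fermat.Agent.ES.RED.SpecialInv25 Fermat.Agent.X0.FF

variable (n e M : ℕ) [NeZero n] [NeZero M] (ℓ : ℕ) [Fact ℓ.Prime] (hℓM : ¬ ℓ ∣ M)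
  (hmem : TMem n e M) (hgen : TGenBase n e) (A : ValuationSubring Qbar) (hA : A.LiesOverPrime ℓ)

/-- The per-level data at `t` and `t⁻¹` from the two-chart model at level `K`. -/
theorem levelAtHyp : LevelAtHyp n e M A := fun K _ hdvr ϖ _ hu t htq hmod => by
  haveI := hdvr
  exact ⟨Fermat.Agent.ES.RED.LevelAtInv17.levelAt_tq A M K hu t hmod htq,
    Fermat.Agent.ES.RED.LevelAtInv17.levelAt_tq_inv A M K hu t hmod htq⟩

/-- **Chart 0** (coordinate `t = tF M hmem`). -/
def S0f : ChartSpec A (isGen_tF n e M hmem) (Ft M A) :=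
  S0 n e M ℓ hℓM hmem A hA (Fermat.Agent.ES.RED.LevelSat16.levelSat_t' A n e ℓ hℓM hmem hgen hA)

/-- **Chart 1** (coordinate `t⁻¹`). -/
def S1f : ChartSpec A (isGen_tF n e M hmem) (Ft M A) :=
  S1 n e M ℓ hℓM hmem A hA (Fermat.Agent.ES.RED.LevelSat16.levelSat_inv' A n e ℓ hℓM hmem hgen hA)

@[simp] theorem S0f_s : (S0f n e M ℓ hℓM hmem hgen A hA).s = tF M hmem := rfl

@[simp] theorem S1f_s : (S1f n e M ℓ hℓM hmem hgen A hA).s = (tF M hmem)⁻¹ := rfl

/-- (R3) interface, chart 0. -/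
theorem coeffChart0_final :
    GaloisInst21.CoeffChart (F₀ := modularFunctionFieldFull M) (S0f n e M ℓ hℓM hmem hgen A hA) :=
  coeffChart0 n e M ℓ hℓM hmem A hA _

/-- (R3) interface, chart 1. -/
theorem coeffChart1_final :
    GaloisInst21.CoeffChart (F₀ := modularFunctionFieldFull M) (S1f n e M ℓ hℓM hmem hgen A hA) :=
  coeffChart1 n e M ℓ hℓM hmem A hA _

variable (hmodel : ChartInst1.ModelAt A n e M)

include hmodel in
/-- level systems at every place, chart 0. -/
theorem hasLevels0_final : HasLevels (S0f n e M ℓ hℓM hmem hgen A hA) :=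
  hasLevels0 n e M ℓ hℓM hmem hgen A hA _ hmodel (levelAtHyp n e M A)

include hmodel in
/-- level systems at every place, chart 1. -/
theorem hasLevels1_final : HasLevels (S1f n e M ℓ hℓM hmem hgen A hA) :=
  hasLevels1 n e M ℓ hℓM hmem hgen A hA _ hmodel (levelAtHyp n e M A)

/-- **The two-chart structure over `A`** (from the two-chart models over the number fields). -/
def twoCharts_of_modelAt : TwoCharts A (isGen_tF n e M hmem) (Ft M A) :=
  twoCharts n e M ℓ hℓM hmem hgen A hA _ _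
    (hasLevels0_final n e M ℓ hℓM hmem hgen A hA hmodel)
    (hasLevels1_final n e M ℓ hℓM hmem hgen A hA hmodel)

@[simp] theorem twoCharts_of_modelAt_S0 :
    (twoCharts_of_modelAt n e M ℓ hℓM hmem hgen A hA hmodel).S0 =
      S0f n e M ℓ hℓM hmem hgen A hA := rfl

@[simp] theorem twoCharts_of_modelAt_S1 :
    (twoCharts_of_modelAt n e M ℓ hℓM hmem hgen A hA hmodel).S1 =
      S1f n e M ℓ hℓM hmem hgen A hA := rfl

include hmodel in
/-- **(PEEL-a)** on chart 0. -/
theorem peelA0_of_modelAt (P : Place Qbar ↥(Fbar M))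
    (hP : (S0f n e M ℓ hℓM hmem hgen A hA).InChart P) :
    (S0f n e M ℓ hℓM hmem hgen A hA).PeelA P hP :=
  peelA0 n e M ℓ hℓM hmem hgen A hA _ (hasLevels0_final n e M ℓ hℓM hmem hgen A hA hmodel) P hP

include hmodel in
/-- **(PEEL-a)** on chart 1. -/
theorem peelA1_of_modelAt (P : Place Qbar ↥(Fbar M))
    (hP : (S1f n e M ℓ hℓM hmem hgen A hA).InChart P) :
    (S1f n e M ℓ hℓM hmem hgen A hA).PeelA P hP :=
  peelA1 n e M ℓ hℓM hmem hgen A hA
    (Fermat.Agent.ES.RED.LevelSat16.levelSat_t' A n e ℓ hℓM hmem hgen hA) _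
    (hasLevels1_final n e M ℓ hℓM hmem hgen A hA hmodel) P hP

/-! ### unconditional form: `(n, e)` with `BaseHyp`, `n ∣ M`, cusp exports -/

section Final

variable (hb : Fermat.Agent.RED.BASE.Hauptmodul12.BaseHyp n e) (hnM : n ∣ M)
  (cv : SL(2, ℤ) → Option Fermat.Agent.X0.Kbar)
  (hcv : Fermat.Agent.RED.BASE.MainCusp12.CuspExports n e M cv)

/-- **B1: the two-chart structure over `A`, unconditional.** -/
def twoCharts_final : TwoCharts A (isGen_tF n e M hmem) (Ft M A) :=
  twoCharts_of_modelAt n e M ℓ hℓM hmem hgen A hA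
    (modelAt n e M ℓ hℓM hmem hgen A hA hb hnM cv hcv)

@[simp] theorem twoCharts_final_S0 :
    (twoCharts_final n e M ℓ hℓM hmem hgen A hA hb hnM cv hcv).S0 =
      S0f n e M ℓ hℓM hmem hgen A hA := rfl

@[simp] theorem twoCharts_final_S1 :
    (twoCharts_final n e M ℓ hℓM hmem hgen A hA hb hnM cv hcv).S1 =
      S1f n e M ℓ hℓM hmem hgen A hA := rfl

include hb hnM hcv in
/-- **(PEEL-a)** on chart 0, unconditional. -/
theorem peelA0_final (P : Place Qbar ↥(Fbar M))
    (hP : (S0f n e M ℓ hℓM hmem hgen A hA).InChart P) :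
    (S0f n e M ℓ hℓM hmem hgen A hA).PeelA P hP :=
  peelA0_of_modelAt n e M ℓ hℓM hmem hgen A hA
    (modelAt n e M ℓ hℓM hmem hgen A hA hb hnM cv hcv) P hP

include hb hnM hcv in
/-- **(PEEL-a)** on chart 1, unconditional. -/
theorem peelA1_final (P : Place Qbar ↥(Fbar M))
    (hP : (S1f n e M ℓ hℓM hmem hgen A hA).InChart P) :
    (S1f n e M ℓ hℓM hmem hgen A hA).PeelA P hP :=
  peelA1_of_modelAt n e M ℓ hℓM hmem hgen A hA
    (modelAt n e M ℓ hℓM hmem hgen A hA hb hnM cv hcv) P hP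

end Final

end Fermat.Agent.ES.RED.ModelInstFinal4
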