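/-
Program I (S37), chapter ES/RED, leaf B1.3 / T1e OVERLAP (helper10): the fields `s_ne`, `s_inv`,
`red_s_mul`, `ov0` of `TwoCharts8.TwoCharts` for two charts whose rings are `chart ↥A t`,
`chart ↥A t⁻¹` (integral closures of `A[t]`, `A[t⁻¹]` in `F ≤ L((q))`) and whose reduction maps are
the coefficientwise reduction of the `A`-integral `q`-expansions.

Generic in `(L, A, F, Ft, t)`; the instance is `L = ℚ̄`, `F = Fbar M`, `Ft = fullC k M`, `t = tF M hmem`.
No descent to number fields is needed: the membership part of `ov0` is the generic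
`ChartGeneric22.exists_pow_mul_mem_chart`, and the compatibility with `red` is multiplicativity of
`coeffMap (residue A)`.

* `IsCoeffRed A F ι B red` : the reduction `red : B →+* Ft` of a subring `B ⊆ F` is "`coeffMap (residue A)`
  of the `A`-series" (`ι : Ft →+* k((q))` the `q`-expansion on the special fibre);
  `CompatEx A F ι B red` : the existential form (`RedCharts15.Compat`);
* `red_eq_mul`, `red_eq_of_coe_eq` : such reductions (on possibly different subrings) are compatible with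
  products in `F` / agree on common elements;
* `ov0_of_compat`, `red_s_mul_of_compat`, `ov1_of_compat` : subring level (`B_i` with
  `b ∈ B_i ↔ b ∈ chart ↥A t^{±1}`);
* `ChartSpec` level, literal shapes of `TwoCharts8.TwoCharts` / `ModelInstGen4.twoChartsOf`:
  `chartSpec_red_s_mul`, `chartSpec_ov0`;
* `CoeffChart` level (`GaloisInst21.CoeffChart S_i`, `F = L·F₀`, `Ft = fullC κ_A M`):
  `coeffChart_red_s_mul`, `coeffChart_ov0`;
* `twoChartsOfCharts` : the `TwoCharts` with `S_i := chartSpecOfChart …`, from the remaining data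
  (`places0`, `places1`, `tr0`).
-/
import Mathlib
import Fermat.Agent.ES.RED.TwoCharts8
import Fermat.Agent.ES.RED.Setup8
import Fermat.Agent.ES.RED.ChartSpecOfChart18
import Fermat.Agent.ES.RED.GaloisInst21

set_option autoImplicit false

noncomputable section

open HahnSeries ModularCurve AlgebraicCurve

namespace Fermat.Agent.ES.RED.Overlap10

open Fermat.Agent.RED.PUR.ChartGeneric22 Fermat.Agent.X0.FF Fermat.Agent.ES.RED.ChartFacts9
  Fermat.Agent.ES.RED.ChartSpecOfChart18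

/-! ### coefficientwise reductions -/

section Generic

variable {L : Type*} [Field L] (A : ValuationSubring L)
variable (F : IntermediateField L (LaurentSeries L))
variable {Ft : Type*} [Field Ft] (ι : Ft →+* LaurentSeries (IsLocalRing.ResidueField ↥A))

/-- `red : B →+* Ft` is the coefficientwise reduction: whenever `Y ∈ A((q))` is the `q`-expansion of
`b ∈ B`, the `q`-expansion of `red b` is `Y mod 𝔪_A`. -/
def IsCoeffRed (B : Subring ↥F) (red : ↥B →+* Ft) : Prop :=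
  ∀ (b : ↥B) (Y : LaurentSeries ↥A),
    coeffMap A.subtype Y = (((b : ↥B) : ↥F) : LaurentSeries L) →
      ι (red b) = coeffMap (IsLocalRing.residue ↥A) Y

/-- every element of `B` has an `A`-integral `q`-expansion whose reduction is the `q`-expansion of
`red b` (the shape of `RedCharts15.Compat`). -/
def CompatEx (B : Subring ↥F) (red : ↥B →+* Ft) : Prop :=
  ∀ b : ↥B, ∃ Y : LaurentSeries ↥A,
    coeffMap A.subtype Y = (((b : ↥B) : ↥F) : LaurentSeries L) ∧
      ι (red b) = coeffMap (IsLocalRing.residue ↥A) Y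

variable {A F ι}

theorem CompatEx.isCoeffRed {B : Subring ↥F} {red : ↥B →+* Ft} (h : CompatEx A F ι B red) :
    IsCoeffRed A F ι B red := by
  intro b Y hY
  obtain ⟨Y', hY', hred⟩ := h b
  rw [hred, Setup8.coeffMap_subtype_injective A (hY.trans hY'.symm)]

theorem CompatEx.mem_gaussA {B : Subring ↥F} {red : ↥B →+* Ft} (h : CompatEx A F ι B red)
    (b : ↥F) (hb : b ∈ B) : b ∈ Setup8.gaussA A F := by
  obtain ⟨Y, hY, -⟩ := h ⟨b, hb⟩
  exact ⟨Y, hY⟩

theorem compatEx_of_isCoeffRed {B : Subring ↥F} {red : ↥B →+* Ft} (h : IsCoeffRed A F ι B red)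
    (hint : ∀ b ∈ B, b ∈ Setup8.gaussA A F) : CompatEx A F ι B red := by
  intro b
  obtain ⟨Y, hY⟩ := hint b b.2
  exact ⟨Y, hY, h b Y hY⟩

/-- coefficientwise reductions on (possibly different) subrings are compatible with products. -/
theorem red_eq_mul (hι : Function.Injective ι) {B0 B1 B2 : Subring ↥F}
    {red0 : ↥B0 →+* Ft} {red1 : ↥B1 →+* Ft} {red2 : ↥B2 →+* Ft}
    (h0 : IsCoeffRed A F ι B0 red0) (h1 : IsCoeffRed A F ι B1 red1)
    (h2 : IsCoeffRed A F ι B2 red2) {a : ↥B0} {b : ↥B1} {c : ↥B2}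
    (hb : (b : ↥F) ∈ Setup8.gaussA A F) (hc : (c : ↥F) ∈ Setup8.gaussA A F)
    (h : (a : ↥F) = (b : ↥F) * (c : ↥F)) : red0 a = red1 b * red2 c := by
  obtain ⟨Yb, hYb⟩ := hb
  obtain ⟨Yc, hYc⟩ := hc
  apply hι
  rw [map_mul, h1 b Yb hYb, h2 c Yc hYc, ← map_mul]
  apply h0 a (Yb * Yc)
  rw [map_mul, hYb, hYc, h]
  rfl

/-- coefficientwise reductions on different subrings agree on common elements. -/
theorem red_eq_of_coe_eq (hι : Function.Injective ι) {B0 B1 : Subring ↥F}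
    {red0 : ↥B0 →+* Ft} {red1 : ↥B1 →+* Ft}
    (h0 : IsCoeffRed A F ι B0 red0) (h1 : IsCoeffRed A F ι B1 red1) {a : ↥B0} {b : ↥B1}
    (hb : (b : ↥F) ∈ Setup8.gaussA A F) (h : (a : ↥F) = (b : ↥F)) : red0 a = red1 b := by
  obtain ⟨Yb, hYb⟩ := hb
  apply hι
  rw [h1 b Yb hYb]
  apply h0 a Yb
  rw [hYb, h]

/-! ### subring level -/

section SubringLevel

variable {B0 B1 : Subring ↥F} {t t1 : ↥F}
  {red0 : ↥B0 →+* Ft} {red1 : ↥B1 →+* Ft}

/-- **`ov0`**: `B₁ ⊆ B₀[1/t]`, compatibly with the reductions. -/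
theorem ov0_of_compat (hι : Function.Injective ι)
    (hB0 : ∀ b : ↥F, b ∈ B0 ↔ b ∈ chart ↥A t) (hB1 : ∀ b : ↥F, b ∈ B1 ↔ b ∈ chart ↥A t1)
    (ht : t ≠ 0) (ht1 : t1 = t⁻¹)
    (hc0 : CompatEx A F ι B0 red0) (hc1 : CompatEx A F ι B1 red1) (b : ↥B1) :
    ∃ (n : ℕ) (b0 : ↥B0), (b0 : ↥F) = t ^ n * (b : ↥F) ∧
      red0 b0 = red0 ⟨t, (hB0 t).mpr (self_mem_chart t)⟩ ^ n * red1 b := by
  have hb : (b : ↥F) ∈ chart ↥A t⁻¹ := by rw [← ht1]; exact (hB1 _).mp b.2
  obtain ⟨n, hn⟩ := exists_pow_mul_mem_chart (R := ↥A) ht hb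
  refine ⟨n, ⟨t ^ n * (b : ↥F), (hB0 _).mpr hn⟩, rfl, ?_⟩
  rw [← map_pow]
  exact red_eq_mul hι hc0.isCoeffRed hc0.isCoeffRed hc1.isCoeffRed
    (hc0.mem_gaussA _ (SetLike.coe_mem _)) (hc1.mem_gaussA _ b.2) rfl

/-- **`red_s_mul`**: `red₀ t * red₁ t⁻¹ = 1`. -/
theorem red_s_mul_of_compat (hι : Function.Injective ι)
    (hB0 : ∀ b : ↥F, b ∈ B0 ↔ b ∈ chart ↥A t) (hB1 : ∀ b : ↥F, b ∈ B1 ↔ b ∈ chart ↥A t1)
    (ht : t ≠ 0) (ht1 : t1 = t⁻¹)
    (hc0 : CompatEx A F ι B0 red0) (hc1 : CompatEx A F ι B1 red1) :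
    red0 ⟨t, (hB0 t).mpr (self_mem_chart t)⟩ * red1 ⟨t1, (hB1 t1).mpr (self_mem_chart t1)⟩ = 1 := by
  have h := red_eq_mul hι hc0.isCoeffRed hc0.isCoeffRed hc1.isCoeffRed (a := 1)
    (b := ⟨t, (hB0 t).mpr (self_mem_chart t)⟩) (c := ⟨t1, (hB1 t1).mpr (self_mem_chart t1)⟩)
    (hc0.mem_gaussA _ ((hB0 t).mpr (self_mem_chart t)))
    (hc1.mem_gaussA _ ((hB1 t1).mpr (self_mem_chart t1)))
    (by
      show ((1 : ↥B0) : ↥F) = t * t1
      rw [ht1, mul_inv_cancel₀ ht]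
      rfl)
  rw [← h, map_one]

/-- the symmetric overlap condition: `B₀ ⊆ B₁[t]`, compatibly with the reductions. -/
theorem ov1_of_compat (hι : Function.Injective ι)
    (hB0 : ∀ b : ↥F, b ∈ B0 ↔ b ∈ chart ↥A t) (hB1 : ∀ b : ↥F, b ∈ B1 ↔ b ∈ chart ↥A t1)
    (ht : t ≠ 0) (ht1 : t1 = t⁻¹)
    (hc0 : CompatEx A F ι B0 red0) (hc1 : CompatEx A F ι B1 red1) (b : ↥B0) :
    ∃ (n : ℕ) (b1 : ↥B1), (b1 : ↥F) = t1 ^ n * (b : ↥F) ∧
      red1 b1 = red1 ⟨t1, (hB1 t1).mpr (self_mem_chart t1)⟩ ^ n * red0 b := by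
  have ht1' : t1 ≠ 0 := by rw [ht1]; exact inv_ne_zero ht
  have hb : (b : ↥F) ∈ chart ↥A t1⁻¹ := by rw [ht1, inv_inv]; exact (hB0 _).mp b.2
  obtain ⟨n, hn⟩ := exists_pow_mul_mem_chart (R := ↥A) ht1' hb
  refine ⟨n, ⟨t1 ^ n * (b : ↥F), (hB1 _).mpr hn⟩, rfl, ?_⟩
  rw [← map_pow]
  exact red_eq_mul hι hc1.isCoeffRed hc1.isCoeffRed hc0.isCoeffRed
    (hc1.mem_gaussA _ (SetLike.coe_mem _)) (hc0.mem_gaussA _ b.2) rfl

end SubringLevel

end Generic

/-! ### `ChartSpec` level -/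

section ChartSpecLevel

open Fermat.Agent.ES.RED.Contract8 Fermat.Agent.ES.RED.TwoCharts8

variable {L : Type*} [Field L] [IsAlgClosed L] {A : ValuationSubring L}
variable {F : IntermediateField L (LaurentSeries L)} {x : ↥F} {hx : IsGen L x}
variable {Ft : Type*} [Field Ft] [Algebra (kA A) Ft]
variable {ι : Ft →+* LaurentSeries (IsLocalRing.ResidueField ↥A)}

/-- **`red_s_mul`** for two charts of `Contract8` with chart rings `chart ↥A s^{±1}` and
coefficientwise reductions. -/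
theorem chartSpec_red_s_mul (hι : Function.Injective ι) (S0 S1 : ChartSpec A hx Ft)
    (hB0 : ∀ b : ↥F, b ∈ S0.B ↔ b ∈ chart ↥A S0.s)
    (hB1 : ∀ b : ↥F, b ∈ S1.B ↔ b ∈ chart ↥A S1.s)
    (hc0 : CompatEx A F ι S0.B S0.red) (hc1 : CompatEx A F ι S1.B S1.red)
    (s_ne : S0.s ≠ 0) (s_inv : S1.s = S0.s⁻¹) :
    S0.red S0.sB * S1.red S1.sB = 1 :=
  red_s_mul_of_compat hι hB0 hB1 s_ne s_inv hc0 hc1

/-- **`ov0`** for two charts of `Contract8` with chart rings `chart ↥A s^{±1}` and coefficientwise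
reductions (literal shape of `TwoCharts8.TwoCharts.ov0`). -/
theorem chartSpec_ov0 (hι : Function.Injective ι) (S0 S1 : ChartSpec A hx Ft)
    (hB0 : ∀ b : ↥F, b ∈ S0.B ↔ b ∈ chart ↥A S0.s)
    (hB1 : ∀ b : ↥F, b ∈ S1.B ↔ b ∈ chart ↥A S1.s)
    (hc0 : CompatEx A F ι S0.B S0.red) (hc1 : CompatEx A F ι S1.B S1.red)
    (s_ne : S0.s ≠ 0) (s_inv : S1.s = S0.s⁻¹) :
    ∀ b : ↥S1.B, ∃ (n : ℕ) (b0 : ↥S0.B),
      (b0 : ↥F) = S0.s ^ n * (b : ↥F) ∧ S0.red b0 = S0.red S0.sB ^ n * S1.red b :=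
  ov0_of_compat hι hB0 hB1 s_ne s_inv hc0 hc1

/-- the symmetric overlap condition. -/
theorem chartSpec_ov1 (hι : Function.Injective ι) (S0 S1 : ChartSpec A hx Ft)
    (hB0 : ∀ b : ↥F, b ∈ S0.B ↔ b ∈ chart ↥A S0.s)
    (hB1 : ∀ b : ↥F, b ∈ S1.B ↔ b ∈ chart ↥A S1.s)
    (hc0 : CompatEx A F ι S0.B S0.red) (hc1 : CompatEx A F ι S1.B S1.red)
    (s_ne : S0.s ≠ 0) (s_inv : S1.s = S0.s⁻¹) :
    ∀ b : ↥S0.B, ∃ (n : ℕ) (b1 : ↥S1.B),
      (b1 : ↥F) = S1.s ^ n * (b : ↥F) ∧ S1.red b1 = S1.red S1.sB ^ n * S0.red b :=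
  ov1_of_compat hι hB0 hB1 s_ne s_inv hc0 hc1

end ChartSpecLevel

/-! ### `CoeffChart` level -/

section CoeffChartLevel

open Fermat.Agent.ES.RED.Contract8 Fermat.Agent.ES.RED.TwoCharts8 Fermat.Agent.ES.RED.GaloisInst21

variable {L : Type*} [Field L] [Algebra ℚ L] [IsAlgClosed L] {A : ValuationSubring L}
  {F₀ : IntermediateField ℚ (LaurentSeries ℚ)} {x : ↥(laurentBaseChange L F₀)} {hx : IsGen L x}
  {M : ℕ}

-- typeclass search for `Algebra (kA A) ↥(modularFunctionFieldFullC (kA A) M)` is very slow at the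
-- residue field `kA A`; try the instance which is eventually found first.
attribute [local instance 100000] SubalgebraClass.toAlgebra

/-- a `CoeffChart` is compatible with `q`-expansions in the existential form. -/
theorem CoeffChart.compatEx {S : ChartSpec A hx ↥(modularFunctionFieldFullC (kA A) M)}
    (hS : CoeffChart (F₀ := F₀) S) :
    CompatEx A (laurentBaseChange L F₀)
      ((modularFunctionFieldFullC (kA A) M).val :
        ↥(modularFunctionFieldFullC (kA A) M) →+* LaurentSeries (kA A)) S.B S.red := by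
  intro b
  obtain ⟨Y, hY⟩ := hS.exists_series b
  exact ⟨Y, hY, hS.red_eq b Y hY⟩

variable (S0 S1 : ChartSpec A hx ↥(modularFunctionFieldFullC (kA A) M))
  (h0 : CoeffChart (F₀ := F₀) S0) (h1 : CoeffChart (F₀ := F₀) S1)
  (s_ne : S0.s ≠ 0) (s_inv : S1.s = S0.s⁻¹)

include h0 h1 s_ne s_inv

/-- **`red_s_mul`** for two coefficientwise charts with inverse coordinates. -/
theorem coeffChart_red_s_mul : S0.red S0.sB * S1.red S1.sB = 1 :=
  chartSpec_red_s_mul (ι := ((modularFunctionFieldFullC (kA A) M).val :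
        ↥(modularFunctionFieldFullC (kA A) M) →+* LaurentSeries (kA A)))
    Subtype.val_injective S0 S1 h0.mem_iff h1.mem_iff (CoeffChart.compatEx h0)
    (CoeffChart.compatEx h1) s_ne s_inv

/-- **`ov0`** for two coefficientwise charts with inverse coordinates (literal shape of
`TwoCharts8.TwoCharts.ov0` / `ModelInstGen4.twoChartsOf`). -/
theorem coeffChart_ov0 : ∀ b : ↥S1.B, ∃ (n : ℕ) (b0 : ↥S0.B),
    (b0 : ↥(laurentBaseChange L F₀)) = S0.s ^ n * (b : ↥(laurentBaseChange L F₀)) ∧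
      S0.red b0 = S0.red S0.sB ^ n * S1.red b :=
  chartSpec_ov0 (ι := ((modularFunctionFieldFullC (kA A) M).val :
        ↥(modularFunctionFieldFullC (kA A) M) →+* LaurentSeries (kA A)))
    Subtype.val_injective S0 S1 h0.mem_iff h1.mem_iff (CoeffChart.compatEx h0)
    (CoeffChart.compatEx h1) s_ne s_inv

/-- the symmetric overlap condition for two coefficientwise charts. -/
theorem coeffChart_ov1 : ∀ b : ↥S0.B, ∃ (n : ℕ) (b1 : ↥S1.B),
    (b1 : ↥(laurentBaseChange L F₀)) = S1.s ^ n * (b : ↥(laurentBaseChange L F₀)) ∧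
      S1.red b1 = S1.red S1.sB ^ n * S0.red b :=
  chartSpec_ov1 (ι := ((modularFunctionFieldFullC (kA A) M).val :
        ↥(modularFunctionFieldFullC (kA A) M) →+* LaurentSeries (kA A)))
    Subtype.val_injective S0 S1 h0.mem_iff h1.mem_iff (CoeffChart.compatEx h0)
    (CoeffChart.compatEx h1) s_ne s_inv

end CoeffChartLevel

/-! ### the two-chart datum of `chartSpecOfChart` -/

section TwoChartsOf

open Fermat.Agent.ES.RED.Contract8 Fermat.Agent.ES.RED.TwoCharts8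

variable {L : Type*} [Field L] [IsAlgClosed L] (A : ValuationSubring L)
variable (F : IntermediateField L (LaurentSeries L)) {x : ↥F} (hx : IsGen L x)
variable {Ft : Type*} [Field Ft] [Algebra (kA A) Ft]
variable (ι : Ft →+* LaurentSeries (IsLocalRing.ResidueField ↥A)) (hι : Function.Injective ι)

/-- **The `TwoCharts` datum of the charts `chart ↥A t`, `chart ↥A t⁻¹`** with coefficientwise
reductions: `s_ne`, `s_inv`, `red_s_mul`, `ov0` are proved here; `places0`, `places1`, `tr0` are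
inputs. -/
def twoChartsOfCharts (t : ↥F) (ht : IsGen L t)
    (red0 : ↥(chart ↥A t).toSubring →+* Ft) (red1 : ↥(chart ↥A t⁻¹).toSubring →+* Ft)
    (rc0 : ∀ a : ↥A, red0 ⟨algebraMap L ↥F (a : L), const_mem_chart A t a⟩ =
      algebraMap (kA A) Ft (resA A a))
    (rc1 : ∀ a : ↥A, red1 ⟨algebraMap L ↥F (a : L), const_mem_chart A t⁻¹ a⟩ =
      algebraMap (kA A) Ft (resA A a))
    (sat0 : ∀ b : ↥(chart ↥A t).toSubring, b ≠ 0 →
      ∃ (c : ↥A) (b' : ↥(chart ↥A t).toSubring),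
        (b : ↥F) = algebraMap L ↥F (c : L) * (b' : ↥F) ∧ red0 b' ≠ 0)
    (sat1 : ∀ b : ↥(chart ↥A t⁻¹).toSubring, b ≠ 0 →
      ∃ (c : ↥A) (b' : ↥(chart ↥A t⁻¹).toSubring),
        (b : ↥F) = algebraMap L ↥F (c : L) * (b' : ↥F) ∧ red1 b' ≠ 0)
    (hc0 : CompatEx A F ι _ red0) (hc1 : CompatEx A F ι _ red1)
    (places0 : HasPlaces (chartSpecOfChart A hx t ht red0 rc0 sat0))
    (places1 : HasPlaces (chartSpecOfChart A hx t⁻¹ ht.inv red1 rc1 sat1))
    (tr0 : Transcendental (kA A) (red0 ⟨t, self_mem_chart t⟩)) :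
    TwoCharts A hx Ft where
  S0 := chartSpecOfChart A hx t ht red0 rc0 sat0
  S1 := chartSpecOfChart A hx t⁻¹ ht.inv red1 rc1 sat1
  s_ne := ht.ne_zero
  s_inv := rfl
  red_s_mul := red_s_mul_of_compat hι (fun _ => Iff.rfl) (fun _ => Iff.rfl) ht.ne_zero rfl hc0 hc1
  ov0 := ov0_of_compat hι (fun _ => Iff.rfl) (fun _ => Iff.rfl) ht.ne_zero rfl hc0 hc1
  places0 := places0
  places1 := places1
  tr0 := tr0

@[simp] theorem twoChartsOfCharts_S0 (t : ↥F) (ht : IsGen L t) (red0 red1 rc0 rc1 sat0 sat1 hc0 hc1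
    places0 places1 tr0) :
    (twoChartsOfCharts A F hx ι hι t ht red0 red1 rc0 rc1 sat0 sat1 hc0 hc1 places0
      places1 tr0).S0 = chartSpecOfChart A hx t ht red0 rc0 sat0 := rfl

@[simp] theorem twoChartsOfCharts_S1 (t : ↥F) (ht : IsGen L t) (red0 red1 rc0 rc1 sat0 sat1 hc0 hc1
    places0 places1 tr0) :
    (twoChartsOfCharts A F hx ι hι t ht red0 red1 rc0 rc1 sat0 sat1 hc0 hc1 places0
      places1 tr0).S1 = chartSpecOfChart A hx t⁻¹ ht.inv red1 rc1 sat1 := rfl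

end TwoChartsOf

end Fermat.Agent.ES.RED.Overlap10
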