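/-
Program I (S37), chapter ES/RED, leaf T1e OVERLAP, part 2 (helper23): the overlap fields
`red_s_mul`, `ov0` of `TwoCharts8.TwoCharts` for ARBITRARY charts `S0`, `S1 : ChartSpec A hx Ft`
with `S1.s = S0.s⁻¹`, stated

* `Abstract` : against one ring homomorphism `ρ : G →+* Ω` restricting to both reductions, and
  `S_i.B = chart A S_i.s`;
* `Coeff` : against helper21's interface `GaloisInst21.CoeffChart S_i` (coefficientwise charts:
  `mem_iff`, `exists_series`, `red_eq`), in the literal shapes of the `TwoCharts` fields.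
-/
import Mathlib
import Fermat.Agent.ES.RED.Overlap23
import Fermat.Agent.ES.RED.GaloisInst21

set_option autoImplicit false
set_option linter.unusedSectionVars false
set_option linter.unusedVariables false

open AlgebraicCurve HahnSeries ModularCurve

noncomputable section

namespace Fermat.Agent.ES.RED.OverlapCoeff23

open Fermat.Agent.RED.PUR.ChartGeneric22 Fermat.Agent.X0.FF Fermat.Agent.ES.RED.Contract8
  Fermat.Agent.ES.RED.TwoCharts8 Fermat.Agent.ES.RED.GaloisInst21

/-! ### abstract -/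

section Abstract

variable {L : Type*} [Field L] [IsAlgClosed L] {A : ValuationSubring L}
variable {F : Type*} [Field F] [Algebra L F] {x : F} {hx : IsGen L x}
variable {Ft : Type*} [Field Ft] [Algebra (kA A) Ft] {Ω : Type*} [CommRing Ω]
variable (S0 S1 : ChartSpec A hx Ft) (hne : S0.s ≠ 0) (hinv : S1.s = S0.s⁻¹)
  (G : Subring F) (ρ : ↥G →+* Ω) (j : Ft →+* Ω) (hj : Function.Injective j)
  (h0 : ∀ b ∈ S0.B, b ∈ G) (h1 : ∀ b ∈ S1.B, b ∈ G)
  (hred0 : ∀ b : ↥S0.B, j (S0.red b) = ρ ⟨(b : F), h0 b b.2⟩)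
  (hred1 : ∀ b : ↥S1.B, j (S1.red b) = ρ ⟨(b : F), h1 b b.2⟩)

include hne hinv hj hred0 hred1 in
/-- **`red_s_mul`** for two charts whose reductions come from one ring homomorphism. -/
theorem red_s_mul_of_common : S0.red S0.sB * S1.red S1.sB = 1 := by
  apply hj
  rw [map_mul, map_one, hred0, hred1, ← map_mul]
  have : (⟨((S0.sB : ↥S0.B) : F), h0 _ S0.sB.2⟩ * ⟨((S1.sB : ↥S1.B) : F), h1 _ S1.sB.2⟩ : ↥G)
      = 1 := by
    apply Subtype.ext
    show S0.s * S1.s = 1
    rw [hinv, mul_inv_cancel₀ hne]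
  rw [this, map_one]

include hne hinv hj hred0 hred1 in
/-- **`ov0`** for two charts `S_i.B = chart A S_i.s` whose reductions come from one ring
homomorphism. -/
theorem ov0_of_common (hB0 : ∀ b : F, b ∈ chart ↥A S0.s → b ∈ S0.B)
    (hB1 : ∀ b : F, b ∈ S1.B → b ∈ chart ↥A S1.s) (b : ↥S1.B) :
    ∃ (n : ℕ) (b0 : ↥S0.B),
      (b0 : F) = S0.s ^ n * (b : F) ∧ S0.red b0 = S0.red S0.sB ^ n * S1.red b := by
  have hb : (b : F) ∈ chart ↥A S0.s⁻¹ := by
    rw [← hinv]
    exact hB1 _ b.2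
  obtain ⟨n, hn⟩ := exists_pow_mul_mem_chart (R := ↥A) hne hb
  refine ⟨n, ⟨S0.s ^ n * (b : F), hB0 _ hn⟩, rfl, ?_⟩
  apply hj
  rw [map_mul, map_pow, hred0, hred0, hred1, ← map_pow, ← map_mul]
  rfl

end Abstract

/-! ### coefficientwise charts -/

section Coeff

variable {L : Type*} [Field L] [Algebra ℚ L] [IsAlgClosed L] {A : ValuationSubring L}
  {F₀ : IntermediateField ℚ (LaurentSeries ℚ)} {x : ↥(laurentBaseChange L F₀)} {hx : IsGen L x}
  {M : ℕ} [NeZero M]
variable (S0 S1 : ChartSpec A hx ↥(modularFunctionFieldFullC (kA A) M))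
  (hc0 : CoeffChart (F₀ := F₀) S0) (hc1 : CoeffChart (F₀ := F₀) S1)
  (hne : S0.s ≠ 0) (hinv : S1.s = S0.s⁻¹)

theorem val_injective : Function.Injective
    ((IntermediateField.val (modularFunctionFieldFullC (kA A) M)).toRingHom :
      ↥(modularFunctionFieldFullC (kA A) M) →+* LaurentSeries (kA A)) :=
  fun _ _ h => Subtype.ext h

include hc0 in
theorem mem_gaussA_of_coeffChart (S : ChartSpec A hx ↥(modularFunctionFieldFullC (kA A) M))
    (hc : CoeffChart (F₀ := F₀) S) (b : ↥(laurentBaseChange L F₀)) (hb : b ∈ S.B) :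
    b ∈ Setup8.gaussA A (laurentBaseChange L F₀) :=
  hc.exists_series ⟨b, hb⟩

theorem val_red_eq_redA (S : ChartSpec A hx ↥(modularFunctionFieldFullC (kA A) M))
    (hc : CoeffChart (F₀ := F₀) S) (b : ↥S.B) :
    (IntermediateField.val (modularFunctionFieldFullC (kA A) M)).toRingHom (S.red b) =
      Setup8.redA A (laurentBaseChange L F₀)
        ⟨(b : ↥(laurentBaseChange L F₀)), hc.exists_series ⟨b, b.2⟩⟩ := by
  obtain ⟨Y, hY⟩ := hc.exists_series b
  rw [Setup8.redA_eq A (laurentBaseChange L F₀) _ hY]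
  exact hc.red_eq b Y hY

include hc0 hc1 hne hinv in
/-- **field `red_s_mul`** of `TwoCharts` for coefficientwise charts. -/
theorem red_s_mul : S0.red S0.sB * S1.red S1.sB = 1 :=
  red_s_mul_of_common S0 S1 hne hinv (Setup8.gaussA A (laurentBaseChange L F₀))
    (Setup8.redA A (laurentBaseChange L F₀))
    (IntermediateField.val (modularFunctionFieldFullC (kA A) M)).toRingHom val_injective
    (fun b hb => hc0.exists_series ⟨b, hb⟩) (fun b hb => hc1.exists_series ⟨b, hb⟩)
    (val_red_eq_redA S0 hc0) (val_red_eq_redA S1 hc1)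

include hc0 hc1 hne hinv in
/-- **field `ov0`** of `TwoCharts` for coefficientwise charts. -/
theorem ov0 (b : ↥S1.B) :
    ∃ (n : ℕ) (b0 : ↥S0.B),
      (b0 : ↥(laurentBaseChange L F₀)) = S0.s ^ n * (b : ↥(laurentBaseChange L F₀)) ∧
        S0.red b0 = S0.red S0.sB ^ n * S1.red b :=
  ov0_of_common S0 S1 hne hinv (Setup8.gaussA A (laurentBaseChange L F₀))
    (Setup8.redA A (laurentBaseChange L F₀))
    (IntermediateField.val (modularFunctionFieldFullC (kA A) M)).toRingHom val_injective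
    (fun b hb => hc0.exists_series ⟨b, hb⟩) (fun b hb => hc1.exists_series ⟨b, hb⟩)
    (val_red_eq_redA S0 hc0) (val_red_eq_redA S1 hc1)
    (fun b hb => (hc0.mem_iff b).mpr hb) (fun b hb => (hc1.mem_iff b).mp hb) b

end Coeff

end Fermat.Agent.ES.RED.OverlapCoeff23
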