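/-
Program I (S37), chapter ES/RED — helper22: **(PERSIST)**, the abstract form of
"`s̃` stays a uniformiser at every level `K' ⊇ K_Q`" (I_RED_DESIGN8 §2 (PEEL), leaf RED-U).

`C'` a local ring with `𝔪_{C'} = (π', s')` (level `K'`, `s'` from smoothness at level `K'`),
`ρ : C' →+* D` a local ring homomorphism to a discrete valuation ring `D` (`D = O_Q`, the valuation
ring of the place `Q` of the special fibre over `k`; `ρ` = reduction) with `ρ π' = 0`.  If `s ∈ 𝔪_{C'}`
(`s` from the lower level `K_Q`) has `ord_D (ρ s) = 1`, then `𝔪_{C'} = (π', s)` as well.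
-/
import Mathlib

set_option autoImplicit false

open IsLocalRing

namespace Fermat.Agent.ES.RED.PeelPersist22

variable {C D : Type*} [CommRing C] [IsLocalRing C] [CommRing D] [IsDomain D]
  [IsDiscreteValuationRing D]

/-- **(PERSIST)**: a second generator of order one may replace the first. -/
theorem maximalIdeal_eq_span_pair {π s' s : C} (hm : maximalIdeal C = Ideal.span {π, s'})
    (ρ : C →+* D) (hloc : ∀ x ∈ maximalIdeal C, ρ x ∈ maximalIdeal D) (hπ : ρ π = 0)
    (hs : s ∈ maximalIdeal C) (hord : IsDiscreteValuationRing.addVal D (ρ s) = 1) :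
    maximalIdeal C = Ideal.span {π, s} := by
  have hs' := hs
  rw [hm, Ideal.mem_span_pair] at hs'
  obtain ⟨a, b, hab⟩ := hs'
  -- `ρ s = ρ b * ρ s'`
  have h1 : ρ s = ρ b * ρ s' := by
    rw [← hab, map_add, map_mul, map_mul, hπ, mul_zero, zero_add]
  -- `ord (ρ s') ≥ 1`
  have hs'm : s' ∈ maximalIdeal C := by
    rw [hm]; exact Ideal.subset_span (by simp)
  have h2 : (1 : ℕ∞) ≤ IsDiscreteValuationRing.addVal D (ρ s') := by
    have hmem := hloc s' hs'm
    obtain ⟨ϖ, hϖ⟩ := IsDiscreteValuationRing.exists_irreducible D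
    rw [hϖ.maximalIdeal_eq, Ideal.mem_span_singleton] at hmem
    rw [← IsDiscreteValuationRing.addVal_uniformizer hϖ]
    exact IsDiscreteValuationRing.addVal_le_iff_dvd.2 hmem
  -- hence `ord (ρ b) = 0`, `b` is a unit
  have h3 : IsDiscreteValuationRing.addVal D (ρ b) = 0 := by
    have h4 : IsDiscreteValuationRing.addVal D (ρ b) + IsDiscreteValuationRing.addVal D (ρ s') = 1 := by
      rw [← IsDiscreteValuationRing.addVal_mul, ← h1, hord]
    by_contra hne
    have h5 : (1 : ℕ∞) ≤ IsDiscreteValuationRing.addVal D (ρ b) := Order.one_le_iff_pos.2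
      (pos_iff_ne_zero.2 hne)
    have h6 : (1 : ℕ∞) + 1 ≤ 1 := by
      calc (1 : ℕ∞) + 1 ≤ IsDiscreteValuationRing.addVal D (ρ b) +
            IsDiscreteValuationRing.addVal D (ρ s') := add_le_add h5 h2
        _ = 1 := h4
    exact absurd h6 (by norm_num)
  have hb : IsUnit b := by
    by_contra hnu
    have hbm : b ∈ maximalIdeal C := (mem_maximalIdeal _).2 hnu
    have hmem := hloc b hbm
    obtain ⟨ϖ, hϖ⟩ := IsDiscreteValuationRing.exists_irreducible D
    rw [hϖ.maximalIdeal_eq, Ideal.mem_span_singleton] at hmem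
    have : (1 : ℕ∞) ≤ IsDiscreteValuationRing.addVal D (ρ b) := by
      rw [← IsDiscreteValuationRing.addVal_uniformizer hϖ]
      exact IsDiscreteValuationRing.addVal_le_iff_dvd.2 hmem
    rw [h3] at this
    exact absurd this (by norm_num)
  -- `s' ∈ (π, s)`
  apply le_antisymm
  · rw [hm, Ideal.span_le]
    rintro y (rfl | rfl)
    · exact Ideal.subset_span (by simp)
    · obtain ⟨b', hb'⟩ := hb.exists_left_inv
      have : y = b' * s - b' * a * π := by
        rw [← hab]
        calc y = (b' * b) * y := by rw [hb', one_mul]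
          _ = _ := by ring
      rw [this]
      exact Ideal.sub_mem _ (Ideal.mul_mem_left _ _ (Ideal.subset_span (by simp)))
        (Ideal.mul_mem_left _ _ (Ideal.subset_span (by simp)))
  · rw [Ideal.span_le]
    rintro y (rfl | rfl)
    · rw [hm]; exact Ideal.subset_span (by simp)
    · exact hs

end Fermat.Agent.ES.RED.PeelPersist22
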