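/-
Program I (S37), chapter RED, leaf B1.5 = (A5/T3, PIR) (helper27).

`Ft / k` a function field in one variable with a separating transcendental generator `xt`
(`X0.FF.IsGen k xt` and `Ft / k(xt)` separable; no hypothesis on the characteristic, `k` any field).
Every valuation subring `O ≠ ⊤` of `Ft` containing `k` is a principal ideal ring (hence the valuation
ring of a prelude `Place k Ft`): it contains `xt` or `xt⁻¹`, hence the Dedekind domain
`integralClosure k[xt^{±1}] Ft`, whose fraction field is `Ft`, and is therefore the localisation of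
that Dedekind domain at its centre (`PlaceExtend27.isPrincipalIdealRing_of_dedekind_le`).
-/
import Mathlib
import Fermat.Agent.X0.FFSum
import Fermat.Agent.RED.DESC.PlaceExtend27

set_option autoImplicit false
set_option linter.unusedSectionVars false

namespace Fermat.Agent.ES.RED.PlacePIR27

open AlgebraicCurve IntermediateField IsDedekindDomain
open Fermat.Agent.X0 Fermat.Agent.RED.DESC
open scoped IntermediateField.algebraAdjoinAdjoin

noncomputable section

variable {k Ft : Type*} [Field k] [Field Ft] [Algebra k Ft]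

/-- The integral closure of `k[x]` in `Ft` is a Dedekind domain when `Ft / k(x)` is finite
separable (no hypothesis on the characteristic). -/
theorem isDedekindDomain_intRing_of_isSeparable {x : Ft} (hx : FF.IsGen k x)
    (hsep : Algebra.IsSeparable ↥k⟮x⟯ Ft) : IsDedekindDomain (FF.intRing k x) := by
  have := hx.finite
  have := FF.isPrincipalIdealRing_polyRing hx.transcendental
  exact integralClosure.isDedekindDomain (FF.polyRing k x) k⟮x⟯ Ft

/-- `k⟮x⁻¹⟯ = k⟮x⟯`. -/
theorem adjoin_inv_eq (x : Ft) : k⟮x⁻¹⟯ = k⟮x⟯ := by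
  apply le_antisymm
  · rw [adjoin_simple_le_iff]
    exact inv_mem (mem_adjoin_simple_self k x)
  · rw [adjoin_simple_le_iff]
    have h : (x⁻¹)⁻¹ ∈ k⟮x⁻¹⟯ := inv_mem (mem_adjoin_simple_self k x⁻¹)
    rwa [inv_inv] at h

/-- The inverse of a transcendental generator is a transcendental generator. -/
theorem isGen_inv {x : Ft} (hx : FF.IsGen k x) : FF.IsGen k x⁻¹ := by
  refine ⟨?_, ?_⟩
  · intro h
    apply hx.transcendental
    have := h.inv
    rwa [inv_inv] at this
  · have h := hx.finite
    rw [adjoin_inv_eq]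
    exact h

theorem isSeparable_inv {x : Ft} (hsep : Algebra.IsSeparable ↥k⟮x⟯ Ft) :
    Algebra.IsSeparable ↥k⟮x⁻¹⟯ Ft := by
  rw [adjoin_inv_eq]
  exact hsep

variable {xt : Ft} (hx : FF.IsGen k xt) (hsep : Algebra.IsSeparable ↥k⟮xt⟯ Ft)
  (O : ValuationSubring Ft) (hk : ∀ c : k, algebraMap k Ft c ∈ O)

include hx hsep hk

/-- `intRing k xt ⊆ O` when `k ⊆ O` and `xt ∈ O`. -/
theorem intRing_le (hxt : xt ∈ O) (b : FF.intRing k xt) :
    algebraMap (FF.intRing k xt) Ft b ∈ O := by
  have hpoly : ∀ a : FF.polyRing k xt, algebraMap (FF.polyRing k xt) Ft a ∈ O := by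
    intro a
    let VS : Subalgebra k Ft := { O.toSubring with algebraMap_mem' := hk }
    have h1 : Algebra.adjoin k {xt} ≤ VS :=
      Algebra.adjoin_le (Set.singleton_subset_iff.mpr (show xt ∈ VS from hxt))
    exact h1 a.2
  exact PlaceExtend27.mem_of_monic_root O _ hpoly b.2

/-- **(PIR)**, chart `xt ∈ O`. -/
theorem isPrincipalIdealRing_of_mem (hxt : xt ∈ O) (hO : O ≠ ⊤) : IsPrincipalIdealRing ↥O := by
  have hDed := isDedekindDomain_intRing_of_isSeparable hx hsep
  have hFrac := FF.isFractionRing_intRing hx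
  exact PlaceExtend27.isPrincipalIdealRing_of_dedekind_le O (intRing_le hx hsep O hk hxt) hO

/-- **(PIR)**, chart `xt⁻¹ ∈ O`. -/
theorem isPrincipalIdealRing_of_inv_mem (hxt : xt⁻¹ ∈ O) (hO : O ≠ ⊤) :
    IsPrincipalIdealRing ↥O :=
  isPrincipalIdealRing_of_mem (isGen_inv hx) (isSeparable_inv hsep) O hk hxt hO

/-- **(PIR)**: every valuation subring `≠ ⊤` of `Ft` containing `k` is a principal ideal ring. -/
theorem isPrincipalIdealRing_of_ne_top (hO : O ≠ ⊤) : IsPrincipalIdealRing ↥O := by
  rcases O.mem_or_inv_mem xt with h | h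
  · exact isPrincipalIdealRing_of_mem hx hsep O hk h hO
  · exact isPrincipalIdealRing_of_inv_mem hx hsep O hk h hO

/-- The place of `Ft / k` with valuation ring `O`. -/
def placeOfValuationSubring (hO : O ≠ ⊤) : Place k Ft :=
  ⟨O, hk, hO, isPrincipalIdealRing_of_ne_top hx hsep O hk hO⟩

@[simp] theorem placeOfValuationSubring_toValuationSubring (hO : O ≠ ⊤) :
    (placeOfValuationSubring hx hsep O hk hO).toValuationSubring = O := rfl

/-- Centre form, chart `xt ∈ O`: `O` is the localisation of `intRing k xt` at its centre. -/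
theorem eq_valuationSubringAtPrime (hxt : xt ∈ O) (hO : O ≠ ⊤) :
    haveI := isDedekindDomain_intRing_of_isSeparable hx hsep
    haveI := FF.isFractionRing_intRing hx
    HeightOneSpectrum.valuationSubringAtPrime Ft
      (PlaceExtend27.centreSpec O (intRing_le hx hsep O hk hxt) hO) = O := by
  have hDed := isDedekindDomain_intRing_of_isSeparable hx hsep
  have hFrac := FF.isFractionRing_intRing hx
  exact PlaceExtend27.eq_valuationSubringAtPrime O (intRing_le hx hsep O hk hxt) hO

end

end Fermat.Agent.ES.RED.PlacePIR27
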