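/-
Program I (S37), RED-2 (helper14), fifth file: for charts whose ring is the integral closure
`ChartGeneric22.chart ↥A s` (as produced by `ChartSpecOfChart18.chartSpecOfChart`), the inputs
`hredint` (integrality downstairs, helper9's `ChartFacts9`) and `hnorm` (weak norm property,
helper18's `NormFrac18`) of `R2Adapter14` / `R2Global14` are automatic.  Restatement of the global (R2).
-/
import Mathlib
import Fermat.Agent.ES.RED.R2Global14
import Fermat.Agent.ES.RED.ChartFacts9
import Fermat.Agent.ES.RED.NormFrac18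

set_option autoImplicit false
set_option linter.unusedSectionVars false

namespace Fermat.Agent.ES.RED.R2ChartInst14

open AlgebraicCurve Polynomial IntermediateField
open Fermat.Agent.RED.PUR.ChartGeneric22
open Fermat.Agent.X0.FF Fermat.Agent.ES.RED.PlaceValue13 Fermat.Agent.ES.RED.Contract8
open Fermat.Agent.ES.RED.TwoCharts8
open Fermat.Agent.ES.RED.R2Abstract14 Fermat.Agent.ES.RED.R2Peel14

noncomputable section

variable {L : Type*} [Field L] [IsAlgClosed L] {A : ValuationSubring L}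
variable {F : Type*} [Field F] [Algebra L F] {x : F} {hx : IsGen L x}
variable {Ft : Type*} [Field Ft] [Algebra (kA A) Ft]

section OneChart

variable (S : ChartSpec A hx Ft) (hB : ∀ z : F, z ∈ S.B ↔ z ∈ chart ↥A S.s)

include hB in
/-- the weak norm property for a chart ring which is an integral closure. -/
theorem hnorm_of_chart (hs : Transcendental L S.s) :
    ∀ z : ↥S.B, z ≠ 0 → ∃ z' : ↥S.B, z' ≠ 0 ∧ ∃ p : L[X], (z : F) * (z' : F) = aeval S.s p := by
  intro z hz0
  have hzF : (z : F) ≠ 0 := fun h0 => hz0 (Subtype.ext h0)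
  obtain ⟨z', hz', hz'0, p, e⟩ := NormFrac18.norm_chart A hs ((hB _).1 z.2) hzF
  refine ⟨⟨z', (hB _).2 hz'⟩, ?_, p, e⟩
  intro h0
  exact hz'0 (congrArg (fun g : ↥S.B => (g : F)) h0)

include hB in
/-- integrality downstairs for a chart ring which is an integral closure. -/
theorem hredint_of_chart :
    ∀ Q : Place (kA A) Ft, S.red S.sB ∈ Q.toValuationSubring →
      ∀ b : ↥S.B, S.red b ∈ Q.toValuationSubring := by
  intro Q hQ b
  rw [ffp_mem_iff_ord_nonneg] at hQ ⊢
  refine ChartFacts9.ord_red_nonneg_of_mem_chart A (resA A) S.B S.red S.sB ?_ ?_ Q hQ b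
    ((hB _).1 b.2)
  · intro c hc
    exact (hB c).2 (adjoin_le_chart S.s hc)
  · intro a h
    exact S.red_const a

end OneChart

section Global

variable [CharZero L] [IsAlgClosed (kA A)] (T : TwoCharts A hx Ft)
variable (hB0 : ∀ z : F, z ∈ T.S0.B ↔ z ∈ chart ↥A T.S0.s)
variable (hB1 : ∀ z : F, z ∈ T.S1.B ↔ z ∈ chart ↥A T.S1.s)
variable (hs : IsGen L T.S0.s) (hxt : IsGen (kA A) (T.S0.red T.S0.sB))
variable [Algebra.IsSeparable ↥((kA A)⟮T.S0.red T.S0.sB⟯) Ft]
variable (hdeg : Module.finrank ↥(L⟮T.S0.s⟯) F = Module.finrank ↥((kA A)⟮T.S0.red T.S0.sB⟯) Ft)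
variable (hpeel0 : ∀ (P : Place L F) (hP : T.S0.InChart P), T.S0.PeelA P hP)
variable (hpeel1 : ∀ (P : Place L F) (hP : T.S1.InChart P), T.S1.PeelA P hP)

include hB0 hB1 hs hxt hdeg hpeel0 hpeel1 in
/-- **(R2) for the global map** when both chart rings are integral closures. -/
theorem r2 (hfin : FinDiv L F) : T.R2 :=
  R2Global14.r2 T hs hxt hdeg hpeel0 hpeel1 (hredint_of_chart T.S0 hB0) (hredint_of_chart T.S1 hB1)
    (hnorm_of_chart T.S0 hB0 hs.transcendental)
    (hnorm_of_chart T.S1 hB1 (R2Global14.isGen_s1 T hs).transcendental) hfin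

include hB0 hB1 hs hxt hdeg hpeel0 hpeel1 in
/-- **(R2) for the global map on a common ring `G ⊇ B₀, B₁`** when both chart rings are integral
closures. -/
theorem r2_common (G : Subring F) (redG : ↥G →+* Ft) (hfin : FinDiv L F)
    (hBG0 : T.S0.B ≤ G) (hBG1 : T.S1.B ≤ G)
    (hredG0 : ∀ (b : F) (hb : b ∈ T.S0.B), redG ⟨b, hBG0 hb⟩ = T.S0.red ⟨b, hb⟩)
    (hredG1 : ∀ (b : F) (hb : b ∈ T.S1.B), redG ⟨b, hBG1 hb⟩ = T.S1.red ⟨b, hb⟩)
    (y : ↥G) (hy : redG y ≠ 0) (D : Place L F →₀ ℤ) (hD : ∀ P, D P = P.ord (y : F))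
    (Q : Place (kA A) Ft) : Finsupp.mapDomain T.r D Q = Q.ord (redG y) :=
  R2Global14.r2_common T hs hxt hdeg hpeel0 hpeel1 (hredint_of_chart T.S0 hB0)
    (hredint_of_chart T.S1 hB1) (hnorm_of_chart T.S0 hB0 hs.transcendental)
    (hnorm_of_chart T.S1 hB1 (R2Global14.isGen_s1 T hs).transcendental) G redG hfin hBG0 hBG1
    hredG0 hredG1 y hy D hD Q

end Global

end

end Fermat.Agent.ES.RED.R2ChartInst14
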