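/-
Program I (ES/RED, B1; helper16): the reduction of ANY `A`-integral element of `Fbar M` lies in the
special-fibre function field.

`A ≤ ℚ̄` over `ℓ ∤ M`, `k = ResidueField A`.  For `Y ∈ A((q))` with `coeffMap A.subtype Y ∈ Fbar M`:

* `exists_series_descent` : `Y` comes from `(A ∩ K)((q))` (with image in `K·F_M`) for all large number
  fields `K`;
* `coeffMap_residue_mem_fullC` : `coeffMap (residue A) Y ∈ modularFunctionFieldFullC k M`.

So `Setup8.redA A (Fbar M)` takes values in `k·F̃_M`, on all of `Setup8.gaussA A (Fbar M)`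
(`redA_mem_fullC`), in particular on the chart rings.
-/
import Fermat.Agent.ES.RED.GaussUnit25
import Fermat.Agent.ES.RED.ResidueUnion1
import Fermat.Agent.ES.RED.Setup8
import Fermat.Agent.RED.DESC.UnifDescent14

set_option autoImplicit false
set_option linter.unusedSectionVars false
set_option linter.style.haveILetI false

noncomputable section

namespace Fermat.Agent.ES.RED.RedMem16

open HahnSeries ModularCurve
open Fermat.Agent.RED.Interface4 Fermat.Agent.RED.DESC Fermat.Agent.RED.DESC.NumberFieldDVR27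
open Fermat.Agent.RED.DESC.PlaceExtend27
open Fermat.Agent.RED.PUR.GaussGen8 Fermat.Agent.RED.PUR.GaussBridge10

variable (A : ValuationSubring Qbar) (M : ℕ)

/-- An `A`-integral series lying in `Fbar M` descends to `(A ∩ K)((q))`, with image in `K·F_M`, for all
large number fields `K`. -/
theorem exists_series_descent (K₀ : IntermediateField ℚ Qbar) [FiniteDimensional ℚ K₀]
    (Y : LaurentSeries ↥A) (hY : coeffMap A.subtype Y ∈ Fbar M) :
    ∃ K₁ : IntermediateField ℚ Qbar, FiniteDimensional ℚ K₁ ∧ K₀ ≤ K₁ ∧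
      ∀ K : IntermediateField ℚ Qbar, K₁ ≤ K →
        ∃ Y₀ : LaurentSeries ↥(AK A K), embK (AK A K) Y₀ ∈ FK M K ∧
          coeffMap (incl A K) Y₀ = Y := by
  obtain ⟨K₁, hfin, hle, H⟩ := UnifDescent14.exists_descent_ge M K₀ ⟨coeffMap A.subtype Y, hY⟩
  refine ⟨K₁, hfin, hle, fun K hK => ?_⟩
  obtain ⟨x', hx'⟩ := H K hK
  have hcoe : coeffMap (algebraMap K Qbar) (x' : LaurentSeries K) = coeffMap A.subtype Y := by
    have := congrArg (fun z : ↥(Fbar M) => (z : LaurentSeries Qbar)) hx'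
    simpa only [coe_baseChangeHom] using this
  have hrange : ∀ n, (x' : LaurentSeries K).coeff n ∈ Set.range (AK A K).subtype := by
    intro n
    have h1 : algebraMap K Qbar ((x' : LaurentSeries K).coeff n) = ((Y.coeff n : ↥A) : Qbar) := by
      have := congrArg (fun z : LaurentSeries Qbar => z.coeff n) hcoe
      simp only [coeffMap_coeff] at this
      exact this
    have h2 : (x' : LaurentSeries K).coeff n ∈ AK A K := by
      rw [mem_AK_iff]
      show algebraMap K Qbar ((x' : LaurentSeries K).coeff n) ∈ A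
      rw [h1]
      exact (Y.coeff n).2
    exact ⟨⟨_, h2⟩, rfl⟩
  obtain ⟨Y₀, hY₀⟩ := UnifDescent14.exists_coeffMap_eq (AK A K).subtype
    Subtype.val_injective (x' : LaurentSeries K) hrange
  refine ⟨Y₀, ?_, ?_⟩
  · show coeffMap (AK A K).subtype Y₀ ∈ FK M K
    rw [hY₀]
    exact x'.2
  · apply Setup8.coeffMap_subtype_injective A
    rw [GaussUnit25.coeffMap_subtype_incl]
    show coeffMap (algebraMap K Qbar) (coeffMap (AK A K).subtype Y₀) = _
    rw [hY₀, hcoe]

variable {M} [NeZero M]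

/-- **The reduction of an `A`-integral element of `Fbar M` lies in `k·F̃_M`.** -/
theorem coeffMap_residue_mem_fullC (ℓ : ℕ) [Fact ℓ.Prime] (hA : A.LiesOverPrime ℓ)
    (hℓM : ¬ ℓ ∣ M) (Y : LaurentSeries ↥A) (hY : coeffMap A.subtype Y ∈ Fbar M) :
    coeffMap (IsLocalRing.residue ↥A) Y ∈
      modularFunctionFieldFullC (IsLocalRing.ResidueField ↥A) M := by
  obtain ⟨K, hfin, -, H⟩ := exists_series_descent A M ⊥ Y hY
  haveI := hfin
  obtain ⟨Y₀, hmem, rfl⟩ := H K le_rfl
  rw [GaussUnit25.coeffMap_residue_incl]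
  apply ResidueUnion1.coeffMap_resMap_mem_fullC
  rw [← GaussUnit25.resField_FK_eq A K ℓ hA M hℓM]
  exact ⟨embK (AK A K) Y₀, embK_mem _ Y₀, hmem, gaussRed_embK _ Y₀⟩

/-- `Setup8.redA` takes values in `k·F̃_M`. -/
theorem redA_mem_fullC (ℓ : ℕ) [Fact ℓ.Prime] (hA : A.LiesOverPrime ℓ) (hℓM : ¬ ℓ ∣ M)
    (f : ↥(Setup8.gaussA A (Fbar M))) :
    Setup8.redA A (Fbar M) f ∈ modularFunctionFieldFullC (IsLocalRing.ResidueField ↥A) M := by
  rw [Setup8.redA_eq A (Fbar M) f (Setup8.coeffMap_liftA A (Fbar M) f)]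
  refine coeffMap_residue_mem_fullC A ℓ hA hℓM _ ?_
  rw [Setup8.coeffMap_liftA]
  exact (f : ↥(Fbar M)).2

end Fermat.Agent.ES.RED.RedMem16
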