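/-
Program I (S37), chapter ES/RED — helper26.  **(R0a) the residue field of the Gauss valuation.**

`O ⊂ K` a discrete valuation ring of a field of characteristic `0` with residue field `κ` of
characteristic `ℓ ∤ M`.  The residue field of the Gauss valuation on `K(j(q^d) : d ∣ M)` is
EXACTLY `κ(j̃(q^d) : d ∣ M)`:

  `resField O (modularFunctionFieldFullC K M) = modularFunctionFieldFullC κ M`.

`⊇` is `GaussBridge10.fullC_le_resField`; `⊆` is a degree count: `ψ(M) + 1` residues independent over
`κ(j̃)` would lift (`GaussDeg25.linearIndependent_of_gaussRed`) to `ψ(M) + 1` elements independent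
over `K(j)`, but `[K(j(q^d)) : K(j)] = ψ(M) = [κ(j̃(q^d)) : κ(j̃)]`.
-/
import Mathlib
import Fermat.Agent.RED.PUR.GaussInstN25

set_option autoImplicit false

noncomputable section

open HahnSeries ModularCurve IntermediateField

namespace Fermat.Agent.ES.RED.ResField26

open Fermat.Agent.RED.PUR.GaussGen8 Fermat.Agent.RED.PUR.KtGauss8 Fermat.Agent.RED.PUR.G1Package8
open Fermat.Agent.RED.PUR.GaussBridge10 Fermat.Agent.RED.PUR.GaussInst25
open Fermat.Agent.RED.PUR Fermat.Agent.IG.PR

section Abstract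

variable {K : Type*} [Field K] (O : ValuationSubring K) [IsDiscreteValuationRing ↥O] {π : ↥O}

/-- **Abstract degree count.**  `F ⊂ K((q))` with `[F : K(j)] = ψ ≠ 0`, `F' ⊂ κ((q))` containing
`κ(j̃)` with `[F' : κ(j̃)] = ψ` and `F' ⊂ resField F`: then `resField F = F'`. -/
theorem resField_le_of_degree (hπ : Irreducible π) {jG : ↥(gaussRing O)}
    (hjtr : Transcendental (Res O) (gaussRed O jG))
    (F : IntermediateField K (LaurentSeries K)) (hjF : (jG : LaurentSeries K) ∈ F)
    (F' : IntermediateField (Res O) (LaurentSeries (Res O))) (hjF' : gaussRed O jG ∈ F')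
    (hF'res : F' ≤ resField O F)
    (ψ : ℕ) (hψ0 : ψ ≠ 0) (hψ : relfinrank (Kt O jG) F = ψ) (hψ' : relfinrank (kt O jG) F' = ψ) :
    resField O F ≤ F' := by
  classical
  have hAF : Kt O jG ≤ F := adjoin_simple_le_iff.mpr hjF
  have hAF' : kt O jG ≤ F' := adjoin_simple_le_iff.mpr hjF'
  -- a basis family of `F'` over `κ(j̃)`
  obtain ⟨c, hcF', hcli⟩ := FamilyForm20.exists_basis_family hAF'
  intro y hy
  by_contra hyF'
  -- the span of the `c i` lies in `F'`
  have hspan : ∀ z ∈ Submodule.span ↥(kt O jG) (Set.range c), z ∈ F' := by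
    intro z hz
    induction hz using Submodule.span_induction with
    | mem z hz =>
      obtain ⟨i, rfl⟩ := hz
      exact hcF' i
    | zero => exact zero_mem _
    | add z w _ _ hz hw => exact add_mem hz hw
    | smul a z _ hz =>
      rw [Algebra.smul_def]
      exact mul_mem (hAF' a.2) hz
  -- so `c, y` is independent over `κ(j̃)`
  have hli' : LinearIndependent ↥(kt O jG)
      (Fin.snoc c y : Fin (relfinrank (kt O jG) F' + 1) → LaurentSeries (Res O)) := by
    rw [linearIndependent_finSnoc]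
    exact ⟨hcli, fun hmem => hyF' (hspan y hmem)⟩
  -- lift to the Gauss ring
  have hres : ∀ i : Fin (relfinrank (kt O jG) F' + 1), ∃ b : ↥(gaussRing O),
      (b : LaurentSeries K) ∈ F ∧ gaussRed O b =
        (Fin.snoc c y : Fin (relfinrank (kt O jG) F' + 1) → LaurentSeries (Res O)) i := by
    intro i
    have hmem : (Fin.snoc c y : Fin (relfinrank (kt O jG) F' + 1) → LaurentSeries (Res O)) i
        ∈ resField O F := by
      refine Fin.lastCases ?_ (fun j => ?_) i
      · rw [Fin.snoc_last]; exact hy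
      · rw [Fin.snoc_castSucc]; exact hF'res (hcF' j)
    obtain ⟨f, hf, hfF, hfy⟩ := hmem
    exact ⟨⟨f, hf⟩, hfF, hfy⟩
  choose b hbF hb using hres
  have hlib : LinearIndependent ↥(kt O jG) (fun i => gaussRed O (b i)) := by
    have : (fun i => gaussRed O (b i)) =
        (Fin.snoc c y : Fin (relfinrank (kt O jG) F' + 1) → LaurentSeries (Res O)) := funext hb
    rw [this]
    exact hli'
  have hliK := GaussDeg25.linearIndependent_of_gaussRed hπ hjtr b hlib
  have hle := FamilyForm20.le_relfinrank_of_family hAF _ (by rw [hψ]; exact hψ0) _ hbF hliK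
  rw [hψ, hψ'] at hle
  omega

end Abstract

section Full

variable {K : Type} [Field K] [CharZero K] (O : ValuationSubring K) [IsDiscreteValuationRing ↥O]
  {π : ↥O}

/-- **(R0a)** the residue field of the Gauss valuation of `K(j(q^d) : d ∣ M)` is
`κ(j̃(q^d) : d ∣ M)`, for `ℓ = char κ ∤ M`. -/
theorem resField_fullC_eq (hπ : Irreducible π) (ℓ : ℕ) [Fact ℓ.Prime] [CharP (Res O) ℓ]
    (M : ℕ) [NeZero M] (hℓM : ¬ ℓ ∣ M) :
    resField O (modularFunctionFieldFullC K M) = modularFunctionFieldFullC (Res O) M := by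
  apply le_antisymm _ (fullC_le_resField O M)
  have hjtr : Transcendental (Res O) (gaussRed O (jG O)) := by
    rw [gaussRed_jG]
    exact Fermat.Agent.IG.VAL.OvBasics22.transcendental_jqModC (Res O)
  have hψ0 : dedekindPsi M ≠ 0 :=
    (Fermat.Agent.X0.GNPsi.gnp_dedekindPsi_pos (NeZero.ne M)).ne'
  have hψ : relfinrank (Kt O (jG O)) (modularFunctionFieldFullC K M) = dedekindPsi M :=
    DegBaseChange25.relfinrank_fullC_eq_psi_of_charZero K M
  have hψ' : relfinrank (kt O (jG O)) (modularFunctionFieldFullC (Res O) M) = dedekindPsi M := by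
    have h1 := DegBaseChange25.relfinrank_fullC_eq_psi_of_charP ℓ (Res O) M hℓM
    have h2 : kt O (jG O) = (Res O)⟮jqModC (Res O)⟯ := by
      show (Res O)⟮gaussRed O (jG O)⟯ = _
      rw [gaussRed_jG]
    rw [h2, h1]
  have hjF' : gaussRed O (jG O) ∈ modularFunctionFieldFullC (Res O) M := by
    rw [gaussRed_jG]
    exact jqModC_mem_full (Res O) M
  exact resField_le_of_degree O hπ hjtr (modularFunctionFieldFullC K M) (jqModC_mem_full K M)
    (modularFunctionFieldFullC (Res O) M) hjF' (fullC_le_resField O M) (dedekindPsi M) hψ0 hψ hψ'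

/-- **(R0a)**, elementwise: residues of Gauss-ring elements of `K(j(q^d) : d ∣ M)` lie in
`κ(j̃(q^d) : d ∣ M)`. -/
theorem gaussRed_mem_fullC (hπ : Irreducible π) (ℓ : ℕ) [Fact ℓ.Prime] [CharP (Res O) ℓ]
    (M : ℕ) [NeZero M] (hℓM : ¬ ℓ ∣ M) (f : ↥(gaussRing O))
    (hf : (f : LaurentSeries K) ∈ modularFunctionFieldFullC K M) :
    gaussRed O f ∈ modularFunctionFieldFullC (Res O) M := by
  rw [← resField_fullC_eq O hπ ℓ M hℓM]
  exact ⟨f, f.2, hf, rfl⟩

end Full

section BaseChange

variable {L : Type} [Field L] [Algebra ℚ L] (O : ValuationSubring L) [IsDiscreteValuationRing ↥O]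
  {π : ↥O}

/-- **(R0a)** for `E = laurentBaseChange L (modularFunctionFieldFull M)` (`= Interface4.FK M K`). -/
theorem resField_laurentBaseChange_eq (hπ : Irreducible π) (ℓ : ℕ) [Fact ℓ.Prime]
    [CharP (Res O) ℓ] (M : ℕ) [NeZero M] (hℓM : ¬ ℓ ∣ M) :
    resField O (laurentBaseChange L (modularFunctionFieldFull M)) =
      modularFunctionFieldFullC (Res O) M := by
  have : CharZero L := algebraRat.charZero L
  rw [DegBaseChange25.laurentBaseChange_full_eq]
  exact resField_fullC_eq O hπ ℓ M hℓM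

theorem gaussRed_mem_fullC_of_mem_laurentBaseChange (hπ : Irreducible π) (ℓ : ℕ) [Fact ℓ.Prime]
    [CharP (Res O) ℓ] (M : ℕ) [NeZero M] (hℓM : ¬ ℓ ∣ M) (f : ↥(gaussRing O))
    (hf : (f : LaurentSeries L) ∈ laurentBaseChange L (modularFunctionFieldFull M)) :
    gaussRed O f ∈ modularFunctionFieldFullC (Res O) M := by
  rw [← resField_laurentBaseChange_eq O hπ ℓ M hℓM]
  exact ⟨f, f.2, hf, rfl⟩

end BaseChange

end Fermat.Agent.ES.RED.ResField26
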