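/-
Program I (S37), chapter ES/RED — helper22: **finite-level reduction of rational places on a chart.**

Setting: `R` a discrete valuation ring (`A_K`) with uniformiser `π`, `K = Frac R`, `F / K` a function
field, `B ⊂ F` an `R`-subalgebra (a chart of the model: the integral closure of `R[T]`), `T ∈ B`.
For a `K`-rational place `w` of `F / K` with `T(w) ∈ R`:

* `exists_R_of_mem`   : every `b ∈ B` has its value at `w` in `R` (`R` is integrally closed);
* `specIdeal w`       : `x_w = {b ∈ B : b(w) ∈ π R}`, the specialisation of `w`, a maximal ideal of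
                        `B` containing `π` (`specIdeal_isMaximal`, `pi_mem_specIdeal`);
* `sub_mem_specIdeal` : **(R1) at finite level**: `b - r ∈ x_w` whenever `b(w) = r`;
* `locC_le`           : `B_{x_w} ⊂ O_w`;
* `specIdeal_eq_of_locC_le` : conversely, if `B_x ⊂ O_w` for a maximal ideal `x ∋ π` then `x = x_w`
                        (so "`w` reduces to `x`" ⇔ "`B_x ⊂ O_w`").
-/
import Mathlib
import Fermat.Prelude.Def_AlgebraicCurve_DivisorClassGroup
import Fermat.Agent.RED.CORE.LocalPkg18

set_option autoImplicit false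
set_option linter.unusedSectionVars false
set_option linter.style.haveILetI false

open IsLocalRing AlgebraicCurve

noncomputable section

namespace Fermat.Agent.ES.RED.SpecChart22

open Fermat.Agent.RED.CORE.LocalPkg18

variable {R K F : Type*} [CommRing R] [IsDomain R] [IsIntegrallyClosed R] [Field K] [Field F]
  [Algebra R K] [IsFractionRing R K] [Algebra K F] [Algebra R F] [IsScalarTower R K F]

/-- A rational place of `F / K` on the chart `B` (coordinate `T`): `B ⊂ O_w`, the residue field of
`w` is `K`, and the value of `T` at `w` lies in `R`. -/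
structure RatOn (B : Subalgebra R F) (T : F) (w : Place K F) : Prop where
  le : ∀ b ∈ B, b ∈ w.toValuationSubring
  rat : ∀ z ∈ w.toValuationSubring,
    ∃ κ : K, w.toValuationSubring.valuation (z - algebraMap K F κ) < 1
  T_val : ∃ r : R, w.toValuationSubring.valuation (T - algebraMap R F r) < 1

section Value

variable (w : Place K F)

/-- The value of `z ∈ O_w` at a rational place is unique. -/
theorem value_unique {z : F} {κ κ' : K}
    (h : w.toValuationSubring.valuation (z - algebraMap K F κ) < 1)
    (h' : w.toValuationSubring.valuation (z - algebraMap K F κ') < 1) : κ = κ' := by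
  by_contra hne
  have hsub : algebraMap K F (κ - κ') = (z - algebraMap K F κ') - (z - algebraMap K F κ) := by
    rw [map_sub]; ring
  have hlt : w.toValuationSubring.valuation (algebraMap K F (κ - κ')) < 1 := by
    rw [hsub]
    exact lt_of_le_of_lt (Valuation.map_sub _ _ _) (max_lt h' h)
  have hne' : κ - κ' ≠ 0 := sub_ne_zero.2 hne
  have hF : algebraMap K F (κ - κ') ≠ 0 := (map_ne_zero (algebraMap K F)).2 hne'
  have hinv : (algebraMap K F (κ - κ'))⁻¹ ∈ w.toValuationSubring := by
    rw [← map_inv₀]; exact w.algebraMap_mem' _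
  have h1 : w.toValuationSubring.valuation (algebraMap K F (κ - κ'))⁻¹ ≤ 1 :=
    (w.toValuationSubring.valuation_le_one_iff _).2 hinv
  rw [map_inv₀] at h1
  have hv0 : w.toValuationSubring.valuation (algebraMap K F (κ - κ')) ≠ 0 :=
    (Valuation.ne_zero_iff _).2 hF
  have := (inv_le_one₀ (zero_lt_iff.2 hv0)).1 h1
  exact absurd hlt (not_lt.2 this)

variable {w}
variable (hrat : ∀ z ∈ w.toValuationSubring,
    ∃ κ : K, w.toValuationSubring.valuation (z - algebraMap K F κ) < 1)

include hrat in
theorem bijective_algebraMap_residueField :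
    Function.Bijective (algebraMap K w.ResidueField) := by
  refine ⟨(algebraMap K w.ResidueField).injective, fun y => ?_⟩
  obtain ⟨z, rfl⟩ := IsLocalRing.residue_surjective y
  obtain ⟨κ, hκ⟩ := hrat z z.2
  refine ⟨κ, ?_⟩
  rw [IsScalarTower.algebraMap_apply K w.toValuationSubring w.ResidueField, eq_comm,
    ← sub_eq_zero]
  change IsLocalRing.residue _ z - IsLocalRing.residue _ (algebraMap K w.toValuationSubring κ) = 0
  rw [← map_sub, IsLocalRing.residue_eq_zero_iff, ValuationSubring.valuation_lt_one_iff]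
  exact hκ

/-- The evaluation `O_w → K` at a rational place. -/
def ev : w.toValuationSubring →+* K :=
  ((RingEquiv.ofBijective (algebraMap K w.ResidueField)
    (bijective_algebraMap_residueField hrat)).symm : w.ResidueField →+* K).comp
      (IsLocalRing.residue w.toValuationSubring)

theorem algebraMap_ev (z : w.toValuationSubring) :
    algebraMap K w.ResidueField (ev hrat z) = IsLocalRing.residue _ z := by
  unfold ev
  exact (RingEquiv.ofBijective (algebraMap K w.ResidueField)
    (bijective_algebraMap_residueField hrat)).apply_symm_apply _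

theorem ev_spec (z : w.toValuationSubring) :
    w.toValuationSubring.valuation ((z : F) - algebraMap K F (ev hrat z)) < 1 := by
  have h := algebraMap_ev hrat z
  rw [IsScalarTower.algebraMap_apply K w.toValuationSubring w.ResidueField, eq_comm,
    ← sub_eq_zero] at h
  change IsLocalRing.residue _ z - IsLocalRing.residue _
    (algebraMap K w.toValuationSubring (ev hrat z)) = 0 at h
  rw [← map_sub, IsLocalRing.residue_eq_zero_iff, ValuationSubring.valuation_lt_one_iff] at h
  exact h

theorem ev_eq_of_lt {z : w.toValuationSubring} {κ : K}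
    (h : w.toValuationSubring.valuation ((z : F) - algebraMap K F κ) < 1) : ev hrat z = κ :=
  value_unique w (ev_spec hrat z) h

theorem ev_algebraMap (κ : K) : ev hrat (algebraMap K w.toValuationSubring κ) = κ :=
  ev_eq_of_lt hrat (by
    rw [Place.coe_algebraMap, sub_self, map_zero]
    exact zero_lt_one)

theorem ev_eq_zero_iff (z : w.toValuationSubring) :
    ev hrat z = 0 ↔ w.toValuationSubring.valuation (z : F) < 1 := by
  constructor
  · intro h
    have := ev_spec hrat z
    rwa [h, map_zero, sub_zero] at this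
  · intro h
    exact ev_eq_of_lt hrat (by rwa [map_zero, sub_zero])

end Value

/-! ### Evaluation of the chart at a rational place -/

section Chart

variable {B : Subalgebra R F} {T : F} {w : Place K F} (h : RatOn B T w)

/-- The inclusion `B → O_w`. -/
def incl : ↥B →+* w.toValuationSubring where
  toFun b := ⟨b, h.le b b.2⟩
  map_one' := rfl
  map_mul' _ _ := rfl
  map_zero' := rfl
  map_add' _ _ := rfl

/-- The evaluation `B → K` at `w`. -/
def evB : ↥B →+* K := (ev h.rat).comp (incl h)

theorem evB_spec (b : ↥B) :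
    w.toValuationSubring.valuation ((b : F) - algebraMap K F (evB h b)) < 1 :=
  ev_spec h.rat (incl h b)

theorem evB_eq_of_lt {b : ↥B} {κ : K}
    (hlt : w.toValuationSubring.valuation ((b : F) - algebraMap K F κ) < 1) : evB h b = κ :=
  ev_eq_of_lt h.rat (z := incl h b) hlt

theorem evB_algebraMap (r : R) : evB h (algebraMap R ↥B r) = algebraMap R K r := by
  apply evB_eq_of_lt
  have : ((algebraMap R ↥B r : ↥B) : F) = algebraMap K F (algebraMap R K r) := by
    rw [← IsScalarTower.algebraMap_apply R K F]; rfl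
  rw [this, sub_self, map_zero]
  exact zero_lt_one

theorem evB_eq_zero_iff (b : ↥B) :
    evB h b = 0 ↔ w.toValuationSubring.valuation (b : F) < 1 :=
  ev_eq_zero_iff h.rat (incl h b)

/-- The value of every element of `R[T]` at `w` lies in `R`. -/
theorem evB_adjoin_mem_range (hT : T ∈ B) {s : F} (hs : s ∈ Algebra.adjoin R {T}) :
    ∃ hsB : s ∈ B, ∃ r : R, algebraMap R K r = evB h ⟨s, hsB⟩ := by
  refine Algebra.adjoin_induction
    (p := fun s _ => ∃ hsB : s ∈ B, ∃ r : R, algebraMap R K r = evB h ⟨s, hsB⟩) ?_ ?_ ?_ ?_ hs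
  · intro x hx
    rw [Set.mem_singleton_iff] at hx
    subst hx
    obtain ⟨r, hr⟩ := h.T_val
    refine ⟨hT, r, ?_⟩
    symm
    apply evB_eq_of_lt
    rw [← IsScalarTower.algebraMap_apply R K F]
    exact hr
  · intro r
    exact ⟨B.algebraMap_mem r, r, (evB_algebraMap h r).symm⟩
  · rintro x y _ _ ⟨hx, rx, hrx⟩ ⟨hy, ry, hry⟩
    refine ⟨B.add_mem hx hy, rx + ry, ?_⟩
    have : (⟨x + y, B.add_mem hx hy⟩ : ↥B) = ⟨x, hx⟩ + ⟨y, hy⟩ := rfl
    rw [this, map_add, map_add, hrx, hry]
  · rintro x y _ _ ⟨hx, rx, hrx⟩ ⟨hy, ry, hry⟩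
    refine ⟨B.mul_mem hx hy, rx * ry, ?_⟩
    have : (⟨x * y, B.mul_mem hx hy⟩ : ↥B) = ⟨x, hx⟩ * ⟨y, hy⟩ := rfl
    rw [this, map_mul, map_mul, hrx, hry]

/-- **Values are integral**: the value of every `b ∈ B` at `w` lies in `R`. -/
theorem evB_mem_range (hT : T ∈ B) (int : ∀ x ∈ B, IsIntegral (Algebra.adjoin R {T}) x)
    (b : ↥B) : ∃ r : R, algebraMap R K r = evB h b := by
  rw [← IsIntegrallyClosed.isIntegral_iff]
  obtain ⟨P, hP, hPb⟩ := int b b.2
  -- the ring hom `S = R[T] → K`
  have hSB : ∀ s : ↥(Algebra.adjoin R {T}), (s : F) ∈ B := fun s =>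
    (evB_adjoin_mem_range h hT s.2).1
  let ι : ↥(Algebra.adjoin R {T}) →+* ↥B :=
    { toFun := fun s => ⟨s, hSB s⟩
      map_one' := rfl
      map_mul' := fun _ _ => rfl
      map_zero' := rfl
      map_add' := fun _ _ => rfl }
  set φ : ↥(Algebra.adjoin R {T}) →+* K := (evB h).comp ι with hφ
  -- `P.map φ` lifts to `R[X]`
  have hlift : P.map φ ∈ Polynomial.lifts (algebraMap R K) := by
    rw [Polynomial.lifts_iff_coeff_lifts]
    intro n
    rw [Polynomial.coeff_map]
    obtain ⟨_, r, hr⟩ := evB_adjoin_mem_range h hT (P.coeff n).2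
    exact ⟨r, hr⟩
  obtain ⟨Q, hQmap, -, hQmonic⟩ :=
    Polynomial.lifts_and_natDegree_eq_and_monic hlift (hP.map φ)
  refine ⟨Q, hQmonic, ?_⟩
  rw [← Polynomial.eval_map, hQmap, Polynomial.eval_map]
  -- apply `evB` to `P(b) = 0`
  have hPb' : Polynomial.eval₂ ((algebraMap ↥B F).comp ι) (b : F) P = 0 := by
    rw [← hPb]; rfl
  have hPb'' : Polynomial.eval₂ ι b P = 0 := by
    apply Subtype.ext
    have := Polynomial.hom_eval₂ P ι (algebraMap ↥B F) b
    rw [ZeroMemClass.coe_zero, ← hPb']
    exact this
  have := congrArg (evB h) hPb''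
  rw [Polynomial.hom_eval₂, map_zero] at this
  exact this

/-! ### The section `B → R` and the specialisation of `w` -/

variable (hT : T ∈ B) (int : ∀ x ∈ B, IsIntegral (Algebra.adjoin R {T}) x)

/-- The evaluation `B → R` at `w` (the section of `Spec B → Spec R` defined by `w`). -/
def evR : ↥B →+* R where
  toFun b := Classical.choose (evB_mem_range h hT int b)
  map_one' := by
    apply IsFractionRing.injective R K
    rw [Classical.choose_spec (evB_mem_range h hT int 1), map_one, map_one]
  map_mul' a b := by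
    apply IsFractionRing.injective R K
    rw [Classical.choose_spec (evB_mem_range h hT int (a * b)), map_mul, map_mul,
      Classical.choose_spec (evB_mem_range h hT int a),
      Classical.choose_spec (evB_mem_range h hT int b)]
  map_zero' := by
    apply IsFractionRing.injective R K
    rw [Classical.choose_spec (evB_mem_range h hT int 0), map_zero, map_zero]
  map_add' a b := by
    apply IsFractionRing.injective R K
    rw [Classical.choose_spec (evB_mem_range h hT int (a + b)), map_add, map_add,
      Classical.choose_spec (evB_mem_range h hT int a),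
      Classical.choose_spec (evB_mem_range h hT int b)]

theorem algebraMap_evR (b : ↥B) : algebraMap R K (evR h hT int b) = evB h b :=
  Classical.choose_spec (evB_mem_range h hT int b)

theorem evR_algebraMap (r : R) : evR h hT int (algebraMap R ↥B r) = r := by
  apply IsFractionRing.injective R K
  rw [algebraMap_evR, evB_algebraMap]

theorem evR_surjective : Function.Surjective (evR h hT int) :=
  fun r => ⟨algebraMap R ↥B r, evR_algebraMap h hT int r⟩

/-- **(R1) at finite level**: `b - b(w)` vanishes at `w`. -/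
theorem evR_spec (b : ↥B) :
    w.toValuationSubring.valuation ((b : F) - algebraMap R F (evR h hT int b)) < 1 := by
  have := evB_spec h b
  rwa [← algebraMap_evR h hT int, ← IsScalarTower.algebraMap_apply R K F] at this

theorem evR_eq_zero_iff (b : ↥B) :
    evR h hT int b = 0 ↔ w.toValuationSubring.valuation (b : F) < 1 := by
  rw [← evB_eq_zero_iff h, ← algebraMap_evR h hT int]
  constructor
  · intro h0; rw [h0, map_zero]
  · intro h0
    exact IsFractionRing.injective R K (by rw [h0, map_zero])

variable (π : R)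

/-- The specialisation `x_w = {b ∈ B : b(w) ∈ π R}` of the rational place `w`. -/
def specIdeal : Ideal ↥B := Ideal.comap (evR h hT int) (Ideal.span {π})

theorem mem_specIdeal_iff (b : ↥B) : b ∈ specIdeal h hT int π ↔ π ∣ evR h hT int b := by
  unfold specIdeal
  rw [Ideal.mem_comap, Ideal.mem_span_singleton]

theorem pi_mem_specIdeal : algebraMap R ↥B π ∈ specIdeal h hT int π := by
  rw [mem_specIdeal_iff, evR_algebraMap]

theorem specIdeal_isMaximal (hπ : (Ideal.span {π} : Ideal R).IsMaximal) :
    (specIdeal h hT int π).IsMaximal :=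
  Ideal.comap_isMaximal_of_surjective _ (evR_surjective h hT int)

/-- **(R1) at finite level**, ideal form. -/
theorem sub_mem_specIdeal (b : ↥B) :
    b - algebraMap R ↥B (evR h hT int b) ∈ specIdeal h hT int π := by
  rw [mem_specIdeal_iff, map_sub, evR_algebraMap, sub_self]
  exact dvd_zero π

/-- The centre of `w` on `B` lies in `x_w`. -/
theorem mem_specIdeal_of_lt {b : ↥B} (hb : w.toValuationSubring.valuation (b : F) < 1) :
    b ∈ specIdeal h hT int π := by
  rw [mem_specIdeal_iff, (evR_eq_zero_iff h hT int b).2 hb]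
  exact dvd_zero π

/-- Elements of `B` outside `x_w` are units of `O_w`. -/
theorem inv_mem_of_notMem_specIdeal {d : ↥B} (hd : d ∉ specIdeal h hT int π) :
    ((d : F))⁻¹ ∈ w.toValuationSubring := by
  have hne : ¬ w.toValuationSubring.valuation (d : F) < 1 :=
    fun hlt => hd (mem_specIdeal_of_lt h hT int π hlt)
  have h1 : w.toValuationSubring.valuation (d : F) = 1 :=
    le_antisymm ((w.toValuationSubring.valuation_le_one_iff _).2 (h.le d d.2)) (not_lt.1 hne)
  rw [← w.toValuationSubring.valuation_le_one_iff, map_inv₀, h1, inv_one]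

/-- `B_{x_w} ⊂ O_w`. -/
theorem locC_le [IsFractionRing ↥B F] (hπ : (Ideal.span {π} : Ideal R).IsMaximal) {z : F}
    (hz : haveI := (specIdeal_isMaximal h hT int π hπ).isPrime
      z ∈ locC (F := F) (specIdeal h hT int π)) : z ∈ w.toValuationSubring := by
  haveI := (specIdeal_isMaximal h hT int π hπ).isPrime
  obtain ⟨a, d, hd, rfl⟩ := (mem_locC_iff (specIdeal h hT int π) z).mp hz
  exact w.toValuationSubring.mul_mem _ _ (h.le a a.2)
    (inv_mem_of_notMem_specIdeal h hT int π hd)

end Chart

/-! ### Conversely: places through a closed point -/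

section Converse

/-- An element of `K` lies in `R`, or its inverse lies in `π R`. -/
theorem mem_range_or_inv (π : R) (hdvr : ∀ r : R, r ≠ 0 → ∃ (k : ℕ) (v : Rˣ), r = π ^ k * v)
    (κ : K) : (∃ r : R, algebraMap R K r = κ) ∨ (∃ r : R, algebraMap R K (π * r) * κ = 1) := by
  obtain ⟨r₁, r₂, hr₂, rfl⟩ := IsFractionRing.div_surjective (A := R) κ
  have hr₂0 : r₂ ≠ 0 := nonZeroDivisors.ne_zero hr₂
  have hr₂K : algebraMap R K r₂ ≠ 0 := by
    simpa using (IsFractionRing.injective R K).ne hr₂0
  by_cases hr₁0 : r₁ = 0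
  · left
    exact ⟨0, by rw [hr₁0, map_zero, zero_div]⟩
  obtain ⟨a, u₁, h₁⟩ := hdvr r₁ hr₁0
  obtain ⟨b, u₂, h₂⟩ := hdvr r₂ hr₂0
  rcases le_or_gt b a with hab | hab
  · left
    refine ⟨π ^ (a - b) * u₁ * ((u₂⁻¹ : Rˣ) : R), ?_⟩
    rw [eq_div_iff hr₂K, ← map_mul]
    congr 1
    rw [h₁, h₂]
    have : π ^ a = π ^ (a - b) * π ^ b := by rw [← pow_add, Nat.sub_add_cancel hab]
    rw [this]
    have hu : ((u₂⁻¹ : Rˣ) : R) * (u₂ : R) = 1 := by simp
    calc π ^ (a - b) * ↑u₁ * ((u₂⁻¹ : Rˣ) : R) * (π ^ b * ↑u₂)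
        = π ^ (a - b) * π ^ b * ↑u₁ * (((u₂⁻¹ : Rˣ) : R) * (u₂ : R)) := by ring
      _ = _ := by rw [hu, mul_one]
  · right
    refine ⟨π ^ (b - a - 1) * u₂ * ((u₁⁻¹ : Rˣ) : R), ?_⟩
    rw [mul_div_assoc', div_eq_one_iff_eq hr₂K, ← map_mul]
    congr 1
    rw [h₁, h₂]
    have : π ^ b = π * π ^ (b - a - 1) * π ^ a := by
      rw [← pow_succ', ← pow_add]; congr 1; omega
    rw [this]
    have hu : ((u₁⁻¹ : Rˣ) : R) * (u₁ : R) = 1 := by simp
    calc π * (π ^ (b - a - 1) * ↑u₂ * ((u₁⁻¹ : Rˣ) : R)) * (π ^ a * ↑u₁)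
        = π * π ^ (b - a - 1) * π ^ a * ↑u₂ * (((u₁⁻¹ : Rˣ) : R) * (u₁ : R)) := by ring
      _ = _ := by rw [hu, mul_one]

variable {B : Subalgebra R F} {T : F} (π : R)
  (hdvr : ∀ r : R, r ≠ 0 → ∃ (k : ℕ) (v : Rˣ), r = π ^ k * v)
  [IsFractionRing ↥B F] (x : Ideal ↥B) [hx : x.IsMaximal] (hπx : algebraMap R ↥B π ∈ x)
  (w : Place K F) (hle : ∀ z ∈ locC (F := F) x, z ∈ w.toValuationSubring)

include hle in
theorem le_of_locC_le : ∀ b ∈ B, b ∈ w.toValuationSubring := by
  intro b hb
  apply hle
  rw [mem_locC_iff]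
  exact ⟨⟨b, hb⟩, 1, fun h1 => hx.ne_top ((Ideal.eq_top_iff_one _).2 h1), by simp⟩

include hle in
/-- The centre of `w` on `B` lies in `x`. -/
theorem mem_of_lt {c : ↥B} (hc : w.toValuationSubring.valuation (c : F) < 1) : c ∈ x := by
  by_contra hcx
  have hinv : ((c : F))⁻¹ ∈ w.toValuationSubring := by
    apply hle
    rw [mem_locC_iff]
    exact ⟨1, c, hcx, by simp⟩
  have hc0 : (c : F) ≠ 0 := by
    intro h0
    apply hcx
    have : c = 0 := Subtype.ext h0
    rw [this]; exact x.zero_mem
  have h1 : w.toValuationSubring.valuation ((c : F))⁻¹ ≤ 1 :=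
    (w.toValuationSubring.valuation_le_one_iff _).2 hinv
  rw [map_inv₀] at h1
  have hv0 : w.toValuationSubring.valuation (c : F) ≠ 0 := (Valuation.ne_zero_iff _).2 hc0
  have := (inv_le_one₀ (zero_lt_iff.2 hv0)).1 h1
  exact absurd hc (not_lt.2 this)

include hdvr hπx hle in
/-- A rational place whose valuation ring contains `B_x` (`x ∋ π` maximal) is a rational place on
the chart: the value of `T` lies in `R`. -/
theorem ratOn_of_locC_le (hT : T ∈ B)
    (hrat : ∀ z ∈ w.toValuationSubring,
      ∃ κ : K, w.toValuationSubring.valuation (z - algebraMap K F κ) < 1) :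
    RatOn B T w := by
  refine ⟨le_of_locC_le x w hle, hrat, ?_⟩
  obtain ⟨κ, hκ⟩ := hrat T (le_of_locC_le x w hle T hT)
  rcases mem_range_or_inv π hdvr κ with ⟨r, rfl⟩ | ⟨r, hr⟩
  · exact ⟨r, by rwa [IsScalarTower.algebraMap_apply R K F]⟩
  · exfalso
    -- `c = T π r - 1` lies in the centre, hence in `x`; but `c ≡ -1 mod π`
    set c : ↥B := ⟨T, hT⟩ * algebraMap R ↥B (π * r) - 1 with hc
    have hcF : (c : F) = (T - algebraMap K F κ) * algebraMap K F (algebraMap R K (π * r)) := by
      have h1 : algebraMap K F (algebraMap R K (π * r)) * algebraMap K F κ = 1 := by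
        rw [← map_mul, hr, map_one]
      have h2 : ((algebraMap R ↥B (π * r) : ↥B) : F) =
          algebraMap K F (algebraMap R K (π * r)) := by
        rw [← IsScalarTower.algebraMap_apply R K F]; rfl
      have h3 : (c : F) = T * ((algebraMap R ↥B (π * r) : ↥B) : F) - 1 := rfl
      rw [h3, h2, sub_mul, mul_comm (algebraMap K F κ), h1]
    have hclt : w.toValuationSubring.valuation (c : F) < 1 := by
      rw [hcF, map_mul]
      have h1 : w.toValuationSubring.valuation (algebraMap K F (algebraMap R K (π * r))) ≤ 1 :=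
        (w.toValuationSubring.valuation_le_one_iff _).2 (w.algebraMap_mem' _)
      exact lt_of_le_of_lt (mul_le_of_le_one_right' h1) hκ
    have hcx : c ∈ x := mem_of_lt x w hle hclt
    have h1x : (1 : ↥B) ∈ x := by
      have h2 : ⟨T, hT⟩ * algebraMap R ↥B (π * r) ∈ x := by
        rw [map_mul, ← mul_assoc]
        exact x.mul_mem_right _ (x.mul_mem_left _ hπx)
      have := x.sub_mem h2 hcx
      rwa [hc, sub_sub_cancel] at this
    exact hx.ne_top ((Ideal.eq_top_iff_one _).2 h1x)

include hdvr hπx hle in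
/-- **The dictionary**: if `B_x ⊂ O_w` then `x` is the specialisation of `w`. -/
theorem specIdeal_eq_of_locC_le (hT : T ∈ B)
    (int : ∀ x ∈ B, IsIntegral (Algebra.adjoin R {T}) x)
    (hπ : (Ideal.span {π} : Ideal R).IsMaximal) (h : RatOn B T w) :
    specIdeal h hT int π = x := by
  symm
  apply hx.eq_of_le (specIdeal_isMaximal h hT int π hπ).ne_top
  intro b hb
  rw [mem_specIdeal_iff]
  by_contra hnd
  set r := evR h hT int b with hr
  have hr0 : r ≠ 0 := fun h0 => hnd (h0 ▸ dvd_zero π)
  obtain ⟨k, v, hkv⟩ := hdvr r hr0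
  rcases Nat.eq_zero_or_pos k with hk | hk
  · rw [hk, pow_zero, one_mul] at hkv
    -- `b - r ∈ x`, so the unit `r` lies in `x`
    have hsub : b - algebraMap R ↥B r ∈ x := by
      apply mem_of_lt x w hle
      rw [← evR_eq_zero_iff h hT int, map_sub, evR_algebraMap, ← hr, sub_self]
    have hrx : algebraMap R ↥B r ∈ x := by
      have := x.sub_mem hb hsub
      rwa [sub_sub_cancel] at this
    have hu : IsUnit (algebraMap R ↥B r) := by rw [hkv]; exact v.isUnit.map _
    exact hx.ne_top (Ideal.eq_top_of_isUnit_mem _ hrx hu)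
  · apply hnd
    rw [hkv]
    obtain ⟨k', rfl⟩ : ∃ k', k = k' + 1 := ⟨k - 1, by omega⟩
    exact ⟨π ^ k' * v, by rw [pow_succ']; ring⟩

end Converse

end Fermat.Agent.ES.RED.SpecChart22
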