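/-
Program I (S37), chapter ES/RED, leaf B1 (2b) (helper5): **the Hauptmodul `t` and its inverse have
`A`-integral `q`-expansions.**

`A ≤ ℚ̄` any valuation subring, `t = tq ℚ̄ n e = q⁻¹ (η(q)/η(q^n))^e`.
* `tqInv R n e = q (η(q^n)/η(q))^e ∈ R((q))`, the explicit inverse of `tq R n e` over every commutative
  ring `R`, natural in `R`;
* `tF_mem_intF      : tF M hmem ∈ ChartIntegralA1.intF A M`;
* `tF_inv_mem_intF  : (tF M hmem)⁻¹ ∈ ChartIntegralA1.intF A M`;
* the `A`-series of both (`seriesHom`) and their reductions (`redSeries`), for the consumer.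
-/
import Mathlib
import Fermat.Agent.ES.RED.ChartIntegralA1
import Fermat.Agent.RED.BASE.Interface12

set_option autoImplicit false
set_option linter.unusedSectionVars false

open HahnSeries ModularCurve

noncomputable section

namespace Fermat.Agent.ES.RED.TqIntF5

open Fermat.Agent.RED.BASE.EtaQuot12 Fermat.Agent.RED.BASE.Interface12
open Fermat.Agent.ES.RED.ChartIntegralA1 Fermat.Agent.RED.Interface4
open Fermat.Agent.X0 Fermat.Agent.X0.Analytic

/-! ### the explicit inverse of `tq` -/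

section Formal

variable (R : Type*) [CommRing R]

/-- `q (η(q^n)/η(q))^e`, the inverse of `tq R n e`. -/
def tqInv (n e : ℕ) [NeZero n] : LaurentSeries R :=
  HahnSeries.single (1 : ℤ) 1 * etaqInv R ^ e * qExpand R n (etaq R) ^ e

theorem tq_mul_tqInv (n e : ℕ) [NeZero n] : tq R n e * tqInv R n e = 1 := by
  have hexp : qExpand R n (etaqInv R) * qExpand R n (etaq R) = 1 := by
    rw [← map_mul, mul_comm, etaq_mul_etaqInv, map_one]
  have hs : HahnSeries.single (-1 : ℤ) (1 : R) * HahnSeries.single (1 : ℤ) (1 : R) = 1 := by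
    rw [HahnSeries.single_mul_single]
    simp
  calc tq R n e * tqInv R n e
      = (HahnSeries.single (-1 : ℤ) (1 : R) * HahnSeries.single (1 : ℤ) (1 : R)) *
          (etaq R * etaqInv R) ^ e *
          (qExpand R n (etaqInv R) * qExpand R n (etaq R)) ^ e := by
        rw [tq, tqInv]; ring
    _ = 1 := by rw [hs, etaq_mul_etaqInv, hexp]; simp

theorem tqInv_mul_tq (n e : ℕ) [NeZero n] : tqInv R n e * tq R n e = 1 := by
  rw [mul_comm, tq_mul_tqInv]

theorem coeffMap_tqInv {S : Type*} [CommRing S] (φ : R →+* S) (n e : ℕ) [NeZero n] :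
    coeffMap φ (tqInv R n e) = tqInv S n e := by
  rw [tqInv, tqInv, map_mul, map_mul, map_pow, map_pow, coeffMap_single,
    ModularCurve.coeffMap_qExpand, coeffMap_etaq, coeffMap_etaqInv, map_one]

end Formal

/-- over a field, `tqInv` is the inverse of `tq`. -/
theorem tq_inv_eq (K : Type*) [Field K] (n e : ℕ) [NeZero n] : (tq K n e)⁻¹ = tqInv K n e :=
  (eq_inv_of_mul_eq_one_left (tqInv_mul_tq K n e)).symm

/-! ### membership in `intF` -/

section Mem

variable (A : ValuationSubring Qbar) {n e : ℕ} [NeZero n] (M : ℕ) [NeZero M] (hmem : TMem n e M)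

/-- the `q`-expansion of `t` is `tq ℚ̄ n e`. -/
theorem coe_tF : ((tF M hmem : FF M) : LaurentSeries Qbar) = tq Qbar n e := rfl

/-- the `q`-expansion of `t⁻¹` is `tqInv ℚ̄ n e`. -/
theorem coe_tF_inv : (((tF M hmem)⁻¹ : FF M) : LaurentSeries Qbar) = tqInv Qbar n e := by
  rw [← tq_inv_eq]
  rfl

/-- **`t ∈ intF`**: the `q`-expansion of `t` has coefficients in `A` (indeed in `ℤ`). -/
theorem tF_mem_intF : tF M hmem ∈ intF A M :=
  (mem_intF_iff A M).mpr ⟨tq ↥A n e, coeffMap_tq ↥A A.subtype n e⟩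

/-- **`t⁻¹ ∈ intF`**. -/
theorem tF_inv_mem_intF : (tF M hmem)⁻¹ ∈ intF A M :=
  (mem_intF_iff A M).mpr ⟨tqInv ↥A n e, by
    rw [coeffMap_tqInv ↥A A.subtype n e]; exact (coe_tF_inv M hmem).symm⟩

/-- the `A`-series of `t` is `tq A n e`. -/
theorem seriesHom_tF : seriesHom A M ⟨tF M hmem, tF_mem_intF A M hmem⟩ = tq ↥A n e :=
  seriesHom_eq_of (coeffMap_tq ↥A A.subtype n e)

/-- the `A`-series of `t⁻¹` is `tqInv A n e`. -/
theorem seriesHom_tF_inv :
    seriesHom A M ⟨(tF M hmem)⁻¹, tF_inv_mem_intF A M hmem⟩ = tqInv ↥A n e :=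
  seriesHom_eq_of (by
    rw [coeffMap_tqInv ↥A A.subtype n e]; exact (coe_tF_inv M hmem).symm)

/-- the reduction of `t` is `tq k n e`. -/
theorem redSeries_tF :
    redSeries A M ⟨tF M hmem, tF_mem_intF A M hmem⟩ = tq (kA A) n e := by
  rw [redSeries_apply, seriesHom_tF, coeffMap_tq]

/-- the reduction of `t⁻¹` is `tqInv k n e = (tq k n e)⁻¹`. -/
theorem redSeries_tF_inv :
    redSeries A M ⟨(tF M hmem)⁻¹, tF_inv_mem_intF A M hmem⟩ = tqInv (kA A) n e := by
  rw [redSeries_apply, seriesHom_tF_inv, coeffMap_tqInv]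

theorem redSeries_tF_inv' :
    redSeries A M ⟨(tF M hmem)⁻¹, tF_inv_mem_intF A M hmem⟩ = (tq (kA A) n e)⁻¹ := by
  rw [redSeries_tF_inv, tq_inv_eq]

end Mem

end Fermat.Agent.ES.RED.TqIntF5
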