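/-
Program I (S37) / chapter ES/RED / helper18: `tr0` (and the identification `red₀ s = t̃`) in the
integrator's literal form — from `GaloisInst21.CoeffChart S` and `S.s = tF M hmem`.

For a coefficientwise chart `S` (`CoeffChart S`) whose coordinate is the Hauptmodul `tF M hmem`
(resp. its inverse), the reduced coordinate `S.red S.sB` has `q`-expansion `tq k n e`
(resp. `(tq k n e)⁻¹`): it is `SpecialGen25.tRes` (resp. its inverse).  Hence it is transcendental
over `k`.
-/
import Mathlib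
import Fermat.Agent.ES.RED.Tr0Inst18
import Fermat.Agent.ES.RED.GaloisInst21
import Fermat.Agent.ES.RED.SpecialInv25
import Fermat.Agent.ES.RED.FrobPoles13

set_option autoImplicit false

open ModularCurve

noncomputable section

namespace Fermat.Agent.ES.RED.Tr0Coeff18

open Fermat.Agent.ES.RED.Contract8 Fermat.Agent.ES.RED.GaloisInst21
  Fermat.Agent.RED.Interface4 Fermat.Agent.RED.BASE Fermat.Agent.RED.BASE.EtaQuot12
  Fermat.Agent.ES.RED.SpecialInv25

variable {n e M : ℕ} [NeZero n] [NeZero M] {hmem : Interface12.TMem n e M}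
  {A : ValuationSubring Qbar}
  {x : ↥(laurentBaseChange Qbar (modularFunctionFieldFull M))} {hx : Fermat.Agent.X0.FF.IsGen Qbar x}
  {S : ChartSpec A hx ↥(modularFunctionFieldFullC (kA A) M)}

/-- the `q`-expansion of the reduced coordinate of a coefficientwise chart with coordinate `t`. -/
theorem coe_red_sB_of_eq_tF (hS : CoeffChart (F₀ := modularFunctionFieldFull M) S)
    (hs : S.s = Interface12.tF M hmem) :
    ((S.red S.sB : ↥(modularFunctionFieldFullC (kA A) M)) : LaurentSeries (kA A)) =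
      tq (kA A) n e := by
  rw [hS.red_eq S.sB (tq ↥A n e) ?_, coeffMap_tq]
  rw [coeffMap_tq]
  change _ = ((S.s : ↥(laurentBaseChange Qbar (modularFunctionFieldFull M))) : LaurentSeries Qbar)
  rw [hs]
  rfl

/-- the `q`-expansion of the reduced coordinate of a coefficientwise chart with coordinate
`t⁻¹`. -/
theorem coe_red_sB_of_eq_tF_inv (hS : CoeffChart (F₀ := modularFunctionFieldFull M) S)
    (hs : S.s = (Interface12.tF M hmem)⁻¹) :
    ((S.red S.sB : ↥(modularFunctionFieldFullC (kA A) M)) : LaurentSeries (kA A)) =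
      (tq (kA A) n e)⁻¹ := by
  rw [hS.red_eq S.sB (tqInv ↥A n e) ?_, coeffMap_tqInv, tqInv_eq_inv]
  rw [coeffMap_tqInv, tqInv_eq_inv]
  change _ = ((S.s : ↥(laurentBaseChange Qbar (modularFunctionFieldFull M))) : LaurentSeries Qbar)
  rw [hs]
  rfl

/-- **`tr0`**, integrator's form. -/
theorem tr0_of_coeffChart (hS : CoeffChart (F₀ := modularFunctionFieldFull M) S)
    (hs : S.s = Interface12.tF M hmem) :
    Transcendental (kA A) (S.red S.sB) :=
  Tr0Inst18.tr0_of_coe M n e S (coe_red_sB_of_eq_tF hS hs)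

/-! ### the chart-0 inputs (`gen`, `gent`, `sep`, `deg` of `RedMain15.ChartInputs`, and `hfix`) -/

section Special

open Fermat.Agent.ES.RED.SpecialGen25 IntermediateField

variable (ℓ : ℕ) [Fact ℓ.Prime] (hℓM : ¬ ℓ ∣ M) (hgen : Interface12.TGenBase n e)
  (hA : A.LiesOverPrime ℓ)

/-- `red₀ s = t̃`. -/
theorem red_sB_eq_tRes (hS : CoeffChart (F₀ := modularFunctionFieldFull M) S)
    (hs : S.s = Interface12.tF M hmem) :
    S.red S.sB = tRes n e M ℓ hℓM hmem hgen A hA :=
  Subtype.ext (coe_red_sB_of_eq_tF hS hs)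

/-- `red₁ s⁻¹ = t̃⁻¹`. -/
theorem red_sB_eq_tRes_inv (hS : CoeffChart (F₀ := modularFunctionFieldFull M) S)
    (hs : S.s = (Interface12.tF M hmem)⁻¹) :
    S.red S.sB = (tRes n e M ℓ hℓM hmem hgen A hA)⁻¹ :=
  Subtype.ext (by rw [coe_red_sB_of_eq_tF_inv hS hs]; rfl)

/-- `gen`. -/
theorem isGen_s_of_eq_tF (hs : S.s = Interface12.tF M hmem) :
    Fermat.Agent.X0.FF.IsGen Qbar S.s :=
  hs ▸ isGen_tF n e M hmem

include hℓM hgen hA in
/-- `gent`. -/
theorem isGen_red_sB (hS : CoeffChart (F₀ := modularFunctionFieldFull M) S)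
    (hs : S.s = Interface12.tF M hmem) :
    Fermat.Agent.X0.FF.IsGen (kA A) (S.red S.sB) := by
  rw [red_sB_eq_tRes ℓ hℓM hgen hA hS hs]
  exact isGen_tRes n e M ℓ hℓM hmem hgen A hA

include hℓM hgen hA in
/-- `sep`. -/
theorem isSeparable_red_sB (hS : CoeffChart (F₀ := modularFunctionFieldFull M) S)
    (hs : S.s = Interface12.tF M hmem) :
    Algebra.IsSeparable ↥((kA A)⟮S.red S.sB⟯ :
      IntermediateField (kA A) ↥(modularFunctionFieldFullC (kA A) M))
      ↥(modularFunctionFieldFullC (kA A) M) := by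
  rw [red_sB_eq_tRes ℓ hℓM hgen hA hS hs]
  exact isSeparable_tRes n e M ℓ hℓM hmem hgen A hA

include hℓM hgen hA in
/-- `deg`. -/
theorem finrank_s_eq_finrank_red_sB (hS : CoeffChart (F₀ := modularFunctionFieldFull M) S)
    (hs : S.s = Interface12.tF M hmem) :
    Module.finrank ↥(Qbar⟮S.s⟯ :
        IntermediateField Qbar ↥(laurentBaseChange Qbar (modularFunctionFieldFull M)))
      ↥(laurentBaseChange Qbar (modularFunctionFieldFull M)) =
    Module.finrank ↥((kA A)⟮S.red S.sB⟯ :
        IntermediateField (kA A) ↥(modularFunctionFieldFullC (kA A) M))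
      ↥(modularFunctionFieldFullC (kA A) M) := by
  rw [red_sB_eq_tRes ℓ hℓM hgen hA hS hs, hs]
  exact (finrank_tRes n e M ℓ hℓM hmem hgen A hA).symm

/-- `gen`, chart 1. -/
theorem isGen_s_of_eq_tF_inv (hs : S.s = (Interface12.tF M hmem)⁻¹) :
    Fermat.Agent.X0.FF.IsGen Qbar S.s :=
  hs ▸ isGen_tF_inv n e M hmem

include hℓM hgen hA in
/-- `gent`, chart 1. -/
theorem isGen_red_sB_inv (hS : CoeffChart (F₀ := modularFunctionFieldFull M) S)
    (hs : S.s = (Interface12.tF M hmem)⁻¹) :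
    Fermat.Agent.X0.FF.IsGen (kA A) (S.red S.sB) := by
  rw [red_sB_eq_tRes_inv ℓ hℓM hgen hA hS hs]
  exact isGen_tRes_inv n e M ℓ hℓM hmem hgen A hA

include hℓM hgen hA in
/-- `tr1`. -/
theorem tr_of_coeffChart_inv (hS : CoeffChart (F₀ := modularFunctionFieldFull M) S)
    (hs : S.s = (Interface12.tF M hmem)⁻¹) :
    Transcendental (kA A) (S.red S.sB) :=
  (isGen_red_sB_inv ℓ hℓM hgen hA hS hs).transcendental

include hℓM hgen hA in
/-- `sep`, chart 1. -/
theorem isSeparable_red_sB_inv (hS : CoeffChart (F₀ := modularFunctionFieldFull M) S)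
    (hs : S.s = (Interface12.tF M hmem)⁻¹) :
    Algebra.IsSeparable ↥((kA A)⟮S.red S.sB⟯ :
      IntermediateField (kA A) ↥(modularFunctionFieldFullC (kA A) M))
      ↥(modularFunctionFieldFullC (kA A) M) := by
  rw [red_sB_eq_tRes_inv ℓ hℓM hgen hA hS hs]
  exact isSeparable_tRes_inv n e M ℓ hℓM hmem hgen A hA

include hℓM hgen hA in
/-- `deg`, chart 1. -/
theorem finrank_s_eq_finrank_red_sB_inv (hS : CoeffChart (F₀ := modularFunctionFieldFull M) S)
    (hs : S.s = (Interface12.tF M hmem)⁻¹) :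
    Module.finrank ↥(Qbar⟮S.s⟯ :
        IntermediateField Qbar ↥(laurentBaseChange Qbar (modularFunctionFieldFull M)))
      ↥(laurentBaseChange Qbar (modularFunctionFieldFull M)) =
    Module.finrank ↥((kA A)⟮S.red S.sB⟯ :
        IntermediateField (kA A) ↥(modularFunctionFieldFullC (kA A) M))
      ↥(modularFunctionFieldFullC (kA A) M) := by
  rw [red_sB_eq_tRes_inv ℓ hℓM hgen hA hS hs, hs]
  exact (finrank_tRes_inv_eq n e M ℓ hℓM hmem hgen A hA).symm

end Special

/-- `hfix` of `EsDivFinal24.es_div_final`: the reduced coordinate is fixed by the Frobenius. -/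
theorem frobSemi_smul_red_sB (l : ℕ) [ExpChar (kA A) l] [PerfectField (kA A)]
    (hS : CoeffChart (F₀ := modularFunctionFieldFull M) S)
    (hs : S.s = Interface12.tF M hmem) :
    Fermat.Agent.ES.KRON.FrobPlace13.frobSemi (kA A) l M • S.red S.sB = S.red S.sB :=
  Fermat.Agent.ES.RED.FrobPoles13.frobSemi_smul_tq (kA A) l M n e (coe_red_sB_of_eq_tF hS hs)

end Fermat.Agent.ES.RED.Tr0Coeff18
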